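import Fermat.Agent.LocalDef.Model
import Mathlib.RingTheory.RootsOfUnity.Basic
import Mathlib.LinearAlgebra.Dual.Lemmas

/-!
# Lifting approximate points of a model (Fontaine)
-/

set_option autoImplicit false
set_option linter.unusedSectionVars false

noncomputable section

namespace FA.LocalDef

variable {L Γ : Type*} [Field L] [CharZero L] [LinearOrderedCommGroupWithZero Γ]
  {v : Valuation L Γ} {p : ℕ} [hp : Fact p.Prime] {V : Type*} [AddCommGroup V]
  [Module (ZMod p) V] [Fintype V] (M : Model v V)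

/-- An approximate point modulo `c`. -/
structure Model.Approx (c : Γ) (t : V → L) : Prop where
  int : ∀ i, v (t i) ≤ 1
  one : ∀ d : V → L, (∀ i, v (d i) ≤ 1) → (∀ x, 1 = ∑ i, d i * M.a i x) →
    v (∑ i, d i * t i - 1) ≤ c
  mul : ∀ i j, ∀ d : V → L, (∀ k, v (d k) ≤ 1) → (∀ x, M.a i x * M.a j x = ∑ k, d k * M.a k x) →
    v (t i * t j - ∑ k, d k * t k) ≤ c

variable {M}

lemma Model.inSpan_a (i : V) : M.InSpan (M.a i) := by
  classical
  exact ⟨fun j => if j = i then 1 else 0, fun j => by dsimp only; split_ifs <;> simp, by simp⟩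

lemma Model.inSpan_sum {ι : Type*} {s : Finset ι} {c : ι → L} {F : ι → V → L}
    (hc : ∀ j ∈ s, v (c j) ≤ 1) (hF : ∀ j ∈ s, M.InSpan (F j)) :
    M.InSpan (∑ j ∈ s, c j • F j) := by
  classical
  choose! d hd he using hF
  refine ⟨fun i => ∑ j ∈ s, c j * d j i, fun i => map_sum_mul_le hc fun j hj => hd j hj i, ?_⟩
  rw [Finset.sum_congr rfl fun j hj => by rw [he j hj]]
  simp only [Finset.smul_sum, smul_smul, Finset.sum_smul]
  exact Finset.sum_comm

lemma Model.inSpan_one : M.InSpan 1 := by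
  obtain ⟨c, hc, he⟩ := M.one
  exact ⟨c, hc, funext fun x => by simpa using he x⟩

lemma Model.InSpan.mul {f g : V → L} (hf : M.InSpan f) (hg : M.InSpan g) : M.InSpan (f * g) := by
  classical
  obtain ⟨c, hc, rfl⟩ := hf
  obtain ⟨d, hd, rfl⟩ := hg
  have e : (∑ i, c i • M.a i) * ∑ j, d j • M.a j =
      ∑ i, c i • ∑ j, d j • (M.a i * M.a j) := by
    simp only [Finset.sum_mul, Finset.mul_sum, smul_mul_assoc, mul_smul_comm]
    simp only [Finset.smul_sum]
    rw [Finset.sum_comm]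
    exact Finset.sum_congr rfl fun i _ => Finset.sum_congr rfl fun j _ => smul_comm _ _ _
  rw [e]
  refine Model.inSpan_sum (fun i _ => hc i) fun i _ => Model.inSpan_sum (fun j _ => hd j) fun j _ => ?_
  obtain ⟨k, hk, hke⟩ := M.mul i j
  exact ⟨k, hk, funext fun x => by simpa using hke x⟩

lemma Model.inSpan_nsmul (i : V) (n : ℕ) : M.InSpan fun x => M.a i (n • x) := by
  classical
  induction n generalizing i with
  | zero =>
    have := Model.inSpan_sum (M := M) (s := {()}) (c := fun _ => M.a i 0) (F := fun _ => 1)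
      (fun _ _ => M.int i 0) (fun _ _ => Model.inSpan_one)
    convert this using 1
    funext x
    simp
  | succ n ih =>
    obtain ⟨c, hc, he⟩ := M.comul i
    have e : (fun x => M.a i ((n + 1) • x)) =
        ∑ q ∈ (Finset.univ : Finset (V × V)), c q.1 q.2 • ((fun x => M.a q.1 (n • x)) * M.a q.2) :=
      funext fun x => by
        rw [succ_nsmul, he, Finset.sum_apply, Fintype.sum_prod_type]
        simp [mul_assoc]
    rw [e]
    exact Model.inSpan_sum (fun q _ => hc _ _) fun q _ => (ih q.1).mul (Model.inSpan_a _)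

variable {ζ : L} (hζ : IsPrimitiveRoot ζ p) {c : Γ} {t : V → L}
  {U : Module.Dual (ZMod p) V → L} (hU : ∀ i, evF ζ U (M.a i) = t i)

include hU in
lemma Model.Approx.evF_one_sub (ht : M.Approx c t) : v (evF ζ U 1 - 1) ≤ c := by
  obtain ⟨d, hd, he⟩ := M.one
  have e : (1 : V → L) = ∑ i, d i • M.a i := funext fun x => by simpa using he x
  rw [e, evF_sum_right]
  simp only [evF_smul_right, hU]
  exact ht.one d hd he

include hU in
lemma Model.Approx.evF_mul_sub (ht : M.Approx c t) {f g : V → L} (hf : M.InSpan f)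
    (hg : M.InSpan g) : v (evF ζ U (f * g) - evF ζ U f * evF ζ U g) ≤ c := by
  obtain ⟨a, ha, rfl⟩ := hf
  obtain ⟨b, hb, rfl⟩ := hg
  have e : evF ζ U ((∑ i, a i • M.a i) * ∑ j, b j • M.a j) -
      evF ζ U (∑ i, a i • M.a i) * evF ζ U (∑ j, b j • M.a j) =
      ∑ i, a i * ∑ j, b j * (evF ζ U (M.a i * M.a j) - t i * t j) := by
    simp only [Finset.sum_mul, Finset.mul_sum, smul_mul_assoc, mul_smul_comm, evF_sum_right,
      evF_smul_right, hU, mul_sub, Finset.sum_sub_distrib]
    congr 1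
    · rw [Finset.sum_comm]
      exact Finset.sum_congr rfl fun i _ => Finset.sum_congr rfl fun j _ => by ring
    · rw [Finset.sum_comm]
      exact Finset.sum_congr rfl fun i _ => Finset.sum_congr rfl fun j _ => by ring
  rw [e]
  refine map_sum_mul_le (fun i _ => ha i) fun i _ => map_sum_mul_le (fun j _ => hb j) fun j _ => ?_
  obtain ⟨d, hd, hde⟩ := M.mul i j
  rw [show M.a i * M.a j = ∑ k, d k • M.a k from funext fun x => by simpa using hde x,
    evF_sum_right, v.map_sub_swap]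
  simp only [evF_smul_right, hU]
  exact ht.mul i j d hd hde

include hU hζ in
lemma Model.Approx.bd_one (ht : M.Approx c t) : M.Bd ζ 1 U := fun i => by
  rw [hU]; exact ht.int i

include hU hζ in
lemma Model.Approx.bd_pow_sub_one (ht : M.Approx c t) : M.Bd ζ c (U ^ p - 1) := by
  have hconst : ∀ i, v (evF ζ (1 : Module.Dual (ZMod p) V → L) (M.a i) -
      evF ζ U fun x => M.a i ((0 : ℕ) • x)) ≤ c := fun i => by
    have e : (fun x : V => M.a i ((0 : ℕ) • x)) = M.a i 0 • (1 : V → L) := funext fun x => by simp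
    rw [evF_one _ hζ, e, evF_smul_right, v.map_sub_swap, ← mul_sub_one, map_mul]
    exact le_trans (mul_le_of_le_one_left' (M.int i 0)) (ht.evF_one_sub hU)
  have key : ∀ n i, v (evF ζ (U ^ n) (M.a i) - evF ζ U fun x => M.a i (n • x)) ≤ c := by
    intro n
    induction n with
    | zero => simpa using hconst
    | succ n ih =>
      intro i
      obtain ⟨d, hd, he⟩ := M.comul i
      have e : (fun x => M.a i ((n + 1) • x)) =
          ∑ j, ∑ k, d j k • ((fun x => M.a j (n • x)) * M.a k) := funext fun x => by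
        rw [succ_nsmul, he]; simp [mul_assoc]
      rw [pow_succ, evF_mul _ _ _ hζ d M.a he, e, evF_sum_right, ← Finset.sum_sub_distrib]
      refine v.map_sum_le fun j _ => ?_
      rw [evF_sum_right, ← Finset.sum_sub_distrib]
      refine v.map_sum_le fun k _ => ?_
      rw [evF_smul_right, mul_assoc, ← mul_sub, map_mul, hU]
      refine le_trans (mul_le_of_le_one_left' (hd j k)) ?_
      have h1 : v (evF ζ (U ^ n) (M.a j) * t k - (evF ζ U fun x => M.a j (n • x)) * t k) ≤ c := by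
        rw [← sub_mul, map_mul]
        exact le_trans (mul_le_of_le_one_right' (ht.int k)) (ih j)
      have h2 := ht.evF_mul_sub hU (Model.inSpan_nsmul (M := M) j n) (Model.inSpan_a (M := M) k)
      rw [hU, v.map_sub_swap] at h2
      rw [← sub_add_sub_cancel _ ((evF ζ U fun x => M.a j (n • x)) * t k)]
      exact v.map_add_le h1 h2
  intro i
  rw [evF_sub_left, ← sub_add_sub_cancel _ (evF ζ U fun x => M.a i (p • x))]
  refine v.map_add_le (key p i) ?_
  rw [v.map_sub_swap]
  have e : (fun x : V => M.a i (p • x)) = fun x => M.a i ((0 : ℕ) • x) := funext fun x => by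
    rw [← Nat.cast_smul_eq_nsmul (ZMod p), ZMod.natCast_self, zero_smul, zero_nsmul]
  rw [e]
  exact hconst i

include hζ in
/-- An approximate point modulo `v z` is congruent to a point modulo `v z / v p`. -/
theorem Model.exists_point (hv : v (p : L) < 1)
    (harch : ∀ y y₀ : L, v y < 1 → y₀ ≠ 0 → ∃ n : ℕ, v y ^ n ≤ v y₀) {z : L} (hz : z ≠ 0)
    (hc : v z ^ (p - 1) < v (p : L) ^ p) {t : V → L} (ht : M.Approx (v z) t) :
    ∃ x : V, ∀ i, v (M.a i x - t i) ≤ v z / v (p : L) := by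
  classical
  have h2 := hp.out.two_le
  have hp0' : (p : L) ≠ 0 := Nat.cast_ne_zero.mpr hp.out.ne_zero
  have hp0 : 0 < v (p : L) := v.pos_iff.mpr hp0'
  set c := v z with hcdef
  have hc0 : 0 < c := v.pos_iff.mpr hz
  have hcw : c < v (p : L) := by
    refine lt_of_pow_lt_pow_left₀ (p - 1) zero_le (hc.trans_le ?_)
    exact pow_le_pow_right_of_le_one' hv.le (by omega)
  have hcd : c / v (p : L) < 1 := (div_lt_one₀ hp0).mpr hcw
  have hd1 : (c / v (p : L)) ^ (p - 1) < v (p : L) := by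
    rw [div_pow, div_lt_iff₀ (pow_pos hp0 _), ← pow_succ', show p - 1 + 1 = p by omega]
    exact hc
  obtain ⟨y, hy1, hya, hyb⟩ : ∃ y : L, v y < 1 ∧ c / v (p : L) ≤ v y ∧
      c ^ (p - 1) / v (p : L) ^ p ≤ v y := by
    rcases le_total (c / v (p : L)) (c ^ (p - 1) / v (p : L) ^ p) with h | h
    · refine ⟨z ^ (p - 1) / (p : L) ^ p, ?_, ?_, ?_⟩ <;> simp only [map_div₀, map_pow, ← hcdef]
      · exact (div_lt_one₀ (pow_pos hp0 _)).mpr hc
      · exact h
      · exact le_rfl
    · exact ⟨z / (p : L), by simpa [← hcdef] using hcd, by simp [← hcdef], by simpa [← hcdef] using h⟩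
  obtain ⟨U, hU⟩ := Model.exists_evF_eq hζ M t
  have hiter : ∀ n : ℕ, ∃ U', M.Bd ζ 1 U' ∧ M.Bd ζ (c / v (p : L)) (U' - U) ∧
      M.Bd ζ (c * v y ^ n) (U' ^ p - 1) := by
    intro n
    induction n with
    | zero =>
      refine ⟨U, ht.bd_one hζ hU, ?_, by simpa using ht.bd_pow_sub_one hζ hU⟩
      rw [sub_self]; exact Model.bd_zero.mono zero_le
    | succ n ih =>
      obtain ⟨U', h1, h2', h3⟩ := ih
      have hle : c * v y ^ n ≤ c := mul_le_of_le_one_right' (pow_le_one₀ zero_le hy1.le)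
      obtain ⟨U'', g1, g2, g3⟩ := Model.newton (M := M) hζ h1 (hle.trans_lt hcw) h3
      refine ⟨U'', g2, ?_, g3.mono ?_⟩
      · rw [← sub_add_sub_cancel U'' U' U]
        exact (g1.mono ((div_le_div_iff_of_pos_right hp0).mpr hle)).add h2'
      rw [show c * v y ^ (n + 1) = c * v y ^ n * v y by rw [pow_succ, mul_assoc]]
      refine max_le ?_ ?_
      · rw [sq, mul_div_assoc]
        exact mul_le_mul_right (((div_le_div_iff_of_pos_right hp0).mpr hle).trans hya) _
      · rw [div_pow]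
        calc (c * v y ^ n) ^ p / v (p : L) ^ p
            = (c * v y ^ n) * ((c * v y ^ n) ^ (p - 1) / v (p : L) ^ p) := by
              rw [← mul_div_assoc, ← pow_succ', show p - 1 + 1 = p by omega]
          _ ≤ (c * v y ^ n) * v y := mul_le_mul_right (le_trans
              ((div_le_div_iff_of_pos_right (pow_pos hp0 _)).mpr (pow_le_pow_left₀ zero_le hle _))
              hyb) _
  set N : L := (Fintype.card V : L)
  have hN : N ≠ 0 := Nat.cast_ne_zero.mpr Fintype.card_ne_zero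
  have hN1 : v N ≤ 1 := natCast_map_le_one _
  set T := c / v (p : L) * v N with hT
  obtain ⟨n, hn⟩ := harch y ((z / (p : L) * N) ^ p / z) hy1
    (div_ne_zero (pow_ne_zero _ (mul_ne_zero (div_ne_zero hz hp0') hN)) hz)
  rw [map_div₀, map_pow, map_mul, map_div₀, ← hcdef, ← hT, le_div_iff₀ hc0, mul_comm] at hn
  obtain ⟨U', -, hUU', hpow⟩ := hiter n
  have hroot : ∀ φ, ∃ μ : L, μ ^ p = 1 ∧ v (U' φ - μ) ≤ T := by
    intro φ
    have h1 : v (U' φ ^ p - 1) ≤ T ^ p :=
      le_trans (by simpa using hpow.map_apply_le hζ φ) hn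
    have hfac : U' φ ^ p - 1 = ∏ μ ∈ Polynomial.nthRootsFinset p (1 : L), (U' φ - μ) := by
      have := congrArg (Polynomial.eval (U' φ)) (Polynomial.X_pow_sub_one_eq_prod hp.out.pos hζ)
      simpa [Polynomial.eval_prod] using this
    obtain ⟨μ, hμ, hmin⟩ := Finset.exists_min_image (Polynomial.nthRootsFinset p (1 : L))
      (fun μ => v (U' φ - μ)) ⟨1, (Polynomial.mem_nthRootsFinset hp.out.pos 1).mpr (one_pow p)⟩
    refine ⟨μ, (Polynomial.mem_nthRootsFinset hp.out.pos 1).mp hμ, ?_⟩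
    refine le_of_pow_le_pow_left₀ hp.out.ne_zero zero_le (le_trans ?_ (hfac ▸ h1))
    rw [map_prod]
    calc v (U' φ - μ) ^ p = ∏ _μ' ∈ Polynomial.nthRootsFinset p (1 : L), v (U' φ - μ) := by
          rw [Finset.prod_const, hζ.card_nthRootsFinset]
      _ ≤ _ := Finset.prod_le_prod (fun _ _ => zero_le) hmin
  choose μ hμp hμ using hroot
  have hTd : T ≤ c / v (p : L) := mul_le_of_le_one_right' hN1
  have hclose : ∀ φ, v (U φ - μ φ) ≤ c / v (p : L) := fun φ => by
    rw [← sub_add_sub_cancel (U φ) (U' φ) (μ φ)]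
    refine v.map_add_le ?_ ((hμ φ).trans hTd)
    rw [v.map_sub_swap]
    simpa using hUU'.map_apply_le hζ φ
  have hμ1 : ∀ φ, v (μ φ) = 1 := fun φ => map_eq_one_of_pow_eq_one v hp.out.ne_zero (hμp φ)
  have hU1 : ∀ φ, v (U φ) ≤ 1 := fun φ => (ht.bd_one hζ hU).map_apply_le hζ φ
  have hmul : ∀ φ ψ, μ (φ + ψ) = μ φ * μ ψ := by
    intro φ ψ
    have hmulU : v (U (φ + ψ) - U φ * U ψ) ≤ c := by
      have h := ht.evF_mul_sub hU (M.chi_inSpan hζ φ) (M.chi_inSpan hζ ψ)
      rwa [show chi ζ φ * chi ζ ψ = chi ζ (φ + ψ) from funext fun x => (chi_add_left hζ φ ψ x).symm,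
        evF_chi _ hζ, evF_chi _ hζ, evF_chi _ hζ] at h
    have hcle : c ≤ c / v (p : L) := (le_div_iff₀ hp0).mpr (mul_le_of_le_one_right' hv.le)
    have hd : v (μ (φ + ψ) - μ φ * μ ψ) ≤ c / v (p : L) := by
      have e : μ (φ + ψ) - μ φ * μ ψ = -(U (φ + ψ) - μ (φ + ψ)) + (U (φ + ψ) - U φ * U ψ) +
          U φ * (U ψ - μ ψ) + (U φ - μ φ) * μ ψ := by ring
      rw [e]
      refine v.map_add_le (v.map_add_le (v.map_add_le ?_ (hmulU.trans hcle)) ?_) ?_
      · rw [v.map_neg]; exact hclose _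
      · rw [map_mul]; exact le_trans (mul_le_of_le_one_left' (hU1 φ)) (hclose ψ)
      · rw [map_mul, hμ1, mul_one]; exact hclose φ
    have hne : μ φ * μ ψ ≠ 0 := v.ne_zero_iff.mp (by rw [map_mul, hμ1, hμ1, mul_one]; exact one_ne_zero)
    refine (div_eq_one_iff_eq hne).mp (eq_one_of_close v hp.out hζ
      (by rw [div_pow, mul_pow, hμp, hμp, hμp, mul_one, div_one]) ?_)
    rw [div_sub_one hne, map_div₀, map_mul, hμ1, hμ1, mul_one, div_one]
    exact lt_of_le_of_lt (pow_le_pow_left₀ zero_le hd _) hd1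
  have hexp : ∀ φ, ∃ e : ZMod p, ζ ^ e.val = μ φ := fun φ => by
    obtain ⟨i, hi, he⟩ := hζ.eq_pow_of_pow_eq_one (hμp φ)
    exact ⟨(i : ZMod p), by rw [ZMod.val_natCast, Nat.mod_eq_of_lt hi, he]⟩
  choose ℓ hℓ using hexp
  have hℓadd : ∀ φ ψ, ℓ (φ + ψ) = ℓ φ + ℓ ψ := fun φ ψ => by
    apply ZMod.val_injective
    apply hζ.pow_inj (ZMod.val_lt _) (ZMod.val_lt _)
    rw [hℓ, hmul, ← hℓ, ← hℓ, ZMod.val_add, ← pow_add]
    exact pow_eq_pow_mod _ hζ.pow_eq_one
  obtain ⟨x, hx⟩ := (Module.evalEquiv (ZMod p) V).surjective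
    ((AddMonoidHom.mk' ℓ hℓadd).toZModLinearMap p)
  have hμx : ∀ φ, μ φ = chi ζ φ x := fun φ => by
    rw [← hℓ, chi]
    have := LinearMap.congr_fun hx φ
    simp only [Module.evalEquiv_apply, Module.Dual.eval_apply] at this
    rw [this]; rfl
  refine ⟨x, fun i => ?_⟩
  have hB : M.Bd ζ (c / v (p : L)) ((fun φ : Module.Dual (ZMod p) V => chi ζ φ x) - U) := by
    rw [← sub_add_sub_cancel _ U' U]
    refine ((Model.Bd.of_apply (M := M) hζ (c := T) fun φ => ?_).mono ?_).add hUU'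
    · rw [Pi.sub_apply, ← hμx, v.map_sub_swap]; exact hμ φ
    · rw [hT, mul_div_assoc, div_self (v.ne_zero_iff.mpr hN), mul_one]
  have := hB i
  rwa [evF_sub_left, evF_point _ hζ, hU] at this

end FA.LocalDef
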