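import Fermat.Agent.LocalDef.TotRam
import Mathlib.Algebra.Polynomial.Div

/-!
# Fontaine's perturbation of the minimal polynomial of a uniformizer
-/

set_option autoImplicit false
set_option linter.unusedSectionVars false

noncomputable section

open Polynomial FA.Local
open scoped Pointwise

namespace FA.LocalDef

local notation "Qb" => AlgebraicClosure ℚ
local notation "GQ" => AlgebraicClosure ℚ ≃ₐ[ℚ] AlgebraicClosure ℚ

variable {A : ValuationSubring Qb} {p : ℕ}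

namespace Layer

variable (Λ : Layer A p)

local notation "v" => ValuationSubring.valuation A

/-- The conjugates of `π`, as a finite set. -/
def conj : Finset Qb := (orb_finite (A := A) Λ.π).toFinset

lemma mem_conj {r : Qb} : r ∈ Λ.conj ↔ r ∈ orb (A := A) Λ.π := Set.Finite.mem_toFinset _

lemma π_mem_conj : Λ.π ∈ Λ.conj := Λ.mem_conj.mpr ⟨1, one_mem _, rfl⟩

lemma card_conj : Λ.conj.card = Λ.D := by
  rw [← Λ.ncard_orb_π, Set.ncard_eq_toFinset_card _ (orb_finite (A := A) Λ.π)]; rfl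

lemma poly_eq : Λ.poly = ∏ r ∈ Λ.conj, (X - C r) := rfl

lemma conj_fixed {r : Qb} (hr : r ∈ Λ.conj) : ∀ τ ∈ Λ.N, τ r = r := by
  obtain ⟨σ, hσ, rfl⟩ := Λ.mem_conj.mp hr
  exact Λ.fixed_apply hσ Λ.fixed

lemma val_conj {r : Qb} (hr : r ∈ Λ.conj) : v r = v Λ.π := by
  obtain ⟨σ, hσ, rfl⟩ := Λ.mem_conj.mp hr
  exact (inert_of_mem_inertiaSubgroupIn A hσ).map_eq _

lemma exists_pow {z : Qb} (hz : ∀ τ ∈ Λ.N, τ z = z) (h0 : z ≠ 0) (h1 : v z ≤ 1) :
    ∃ n : ℕ, v z = v Λ.π ^ n := by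
  obtain ⟨k, hk⟩ := Λ.exists_zpow hz h0
  rw [hk, ← zpow_zero (v Λ.π), zpow_le_iff] at h1
  obtain ⟨n, rfl⟩ := Int.eq_ofNat_of_zero_le h1
  exact ⟨n, by rw [hk, zpow_natCast]⟩

/-- Herbrand's product attached to the conjugate `r₀`. -/
def phi (r₀ : Qb) : A.ValueGroup := ∏ r ∈ Λ.conj, max (v (Λ.π - r)) (v (Λ.π - r₀))

lemma phi_eq_pow {r₀ : Qb} (hr₀ : r₀ ∈ Λ.conj) (hne : r₀ ≠ Λ.π) :
    ∃ u : ℕ, Λ.phi r₀ = v Λ.π ^ u := by
  have h : ∀ r ∈ Λ.conj, ∃ n : ℕ, max (v (Λ.π - r)) (v (Λ.π - r₀)) = v Λ.π ^ n := by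
    intro r hr
    have hint : ∀ s ∈ Λ.conj, v (Λ.π - s) ≤ 1 := fun s hs =>
      A.valuation.map_sub_le Λ.π_lt_one.le ((Λ.val_conj hs).le.trans Λ.π_lt_one.le)
    have hfix : ∀ s ∈ Λ.conj, ∀ τ ∈ Λ.N, τ (Λ.π - s) = Λ.π - s := fun s hs τ hτ => by
      rw [map_sub, Λ.fixed τ hτ, Λ.conj_fixed hs τ hτ]
    rcases le_total (v (Λ.π - r)) (v (Λ.π - r₀)) with h | h
    · rw [max_eq_right h]
      exact Λ.exists_pow (hfix r₀ hr₀) (sub_ne_zero.mpr hne.symm) (hint r₀ hr₀)
    · rw [max_eq_left h]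
      refine Λ.exists_pow (hfix r hr) (A.valuation.pos_iff.mp ?_) (hint r hr)
      exact lt_of_lt_of_le (A.valuation.pos_iff.mpr (sub_ne_zero.mpr hne.symm)) h
  choose! n hn using h
  exact ⟨∑ r ∈ Λ.conj, n r, by rw [← Finset.prod_pow_eq_pow_sum]; exact Finset.prod_congr rfl hn⟩

lemma coeff_poly_zero : v (Λ.poly.coeff 0) = v (p : Qb) := by
  have h0 : Λ.poly.coeff 0 = ∏ r ∈ Λ.conj, -r := by
    rw [coeff_zero_eq_eval_zero, poly_eq, eval_prod]; simp
  rw [h0, map_prod, Finset.prod_congr rfl fun r hr => (A.valuation.map_neg r).trans (Λ.val_conj hr),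
    Finset.prod_const, Λ.card_conj, Λ.val]

lemma coeff_poly_le {i : ℕ} (hi : i < Λ.D) : v (Λ.poly.coeff i) ≤ v (p : Qb) := by
  refine le_of_mem_kur Λ.prime Λ.lies (mem_kurInt.mp (Λ.poly_coeff i)).1 ?_
  have hlifts : Λ.poly ∈ Polynomial.lifts A.subtype := Subsemiring.prod_mem _ fun r hr =>
    ⟨X - C ⟨r, mem_of_map_le ((Λ.val_conj hr).le.trans Λ.π_lt_one.le)⟩, by simp⟩
  obtain ⟨q, hq, -, hqm⟩ := lifts_and_degree_eq_and_monic hlifts Λ.poly_monic
  have h1 : q.map (IsLocalRing.residue A) = X ^ Λ.D := by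
    have e : q = ∏ r ∈ Λ.conj.attach,
        (X - C (⟨r.1, mem_of_map_le ((Λ.val_conj r.2).le.trans Λ.π_lt_one.le)⟩ : A)) := by
      refine Polynomial.map_injective A.subtype Subtype.coe_injective ?_
      rw [hq, Polynomial.map_prod, poly_eq, ← Finset.prod_attach]
      simp
    rw [e, Polynomial.map_prod]
    have hz : ∀ r : Λ.conj, IsLocalRing.residue A
        ⟨r.1, mem_of_map_le ((Λ.val_conj r.2).le.trans Λ.π_lt_one.le)⟩ = 0 := fun r => by
      rw [IsLocalRing.residue_eq_zero_iff, ← A.coe_mem_nonunits_iff, A.mem_nonunits_iff]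
      exact (Λ.val_conj r.2).trans_lt Λ.π_lt_one
    simp only [Polynomial.map_sub, map_X, map_C, hz, map_zero, sub_zero, Finset.prod_const,
      Finset.card_attach, Λ.card_conj]
  have h2 := congrArg (fun f => Polynomial.coeff f i) h1
  simp only [coeff_map, coeff_X_pow, if_neg hi.ne] at h2
  rw [← hq, coeff_map]
  rw [IsLocalRing.residue_eq_zero_iff, ← A.coe_mem_nonunits_iff, A.mem_nonunits_iff] at h2
  exact h2

/-- The perturbed polynomial has a root whose stabiliser is not contained in `N`. -/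
theorem exists_perturbed {r₀ : Qb} (hr₀ : r₀ ∈ Λ.conj) (hne : r₀ ≠ Λ.π) {u : ℕ}
    (hu : Λ.phi r₀ = v Λ.π ^ u) (hD : Λ.D < u - 1) :
    ∃ β : Qb, v β = v Λ.π ∧ v (Λ.poly.eval β) = v Λ.π ^ (u - 1) ∧
      ∃ τ ∈ A.inertiaSubgroupIn ℚ, τ β = β ∧ τ ∉ Λ.N := by
  classical
  set r := (u - 1) / Λ.D
  set t := (u - 1) % Λ.D
  have hDp := Λ.D_pos
  have hrt : Λ.D * r + t = u - 1 := Nat.div_add_mod _ _
  have ht : t < Λ.D := Nat.mod_lt _ hDp
  have hr1 : 1 ≤ r := (Nat.one_le_div_iff hDp).mpr hD.le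
  have hp0 : 0 < v (p : Qb) := valuation_p_pos Λ.prime
  set Q : Qb[X] := Λ.poly - C ((p : Qb) ^ r) * X ^ t with hQ
  have hdeg : (C ((p : Qb) ^ r) * X ^ t).degree < Λ.poly.degree := by
    refine lt_of_le_of_lt (degree_C_mul_X_pow_le t _) ?_
    rw [degree_eq_natDegree Λ.poly_monic.ne_zero, Λ.natDegree_poly]
    exact_mod_cast ht
  have hQm : Q.Monic := Λ.poly_monic.sub_of_left hdeg
  have hQd : Q.natDegree = Λ.D := by
    rw [hQ, natDegree_eq_of_degree_eq (degree_sub_eq_left_of_degree_lt hdeg), Λ.natDegree_poly]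
  obtain ⟨β, hβ⟩ := IsAlgClosed.exists_root Q (by
    rw [degree_eq_natDegree hQm.ne_zero, hQd]; exact_mod_cast hDp.ne')
  have hqc : ∀ i, Q.coeff i = Λ.poly.coeff i - if i = t then (p : Qb) ^ r else 0 := fun i => by
    rw [hQ, coeff_sub, coeff_C_mul, coeff_X_pow]; split_ifs <;> simp
  have hpr : v ((p : Qb) ^ r) ≤ v (p : Qb) := by
    rw [map_pow]; exact pow_le_of_le_one zero_le Λ.vp_lt_one.le (by omega)
  have hqle : ∀ i < Λ.D, v (Q.coeff i) ≤ v (p : Qb) := fun i hi => by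
    rw [hqc]
    refine A.valuation.map_sub_le (Λ.coeff_poly_le hi) ?_
    split_ifs with h
    · exact hpr
    · rw [map_zero]; exact zero_le
  have hq0 : v (Q.coeff 0) = v (p : Qb) := by
    rw [hqc]
    split_ifs with h
    · have hr2 : 1 < r := by
        by_contra hc
        rw [show r = 1 by omega, mul_one, ← h] at hrt
        omega
      rw [A.valuation.map_sub_eq_of_lt_left, Λ.coeff_poly_zero]
      rw [Λ.coeff_poly_zero, map_pow]
      calc v (p : Qb) ^ r < v (p : Qb) ^ 1 :=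
            pow_lt_pow_right_of_lt_one₀ hp0 Λ.vp_lt_one hr2
        _ = v (p : Qb) := pow_one _
    · rw [sub_zero, Λ.coeff_poly_zero]
  have hsum : β ^ Λ.D = -∑ i ∈ Finset.range Λ.D, Q.coeff i * β ^ i := by
    have h := hβ
    rw [IsRoot.def, eval_eq_sum_range, hQd, Finset.sum_range_succ] at h
    rw [← hQd, coeff_natDegree, hQm.leadingCoeff, one_mul, hQd] at h
    linear_combination h
  have hβ1 : v β < 1 := by
    by_contra h
    rw [not_lt] at h
    have hpos : 0 < v β ^ Λ.D := pow_pos (zero_lt_one.trans_le h) _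
    have hlt : v (∑ i ∈ Finset.range Λ.D, Q.coeff i * β ^ i) < v β ^ Λ.D := by
      refine A.valuation.map_sum_lt hpos.ne' fun i hi => ?_
      rw [map_mul, map_pow]
      calc v (Q.coeff i) * v β ^ i ≤ v (p : Qb) * v β ^ i :=
            mul_le_mul_left (hqle i (Finset.mem_range.mp hi)) _
        _ ≤ v (p : Qb) * v β ^ Λ.D :=
            mul_le_mul_right (pow_le_pow_right' h (Finset.mem_range.mp hi).le) _
        _ < 1 * v β ^ Λ.D := mul_lt_mul_of_pos_right Λ.vp_lt_one hpos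
        _ = _ := one_mul _
    rw [← map_pow, hsum, A.valuation.map_neg] at hlt
    exact lt_irrefl _ hlt
  have hβπ : v β = v Λ.π := by
    have hs : v (∑ i ∈ Finset.range Λ.D, Q.coeff i * β ^ i) = v (p : Qb) := by
      rw [A.valuation.map_sum_eq_of_lt (j := 0) (Finset.mem_range.mpr hDp) fun i hi => ?_]
      · rw [pow_zero, mul_one, hq0]
      simp only [Finset.mem_sdiff, Finset.mem_range, Finset.mem_singleton] at hi
      rw [pow_zero, mul_one, hq0, map_mul, map_pow]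
      calc v (Q.coeff i) * v β ^ i ≤ v (p : Qb) * v β ^ i := mul_le_mul_left (hqle i hi.1) _
        _ < v (p : Qb) * 1 := mul_lt_mul_of_pos_left (pow_lt_one₀ zero_le hβ1 hi.2) hp0
        _ = _ := mul_one _
    have h : v β ^ Λ.D = v Λ.π ^ Λ.D := by
      rw [← map_pow, hsum, A.valuation.map_neg, hs, Λ.val]
    exact (pow_left_inj₀ zero_le zero_le hDp.ne').mp h
  have hPβ : v (Λ.poly.eval β) = v Λ.π ^ (u - 1) := by
    have h := hβ
    rw [IsRoot.def, hQ, eval_sub, sub_eq_zero, eval_mul, eval_C, eval_pow, eval_X] at h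
    rw [h, map_mul, map_pow, map_pow, hβπ, ← Λ.val, ← pow_mul, ← pow_add, hrt]
  refine ⟨β, hβπ, hPβ, ?_⟩
  by_contra hnone
  push Not at hnone
  have hSN : stab A β ≤ Λ.N := fun τ hτ => hnone τ hτ.1 hτ.2
  have horb : (orb (A := A) β).ncard ≤ Λ.D := by
    refine le_trans (Set.ncard_le_ncard (t := {y | y ∈ Q.roots}) (fun y hy => ?_) ?_) ?_
    · obtain ⟨σ, hσ, rfl⟩ := hy
      refine (mem_roots hQm.ne_zero).mpr ?_
      have e : Q.map (σ : Qb →+* Qb) = Q := Polynomial.ext fun i => by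
        rw [coeff_map, hqc]
        show σ _ = _
        have hc := mem_kur.mp (mem_kurInt.mp (Λ.poly_coeff i)).1 σ hσ
        split_ifs <;> simp [hc]
      rw [IsRoot.def, ← e, eval_map]
      show eval₂ (σ : Qb →+* Qb) ((σ : Qb →+* Qb) β) Q = 0
      rw [eval₂_at_apply, hβ, map_zero]
    · exact Q.roots.toFinset.finite_toSet.subset fun y hy => Multiset.mem_toFinset.mpr hy
    · rw [show {y | y ∈ Q.roots} = (Q.roots.toFinset : Set Qb) from by ext y; simp,
        Set.ncard_coe_finset]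
      exact (Multiset.toFinset_card_le _).trans ((card_roots' Q).trans hQd.le)
  have hpos : 0 < (orb (A := A) β).ncard :=
    (Set.ncard_pos (orb_finite _)).mpr ⟨β, 1, one_mem _, rfl⟩
  have hfixβ : ∀ τ ∈ Λ.N, τ β = β := by
    have e := Subgroup.relIndex_mul_relIndex _ _ _ hSN Λ.le
    rw [Λ.D_eq, ← ncard_orb] at e
    have h1 : (stab A β).relIndex Λ.N = 1 := by
      rcases Nat.lt_or_ge ((stab A β).relIndex Λ.N) 2 with h2 | h2
      · rcases Nat.eq_zero_or_pos ((stab A β).relIndex Λ.N) with h0 | h0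
        · rw [h0, zero_mul] at e; omega
        · omega
      · exfalso; nlinarith
    exact fun τ hτ => (Subgroup.relIndex_eq_one.mp h1 hτ).2
  obtain ⟨r₁, hr₁, hmin⟩ := Finset.exists_min_image Λ.conj (fun s => v (β - s)) ⟨_, Λ.π_mem_conj⟩
  obtain ⟨σ, hσ, hσr⟩ := Λ.mem_conj.mp hr₁
  set lam := v (β - r₁) with hlam
  have hlam0 : β - r₁ ≠ 0 := fun h0 => by
    rw [sub_eq_zero.mp h0, Λ.poly_root (Λ.mem_conj.mp hr₁), map_zero] at hPβ
    exact (pow_pos Λ.π_pos (u - 1)).ne' hPβ.symm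
  have hfac : ∀ s ∈ Λ.conj, v (β - s) = max lam (v (r₁ - s)) := fun s hs => by
    rcases lt_or_ge lam (v (r₁ - s)) with h | h
    · rw [max_eq_right h.le, ← sub_add_sub_cancel β r₁ s,
        A.valuation.map_add_eq_of_lt_right h]
    · rw [max_eq_left h]
      refine le_antisymm ?_ (hmin s hs)
      rw [← sub_add_sub_cancel β r₁ s]
      exact A.valuation.map_add_le le_rfl h
  have hprod : v (Λ.poly.eval β) = ∏ s ∈ Λ.conj, max lam (v (Λ.π - s)) := by
    rw [poly_eq, eval_prod, map_prod]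
    simp only [eval_sub, eval_X, eval_C]
    rw [Finset.prod_congr rfl hfac]
    symm
    refine Finset.prod_bij (fun s _ => σ s) (fun s hs => ?_) (fun a _ b _ h => σ.injective h)
      (fun s hs => ?_) (fun s _ => ?_)
    · exact Λ.mem_conj.mpr (orb_map hσ (Λ.mem_conj.mp hs))
    · exact ⟨σ⁻¹ s, Λ.mem_conj.mpr (orb_map (inv_mem hσ) (Λ.mem_conj.mp hs)),
        by simp [AlgEquiv.aut_inv]⟩
    · rw [← hσr, ← map_sub, (inert_of_mem_inertiaSubgroupIn A hσ).map_eq]
  rcases le_or_gt lam (v (Λ.π - r₀)) with hle | hgt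
  · have h1 : v (Λ.poly.eval β) ≤ Λ.phi r₀ := by
      rw [hprod, phi]
      exact Finset.prod_le_prod (fun _ _ => zero_le) fun s _ => by
        rw [max_comm lam]; exact max_le_max le_rfl hle
    rw [hPβ, hu, Λ.pow_le_iff] at h1
    omega
  · obtain ⟨a, ha⟩ := Λ.exists_zpow (z := β - r₁)
      (fun τ hτ => by rw [map_sub, hfixβ τ hτ, Λ.conj_fixed hr₁ τ hτ]) hlam0
    obtain ⟨b, hb⟩ := Λ.exists_zpow (z := Λ.π - r₀)
      (fun τ hτ => by rw [map_sub, Λ.fixed τ hτ, Λ.conj_fixed hr₀ τ hτ])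
      (sub_ne_zero.mpr hne.symm)
    have hstep : v (Λ.π - r₀) ≤ lam * v Λ.π := by
      rw [hb, hlam, ha, Λ.zpow_lt_iff] at hgt
      rw [hlam, ha, hb, ← zpow_add_one₀ Λ.π_pos.ne', Λ.zpow_le_iff]
      omega
    have h2 : Λ.phi r₀ ≤ v (Λ.poly.eval β) * v Λ.π ^ 2 := by
      rw [hprod, phi, ← Finset.mul_prod_erase _ _ Λ.π_mem_conj,
        ← Finset.mul_prod_erase _ _ (Finset.mem_erase.mpr ⟨hne, hr₀⟩),
        ← Finset.mul_prod_erase _ _ Λ.π_mem_conj,
        ← Finset.mul_prod_erase _ _ (Finset.mem_erase.mpr ⟨hne, hr₀⟩)]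
      simp only [sub_self, map_zero, max_eq_right zero_le, max_self, max_eq_left zero_le,
        max_eq_left hgt.le]
      calc _ ≤ (lam * v Λ.π) * ((lam * v Λ.π) *
            ∏ s ∈ (Λ.conj.erase Λ.π).erase r₀, max lam (v (Λ.π - s))) := by
            refine mul_le_mul' hstep (mul_le_mul' hstep
              (Finset.prod_le_prod (fun _ _ => zero_le) fun s _ => ?_))
            rw [max_comm _ (v (Λ.π - r₀))]
            exact max_le_max hgt.le le_rfl
        _ = _ := by rw [sq]; ac_rfl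
    rw [hu, hPβ, ← pow_add, Λ.pow_le_iff] at h2
    omega

end Layer

end FA.LocalDef
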