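import Fermat.Agent.LocalDef.Sys
import Fermat.Agent.LocalDef.Perturb
import Fermat.Agent.LocalDef.Lift

/-!
# Fontaine's ramification bound

If the kernel `N` of the action of inertia on a `p`-torsion group with an equivariant model gives
a layer with uniformizer `π` and degree `D`, then Herbrand's products `∏ max(v(π - r), v(π - r₀))`
are powers `(v π) ^ u` with `(p - 1) (u - 1) ≤ p D`.
-/

set_option autoImplicit false
set_option linter.unusedSectionVars false

noncomputable section

open Polynomial FA.Local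
open scoped Pointwise

namespace FA.LocalDef

local notation "Qb" => AlgebraicClosure ℚ
local notation "GQ" => AlgebraicClosure ℚ ≃ₐ[ℚ] AlgebraicClosure ℚ

variable {A : ValuationSubring Qb} {p : ℕ}

namespace Layer

variable (Λ : Layer A p)

local notation "v" => ValuationSubring.valuation A

/-- A relation satisfied by `π` holds at `β` up to the size of the minimal polynomial at `β`. -/
theorem eval_le {β : Qb} (hβ : v β ≤ 1) {R : Qb[X]} (hR : ∀ i, R.coeff i ∈ kurInt A)
    (hπ : R.eval Λ.π = 0) : v (R.eval β) ≤ v (Λ.poly.eval β) := by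
  let T := kurInt A
  obtain ⟨R', hR'⟩ := (Polynomial.mem_lifts (f := T.subtype) R).mp
    ((Polynomial.lifts_iff_coeff_lifts R).mpr fun i => ⟨⟨_, hR i⟩, rfl⟩)
  obtain ⟨P', hP', -, hP'm⟩ := lifts_and_degree_eq_and_monic
    ((Polynomial.lifts_iff_coeff_lifts (f := T.subtype) Λ.poly).mpr fun i =>
      ⟨⟨_, Λ.poly_coeff i⟩, rfl⟩) Λ.poly_monic
  have hT : Function.Injective T.subtype := Subtype.coe_injective
  have hmod : (R' %ₘ P').map T.subtype = 0 := by
    by_contra hne
    have hroot : ((R' %ₘ P').map T.subtype).IsRoot Λ.π := by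
      rw [IsRoot.def, map_modByMonic _ hP'm, hR', hP', modByMonic_eq_sub_mul_div, eval_sub,
        eval_mul, (Λ.poly_root ⟨1, one_mem _, rfl⟩ : Λ.poly.eval Λ.π = 0), zero_mul, sub_zero, hπ]
    have h1 := Λ.le_natDegree rfl (R := (R' %ₘ P').map T.subtype)
      (fun i => by rw [coeff_map]; exact (mem_kurInt.mp ((R' %ₘ P').coeff i).2).1) hne hroot
    have hP1 : P'.natDegree = Λ.D := by
      rw [← natDegree_map_eq_of_injective hT, hP', Λ.natDegree_poly]
    have h2 : (R' %ₘ P').natDegree < P'.natDegree := by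
      refine natDegree_modByMonic_lt _ hP'm fun h => ?_
      rw [h, natDegree_one] at hP1
      exact Λ.D_pos.ne hP1
    rw [natDegree_map_eq_of_injective hT, ← hP1] at h1
    omega
  have hfac : R = Λ.poly * (R' /ₘ P').map T.subtype := by
    conv_lhs => rw [← hR', ← modByMonic_add_div R' P']
    rw [Polynomial.map_add, hmod, zero_add, Polynomial.map_mul, hP']
  rw [hfac, eval_mul, map_mul]
  refine mul_le_of_le_one_right' ?_
  rw [eval_eq_sum_range]
  refine A.valuation.map_sum_le fun i _ => ?_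
  rw [map_mul, map_pow, coeff_map]
  exact mul_le_one' (mem_kurInt.mp ((R' /ₘ P').coeff i).2).2 (pow_le_one₀ zero_le hβ)

/-- Values of a polynomial of degree `< D` depend only on the value of the point. -/
theorem val_eval {β : Qb} (hβ : v β = v Λ.π) {R : Qb[X]} (hR : ∀ i, R.coeff i ∈ kur A)
    (hd : R.natDegree < Λ.D) : v (R.eval β) = v (R.eval Λ.π) := by
  by_cases h0 : ∃ i < Λ.D, R.coeff i ≠ 0
  · obtain ⟨j, hj, -, h1, h1'⟩ := Λ.val_sum hβ hR h0
    obtain ⟨k, hk, -, h2, h2'⟩ := Λ.val_sum (β := Λ.π) rfl hR h0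
    rw [eval_eq_sum_range' hd, eval_eq_sum_range' hd, h1, h2]
    have e : ∀ i, v (R.coeff i * β ^ i) = v (R.coeff i * Λ.π ^ i) := fun i => by
      rw [map_mul, map_mul, map_pow, map_pow, hβ]
    rw [e]
    exact le_antisymm (h2' j hj) (by rw [← e, ← e]; exact h1' k hk)
  · push Not at h0
    rw [eval_eq_sum_range' hd, eval_eq_sum_range' hd,
      Finset.sum_eq_zero fun i hi => by rw [h0 i (Finset.mem_range.mp hi), zero_mul],
      Finset.sum_eq_zero fun i hi => by rw [h0 i (Finset.mem_range.mp hi), zero_mul]]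

end Layer

variable [hp : Fact p.Prime] {V : Type} [AddCommGroup V] [Module (ZMod p) V] [Fintype V]

namespace Sys

variable (S : Sys A V) (Λ : Layer A p) (hker : ∀ τ ∈ Λ.N, τ ∈ S.ker)

local notation "v" => ValuationSubring.valuation A

include hker in
/-- Inertia elements fixing a root of a sufficiently small perturbation act trivially. -/
theorem act_eq_of_fix {β : Qb} (hβ : v β = v Λ.π) {n : ℕ} (hn : p * Λ.D < (p - 1) * n)
    (hPβ : v (Λ.poly.eval β) ≤ v Λ.π ^ n) {τ : GQ} (hτ : τ ∈ A.inertiaSubgroupIn ℚ)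
    (hfix : τ β = β) (x : V) : S.act τ x = x := by
  classical
  obtain ⟨ζ, hζ⟩ := exists_zeta hp.out
  have hv : v (p : Qb) < 1 := Λ.vp_lt_one
  have h2 := hp.out.two_le
  have hDn : Λ.D < n := by
    by_contra h
    rw [not_lt] at h
    have h3 := Nat.mul_le_mul_left (p - 1) h
    have h4 : (p - 1) * Λ.D ≤ p * Λ.D := Nat.mul_le_mul_right _ (by omega)
    omega
  have hc : v (Λ.π ^ n) ^ (p - 1) < v (p : Qb) ^ p := by
    rw [map_pow, ← Λ.val, ← pow_mul, ← pow_mul, Λ.pow_lt_iff, mul_comm n, mul_comm Λ.D]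
    exact hn
  have hdd : v (Λ.π ^ n) / v (p : Qb) = v Λ.π ^ (n - Λ.D) := by
    rw [map_pow, div_eq_iff (valuation_p_pos hp.out).ne', ← Λ.val, ← pow_add,
      Nat.sub_add_cancel hDn.le]
  have hd1 : v Λ.π ^ (n - Λ.D) < 1 := pow_lt_one₀ zero_le Λ.π_lt_one (by omega)
  have hd2 : (v Λ.π ^ (n - Λ.D)) ^ (p - 1) < v (p : Qb) := by
    rw [← pow_mul, ← Λ.val, Λ.pow_lt_iff, Nat.sub_mul, mul_comm n, mul_comm Λ.D]
    have : p * Λ.D = (p - 1) * Λ.D + Λ.D := by
      rw [← Nat.succ_mul]; congr 1; omega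
    omega
  have hzfix : ∀ i y, ∀ σ ∈ Λ.N, σ (S.M.a i y) = S.M.a i y := fun i y σ hσ =>
    S.a_fixed (hker σ hσ) i y
  choose R hR hRd hRev using fun i y => Λ.exists_coords (hzfix i y)
  have hRπ : ∀ i y, (R i y).eval Λ.π = S.M.a i y := fun i y => by
    simpa using hRev i y 1 (one_mem _)
  have hRint : ∀ i y k, (R i y).coeff k ∈ kurInt A := fun i y =>
    Λ.coords_integral (hR i y) (hRd i y) (by rw [hRπ]; exact S.M.int i y)
  have hdfix : ∀ (f : V → Qb) (d : V → Qb), (∀ σ ∈ A.inertiaSubgroupIn ℚ, ∀ z,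
      σ (f z) = f (S.act σ z)) → (∀ k, v (d k) ≤ 1) → (∀ z, f z = ∑ k, d k * S.M.a k z) →
      ∀ k, d k ∈ kurInt A := by
    intro f d hf hd he k
    have e : d = S.M.coord f := S.M.coord_unique (by
      rw [← S.M.sum_coord f]; funext z; simp [he z])
    refine mem_kurInt.mpr ⟨mem_kur.mpr fun σ hσ => ?_, hd k⟩
    rw [e]
    exact S.coord_map (inertia_le_decomposition hσ) (hf σ hσ) k
  have hpoly : ∀ y, S.M.Approx (v (Λ.π ^ n)) fun i => (R i y).eval β := by
    intro y
    refine ⟨fun i => ?_, fun d hd he => ?_, fun i j d hd he => ?_⟩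
    · rw [Λ.val_eval hβ (hR i y) (hRd i y), hRπ]; exact S.M.int i y
    · have hd' := hdfix 1 d (fun σ _ z => map_one σ) hd he
      have e : (∑ i, d i * (R i y).eval β) - 1 = (∑ i, C (d i) * R i y - 1).eval β := by
        simp [eval_finsetSum]
      rw [e, map_pow]
      refine (Λ.eval_le (hβ.le.trans Λ.π_lt_one.le) (fun k => ?_) ?_).trans hPβ
      · rw [coeff_sub, finsetSum_coeff, coeff_one]
        refine sub_mem (sum_mem fun i _ => ?_) (by split_ifs <;> [exact one_mem _; exact zero_mem _])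
        rw [coeff_C_mul]; exact mul_mem (hd' i) (hRint i y k)
      · simp [eval_finsetSum, hRπ, ← he y]
    · have hd' := hdfix (fun z => S.M.a i z * S.M.a j z) d (fun σ hσ z => by
        rw [map_mul, S.equiv σ (inertia_le_decomposition hσ),
          S.equiv σ (inertia_le_decomposition hσ)]) hd he
      have e : (R i y).eval β * (R j y).eval β - ∑ k, d k * (R k y).eval β =
          (R i y * R j y - ∑ k, C (d k) * R k y).eval β := by simp [eval_finsetSum]
      rw [e, map_pow]
      refine (Λ.eval_le (hβ.le.trans Λ.π_lt_one.le) (fun k => ?_) ?_).trans hPβ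
      · rw [coeff_sub, finsetSum_coeff, coeff_mul]
        refine sub_mem (sum_mem fun q _ => mul_mem (hRint i y q.1) (hRint j y q.2))
          (sum_mem fun l _ => ?_)
        rw [coeff_C_mul]; exact mul_mem (hd' l) (hRint l y k)
      · simp [eval_finsetSum, hRπ, ← he y]
  choose g hg using fun y => Model.exists_point hζ hv
    (arch hp.out Λ.lies) (pow_ne_zero n Λ.π_ne_zero) hc (hpoly y)
  simp only [hdd] at hg
  have hginj : Function.Injective g := by
    intro y y' h
    refine Model.eq_of_cong (M := S.M) hζ hv hd1 hd2 fun i => ?_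
    rw [← hRπ, ← hRπ, ← eval_sub, ← Λ.val_eval hβ (fun k => by
      rw [coeff_sub]; exact sub_mem (hR i y k) (hR i y' k))
      ((natDegree_sub_le _ _).trans_lt (max_lt (hRd i y) (hRd i y'))), eval_sub]
    rw [show (R i y).eval β - (R i y').eval β =
      (S.M.a i (g y') - (R i y').eval β) - (S.M.a i (g y') - (R i y).eval β) by ring]
    exact A.valuation.map_sub_le (hg y' i) (h ▸ hg y i)
  obtain ⟨y, rfl⟩ := (Finite.injective_iff_surjective.mp hginj) x
  refine Model.eq_of_cong (M := S.M) hζ hv hd1 hd2 fun i => ?_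
  rw [← S.equiv τ (inertia_le_decomposition hτ), ← sub_sub_sub_cancel_right _ _ ((R i y).eval β)]
  refine A.valuation.map_sub_le ?_ (hg y i)
  have e : τ ((R i y).eval β) = (R i y).eval β := by
    rw [eval_eq_sum_range, map_sum]
    refine Finset.sum_congr rfl fun k _ => ?_
    rw [map_mul, map_pow, hfix, mem_kur.mp (hR i y k) τ hτ]
  conv_lhs => rw [← e, ← map_sub, (inert_of_mem_inertiaSubgroupIn A hτ).map_eq]
  exact hg y i

include hker in
/-- **Fontaine's bound.** -/
theorem bound (hfaith : ∀ τ ∈ S.ker, τ ∈ Λ.N) {r₀ : Qb} (hr₀ : r₀ ∈ Λ.conj) (hne : r₀ ≠ Λ.π)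
    {u : ℕ} (hu : Λ.phi r₀ = v Λ.π ^ u) : (p - 1) * (u - 1) ≤ p * Λ.D := by
  by_contra h
  rw [not_le] at h
  have h2 := hp.out.two_le
  have hD : Λ.D < u - 1 := by
    by_contra hc
    rw [not_lt] at hc
    have h3 := Nat.mul_le_mul_left (p - 1) hc
    have h4 : (p - 1) * Λ.D ≤ p * Λ.D := Nat.mul_le_mul_right _ (by omega)
    omega
  obtain ⟨β, hβ, hPβ, τ, hτ, hfix, hτN⟩ := Λ.exists_perturbed hr₀ hne hu hD
  exact hτN (hfaith τ ⟨hτ, S.act_eq_of_fix Λ hker hβ h hPβ.le hτ hfix⟩)

end Sys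

end FA.LocalDef
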