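import Fermat.Agent.LocalDef.Perturb
import Mathlib.RingTheory.Polynomial.Basic
import Mathlib.Algebra.Ring.GeomSum

/-!
# The graded pieces of the ramification filtration of a layer
-/

set_option autoImplicit false
set_option linter.unusedSectionVars false

noncomputable section

open Polynomial FA.Local
open scoped Pointwise

namespace FA.LocalDef

local notation "Qb" => AlgebraicClosure ℚ
local notation "GQ" => AlgebraicClosure ℚ ≃ₐ[ℚ] AlgebraicClosure ℚ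

variable {A : ValuationSubring Qb} {p : ℕ}

lemma res_smul {F : GQ} (hF : F ∈ A.decompositionSubgroup ℚ) {x : Qb} (hx : A.valuation x ≤ 1) :
    res A (F x) = (⟨F, hF⟩ : A.decompositionSubgroup ℚ) • res A x := by
  rw [res_eq hx, res_eq (decomp_map_le hF hx), ← IsLocalRing.ResidueField.residue_smul]
  rfl

lemma smul_inertia_res {F : GQ} (hF : F ∈ A.inertiaSubgroupIn ℚ) (w : Res A) :
    (⟨F, inertia_le_decomposition hF⟩ : A.decompositionSubgroup ℚ) • w = w := by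
  obtain ⟨⟨x, hx⟩, rfl⟩ := IsLocalRing.residue_surjective w
  have hx' : A.valuation x ≤ 1 := (A.valuation_le_one_iff x).mpr hx
  rw [← show res A x = IsLocalRing.residue A ⟨x, hx⟩ from res_eq hx',
    ← res_smul (inertia_le_decomposition hF) hx', res_inertia hF hx']

namespace Layer

variable (Λ : Layer A p)

local notation "v" => ValuationSubring.valuation A

/-- Integral elements fixed by `N` move no more than `π`. -/
theorem disp {σ : GQ} (hσ : σ ∈ A.inertiaSubgroupIn ℚ) {z : Qb} (hz : ∀ τ ∈ Λ.N, τ z = z)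
    (hz1 : v z ≤ 1) : v (σ z - z) ≤ v (σ Λ.π - Λ.π) := by
  obtain ⟨R, hR, hd, hev⟩ := Λ.exists_coords hz
  have h1 : R.eval Λ.π = z := by simpa using hev 1 (one_mem _)
  have hint := Λ.coords_integral hR hd (by rw [h1]; exact hz1)
  rw [← hev σ hσ, ← h1, eval_eq_sum_range, eval_eq_sum_range, ← Finset.sum_sub_distrib]
  refine A.valuation.map_sum_le fun i _ => ?_
  rw [← mul_sub, map_mul]
  refine le_trans (mul_le_of_le_one_left' (mem_kurInt.mp (hint i)).2) ?_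
  rw [← geom_sum₂_mul (σ Λ.π) Λ.π i, map_mul]
  refine mul_le_of_le_one_left' (A.valuation.map_sum_le fun j _ => ?_)
  rw [map_mul, map_pow, map_pow, (inert_of_mem_inertiaSubgroupIn A hσ).map_eq]
  exact mul_le_one' (pow_le_one₀ zero_le Λ.π_lt_one.le) (pow_le_one₀ zero_le Λ.π_lt_one.le)

/-- The `t`-th ramification group. -/
def fil (t : ℕ) : Subgroup GQ where
  carrier := {σ | σ ∈ A.inertiaSubgroupIn ℚ ∧ v (σ Λ.π - Λ.π) ≤ v Λ.π ^ (t + 1)}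
  one_mem' := ⟨one_mem _, by simp⟩
  mul_mem' {σ τ} h h' := ⟨mul_mem h.1 h'.1, by
    rw [AlgEquiv.mul_apply, ← sub_add_sub_cancel _ (σ Λ.π), ← map_sub]
    refine A.valuation.map_add_le ?_ h.2
    rw [(inert_of_mem_inertiaSubgroupIn A h.1).map_eq]
    exact h'.2⟩
  inv_mem' {σ} h := ⟨inv_mem h.1, by
    rw [← (inert_of_mem_inertiaSubgroupIn A h.1).map_eq, map_sub, AlgEquiv.aut_inv,
      AlgEquiv.apply_symm_apply, A.valuation.map_sub_swap]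
    exact h.2⟩

lemma mem_fil {t : ℕ} {σ : GQ} :
    σ ∈ Λ.fil t ↔ σ ∈ A.inertiaSubgroupIn ℚ ∧ v (σ Λ.π - Λ.π) ≤ v Λ.π ^ (t + 1) := Iff.rfl

lemma N_le_fil (t : ℕ) : Λ.N ≤ Λ.fil t := fun σ hσ =>
  ⟨Λ.le hσ, by rw [Λ.fixed σ hσ, sub_self, map_zero]; exact zero_le⟩

lemma fil_anti {s t : ℕ} (h : s ≤ t) : Λ.fil t ≤ Λ.fil s := fun _ hσ =>
  ⟨hσ.1, hσ.2.trans (Λ.pow_le_iff.mpr (by omega))⟩

lemma sub_fixed {σ : GQ} (hσ : σ ∈ A.inertiaSubgroupIn ℚ) :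
    ∀ τ ∈ Λ.N, τ (σ Λ.π - Λ.π) = σ Λ.π - Λ.π := fun τ hτ => by
  rw [map_sub, Λ.fixed_apply hσ Λ.fixed τ hτ, Λ.fixed τ hτ]

lemma mem_fil_zero {σ : GQ} (hσ : σ ∈ A.inertiaSubgroupIn ℚ) : σ ∈ Λ.fil 0 := by
  refine ⟨hσ, ?_⟩
  rw [zero_add, pow_one]
  exact Λ.le_of_lt_one (Λ.sub_fixed hσ)
    ((inert_of_mem_inertiaSubgroupIn A hσ).sub_lt _ Λ.π_lt_one.le)

/-- An inertia element outside `N` has a break. -/
lemma exists_break {σ : GQ} (hσ : σ ∈ A.inertiaSubgroupIn ℚ) (hN : σ ∉ Λ.N) :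
    ∃ t : ℕ, v (σ Λ.π - Λ.π) = v Λ.π ^ (t + 1) := by
  have h0 : σ Λ.π - Λ.π ≠ 0 := sub_ne_zero.mpr fun h => hN ((Λ.mem_N_iff hσ).mpr h)
  have hle : v (σ Λ.π - Λ.π) ≤ v Λ.π ^ (0 + 1) := (Λ.mem_fil_zero hσ).2
  obtain ⟨n, hn⟩ := Λ.exists_pow (Λ.sub_fixed hσ) h0
    (hle.trans (pow_le_one₀ zero_le Λ.π_lt_one.le))
  rw [hn, Λ.pow_le_iff] at hle
  exact ⟨n - 1, by rw [hn, Nat.sub_add_cancel hle]⟩

/-- `res ((σ π - π) / π ^ (t + 1))`. -/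
def gr (t : ℕ) (σ : GQ) : Res A := res A ((σ Λ.π - Λ.π) / Λ.π ^ (t + 1))

/-- `res (σ π / π)`. -/
def chi0 (σ : GQ) : Res A := res A (σ Λ.π / Λ.π)

lemma quot_le_one {t : ℕ} {σ : GQ} (hσ : σ ∈ Λ.fil t) :
    v ((σ Λ.π - Λ.π) / Λ.π ^ (t + 1)) ≤ 1 := by
  rw [map_div₀, map_pow, div_le_one₀ (pow_pos Λ.π_pos _)]; exact hσ.2

lemma map_div_π {σ : GQ} (hσ : σ ∈ A.decompositionSubgroup ℚ) : v (σ Λ.π / Λ.π) = 1 := by
  rw [map_div₀, decomp_map_eq hσ, div_self Λ.π_pos.ne']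

lemma chi0_mul {σ τ : GQ} (hσ : σ ∈ A.inertiaSubgroupIn ℚ) (hτ : τ ∈ A.inertiaSubgroupIn ℚ) :
    Λ.chi0 (σ * τ) = Λ.chi0 σ * Λ.chi0 τ := by
  have e : (σ * τ) Λ.π / Λ.π = σ (τ Λ.π / Λ.π) * (σ Λ.π / Λ.π) := by
    rw [AlgEquiv.mul_apply, map_div₀]
    field_simp [Λ.π_ne_zero, (map_ne_zero σ).mpr Λ.π_ne_zero]
  rw [chi0, e, res_mul (by
      rw [(inert_of_mem_inertiaSubgroupIn A hσ).map_eq, Λ.map_div_π (inertia_le_decomposition hτ)])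
    (Λ.map_div_π (inertia_le_decomposition hσ)).le,
    res_inertia hσ (Λ.map_div_π (inertia_le_decomposition hτ)).le, mul_comm]
  rfl

lemma chi0_one : Λ.chi0 1 = 1 := by
  rw [chi0, AlgEquiv.one_apply, div_self Λ.π_ne_zero, res_one]

lemma chi0_ne_zero {σ : GQ} (hσ : σ ∈ A.decompositionSubgroup ℚ) : Λ.chi0 σ ≠ 0 := fun h =>
  ((res_eq_zero_iff (Λ.map_div_π hσ).le).mp h).ne (Λ.map_div_π hσ)

lemma chi0_pow {σ : GQ} (hσ : σ ∈ A.inertiaSubgroupIn ℚ) (n : ℕ) :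
    Λ.chi0 (σ ^ n) = Λ.chi0 σ ^ n := by
  induction n with
  | zero => rw [pow_zero, pow_zero, chi0_one]
  | succ n ih => rw [pow_succ, pow_succ, Λ.chi0_mul (pow_mem hσ n) hσ, ih]

lemma chi0_eq_one_iff {σ : GQ} (hσ : σ ∈ A.inertiaSubgroupIn ℚ) :
    Λ.chi0 σ = 1 ↔ σ ∈ Λ.fil 1 := by
  have hle := (Λ.map_div_π (inertia_le_decomposition hσ)).le
  have e : σ Λ.π / Λ.π - 1 = (σ Λ.π - Λ.π) / Λ.π := by rw [sub_div, div_self Λ.π_ne_zero]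
  have h : Λ.chi0 σ = 1 ↔ v ((σ Λ.π - Λ.π) / Λ.π) < 1 := by
    refine ⟨fun h => ?_, fun h => (res_congr (by simp) (e.symm ▸ h)).trans res_one⟩
    rw [← e]
    have h' : res A (σ Λ.π / Λ.π - 1) + 1 = 1 := by
      rw [← res_one (A := A), ← res_add (A.valuation.map_sub_le hle (by simp)) (by simp),
        sub_add_cancel]
      exact h.trans res_one.symm
    exact (res_eq_zero_iff (A.valuation.map_sub_le hle (by simp))).mp (by simpa using h')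
  rw [h, map_div₀, div_lt_one₀ Λ.π_pos, mem_fil]
  refine ⟨fun hlt => ⟨hσ, ?_⟩, fun h2 => lt_of_le_of_lt h2.2 ?_⟩
  · rw [show 1 + 1 = 2 from rfl, sq, ← div_le_iff₀ Λ.π_pos, ← map_div₀]
    refine Λ.le_of_lt_one (fun τ hτ => ?_) ?_
    · rw [map_div₀, Λ.sub_fixed hσ τ hτ, Λ.fixed τ hτ]
    · rw [map_div₀, div_lt_one₀ Λ.π_pos]; exact hlt
  · calc v Λ.π ^ (1 + 1) < v Λ.π ^ 1 := Λ.pow_lt_iff.mpr one_lt_two
      _ = v Λ.π := pow_one _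

lemma gr_eq_zero_iff {t : ℕ} {σ : GQ} (hσ : σ ∈ Λ.fil t) :
    Λ.gr t σ = 0 ↔ σ ∈ Λ.fil (t + 1) := by
  rw [gr, res_eq_zero_iff (Λ.quot_le_one hσ)]
  refine ⟨fun h => ⟨hσ.1, ?_⟩, fun h => ?_⟩
  · have h1 : v ((σ Λ.π - Λ.π) / Λ.π ^ (t + 1)) ≤ v Λ.π := Λ.le_of_lt_one (fun τ hτ => by
      rw [map_div₀, map_pow, Λ.sub_fixed hσ.1 τ hτ, Λ.fixed τ hτ]) h
    rw [map_div₀, map_pow, div_le_iff₀ (pow_pos Λ.π_pos _)] at h1
    rw [pow_succ']; exact h1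
  · rw [map_div₀, map_pow, div_lt_one₀ (pow_pos Λ.π_pos _)]
    exact lt_of_le_of_lt h.2 (Λ.pow_lt_iff.mpr (by omega))

lemma gr_mul {t : ℕ} (ht : 1 ≤ t) {σ τ : GQ} (hσ : σ ∈ Λ.fil t) (hτ : τ ∈ Λ.fil t) :
    Λ.gr t (σ * τ) = Λ.gr t σ + Λ.gr t τ := by
  set w := (τ Λ.π - Λ.π) / Λ.π ^ (t + 1) with hw
  have hq := Λ.map_div_π (inertia_le_decomposition hσ.1)
  have e : ((σ * τ) Λ.π - Λ.π) / Λ.π ^ (t + 1) =
      (σ Λ.π - Λ.π) / Λ.π ^ (t + 1) + σ w * (σ Λ.π / Λ.π) ^ (t + 1) := by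
    rw [hw, AlgEquiv.mul_apply, map_div₀, map_pow, map_sub, div_pow]
    field_simp [Λ.π_ne_zero, (map_ne_zero σ).mpr Λ.π_ne_zero]
    ring
  have hw1 : v (σ w) ≤ 1 := by
    rw [(inert_of_mem_inertiaSubgroupIn A hσ.1).map_eq]; exact Λ.quot_le_one hτ
  have hp1 : v ((σ Λ.π / Λ.π) ^ (t + 1)) ≤ 1 := by rw [map_pow, hq, one_pow]
  have hc : res A (σ Λ.π / Λ.π) = 1 := (Λ.chi0_eq_one_iff hσ.1).mpr (Λ.fil_anti ht hσ)
  rw [gr, e, res_add (Λ.quot_le_one hσ) (by rw [map_mul]; exact mul_le_one' hw1 hp1),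
    res_mul hw1 hp1, res_pow hq.le, hc, one_pow, mul_one, res_inertia hσ.1 (Λ.quot_le_one hτ)]
  rfl

variable [hp : Fact p.Prime]

lemma pow_p_mem_fil {t : ℕ} (ht : 1 ≤ t) {σ : GQ} (hσ : σ ∈ Λ.fil t) :
    σ ^ p ∈ Λ.fil (t + 1) := by
  have := res_charP hp.out Λ.lies
  have h : ∀ n : ℕ, Λ.gr t (σ ^ n) = n * Λ.gr t σ := fun n => by
    induction n with
    | zero =>
      rw [pow_zero, Nat.cast_zero, zero_mul, gr, AlgEquiv.one_apply, sub_self, zero_div, res_zero]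
    | succ n ih => rw [pow_succ, Λ.gr_mul ht (pow_mem hσ n) hσ, ih, Nat.cast_succ]; ring
  exact (Λ.gr_eq_zero_iff (pow_mem hσ p)).mp (by rw [h, CharP.cast_eq_zero, zero_mul])

/-- Normalisation of `N` by a decomposition element. -/
def Normalizes (F : GQ) : Prop := ∀ τ ∈ Λ.N, F * τ * F⁻¹ ∈ Λ.N

lemma inertia_normalizes {F : GQ} (hF : F ∈ A.inertiaSubgroupIn ℚ) : Λ.Normalizes F := fun τ hτ =>
  by simpa using Λ.normal F⁻¹ (inv_mem hF) τ hτ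

lemma inv_fixed {F : GQ} (hn : Λ.Normalizes F) : ∀ τ ∈ Λ.N, τ (F⁻¹ Λ.π) = F⁻¹ Λ.π := fun τ hτ => by
  have h := Λ.fixed _ (hn τ hτ)
  rw [AlgEquiv.mul_apply, AlgEquiv.mul_apply] at h
  conv_rhs => rw [← h]
  simp [AlgEquiv.aut_inv]

lemma conj_mem_fil {F : GQ} (hF : F ∈ A.decompositionSubgroup ℚ) (hn : Λ.Normalizes F)
    {t : ℕ} {σ : GQ} (hσ : σ ∈ Λ.fil t) : F * σ * F⁻¹ ∈ Λ.fil t := by
  refine ⟨conj_mem_inertia hp.out Λ.lies hF hσ.1, ?_⟩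
  rw [show (F * σ * F⁻¹) Λ.π - Λ.π = F (σ (F⁻¹ Λ.π) - F⁻¹ Λ.π) by
    simp [AlgEquiv.mul_apply, AlgEquiv.aut_inv], decomp_map_eq hF]
  exact le_trans (Λ.disp hσ.1 (Λ.inv_fixed hn)
    (by rw [decomp_map_eq (inv_mem hF)]; exact Λ.π_lt_one.le)) hσ.2

/-- Conjugation on the graded pieces. -/
theorem gr_conj {F : GQ} (hF : F ∈ A.decompositionSubgroup ℚ) (hn : Λ.Normalizes F)
    {t : ℕ} {σ : GQ} (hσ : σ ∈ Λ.fil t) :
    Λ.gr t (F * σ * F⁻¹) =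
      Λ.chi0 F ^ t * ((⟨F, hF⟩ : A.decompositionSubgroup ℚ) • Λ.gr t σ) := by
  set π' := F⁻¹ Λ.π with hπ'
  set u := π' / Λ.π with hu
  set c := F Λ.π / Λ.π with hc
  set w := (σ Λ.π - Λ.π) / Λ.π ^ (t + 1) with hw
  have hu1 : v u = 1 := Λ.map_div_π (inv_mem hF)
  have hc1 : v c = 1 := Λ.map_div_π hF
  have hFu : F u * c = 1 := by
    rw [hu, hc, hπ', map_div₀, AlgEquiv.aut_inv, AlgEquiv.apply_symm_apply]
    field_simp [Λ.π_ne_zero, (map_ne_zero F).mpr Λ.π_ne_zero]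
  have hufix : ∀ τ ∈ Λ.N, τ u = u := fun τ hτ => by
    rw [hu, map_div₀, Λ.inv_fixed hn τ hτ, Λ.fixed τ hτ]
  set s := (σ u - u) * σ Λ.π / Λ.π ^ (t + 1) with hs
  have hs1 : v s < 1 := by
    rw [hs, map_div₀, map_mul, map_pow, (inert_of_mem_inertiaSubgroupIn A hσ.1).map_eq,
      div_lt_one₀ (pow_pos Λ.π_pos _)]
    calc v (σ u - u) * v Λ.π ≤ v Λ.π ^ (t + 1) * v Λ.π :=
          mul_le_mul_left ((Λ.disp hσ.1 hufix hu1.le).trans hσ.2) _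
      _ < v Λ.π ^ (t + 1) * 1 := mul_lt_mul_of_pos_left Λ.π_lt_one (pow_pos Λ.π_pos _)
      _ = _ := mul_one _
  have e0 : σ π' - π' = (σ u - u) * σ Λ.π + u * (σ Λ.π - Λ.π) := by
    rw [show π' = u * Λ.π by rw [hu, div_mul_cancel₀ _ Λ.π_ne_zero], map_mul]
    ring
  have e1 : ((F * σ * F⁻¹) Λ.π - Λ.π) / Λ.π ^ (t + 1) = F (s + u * w) * c ^ (t + 1) := by
    rw [show (F * σ * F⁻¹) Λ.π - Λ.π = F (σ π' - π') by
      simp [hπ', AlgEquiv.mul_apply, AlgEquiv.aut_inv], e0, hs, hw, hc]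
    simp only [map_add, map_mul, map_sub, map_div₀, map_pow, div_pow]
    field_simp [Λ.π_ne_zero, (map_ne_zero F).mpr Λ.π_ne_zero]
  have huw : v (u * w) ≤ 1 := by rw [map_mul, hu1, one_mul]; exact Λ.quot_le_one hσ
  have hFuw : v (F (u * w)) ≤ 1 := decomp_map_le hF huw
  have hcp : v (c ^ (t + 1)) ≤ 1 := by rw [map_pow, hc1, one_pow]
  have e2 : res A (F (s + u * w)) = res A (F u) * res A (F w) := by
    rw [map_add, ← res_mul (decomp_map_le hF hu1.le) (decomp_map_le hF (Λ.quot_le_one hσ)),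
      ← map_mul]
    refine res_congr hFuw ?_
    rw [add_sub_cancel_right, decomp_map_eq hF]
    exact hs1
  have hFs : v (F (s + u * w)) ≤ 1 :=
    decomp_map_le hF (A.valuation.map_add_le hs1.le huw)
  have h1 : res A (F u) * res A c = 1 := by
    rw [← res_mul (decomp_map_le hF hu1.le) hc1.le, hFu, res_one]
  calc Λ.gr t (F * σ * F⁻¹) = res A (F u) * res A (F w) * res A c ^ (t + 1) := by
        rw [gr, e1, res_mul hFs hcp, e2, res_pow hc1.le]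
    _ = (res A (F u) * res A c) * (res A c ^ t * res A (F w)) := by ring
    _ = _ := by rw [h1, one_mul, res_smul hF (Λ.quot_le_one hσ)]; rfl

lemma gr_conj_inertia {g : GQ} (hg : g ∈ A.inertiaSubgroupIn ℚ) {t : ℕ} {σ : GQ}
    (hσ : σ ∈ Λ.fil t) : Λ.gr t (g * σ * g⁻¹) = Λ.chi0 g ^ t * Λ.gr t σ := by
  rw [Λ.gr_conj (inertia_le_decomposition hg) (Λ.inertia_normalizes hg) hσ, smul_inertia_res hg]

end Layer

end FA.LocalDef
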