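import Fermat.Agent.LocalDef.Connected
import Fermat.Agent.LocalDef.Graded

/-!
# Leading coefficients of connected points

On a subgroup of connected points the first nonvanishing coefficient of the coordinates is an
additive map to the residue field on which inertia acts by a power `n` of the tame character,
`(p - 1) n ≤ D`.
-/

set_option autoImplicit false
set_option linter.unusedSectionVars false

noncomputable section

open FA.Local
open scoped Pointwise

namespace FA.LocalDef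

local notation "Qb" => AlgebraicClosure ℚ
local notation "GQ" => AlgebraicClosure ℚ ≃ₐ[ℚ] AlgebraicClosure ℚ

variable {A : ValuationSubring Qb} {p : ℕ} [hp : Fact p.Prime]

local notation "v" => ValuationSubring.valuation A

namespace Sys

variable {V : Type} [AddCommGroup V] [Module (ZMod p) V] [Fintype V] (S : Sys A V)

include hp in
/-- The leading coefficient of the connected points. -/
theorem exists_leading (Λ : Layer A p) (X : Submodule (ZMod p) V) (hX : X ≤ S.conn) (hne : X ≠ ⊥)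
    (hfix : ∀ τ ∈ Λ.N, ∀ x ∈ X, S.act τ x = x) :
    ∃ n : ℕ, 1 ≤ n ∧ (p - 1) * n ≤ Λ.D ∧ ∃ lam : V → Res A,
      (∀ x ∈ X, ∀ y ∈ X, lam (x + y) = lam x + lam y) ∧ (∃ x ∈ X, lam x ≠ 0) ∧
      ∀ σ ∈ A.inertiaSubgroupIn ℚ, ∀ x ∈ X, lam (S.act σ x) = Λ.chi0 σ ^ n * lam x := by
  classical
  have h2 := hp.out.two_le
  obtain ⟨x₀, hx₀, hx₀0⟩ := Submodule.exists_mem_ne_zero_of_ne_bot hne
  obtain ⟨i₀, hi₀⟩ : ∃ i, S.M.a i x₀ ≠ S.M.a i 0 := by
    by_contra hc
    push Not at hc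
    exact hx₀0 (S.ext hc)
  have hzero : ∀ i, ∀ τ ∈ Λ.N, τ (S.M.a i 0) = S.M.a i 0 := fun i τ hτ =>
    S.apply_zero_fixed (inertia_le_decomposition (Λ.le hτ)) i
  have hdfix : ∀ i, ∀ x ∈ X, ∀ τ ∈ Λ.N, τ (S.M.a i x - S.M.a i 0) = S.M.a i x - S.M.a i 0 :=
    fun i x hx τ hτ => by
      rw [map_sub, hzero i τ hτ, S.equiv τ (inertia_le_decomposition (Λ.le hτ)), hfix τ hτ x hx]
  obtain ⟨q, hq, hmax⟩ := Finset.exists_max_image
    (Finset.univ.filter fun q : V × V => q.2 ∈ X) (fun q => v (S.M.a q.1 q.2 - S.M.a q.1 0))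
    ⟨(i₀, x₀), by simp [hx₀]⟩
  rw [Finset.mem_filter] at hq
  have hmax' : ∀ i, ∀ x ∈ X, v (S.M.a i x - S.M.a i 0) ≤ v (S.M.a q.1 q.2 - S.M.a q.1 0) :=
    fun i x hx => hmax (i, x) (by simp [hx])
  have hpos : S.M.a q.1 q.2 - S.M.a q.1 0 ≠ 0 := fun h0 => sub_ne_zero.mpr hi₀ <| by
    have := hmax' i₀ x₀ hx₀
    rw [h0, map_zero, le_zero_iff, map_eq_zero] at this
    exact this
  obtain ⟨n, hn⟩ := Λ.exists_pow (hdfix q.1 q.2 hq.2) hpos (hX hq.2 q.1).le
  rw [hn] at hmax'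
  have hn1 : 1 ≤ n := by
    by_contra hc
    have := hX hq.2 q.1
    rw [hn, show n = 0 by omega, pow_zero] at this
    exact lt_irrefl _ this
  have hnD : (p - 1) * n ≤ Λ.D := by
    by_contra hc
    rw [not_le] at hc
    obtain ⟨ζ, hζ⟩ := exists_zeta hp.out
    refine hx₀0 (Model.eq_of_cong (M := S.M) hζ Λ.vp_lt_one (c := v Λ.π ^ n)
      (pow_lt_one₀ zero_le Λ.π_lt_one (by omega)) ?_ fun i => hmax' i x₀ hx₀)
    rw [← pow_mul, ← Λ.val, Λ.pow_lt_iff, mul_comm]
    exact hc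
  have hpn : Λ.π ^ n ≠ 0 := pow_ne_zero _ Λ.π_ne_zero
  have hquot : ∀ i, ∀ x ∈ X, v ((S.M.a i x - S.M.a i 0) / Λ.π ^ n) ≤ 1 := fun i x hx => by
    rw [map_div₀, map_pow, div_le_one₀ (pow_pos Λ.π_pos _)]
    exact hmax' i x hx
  refine ⟨n, hn1, hnD, fun x => res A ((S.M.a q.1 x - S.M.a q.1 0) / Λ.π ^ n), fun x hx y hy => ?_,
    ⟨q.2, hq.2, fun h0 => ?_⟩, fun σ hσ x hx => ?_⟩
  · obtain ⟨c, hc, he⟩ := S.M.comul q.1
    have e : (S.M.a q.1 (x + y) - S.M.a q.1 0) / Λ.π ^ n -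
        ((S.M.a q.1 x - S.M.a q.1 0) / Λ.π ^ n + (S.M.a q.1 y - S.M.a q.1 0) / Λ.π ^ n) =
        ∑ j, ∑ k, c j k * ((S.M.a j x - S.M.a j 0) * (S.M.a k y - S.M.a k 0) / Λ.π ^ n) := by
      have h00 := he 0 0
      have hx0 := he x 0
      have h0y := he 0 y
      rw [add_zero] at h00 hx0
      rw [zero_add] at h0y
      rw [← add_div, ← sub_div, he x y, hx0, h0y, h00]
      simp only [← Finset.sum_sub_distrib, ← Finset.sum_add_distrib, Finset.sum_div]
      refine Finset.sum_congr rfl fun j _ => Finset.sum_congr rfl fun k _ => ?_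
      ring
    show res A _ = res A _ + res A _
    rw [← res_add (hquot _ x hx) (hquot _ y hy)]
    refine res_congr (A.valuation.map_add_le (hquot _ x hx) (hquot _ y hy)) ?_
    rw [e]
    refine A.valuation.map_sum_lt one_ne_zero fun j _ =>
      A.valuation.map_sum_lt one_ne_zero fun k _ => ?_
    rw [mul_div_assoc, map_mul, map_mul]
    refine lt_of_le_of_lt (mul_le_of_le_one_left' (hc j k)) ?_
    exact lt_of_le_of_lt (mul_le_of_le_one_right' (hquot k y hy)) (hX hx j)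
  · rw [res_eq_zero_iff (hquot _ _ hq.2), map_div₀, hn, map_pow,
      div_self (pow_pos Λ.π_pos n).ne'] at h0
    exact lt_irrefl _ h0
  · have hq' := Λ.map_div_π (inertia_le_decomposition hσ)
    have e : (S.M.a q.1 (S.act σ x) - S.M.a q.1 0) / Λ.π ^ n =
        σ ((S.M.a q.1 x - S.M.a q.1 0) / Λ.π ^ n) * (σ Λ.π / Λ.π) ^ n := by
      rw [map_div₀, map_sub, S.equiv σ (inertia_le_decomposition hσ),
        S.apply_zero_fixed (inertia_le_decomposition hσ), map_pow, div_pow]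
      field_simp [hpn, pow_ne_zero n ((map_ne_zero σ).mpr Λ.π_ne_zero)]
    show res A _ = _
    rw [e, res_mul (by rw [(inert_of_mem_inertiaSubgroupIn A hσ).map_eq]; exact hquot _ x hx)
      (by rw [map_pow, hq', one_pow]), res_inertia hσ (hquot _ x hx), res_pow hq'.le, mul_comm]
    rfl

end Sys

end FA.LocalDef
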