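import Fermat.Agent.LocalDef.Wild
import Fermat.Agent.LocalDef.Leading
import Fermat.Agent.LocalDef.Fontaine
import Fermat.Agent.TW.LocalQ
import Mathlib.FieldTheory.Finite.Basic

/-!
# Preliminaries for the local conditions at `p`
-/

set_option autoImplicit false
set_option linter.unusedSectionVars false

noncomputable section

open Matrix FA.Local
open scoped Pointwise

namespace FA.LocalDef

local notation "Qb" => AlgebraicClosure ℚ
local notation "GQ" => AlgebraicClosure ℚ ≃ₐ[ℚ] AlgebraicClosure ℚ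
local notation "M2" k => Matrix (Fin 2) (Fin 2) k

variable {A : ValuationSubring Qb} {p : ℕ} [hp : Fact p.Prime]

local notation "v" => ValuationSubring.valuation A

section Zeta

variable {ζ : Qb}

include hp in
lemma exists_zeta_pow (hζ : IsPrimitiveRoot ζ p) (σ : GQ) :
    ∃ m : ℕ, ¬ p ∣ m ∧ σ ζ = ζ ^ m := by
  have : NeZero p := ⟨hp.out.ne_zero⟩
  obtain ⟨i, -, hi⟩ := hζ.eq_pow_of_pow_eq_one (show σ ζ ^ p = 1 by
    rw [← map_pow, hζ.pow_eq_one, map_one])
  refine ⟨i, fun ⟨d, hd⟩ => ?_, hi.symm⟩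
  rw [hd, pow_mul, hζ.pow_eq_one, one_pow] at hi
  exact hζ.ne_one hp.out.one_lt (σ.injective (hi.symm.trans (map_one σ).symm))

include hp in
lemma pow_roots_of_zeta (hζ : IsPrimitiveRoot ζ p) {σ : GQ} {m : ℕ} (hσ : σ ζ = ζ ^ m) :
    ∀ μ : Qb, μ ^ p = 1 → σ μ = μ ^ m := fun μ hμ => by
  have : NeZero p := ⟨hp.out.ne_zero⟩
  obtain ⟨i, -, rfl⟩ := hζ.eq_pow_of_pow_eq_one hμ
  rw [map_pow, hσ, ← pow_mul, ← pow_mul, mul_comm]

include hp in
lemma zeta_pow_inj (hζ : IsPrimitiveRoot ζ p) {F : Type*} [Ring F] [CharP F p] {m n : ℕ}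
    (h : ζ ^ m = ζ ^ n) : (m : F) = n := by
  rw [CharP.natCast_eq_natCast F p]
  rcases le_total m n with hmn | hmn
  · obtain ⟨d, rfl⟩ := Nat.exists_eq_add_of_le hmn
    rw [pow_add, left_eq_mul₀ (pow_ne_zero _ (hζ.ne_zero hp.out.ne_zero))] at h
    obtain ⟨e, rfl⟩ := hζ.dvd_of_pow_eq_one d h
    simp [Nat.ModEq]
  · obtain ⟨d, rfl⟩ := Nat.exists_eq_add_of_le hmn
    rw [pow_add, mul_eq_left₀ (pow_ne_zero _ (hζ.ne_zero hp.out.ne_zero))] at h
    obtain ⟨e, rfl⟩ := hζ.dvd_of_pow_eq_one d h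
    simp [Nat.ModEq]

variable {k : Type} [Field k]

include hp in
lemma det_eq_natCast (hζ : IsPrimitiveRoot ζ p) {r : GQ →* M2 k} (hdet : DetOmega A p r) {σ : GQ}
    (hσ : σ ∈ A.decompositionSubgroup ℚ) {m : ℕ} (hm : σ ζ = ζ ^ m) : (r σ).det = (m : k) :=
  hdet σ hσ m (pow_roots_of_zeta hζ hm)

include hp in
lemma res_zeta (hA : A.LiesOverPrime p) (hζ : IsPrimitiveRoot ζ p) : res A ζ = 1 := by
  have := res_charP hp.out hA
  have h1 : v ζ ≤ 1 := (map_eq_one_of_pow_eq_one A.valuation hp.out.ne_zero hζ.pow_eq_one).le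
  have h : res A ζ ^ p = 1 := by rw [← res_pow h1, hζ.pow_eq_one, res_one]
  exact frobenius_inj (Res A) p (by rw [frobenius_def, frobenius_def, h, one_pow])

include hp in
/-- The tame character of the cyclotomic layer is the cyclotomic character. -/
lemma Layer.chi0_cyclo {Λ : Layer A p} (hζ : IsPrimitiveRoot ζ p) (hπ : Λ.π = 1 - ζ) {σ : GQ}
    {m : ℕ} (hm : σ ζ = ζ ^ m) : Λ.chi0 σ = (m : Res A) := by
  have h1 : v ζ ≤ 1 := (map_eq_one_of_pow_eq_one A.valuation hp.out.ne_zero hζ.pow_eq_one).le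
  have hne : (1 - ζ) ≠ 0 := sub_ne_zero.mpr (hζ.ne_one hp.out.one_lt).symm
  have e : σ Λ.π / Λ.π = ∑ j ∈ Finset.range m, ζ ^ j := by
    rw [hπ, map_sub, map_one, hm, div_eq_iff hne, geom_sum_mul_neg]
  rw [Layer.chi0, e]
  clear e hm
  induction m with
  | zero => rw [Finset.sum_range_zero, res_zero, Nat.cast_zero]
  | succ m ih =>
    rw [Finset.sum_range_succ, res_add (A.valuation.map_sum_le fun j _ => map_pow_le_one h1 j)
      (map_pow_le_one h1 m), ih, res_pow h1, res_zeta Λ.lies hζ, one_pow, Nat.cast_succ]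

end Zeta

section Generation

include hp in
/-- The decomposition group is generated by inertia, a Frobenius element and the fixing group of
any number field. -/
theorem decomp_le_of (hA : A.LiesOverPrime p) {F : GQ} (hF : A.IsFrobeniusAt F p) (H : Subgroup GQ)
    (hI : A.inertiaSubgroupIn ℚ ≤ H) (hFH : F ∈ H) (E : IntermediateField ℚ Qb)
    [FiniteDimensional ℚ E] (hE : A.decompositionSubgroup ℚ ⊓ E.fixingSubgroup ≤ H) :
    A.decompositionSubgroup ℚ ≤ H := fun σ hσ => by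
  obtain ⟨i, ι, hι, n, hn, rfl⟩ :=
    FA.TW.exists_frobenius_decomp hp.out hA hF E.fixingSubgroup E.fixingSubgroup_isOpen hσ
  refine mul_mem (mul_mem (pow_mem hFH i) (hI hι)) (hE ⟨?_, hn⟩)
  have h := mul_mem (inv_mem (mul_mem (pow_mem hF.mem_decompositionSubgroup i)
    (inertia_le_decomposition hι))) hσ
  rwa [inv_mul_cancel_left] at h

end Generation

namespace Layer

variable (Λ : Layer A p) {F : GQ}

include hp in
/-- Conjugation by Frobenius is the `p`-th power on the tame character. -/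
lemma chi0_conj_frob (hF : A.IsFrobeniusAt F p) (hn : Λ.Normalizes F) {σ : GQ}
    (hσ : σ ∈ A.inertiaSubgroupIn ℚ) : Λ.chi0 (F * σ * F⁻¹) = Λ.chi0 σ ^ p := by
  have := res_charP hp.out Λ.lies
  have hgr : ∀ τ ∈ A.inertiaSubgroupIn ℚ, Λ.gr 0 τ = Λ.chi0 τ - 1 := fun τ hτ => by
    have h1 := (Λ.map_div_π (inertia_le_decomposition hτ)).le
    have e : res A (τ Λ.π / Λ.π) = res A ((τ Λ.π - Λ.π) / Λ.π ^ (0 + 1)) + 1 := by
      rw [← res_one (A := A), ← res_add (Λ.quot_le_one (Λ.mem_fil_zero hτ)) (by simp),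
        zero_add, pow_one, sub_div, div_self Λ.π_ne_zero, sub_add_cancel]
    rw [gr, chi0, e, add_sub_cancel_right]
  have hτ := conj_mem_inertia hp.out Λ.lies hF.mem_decompositionSubgroup hσ
  have h := Λ.gr_conj hF.mem_decompositionSubgroup hn (Λ.mem_fil_zero hσ)
  rw [pow_zero, one_mul, hF.smul_residue_eq, hgr σ hσ, hgr _ hτ, sub_pow_char, one_pow,
    sub_left_inj] at h
  exact h

include hp in
/-- Conjugation by Frobenius is the `p`-th power modulo wild inertia. -/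
lemma conj_frob_mem (hF : A.IsFrobeniusAt F p) (hn : Λ.Normalizes F) {σ : GQ}
    (hσ : σ ∈ A.inertiaSubgroupIn ℚ) : (σ ^ p)⁻¹ * (F * σ * F⁻¹) ∈ Λ.fil 1 := by
  have hc := conj_mem_inertia hp.out Λ.lies hF.mem_decompositionSubgroup hσ
  refine (Λ.chi0_eq_one_iff (mul_mem (inv_mem (pow_mem hσ p)) hc)).mp ?_
  rw [Λ.chi0_mul (inv_mem (pow_mem hσ p)) hc, Λ.chi0_conj_frob hF hn hσ, ← Λ.chi0_pow hσ p,
    ← Λ.chi0_mul (inv_mem (pow_mem hσ p)) (pow_mem hσ p), inv_mul_cancel, chi0_one]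

include hp in
/-- Elements of the first ramification group have `p`-power order modulo `N`. -/
lemma exists_pow_mem {σ : GQ} (hσ : σ ∈ Λ.fil 1) : ∃ T : ℕ, σ ^ p ^ T ∈ Λ.N := by
  obtain ⟨T, hT⟩ := Λ.exists_fil_le
  have hpow : ∀ i, σ ^ p ^ i ∈ Λ.fil (1 + i) := fun i => by
    induction i with
    | zero => simpa using hσ
    | succ i ih => rw [pow_succ, pow_mul]; exact Λ.pow_p_mem_fil (Nat.le_add_right 1 i) ih
  exact ⟨T, hT (Λ.fil_anti (by omega) (hpow T))⟩

include hp in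
/-- A character of the decomposition group to a field of characteristic `p` with values trivial on
`N` takes values in the prime field on inertia. -/
lemma exists_natCast_of_char {k : Type*} [Field k] [CharP k p] (hF : A.IsFrobeniusAt F p)
    (hn : Λ.Normalizes F) (χ : GQ → k)
    (hmul : ∀ σ ∈ A.decompositionSubgroup ℚ, ∀ τ ∈ A.decompositionSubgroup ℚ,
      χ (σ * τ) = χ σ * χ τ) (hN : ∀ σ ∈ Λ.N, χ σ = 1) :
    (∀ σ ∈ Λ.fil 1, χ σ = 1) ∧ ∀ σ ∈ A.inertiaSubgroupIn ℚ, ∃ m : ℕ, χ σ = (m : k) := by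
  have h1 : χ 1 = 1 := hN 1 Λ.N.one_mem
  have hpow : ∀ σ ∈ A.decompositionSubgroup ℚ, ∀ i : ℕ, χ (σ ^ i) = χ σ ^ i := fun σ hσ i => by
    induction i with
    | zero => rw [pow_zero, pow_zero, h1]
    | succ i ih => rw [pow_succ, pow_succ, hmul _ (pow_mem hσ i) _ hσ, ih]
  have hfil : ∀ σ ∈ Λ.fil 1, χ σ = 1 := fun σ hσ => by
    obtain ⟨T, hT⟩ := Λ.exists_pow_mem hσ
    refine iterateFrobenius_inj k p T ?_
    rw [iterateFrobenius_def, iterateFrobenius_def, one_pow,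
      ← hpow σ (inertia_le_decomposition hσ.1), hN _ hT]
  refine ⟨hfil, fun σ hσ => ?_⟩
  have hFd := hF.mem_decompositionSubgroup
  have hσd := inertia_le_decomposition hσ
  have hc := hfil _ (Λ.conj_frob_mem hF hn hσ)
  rw [hmul _ (inv_mem (pow_mem hσd p)) _ (mul_mem (mul_mem hFd hσd) (inv_mem hFd)),
    hmul _ (mul_mem hFd hσd) _ (inv_mem hFd), hmul _ hFd _ hσd, mul_comm (χ F) (χ σ), mul_assoc,
    ← hmul _ hFd _ (inv_mem hFd), mul_inv_cancel, h1, mul_one] at hc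
  have hi := hmul _ (inv_mem (pow_mem hσd p)) _ (pow_mem hσd p)
  rw [inv_mul_cancel, h1, hpow σ hσd] at hi
  have hne : χ σ ≠ 0 := fun h0 => by simp [h0] at hc
  have hbot : χ σ ∈ (⊥ : Subfield k) := (Subfield.mem_bot_iff_pow_eq_self k p).mpr
    (mul_left_cancel₀ (fun h0 => by simp [h0] at hc) (hi.symm.trans hc.symm))
  rw [← ZMod.fieldRange_castHom_eq_bot (K := k) p] at hbot
  obtain ⟨z, hz⟩ := hbot
  exact ⟨z.val, by rw [← hz, ← map_natCast (ZMod.castHom (dvd_refl p) k), ZMod.natCast_zmod_val]⟩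

end Layer

namespace Sys

variable {V : Type} [AddCommGroup V] [Module (ZMod p) V] [Fintype V] (S : Sys A V)

lemma normalizes_ker (hA : A.LiesOverPrime p) (Λ : Layer A p) (hΛ : Λ.N = S.ker) {F : GQ}
    (hF : F ∈ A.decompositionSubgroup ℚ) : Λ.Normalizes F := fun τ hτ => by
  rw [hΛ] at hτ ⊢
  simpa using S.ker_normal hp.out hA (inv_mem hF) hτ

include hp in
/-- The layer of the kernel of the action, with Fontaine's bound. -/
theorem exists_kerLayer (hA : A.LiesOverPrime p) :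
    ∃ Λ : Layer A p, Λ.N = S.ker ∧ Λ.Bounded := by
  obtain ⟨Λ, hΛ⟩ := exists_layer hp.out hA S.ker (fun _ h => h.1)
    (fun σ hσ τ hτ => S.ker_normal hp.out hA (inertia_le_decomposition hσ) hτ) S.field
    S.inf_fixingSubgroup_le_ker
  exact ⟨Λ, hΛ, fun r₀ hr₀ hne u hu =>
    S.bound Λ (fun τ hτ => hΛ ▸ hτ) (fun τ hτ => hΛ.symm ▸ hτ) hr₀ hne hu⟩

include hp in
/-- A nonzero stable subgroup of connected points on which inertia acts by scalars of the prime
field: the scalars are the cyclotomic character. -/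
theorem scalar_eq_omega (hA : A.LiesOverPrime p) {ζ : Qb} (hζ : IsPrimitiveRoot ζ p)
    (X : Submodule (ZMod p) V) (hX : X ≤ S.conn) (hne : X ≠ ⊥)
    (hsc : ∀ σ ∈ A.inertiaSubgroupIn ℚ, ∃ m : ZMod p, ∀ x ∈ X, S.act σ x = m • x) {σ : GQ}
    (hσ : σ ∈ A.inertiaSubgroupIn ℚ) {m : ℕ} (hm : σ ζ = ζ ^ m) :
    ∀ x ∈ X, S.act σ x = (m : ZMod p) • x := by
  classical
  have := res_charP hp.out hA
  choose! s hs using hsc
  obtain ⟨x₀, hx₀, hx₀0⟩ := Submodule.exists_mem_ne_zero_of_ne_bot hne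
  have hsmul : ∀ g ∈ A.inertiaSubgroupIn ℚ, ∀ h ∈ A.inertiaSubgroupIn ℚ,
      s (g * h) = s g * s h := fun g hg h hh => smul_left_injective (ZMod p) hx₀0 <| by
    show s (g * h) • x₀ = (s g * s h) • x₀
    rw [← hs _ (mul_mem hg hh) x₀ hx₀,
      S.act_mul (inertia_le_decomposition hg) (inertia_le_decomposition hh), hs h hh x₀ hx₀,
      hs g hg _ (X.smul_mem _ hx₀), smul_smul]
  have hs1 : s 1 = 1 := smul_left_injective (ZMod p) hx₀0 <| by
    show s 1 • x₀ = (1 : ZMod p) • x₀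
    rw [← hs 1 (one_mem _) x₀ hx₀, S.act_one, one_smul]
  have hspow : ∀ g ∈ A.inertiaSubgroupIn ℚ, ∀ j : ℕ, s (g ^ j) = s g ^ j := fun g hg j => by
    induction j with
    | zero => rw [pow_zero, pow_zero, hs1]
    | succ j ih => rw [pow_succ, pow_succ, hsmul _ (pow_mem hg j) _ hg, ih]
  have hs0 : ∀ g ∈ A.inertiaSubgroupIn ℚ, s g ≠ 0 := fun g hg h0 => by
    have h := hsmul g hg g⁻¹ (inv_mem hg)
    rw [mul_inv_cancel, hs1, h0, zero_mul] at h
    exact one_ne_zero h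
  obtain ⟨Λc, hNc, hπc, hDc⟩ := exists_cyclo_layer hp.out hA hζ
  let N : Subgroup GQ :=
    { carrier := {g | g ∈ Λc.N ∧ s g = 1}
      one_mem' := ⟨one_mem _, hs1⟩
      mul_mem' := fun {g h} ⟨hg, hg'⟩ ⟨hh, hh'⟩ =>
        ⟨mul_mem hg hh, by rw [hsmul g (Λc.le hg) h (Λc.le hh), hg', hh', one_mul]⟩
      inv_mem' := fun {g} ⟨hg, hg'⟩ => ⟨inv_mem hg, by
        have h := hsmul g (Λc.le hg) g⁻¹ (inv_mem (Λc.le hg))
        rw [mul_inv_cancel, hs1, hg', one_mul] at h
        exact h.symm⟩ }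
  obtain ⟨L, hLfin, -, hL⟩ := exists_normal_layer {ζ}
  have hfin : FiniteDimensional ℚ ↥(L ⊔ S.field) := IntermediateField.finiteDimensional_sup _ _
  obtain ⟨Λ, hΛ⟩ := exists_layer hp.out hA N (fun g hg => Λc.le hg.1)
    (fun g hg τ hτ => ⟨Λc.normal g hg τ hτ.1, by
      rw [hsmul _ (mul_mem (inv_mem hg) (Λc.le hτ.1)) _ hg,
        hsmul _ (inv_mem hg) _ (Λc.le hτ.1), hτ.2, mul_one, ← hsmul _ (inv_mem hg) _ hg,
        inv_mul_cancel, hs1]⟩) (L ⊔ S.field) (fun g hg => ⟨by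
      rw [hNc]
      exact ⟨hg.1, hg.2 ⟨ζ, (le_sup_left : L ≤ _) (hL ζ (Finset.mem_singleton_self ζ))⟩⟩,
      smul_left_injective (ZMod p) hx₀0 <| by
        show s g • x₀ = (1 : ZMod p) • x₀
        rw [← hs g hg.1 x₀ hx₀, one_smul, S.act_eq_of_mem_fixingSubgroup
          (inertia_le_decomposition hg.1)
          (IntermediateField.fixingSubgroup_le (le_sup_right : S.field ≤ _) hg.2)]⟩)
  have hB : Layer.Below Λ Λc := ⟨hΛ.symm ▸ fun g hg => hg.1⟩
  have hexp : ∀ g ∈ A.inertiaSubgroupIn ℚ, g ^ (p - 1) ∈ Λ.N := fun g hg => by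
    rw [hΛ]
    refine ⟨?_, by rw [hspow g hg, ZMod.pow_card_sub_one_eq_one (hs0 g hg)]⟩
    rw [hNc]
    refine ⟨pow_mem hg _, ?_⟩
    obtain ⟨i, hi0, hi⟩ := exists_zeta_pow hζ g
    have hj : ∀ j, (g ^ j) ζ = ζ ^ i ^ j := fun j => by
      induction j with
      | zero => simp
      | succ j ih =>
        rw [pow_succ', AlgEquiv.mul_apply, ih, map_pow, hi, ← pow_mul, ← pow_succ']
    rw [hj]
    have hmod : i ^ (p - 1) % p = 1 % p := by
      refine (ZMod.natCast_eq_natCast_iff' _ _ p).mp ?_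
      rw [Nat.cast_pow, Nat.cast_one]
      exact ZMod.pow_card_sub_one_eq_one (by rwa [Ne, ZMod.natCast_eq_zero_iff])
    rw [pow_eq_pow_mod _ hζ.pow_eq_one, hmod, Nat.mod_eq_of_lt hp.out.one_lt, pow_one]
  let W : Layer.Wild Λ :=
    { G := Λ.N
      le_G := le_rfl
      G_le := Λ.le
      normal := fun g hg τ hτ => Λ.N_conj hg hτ
      not_dvd := by
        rw [Λ.D_eq]
        intro hd
        have hnormal : (Λ.N.subgroupOf (A.inertiaSubgroupIn ℚ)).Normal :=
          ⟨fun x hx g => Λ.N_conj g.2 hx⟩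
        obtain ⟨g, hg⟩ : ∃ g : A.inertiaSubgroupIn ℚ ⧸ Λ.N.subgroupOf (A.inertiaSubgroupIn ℚ),
            orderOf g = p := by
          have : Finite (A.inertiaSubgroupIn ℚ ⧸ Λ.N.subgroupOf (A.inertiaSubgroupIn ℚ)) :=
            Nat.finite_of_card_ne_zero (show Λ.N.relIndex _ ≠ 0 by rw [Λ.D_eq]; exact Λ.D_pos.ne')
          exact exists_prime_orderOf_dvd_card' p (Λ.D_eq.symm ▸ hd :)
        obtain ⟨g', rfl⟩ := QuotientGroup.mk'_surjective _ g
        have h1 := orderOf_dvd_of_pow_eq_one (x := QuotientGroup.mk'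
          (Λ.N.subgroupOf (A.inertiaSubgroupIn ℚ)) g') (n := p - 1) (by
          rw [← map_pow, QuotientGroup.mk'_apply, QuotientGroup.eq_one_iff]
          exact hexp g'.1 g'.2)
        rw [hg] at h1
        have := hp.out.two_le
        have := Nat.le_of_dvd (by omega) h1
        omega
      exp := fun g hg => pow_mem hg p
      comm := fun g hg h hh => mul_mem (mul_mem (mul_mem (inv_mem hg) (inv_mem hh)) hg) hh }
  have hD : Λ.D = p - 1 := by
    refine le_antisymm (Nat.le_of_dvd (by have := hp.out.two_le; omega) ?_) ?_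
    · rw [← Λ.D_eq]
      exact W.e_dvd fun g hg => by
        rw [← Λ.chi0_pow hg, Layer.chi0_eq_one_of_mem_N (hexp g hg)]
    · rw [← hDc]
      exact Nat.le_of_dvd Λ.D_pos ⟨_, ((Layer.deg_mul hB).symm.trans (mul_comm _ _))⟩
  obtain ⟨n, hn1, hnD, lam, hadd, ⟨x₁, hx₁, hl⟩, hlam⟩ := S.exists_leading Λ X hX hne
    (fun τ hτ x hx => by
      rw [hΛ] at hτ
      rw [hs τ (Λc.le hτ.1) x hx, hτ.2, one_smul])
  rw [hD] at hnD
  have hn : n = 1 := by
    by_contra hne'
    have := Nat.mul_le_mul_left (p - 1) (show 2 ≤ n by omega)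
    have := hp.out.two_le
    omega
  have hh1 : Layer.relDeg Λ Λc = 1 := by
    have h := Layer.deg_mul hB
    rw [hDc, hD] at h
    exact Nat.eq_of_mul_eq_mul_right (by have := hp.out.two_le; omega) (h.trans (one_mul _).symm)
  have hchi : Λ.chi0 σ = (m : Res A) := by
    rw [← pow_one (Λ.chi0 σ), ← hh1, ← Layer.chi0_below hB hσ, Layer.chi0_cyclo hζ hπc hm]
  have hz : ∀ z : ℕ, lam ((z : ZMod p) • x₁) = z * lam x₁ := fun z => by
    induction z with
    | zero =>
      have h0 := hadd 0 X.zero_mem 0 X.zero_mem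
      rw [add_zero, left_eq_add] at h0
      rw [Nat.cast_zero, zero_smul, h0, Nat.cast_zero, zero_mul]
    | succ z ih =>
      rw [Nat.cast_succ, add_smul, one_smul, hadd _ (X.smul_mem _ hx₁) _ hx₁, ih, Nat.cast_succ,
        add_mul, one_mul]
  have hkey := hlam σ hσ x₁ hx₁
  rw [hn, pow_one, hchi, hs σ hσ x₁ hx₁, ← ZMod.natCast_zmod_val (s σ), hz] at hkey
  have hsm : s σ = (m : ZMod p) := by
    rw [← ZMod.natCast_zmod_val (s σ), ZMod.natCast_eq_natCast_iff]
    exact (CharP.natCast_eq_natCast (Res A) p).mp (mul_right_cancel₀ hl hkey)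
  intro x hx
  rw [hs σ hσ x hx, hsm]

end Sys

section HasModel

variable {V V' : Type} [AddCommGroup V] [Fintype V] [AddCommGroup V'] [Fintype V']

/-- Models restrict along equivariant injections. -/
theorem HasModel.of_injective {act : GQ → V → V} {act' : GQ → V' → V'} (h : HasModel A V act)
    (ι : V' →+ V) (hι : Function.Injective ι)
    (hc : ∀ σ ∈ A.decompositionSubgroup ℚ, ∀ x, ι (act' σ x) = act σ (ι x)) :
    HasModel A V' act' := by
  obtain ⟨M, hM⟩ := h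
  obtain ⟨N, g, hg, -⟩ := M.exists_restrict ι hι
  exact ⟨N, fun σ hσ i x => by rw [hg, hg, hM σ hσ, hc σ hσ]⟩

/-- Products of models. -/
theorem HasModel.pi {ι : Type} [Fintype ι] [DecidableEq ι] {act : ι → GQ → V → V}
    (h : ∀ i, HasModel A V (act i)) :
    HasModel A (ι → V) fun σ x i => act i σ (x i) := by
  choose M hM using h
  refine ⟨Model.pi M, fun σ hσ i x => ?_⟩
  rw [Model.pi_a, Model.pi_a, map_prod]
  exact Finset.prod_congr rfl fun j _ => hM j σ hσ _ _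

end HasModel

section Classes

variable {k : Type} [Field k] [Fintype k] {r : GQ →* M2 k}

lemma r_mul_inv (σ : GQ) : r σ * r σ⁻¹ = 1 := by rw [← map_mul, mul_inv_cancel, map_one]

lemma r_inv_mul (σ : GQ) : r σ⁻¹ * r σ = 1 := by rw [← map_mul, inv_mul_cancel, map_one]

/-- Adding a coboundary does not change flatness. -/
theorem IsFlatClass.add_cob {c c' : GQ → M2 k} (h : IsFlatClass A r c) (X : M2 k)
    (hc' : ∀ σ ∈ A.decompositionSubgroup ℚ, c' σ = c σ + (X - r σ * X * r σ⁻¹)) :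
    IsFlatClass A r c' := by
  refine HasModel.of_injective h
    { toFun := fun x => (x.1, x.2 - X *ᵥ x.1)
      map_zero' := by simp
      map_add' := fun x y => Prod.ext rfl (by
        show _ - _ = _ + _
        rw [Prod.snd_add, Prod.fst_add, mulVec_add]; exact add_sub_add_comm _ _ _ _) } (fun x y hxy => ?_) fun σ hσ x => ?_
  · simp only [AddMonoidHom.coe_mk, ZeroHom.coe_mk, Prod.mk.injEq] at hxy
    exact Prod.ext hxy.1 (by rw [hxy.1] at hxy; exact sub_left_inj.mp hxy.2)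
  · refine Prod.ext rfl ?_
    show r σ *ᵥ x.2 + c' σ *ᵥ (r σ *ᵥ x.1) - X *ᵥ (r σ *ᵥ x.1) =
      r σ *ᵥ (x.2 - X *ᵥ x.1) + c σ *ᵥ (r σ *ᵥ x.1)
    rw [hc' σ hσ, add_mulVec, sub_mulVec, mulVec_mulVec _ (r σ * X * r σ⁻¹) (r σ),
      mul_assoc (r σ * X), r_inv_mul, mul_one, ← mulVec_mulVec x.1 (r σ) X, mulVec_sub]
    abel

/-- The trivial class of a flat representation is flat. -/
theorem isFlatClass_zero (h : IsFlatRes A r) : IsFlatClass A r 0 := by
  refine HasModel.of_injective (HasModel.pi (ι := Fin 2) fun _ => h)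
    { toFun := fun x => ![x.1, x.2]
      map_zero' := by ext i; fin_cases i <;> rfl
      map_add' := fun x y => by funext i; fin_cases i <;> rfl } (fun x y hxy => ?_) fun σ _ x => ?_
  · exact Prod.ext (congrFun hxy 0) (congrFun hxy 1)
  · funext i
    fin_cases i
    · rfl
    · show r σ *ᵥ x.2 + (0 : GQ → M2 k) σ *ᵥ _ = r σ *ᵥ x.2
      rw [Pi.zero_apply, zero_mulVec, add_zero]

/-- Coboundaries are flat. -/
theorem isFlatClass_cob (h : IsFlatRes A r) (X : M2 k) :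
    IsFlatClass A r fun σ => r σ * X * r σ⁻¹ - X :=
  (isFlatClass_zero h).add_cob (-X) fun σ _ => by
    simp only [Pi.zero_apply, zero_add, mul_neg, neg_mul, sub_neg_eq_add]
    abel

end Classes

end FA.LocalDef
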