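import Fermat.Agent.LocalDef.Model
import Mathlib.LinearAlgebra.Dimension.OrzechProperty
import Mathlib.LinearAlgebra.Matrix.NonsingularInverse
import Mathlib.LinearAlgebra.Matrix.Determinant.Basic
import Mathlib.LinearAlgebra.LinearIndependent.Lemmas

/-!
# Operations on models: coordinates, subgroups, products
-/

set_option autoImplicit false
set_option linter.unusedSectionVars false

noncomputable section

namespace FA.LocalDef

variable {L Γ : Type*} [Field L] [CharZero L] [LinearOrderedCommGroupWithZero Γ]
  {v : Valuation L Γ}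

section Coord

variable {V : Type*} [AddCommGroup V] [Fintype V] (M : Model v V)

lemma Model.linearIndependent : LinearIndependent L M.a := by
  refine linearIndependent_of_top_le_span_of_card_eq_finrank (fun f _ => ?_)
    (Module.finrank_fintype_fun_eq_card L).symm
  obtain ⟨d, hd⟩ := M.full f
  rw [hd]
  exact Submodule.sum_mem _ fun i _ => Submodule.smul_mem _ _ (Submodule.subset_span ⟨i, rfl⟩)

lemma Model.coord_unique {c d : V → L} (h : ∑ i, c i • M.a i = ∑ i, d i • M.a i) : c = d := by
  have h0 : ∑ i, (c i - d i) • M.a i = 0 := by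
    simp only [sub_smul, Finset.sum_sub_distrib, h, sub_self]
  exact funext fun i => sub_eq_zero.mp (Fintype.linearIndependent_iff.mp M.linearIndependent _ h0 i)

/-- The coordinates of a function. -/
def Model.coord (f : V → L) : V → L := (M.full f).choose

lemma Model.sum_coord (f : V → L) : f = ∑ i, M.coord f i • M.a i := (M.full f).choose_spec

lemma Model.inSpan_iff (f : V → L) : M.InSpan f ↔ ∀ i, v (M.coord f i) ≤ 1 := by
  refine ⟨fun ⟨c, hc, he⟩ => ?_, fun h => ⟨_, h, M.sum_coord f⟩⟩
  rw [← M.coord_unique (he.symm.trans (M.sum_coord f))]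
  exact hc

lemma Model.coord_sub (f g : V → L) : M.coord (f - g) = M.coord f - M.coord g := by
  refine M.coord_unique ?_
  rw [← M.sum_coord]
  simp only [Pi.sub_apply, sub_smul, Finset.sum_sub_distrib, ← M.sum_coord]

lemma Model.coord_smul (z : L) (f : V → L) : M.coord (z • f) = z • M.coord f := by
  refine M.coord_unique ?_
  rw [← M.sum_coord]
  simp only [Pi.smul_apply, smul_eq_mul, ← smul_smul, ← Finset.smul_sum, ← M.sum_coord]

/-- An automorphism `σ` of `L` compatible with an action on `V` sends coordinates to coordinates. -/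
theorem Model.coord_map {F : Type*} [FunLike F L L] [RingHomClass F L L] (σ : F) (act : V → V)
    (hact : ∀ i x, σ (M.a i x) = M.a i (act x)) (hsurj : Function.Surjective act) {f g : V → L}
    (hfg : ∀ x, σ (f x) = g (act x)) (i : V) : σ (M.coord f i) = M.coord g i := by
  refine congrFun (M.coord_unique (c := fun i => σ (M.coord f i)) ?_) i
  rw [← M.sum_coord g]
  funext y
  obtain ⟨x, rfl⟩ := hsurj y
  rw [← hfg]
  conv_rhs => rw [M.sum_coord f]
  simp [hact]

/-- Coordinates applied to a point compute the function. -/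
lemma Model.apply_eq_sum (f : V → L) (x : V) : f x = ∑ i, M.coord f i * M.a i x := by
  conv_lhs => rw [M.sum_coord f]
  simp

end Coord

section Family

variable {V : Type*} [AddCommGroup V] [Fintype V] {ι : Type*} [Fintype ι] (f : ι → V → L)

/-- A model from an integral spanning family closed under the operations: a suitable sub-family
is a basis of the lattice. -/
theorem exists_model_of_family (hspan : Submodule.span L (Set.range f) = ⊤)
    (hint : ∀ i x, v (f i x) ≤ 1)
    (hone : ∃ c : ι → L, (∀ i, v (c i) ≤ 1) ∧ ∀ x, 1 = ∑ i, c i * f i x)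
    (hmul : ∀ i j, ∃ c : ι → L, (∀ k, v (c k) ≤ 1) ∧ ∀ x, f i x * f j x = ∑ k, c k * f k x)
    (hcomul : ∀ i, ∃ c : ι → ι → L, (∀ j k, v (c j k) ≤ 1) ∧
      ∀ x y, f i (x + y) = ∑ j, ∑ k, c j k * f j x * f k y) :
    ∃ (M : Model v V) (g : V → ι), (∀ i, M.a i = f (g i)) ∧ ∀ j, M.InSpan (f j) := by
  classical
  have hι : Nonempty (V → ι) := by
    obtain ⟨c, -, hc⟩ := hone
    have : Nonempty ι := by
      by_contra h
      rw [not_nonempty_iff] at h
      simpa using hc 0
    exact inferInstance
  let mat : (V → ι) → Matrix V V L := fun g => Matrix.of fun i x => f (g i) x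
  obtain ⟨g, -, hg⟩ := Finset.exists_max_image (Finset.univ : Finset (V → ι))
    (fun g => v (mat g).det) Finset.univ_nonempty
  have hne : ∃ g : V → ι, (mat g).det ≠ 0 := by
    obtain ⟨κ, a, -, hsp, hli⟩ := exists_linearIndependent' (K := L) f
    rw [hspan] at hsp
    let B : Module.Basis κ L (V → L) := Module.Basis.mk hli hsp.ge
    let e : V ≃ κ := (Pi.basisFun L V).indexEquiv B
    refine ⟨a ∘ e, ?_⟩
    have hrows : LinearIndependent L (mat (a ∘ e)).row := hli.comp e e.injective
    exact (Matrix.isUnit_iff_isUnit_det _).mp (Matrix.linearIndependent_rows_iff_isUnit.mp hrows)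
      |>.ne_zero
  have hdet : (mat g).det ≠ 0 := by
    obtain ⟨g', hg'⟩ := hne
    intro h0
    have := hg g' (Finset.mem_univ _)
    rw [h0, map_zero, le_zero_iff, map_eq_zero] at this
    exact hg' this
  have hfull : ∀ F : V → L, ∃ d : V → L, F = ∑ i, d i • f (g i) := fun F => by
    refine ⟨Matrix.vecMul F (mat g)⁻¹, ?_⟩
    have e := Matrix.vecMul_vecMul F (mat g)⁻¹ (mat g)
    rw [Matrix.nonsing_inv_mul _ (Ne.isUnit hdet), Matrix.vecMul_one] at e
    conv_lhs => rw [← e]
    funext x
    simp [Matrix.vecMul, dotProduct, mat]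
  have hj : ∀ j, ∃ c : V → L, (∀ i, v (c i) ≤ 1) ∧ f j = ∑ i, c i • f (g i) := by
    intro j
    obtain ⟨c, hc⟩ := hfull (f j)
    refine ⟨c, fun i => ?_, hc⟩
    have h1 : mat (Function.update g i j) = (mat g).updateRow i (∑ k, c k • mat g k) := by
      ext a x
      rcases eq_or_ne a i with rfl | ha
      · rw [Matrix.updateRow_self]
        simp only [mat, Matrix.of_apply, Function.update_self]
        rw [hc]
        simp [Finset.sum_apply]
      · rw [Matrix.updateRow_ne ha]
        simp only [mat, Matrix.of_apply, Function.update_of_ne ha]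
    have h2 := hg (Function.update g i j) (Finset.mem_univ _)
    rw [h1, Matrix.det_updateRow_sum, smul_eq_mul, map_mul] at h2
    exact le_of_mul_le_mul_right (h2.trans_eq (one_mul _).symm) (v.pos_iff.mpr hdet)
  choose C hC hCe using hj
  have conv : ∀ c : ι → L, (∀ k, v (c k) ≤ 1) → ∃ d : V → L, (∀ i, v (d i) ≤ 1) ∧
      ∀ x, ∑ k, c k * f k x = ∑ i, d i * f (g i) x := fun c hc =>
    ⟨fun i => ∑ k, c k * C k i, fun i => map_sum_mul_le (fun k _ => hc k) fun k _ => hC k i,
      fun x => by
        simp only [Finset.sum_mul]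
        rw [Finset.sum_comm]
        refine Finset.sum_congr rfl fun k _ => ?_
        rw [hCe k]
        simp [Finset.mul_sum, mul_assoc]⟩
  refine ⟨{ a := fun i => f (g i)
            full := hfull
            int := fun i x => hint _ x
            one := ?_, mul := ?_, comul := ?_ }, g, fun i => rfl, fun j => ⟨C j, hC j, hCe j⟩⟩
  · obtain ⟨c, hc, he⟩ := hone
    obtain ⟨d, hd, hde⟩ := conv c hc
    exact ⟨d, hd, fun x => (he x).trans (hde x)⟩
  · intro i j
    obtain ⟨c, hc, he⟩ := hmul (g i) (g j)
    obtain ⟨d, hd, hde⟩ := conv c hc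
    exact ⟨d, hd, fun x => (he x).trans (hde x)⟩
  · intro i
    obtain ⟨c, hc, he⟩ := hcomul (g i)
    refine ⟨fun a b => ∑ j, ∑ k, c j k * (C j a * C k b), fun a b => ?_, fun x y => ?_⟩
    · refine v.map_sum_le fun j _ => map_sum_mul_le (fun k _ => hc j k) fun k _ => ?_
      rw [map_mul]; exact mul_le_one' (hC j a) (hC k b)
    · rw [he]
      calc ∑ j, ∑ k, c j k * f j x * f k y
          = ∑ j, ∑ k, ∑ a, ∑ b, c j k * (C j a * C k b) * f (g a) x * f (g b) y := by
            refine Finset.sum_congr rfl fun j _ => Finset.sum_congr rfl fun k _ => ?_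
            conv_lhs => rw [hCe j, hCe k]
            simp only [Finset.sum_apply, Pi.smul_apply, smul_eq_mul, Finset.mul_sum, Finset.sum_mul]
            rw [Finset.sum_comm]
            exact Finset.sum_congr rfl fun a _ => Finset.sum_congr rfl fun b _ => by ring
        _ = _ := by
            simp only [Finset.sum_mul]
            rw [Finset.sum_congr rfl fun j _ => Finset.sum_comm, Finset.sum_comm]
            refine Finset.sum_congr rfl fun a _ => ?_
            rw [Finset.sum_congr rfl fun j _ => Finset.sum_comm, Finset.sum_comm]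

end Family

section Restrict

variable {V : Type*} [AddCommGroup V] [Fintype V] (M : Model v V)

/-- The restriction of a model to a subgroup. -/
theorem Model.exists_restrict {S : Type*} [AddCommGroup S] [Fintype S] (ι : S →+ V)
    (hι : Function.Injective ι) :
    ∃ (N : Model v S) (g : S → V), (∀ i x, N.a i x = M.a (g i) (ι x)) ∧
      ∀ j, N.InSpan fun x => M.a j (ι x) := by
  classical
  have hspan : Submodule.span L (Set.range fun j => fun x => M.a j (ι x)) = ⊤ := by
    refine eq_top_iff.mpr fun F _ => ?_
    obtain ⟨d, hd⟩ := M.full (Function.extend ι F 0)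
    have e : F = ∑ j, d j • fun x => M.a j (ι x) := funext fun x => by
      have := congrFun hd (ι x)
      rw [hι.extend_apply] at this
      simpa using this
    rw [e]
    exact Submodule.sum_mem _ fun j _ => Submodule.smul_mem _ _ (Submodule.subset_span ⟨j, rfl⟩)
  obtain ⟨N, g, hg, hN⟩ := exists_model_of_family (fun j => fun x => M.a j (ι x)) hspan
    (fun j x => M.int j _) (by obtain ⟨c, hc, he⟩ := M.one; exact ⟨c, hc, fun x => he _⟩)
    (fun i j => by obtain ⟨c, hc, he⟩ := M.mul i j; exact ⟨c, hc, fun x => he _⟩)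
    (fun i => by
      obtain ⟨c, hc, he⟩ := M.comul i
      exact ⟨c, hc, fun x y => by rw [map_add]; exact he _ _⟩)
  exact ⟨N, g, fun i x => by rw [hg], hN⟩

end Restrict

section Prod

variable {ι : Type*} [Fintype ι] [DecidableEq ι] {V : ι → Type*} [∀ i, AddCommGroup (V i)]
  [∀ i, Fintype (V i)] (M : ∀ i, Model v (V i))

open scoped Classical in
lemma pi_delta (d : ∀ i, V i → V i → L)
    (hd : ∀ i y z, ∑ j, d i y j * (M i).a j z = if z = y then 1 else 0) (x y : ∀ i, V i) :
    ∑ J : ∀ i, V i, (∏ i, d i (y i) (J i)) * ∏ i, (M i).a (J i) (x i) =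
      if x = y then 1 else 0 := by
  calc ∑ J : ∀ i, V i, (∏ i, d i (y i) (J i)) * ∏ i, (M i).a (J i) (x i)
      = ∑ J : ∀ i, V i, ∏ i, d i (y i) (J i) * (M i).a (J i) (x i) :=
        Finset.sum_congr rfl fun J _ => Finset.prod_mul_distrib.symm
    _ = ∏ i, ∑ j, d i (y i) j * (M i).a j (x i) :=
        (Fintype.prod_sum fun i j => d i (y i) j * (M i).a j (x i)).symm
    _ = ∏ i, if x i = y i then (1 : L) else 0 := Finset.prod_congr rfl fun i _ => hd i _ _
    _ = _ := by
      by_cases hxy : x = y
      · subst hxy; rw [if_pos rfl]; exact Finset.prod_eq_one fun i _ => if_pos rfl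
      · obtain ⟨i, hi⟩ := Function.ne_iff.mp hxy
        rw [if_neg hxy]
        exact Finset.prod_eq_zero (Finset.mem_univ i) (if_neg hi)

open scoped Classical in
lemma pi_full (F : (∀ i, V i) → L) :
    ∃ d : (∀ i, V i) → L, F = ∑ J, d J • fun x => ∏ i, (M i).a (J i) (x i) := by
  classical
  have h1 : ∀ i, ∀ y : V i, ∃ d : V i → L, ∀ z, ∑ j, d j * (M i).a j z = if z = y then 1 else 0 :=
    fun i y => by
      obtain ⟨d, hd⟩ := (M i).full fun z => if z = y then (1 : L) else 0
      refine ⟨d, fun z => ?_⟩
      rw [show (if z = y then (1 : L) else 0) = (∑ j, d j • (M i).a j) z from congrFun hd z,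
        Finset.sum_apply]
      rfl
  choose d hd using h1
  refine ⟨fun J => ∑ y, F y * ∏ i, d i (y i) (J i), funext fun x => ?_⟩
  rw [Finset.sum_apply]
  calc F x = ∑ y, F y * if x = y then 1 else 0 := by
        simp only [mul_ite, mul_one, mul_zero, Finset.sum_ite_eq, Finset.mem_univ, if_true]
    _ = ∑ y, ∑ J : ∀ i, V i, F y * ((∏ i, d i (y i) (J i)) * ∏ i, (M i).a (J i) (x i)) :=
        Finset.sum_congr rfl fun y _ => by rw [← pi_delta M d hd, Finset.mul_sum]
    _ = _ := by
        rw [Finset.sum_comm]
        refine Finset.sum_congr rfl fun J _ => ?_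
        rw [Pi.smul_apply, smul_eq_mul, Finset.sum_mul]
        exact Finset.sum_congr rfl fun y _ => (mul_assoc _ _ _).symm

/-- The product of models. -/
def Model.pi : Model v (∀ i, V i) where
  a J x := ∏ i, (M i).a (J i) (x i)
  full := pi_full M
  int J x := by rw [map_prod]; exact Finset.prod_le_one (fun _ _ => zero_le) fun i _ => (M i).int _ _
  one := by
    classical
    choose c hc he using fun i => (M i).one
    refine ⟨fun J => ∏ i, c i (J i), fun J => ?_, fun x => ?_⟩
    · rw [map_prod]; exact Finset.prod_le_one (fun _ _ => zero_le) fun i _ => hc i _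
    · calc (1 : L) = ∏ i, ∑ j, c i j * (M i).a j (x i) :=
            (Finset.prod_eq_one fun i _ => (he i (x i)).symm).symm
        _ = ∑ J : ∀ i, V i, ∏ i, c i (J i) * (M i).a (J i) (x i) :=
            Fintype.prod_sum fun i j => c i j * (M i).a j (x i)
        _ = _ := Finset.sum_congr rfl fun J _ => Finset.prod_mul_distrib
  mul I J := by
    classical
    choose c hc he using fun i => (M i).mul (I i) (J i)
    refine ⟨fun K => ∏ i, c i (K i), fun K => ?_, fun x => ?_⟩
    · rw [map_prod]; exact Finset.prod_le_one (fun _ _ => zero_le) fun i _ => hc i _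
    · calc (∏ i, (M i).a (I i) (x i)) * ∏ i, (M i).a (J i) (x i)
          = ∏ i, ∑ j, c i j * (M i).a j (x i) :=
            Finset.prod_mul_distrib.symm.trans (Finset.prod_congr rfl fun i _ => he i (x i))
        _ = ∑ K : ∀ i, V i, ∏ i, c i (K i) * (M i).a (K i) (x i) :=
            Fintype.prod_sum fun i j => c i j * (M i).a j (x i)
        _ = _ := Finset.sum_congr rfl fun K _ => Finset.prod_mul_distrib
  comul I := by
    classical
    choose c hc he using fun i => (M i).comul (I i)
    refine ⟨fun J K => ∏ i, c i (J i) (K i), fun J K => ?_, fun x y => ?_⟩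
    · rw [map_prod]; exact Finset.prod_le_one (fun _ _ => zero_le) fun i _ => hc i _ _
    · calc ∏ i, (M i).a (I i) ((x + y) i)
          = ∏ i, ∑ j, ∑ k, c i j k * (M i).a j (x i) * (M i).a k (y i) :=
            Finset.prod_congr rfl fun i _ => he i (x i) (y i)
        _ = ∑ J : ∀ i, V i, ∏ i, ∑ k, c i (J i) k * (M i).a (J i) (x i) * (M i).a k (y i) :=
            Fintype.prod_sum fun i j => ∑ k, c i j k * (M i).a j (x i) * (M i).a k (y i)
        _ = ∑ J : ∀ i, V i, ∑ K : ∀ i, V i,
              ∏ i, c i (J i) (K i) * (M i).a (J i) (x i) * (M i).a (K i) (y i) :=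
            Finset.sum_congr rfl fun J _ =>
              Fintype.prod_sum fun i k => c i (J i) k * (M i).a (J i) (x i) * (M i).a k (y i)
        _ = _ := Finset.sum_congr rfl fun J _ => Finset.sum_congr rfl fun K _ => by
            rw [Finset.prod_mul_distrib, Finset.prod_mul_distrib]

lemma Model.pi_a (J x : ∀ i, V i) : (Model.pi M).a J x = ∏ i, (M i).a (J i) (x i) := rfl

end Prod

end FA.LocalDef
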