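import Fermat.Agent.LocalDef.Unr
import Fermat.Agent.Deform.Frobenius
import Fermat.Prelude.Def_EllipticCurve_FrobeniusTrace
import Mathlib.Algebra.CharP.Algebra
import Mathlib.Algebra.CharP.Lemmas
import Mathlib.FieldTheory.Finite.Basic
import Mathlib.GroupTheory.OrderOfElement

/-!
# Residues, decomposition elements and Frobenius at a place of `ℚ̄`
-/

set_option autoImplicit false
set_option linter.unusedSectionVars false

noncomputable section

open FA.Deform FA.Local NumberField
open scoped Pointwise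

namespace FA.LocalDef

local notation "Qb" => AlgebraicClosure ℚ
local notation "GQ" => AlgebraicClosure ℚ ≃ₐ[ℚ] AlgebraicClosure ℚ

variable {A : ValuationSubring Qb} {p : ℕ}

/-- The residue field of a place. -/
abbrev Res (A : ValuationSubring Qb) : Type := IsLocalRing.ResidueField A

/-- The residue class of an integral element, `0` otherwise. -/
def res (A : ValuationSubring Qb) (x : Qb) : Res A :=
  open Classical in if h : x ∈ A then IsLocalRing.residue A ⟨x, h⟩ else 0

lemma mem_of_map_le {x : Qb} (h : A.valuation x ≤ 1) : x ∈ A := (A.valuation_le_one_iff x).mp h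

lemma res_eq {x : Qb} (h : A.valuation x ≤ 1) :
    res A x = IsLocalRing.residue A ⟨x, mem_of_map_le h⟩ := dif_pos _

lemma res_eq_zero_iff {x : Qb} (h : A.valuation x ≤ 1) : res A x = 0 ↔ A.valuation x < 1 := by
  rw [res_eq h, IsLocalRing.residue_eq_zero_iff, ← A.coe_mem_nonunits_iff, A.mem_nonunits_iff]

lemma res_add {x y : Qb} (hx : A.valuation x ≤ 1) (hy : A.valuation y ≤ 1) :
    res A (x + y) = res A x + res A y := by
  rw [res_eq hx, res_eq hy, res_eq (A.valuation.map_add_le hx hy), ← map_add]; rfl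

lemma res_mul {x y : Qb} (hx : A.valuation x ≤ 1) (hy : A.valuation y ≤ 1) :
    res A (x * y) = res A x * res A y := by
  rw [res_eq hx, res_eq hy,
    res_eq (map_mul_le_one hx hy), ← map_mul]; rfl

lemma res_one : res A (1 : Qb) = 1 := by
  rw [res_eq (by simp)]; exact map_one _

lemma res_zero : res A (0 : Qb) = 0 := by
  rw [res_eq (by simp)]; exact map_zero _

lemma res_natCast (n : ℕ) : res A (n : Qb) = n := by
  rw [res_eq (natCast_le_one n)]
  exact (congrArg (IsLocalRing.residue A) (Subtype.ext (by simp))).trans (map_natCast _ n)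

lemma res_congr {x y : Qb} (hy : A.valuation y ≤ 1) (h : A.valuation (x - y) < 1) :
    res A x = res A y := by
  have hxy : A.valuation (x - y) ≤ 1 := h.le
  rw [show x = (x - y) + y by ring, res_add hxy hy, (res_eq_zero_iff hxy).mpr h, zero_add]

lemma res_pow {x : Qb} (hx : A.valuation x ≤ 1) (n : ℕ) : res A (x ^ n) = res A x ^ n := by
  induction n with
  | zero => rw [pow_zero, pow_zero, res_one]
  | succ n ih => rw [pow_succ, pow_succ, res_mul (map_pow_le_one hx n) hx, ih]

lemma res_charP (hp : p.Prime) (hA : A.LiesOverPrime p) : CharP (Res A) p := by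
  refine (CharP.charP_iff_prime_eq_zero hp).mpr ?_
  rw [← map_natCast (IsLocalRing.residue A), IsLocalRing.residue_eq_zero_iff,
    ← A.coe_mem_nonunits_iff]
  rw [ValuationSubring.LiesOverPrime] at hA
  simpa using hA

lemma valuation_p_lt_one (hA : A.LiesOverPrime p) : A.valuation (p : Qb) < 1 :=
  A.mem_nonunits_iff.mp hA

lemma decomp_map_le {σ : GQ} (hσ : σ ∈ A.decompositionSubgroup ℚ) {x : Qb}
    (hx : A.valuation x ≤ 1) : A.valuation (σ x) ≤ 1 := by
  rw [A.valuation_le_one_iff] at hx ⊢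
  have := ValuationSubring.smul_mem_pointwise_smul σ x A hx
  rwa [show σ • A = A from hσ] at this

/-- Decomposition elements preserve the valuation. -/
theorem decomp_map_eq {σ : GQ} (hσ : σ ∈ A.decompositionSubgroup ℚ) (x : Qb) :
    A.valuation (σ x) = A.valuation x := by
  by_cases hx : x = 0
  · simp [hx]
  have hlt : ∀ a, A.valuation a < 1 → A.valuation (σ a) < 1 := by
    intro a ha
    refine lt_of_le_of_ne (decomp_map_le hσ ha.le) fun h1 => ?_
    have ha0 : a ≠ 0 := fun h0 => by simp [h0] at h1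
    have h' := decomp_map_le ((A.decompositionSubgroup ℚ).inv_mem hσ)
      (x := (σ a)⁻¹) (by rw [map_inv₀, h1, inv_one])
    rw [map_inv₀, AlgEquiv.aut_inv, AlgEquiv.symm_apply_apply, map_inv₀] at h'
    exact absurd ((inv_le_one₀ (A.valuation.pos_iff.mpr ha0)).mp h') (not_le.mpr ha)
  obtain ⟨n, hn0, hn⟩ : ∃ n : ℕ, 0 < n ∧ (σ ^ n) x = x := by
    have hfin : (Set.range fun i : ℕ => (σ ^ i) x).Finite := by
      refine Set.Finite.subset ((minpoly ℚ x).rootSet_finite Qb) ?_
      rintro _ ⟨i, rfl⟩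
      rw [Polynomial.mem_rootSet]
      refine ⟨minpoly.ne_zero (Algebra.IsAlgebraic.isAlgebraic x).isIntegral, ?_⟩
      show Polynomial.aeval ((σ ^ i : GQ) x) (minpoly ℚ x) = 0
      rw [← AlgEquiv.coe_toAlgHom, Polynomial.aeval_algHom_apply, minpoly.aeval, map_zero]
    obtain ⟨i, j, hij, h⟩ : ∃ i j : ℕ, i < j ∧ (σ ^ i) x = (σ ^ j) x := by
      by_contra hc
      refine Set.infinite_range_of_injective (fun i j h => ?_) hfin
      rcases lt_trichotomy i j with h' | h' | h'
      · exact absurd ⟨i, j, h', h⟩ hc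
      · exact h'
      · exact absurd ⟨j, i, h', h.symm⟩ hc
    refine ⟨j - i, by omega, (σ ^ i).injective ?_⟩
    rw [← AlgEquiv.mul_apply, ← pow_add, show i + (j - i) = j by omega]
    exact h.symm
  have hmono : ∀ a b, A.valuation a < A.valuation b → A.valuation (σ a) < A.valuation (σ b) := by
    intro a b hab
    have hb : b ≠ 0 := A.valuation.pos_iff.mp (lt_of_le_of_lt zero_le hab)
    have hfb : 0 < A.valuation (σ b) := A.valuation.pos_iff.mpr (by simpa using hb)
    have h := hlt (a / b) (map_div_lt_one hab)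
    rwa [map_div₀, map_div₀, div_lt_one₀ hfb] at h
  have hpow : ∀ i, (σ ^ (i + 1)) x = σ ((σ ^ i) x) := fun i => by
    rw [pow_succ', AlgEquiv.mul_apply]
  rcases lt_trichotomy (A.valuation (σ x)) (A.valuation x) with h | h | h
  · have : StrictAnti fun i : ℕ => A.valuation ((σ ^ i) x) := strictAnti_nat_of_succ_lt fun i => by
      induction i with
      | zero => simpa using h
      | succ i ih => simpa only [hpow] using hmono _ _ ih
    have := this hn0
    simp only [hn, pow_zero, AlgEquiv.one_apply] at this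
    exact absurd this (lt_irrefl _)
  · exact h
  · have : StrictMono fun i : ℕ => A.valuation ((σ ^ i) x) := strictMono_nat_of_lt_succ fun i => by
      induction i with
      | zero => simpa using h
      | succ i ih => simpa only [hpow] using hmono _ _ ih
    have := this hn0
    simp only [hn, pow_zero, AlgEquiv.one_apply] at this
    exact absurd this (lt_irrefl _)

lemma inertia_le_decomposition {σ : GQ} (hσ : σ ∈ A.inertiaSubgroupIn ℚ) :
    σ ∈ A.decompositionSubgroup ℚ := by
  obtain ⟨τ, -, rfl⟩ := hσ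
  exact τ.2

lemma res_inertia {σ : GQ} (hσ : σ ∈ A.inertiaSubgroupIn ℚ) {x : Qb} (hx : A.valuation x ≤ 1) :
    res A (σ x) = res A x :=
  res_congr hx ((inert_of_mem_inertiaSubgroupIn A hσ).sub_lt x hx)

/-- Inertia is normal in the decomposition group. -/
theorem conj_mem_inertia (hp : p.Prime) (hA : A.LiesOverPrime p) {F σ : GQ}
    (hF : F ∈ A.decompositionSubgroup ℚ) (hσ : σ ∈ A.inertiaSubgroupIn ℚ) :
    F * σ * F⁻¹ ∈ A.inertiaSubgroupIn ℚ := by
  refine mem_inertiaSubgroupIn_of_forall hp hA fun b => ?_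
  rw [mem_primeAt, A.mem_nonunits_iff]
  have hb : A.valuation (F⁻¹ (b : Qb)) ≤ 1 :=
    decomp_map_le ((A.decompositionSubgroup ℚ).inv_mem hF)
      ((A.valuation_le_one_iff _).mpr (zbar_mem_valuationSubring A b))
  show A.valuation (((F * σ * F⁻¹) • b - b : ZBar) : Qb) < 1
  rw [AddSubgroupClass.coe_sub, integralClosure.coe_smul, AlgEquiv.smul_def,
    show (F * σ * F⁻¹) (b : Qb) - (b : Qb) = F (σ (F⁻¹ (b : Qb)) - F⁻¹ (b : Qb)) by
      simp [AlgEquiv.mul_apply, AlgEquiv.aut_inv],
    decomp_map_eq hF]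
  exact (inert_of_mem_inertiaSubgroupIn A hσ).sub_lt _ hb

theorem conj_inv_mem_inertia (hp : p.Prime) (hA : A.LiesOverPrime p) {F σ : GQ}
    (hF : F ∈ A.decompositionSubgroup ℚ) (hσ : σ ∈ A.inertiaSubgroupIn ℚ) :
    F⁻¹ * σ * F ∈ A.inertiaSubgroupIn ℚ := by
  simpa using conj_mem_inertia hp hA ((A.decompositionSubgroup ℚ).inv_mem hF) hσ

/-- A high power of a small element is smaller than any given one. -/
theorem arch (hp : p.Prime) (hA : A.LiesOverPrime p) (y y₀ : Qb) (hy : A.valuation y < 1)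
    (hy₀ : y₀ ≠ 0) : ∃ n : ℕ, A.valuation y ^ n ≤ A.valuation y₀ := by
  obtain ⟨E, hfin, hgal, hE⟩ := exists_normal_layer {y, y₀}
  obtain ⟨b, hb, -⟩ := exists_unif_layer E hp hA
  have hy0E : y₀ ∈ E := hE y₀ (by simp)
  obtain ⟨m, hm⟩ := hb.exists_zpow ⟨y₀, hy0E⟩ (fun h => hy₀ (congrArg Subtype.val h))
  have hyb : A.valuation y ≤ A.valuation (b : Qb) := hb.le_of_lt_one (z := ⟨y, hE y (by simp)⟩) hy
  refine ⟨m.toNat, (pow_le_pow_left₀ zero_le hyb _).trans ?_⟩
  rw [show A.valuation y₀ = A.valuation (b : Qb) ^ m from hm, ← zpow_natCast]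
  exact zpow_le_zpow_right_of_le_one₀ hb.pos hb.lt_one.le (Int.self_le_toNat m)

/-- A Frobenius element. -/
theorem exists_frobenius (hp : p.Prime) (hA : A.LiesOverPrime p) :
    ∃ F : GQ, F ∈ A.decompositionSubgroup ℚ ∧
      ∀ x : Qb, A.valuation x ≤ 1 → res A (F x) = res A x ^ p := by
  obtain ⟨F, hF⟩ := exists_isFrobeniusAt hp hA
  refine ⟨F, hF.mem_decompositionSubgroup, fun x hx => ?_⟩
  rw [res_eq hx, res_eq (decomp_map_le hF.mem_decompositionSubgroup hx)]
  have := hF.smul_residue_eq (IsLocalRing.residue A ⟨x, mem_of_map_le hx⟩)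
  rwa [← IsLocalRing.ResidueField.residue_smul] at this

end FA.LocalDef
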