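import Fermat.Agent.LocalDef.Defs
import Fermat.Agent.LocalDef.ModelOps
import Fermat.Agent.LocalDef.Qbar
import Fermat.Prelude.Def_GaloisRep_Flat
import Mathlib.RingTheory.HopfAlgebra.Basic

/-!
# Finite flat Hopf algebras give models

The points of a finite Hopf algebra over `ℤ₍ₚ₎` with values in `ℚ̄` form a group; the functions
given by the elements of the algebra form a model of this group at every place over `p`.
-/

set_option autoImplicit false
set_option linter.unusedSectionVars false

noncomputable section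

open GaloisRep TensorProduct WithConv FA.Local

namespace FA.LocalDef

local notation "Qb" => AlgebraicClosure ℚ
local notation "GQ" => AlgebraicClosure ℚ ≃ₐ[ℚ] AlgebraicClosure ℚ

variable {A : ValuationSubring Qb} {p : ℕ}

lemma valuation_natCast_eq_one (hA : A.LiesOverPrime p) {n : ℕ} (hn : n.Coprime p) :
    A.valuation (n : Qb) = 1 := by
  refine le_antisymm (natCast_le_one n) (not_lt.mp fun h => ?_)
  have he : ((Nat.gcdA n p : ℤ) : Qb) * n + (Nat.gcdB n p : ℤ) * (p : Qb) = 1 := by
    have h1 := Nat.gcd_eq_gcd_ab n p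
    rw [hn.gcd_eq_one] at h1
    have h2 := congrArg (fun z : ℤ => (z : Qb)) h1
    push_cast at h2
    linear_combination -h2
  have hint : ∀ z : ℤ, A.valuation (z : Qb) ≤ 1 := fun z =>
    (A.valuation_le_one_iff _).mpr (intCast_mem A z)
  have hlt : A.valuation (1 : Qb) < 1 := by
    rw [← he]
    refine A.valuation.map_add_lt ?_ ?_ <;> rw [map_mul]
    · exact lt_of_le_of_lt (mul_le_of_le_one_left' (hint _)) h
    · exact lt_of_le_of_lt (mul_le_of_le_one_left' (hint _)) (valuation_p_lt_one hA)
  simp at hlt

lemma valuation_ratLocalizedAt_le (hA : A.LiesOverPrime p) (c : ratLocalizedAt p) :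
    A.valuation (algebraMap (ratLocalizedAt p) Qb c) ≤ 1 := by
  have h : (algebraMap (ratLocalizedAt p) Qb c) = algebraMap ℚ Qb (c : ℚ) := rfl
  rw [h, ← Rat.num_div_den (c : ℚ), map_div₀, map_div₀, map_intCast, map_natCast,
    valuation_natCast_eq_one hA c.2, div_one]
  exact (A.valuation_le_one_iff _).mpr (intCast_mem A _)

variable {H : Type} [CommRing H] [HopfAlgebra (ratLocalizedAt p) H]
  {W : Type} [AddCommGroup W] [Fintype W]

/-- The points of a finite Hopf algebra, labelled by a group, give a model. -/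
theorem hasModel_of_hopf (hA : A.LiesOverPrime p) [Module.Finite (ratLocalizedAt p) H]
    (e : WithConv (H →ₐ[ratLocalizedAt p] Qb) ≃ W)
    (he : ∀ f g : WithConv (H →ₐ[ratLocalizedAt p] Qb), e (f * g) = e f + e g)
    (act : GQ → W → W)
    (hact : ∀ (σ : GQ) (f g : WithConv (H →ₐ[ratLocalizedAt p] Qb)),
      (∀ h : H, g h = σ (f h)) → e g = act σ (e f)) :
    HasModel A W act := by
  classical
  obtain ⟨s, hs⟩ := Module.Finite.fg_top (R := ratLocalizedAt p) (M := H)
  let F : H → W → Qb := fun h x => (e.symm x).ofConv h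
  -- integral combinations of the generators
  have hgen : ∀ h : H, ∃ c : s → Qb, (∀ j, A.valuation (c j) ≤ 1) ∧
      ∀ x, F h x = ∑ j, c j * F j x := by
    intro h
    obtain ⟨c, -, hc⟩ := Submodule.mem_span_finset.mp (show h ∈ Submodule.span _ (s : Set H) by
      rw [hs]; trivial)
    refine ⟨fun j => algebraMap _ Qb (c j), fun j => valuation_ratLocalizedAt_le hA _, fun x => ?_⟩
    show (e.symm x).ofConv h = _
    rw [← hc, map_sum, ← Finset.sum_coe_sort]
    exact Finset.sum_congr rfl fun j _ => by rw [map_smul, Algebra.smul_def]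
  have hint : ∀ (j : s) x, A.valuation (F j x) ≤ 1 := by
    intro j x
    obtain ⟨j₀, -, hj₀⟩ := Finset.exists_max_image Finset.univ (fun j : s => A.valuation (F j x))
      ⟨j, Finset.mem_univ j⟩
    refine (hj₀ j (Finset.mem_univ j)).trans ?_
    obtain ⟨c, hc, hcx⟩ := hgen ((j₀ : H) * j₀)
    have h2 : A.valuation (F j₀ x) * A.valuation (F j₀ x) ≤ A.valuation (F j₀ x) := by
      rw [← map_mul, show F j₀ x * F j₀ x = F ((j₀ : H) * j₀) x from (map_mul _ _ _).symm, hcx]
      exact map_sum_mul_le (fun k _ => hc k) fun k _ => hj₀ k (Finset.mem_univ k)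
    by_contra hc'
    rw [not_le] at hc'
    exact absurd h2 (not_le.mpr (lt_mul_left (zero_lt_one.trans hc') hc'))
  -- tensors
  have htens : ∀ t : H ⊗[ratLocalizedAt p] H, ∃ c : s → s → Qb,
      (∀ j k, A.valuation (c j k) ≤ 1) ∧ ∀ f g : W,
        Algebra.TensorProduct.lift (e.symm f).ofConv (e.symm g).ofConv (fun _ _ => .all ..) t =
          ∑ j, ∑ k, c j k * F j f * F k g := by
    intro t
    induction t using TensorProduct.induction_on with
    | zero => exact ⟨0, fun j k => by simp, fun f g => by simp⟩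
    | tmul a b =>
      obtain ⟨c, hc, hca⟩ := hgen a
      obtain ⟨d, hd, hdb⟩ := hgen b
      refine ⟨fun j k => c j * d k, fun j k => ?_, fun f g => ?_⟩
      · rw [map_mul]; exact mul_le_one' (hc j) (hd k)
      · rw [Algebra.TensorProduct.lift_tmul]
        show F a f * F b g = _
        rw [hca, hdb, Finset.sum_mul_sum]
        exact Finset.sum_congr rfl fun j _ => Finset.sum_congr rfl fun k _ => by ring
    | add u w hu hw =>
      obtain ⟨c, hc, hcu⟩ := hu
      obtain ⟨d, hd, hdw⟩ := hw
      refine ⟨c + d, fun j k => (A.valuation).map_add_le (hc j k) (hd j k), fun f g => ?_⟩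
      simp only [map_add, hcu, hdw, Pi.add_apply, add_mul, Finset.sum_add_distrib]
  -- the generators span all functions
  have hspan : Submodule.span Qb (Set.range fun j : s => F j) = ⊤ := by
    by_contra hne
    obtain ⟨φ, hφ, hle⟩ := Submodule.exists_le_ker_of_lt_top _ (lt_top_iff_ne_top.mpr hne)
    let pts : W → (H →* Qb) := fun x => (e.symm x).ofConv.toRingHom.toMonoidHom
    have hinj : Function.Injective pts := fun x y h => e.symm.injective
      (WithConv.ofConv_injective (AlgHom.ext (DFunLike.congr_fun h :)))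
    have hli := Fintype.linearIndependent_iff.mp ((linearIndependent_monoidHom H Qb).comp pts hinj)
    refine hφ ?_
    have h0 : ∀ x, φ (Pi.single x 1) = 0 := hli (fun x => φ (Pi.single x 1)) (funext fun h => by
      obtain ⟨c, -, hc⟩ := hgen h
      have hFh : φ (F h) = 0 := by
        rw [show F h = ∑ j, c j • F j from funext fun x => by simp [hc], map_sum]
        exact Finset.sum_eq_zero fun j _ => by
          rw [map_smul, show φ (F j) = 0 from hle (Submodule.subset_span ⟨j, rfl⟩), smul_zero]
      rw [Finset.sum_apply, Pi.zero_apply, ← hFh]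
      conv_rhs => rw [pi_eq_sum_univ' (F h), map_sum]
      simp [pts, F, mul_comm])
    exact LinearMap.pi_ext fun x c => by
      rw [show (Pi.single x c : W → Qb) = c • Pi.single x 1 by
        rw [← Pi.single_smul', smul_eq_mul, mul_one], map_smul, h0, smul_zero, LinearMap.zero_apply]
  obtain ⟨M, g, hg, -⟩ := exists_model_of_family (v := A.valuation) (fun j : s => F j) hspan hint
    (by
      obtain ⟨c, hc, hcx⟩ := hgen 1
      exact ⟨c, hc, fun x => (map_one (e.symm x).ofConv).symm.trans (hcx x)⟩)
    (fun i j => by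
      obtain ⟨c, hc, hcx⟩ := hgen ((i : H) * j)
      exact ⟨c, hc, fun x => (map_mul (e.symm x).ofConv _ _).symm.trans (hcx x)⟩)
    (fun i => by
      obtain ⟨c, hc, hct⟩ := htens (Coalgebra.comul (i : H))
      refine ⟨c, hc, fun x y => ?_⟩
      rw [← hct x y, ← AlgHom.convMul_apply]
      show (e.symm (x + y)) (i : H) = _
      rw [show e.symm (x + y) = e.symm x * e.symm y from e.injective (by simp [he])])
  refine ⟨M, fun σ _ i x => ?_⟩
  rw [hg]
  let f := e.symm x
  let f' : WithConv (H →ₐ[ratLocalizedAt p] Qb) :=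
    toConv ((σ.toAlgHom.restrictScalars (ratLocalizedAt p)).comp f.ofConv)
  have h := hact σ f f' fun h => rfl
  rw [show e f = x from e.apply_symm_apply x] at h
  show σ (f.ofConv _) = (e.symm (act σ x)).ofConv _
  rw [← h, e.symm_apply_apply]
  rfl

/-- **Flatness gives models at every finite level.** -/
theorem hasModel_of_isFlatAt {R : Type} [CommRing R] [IsLocalRing R] (ρ : GaloisRepAdic R)
    (hA : A.LiesOverPrime p) (hρ : ρ.IsFlatAt p) (I : Ideal R) (hI : Finite (R ⧸ I))
    [Fintype (ρ.V ⧸ (I • (⊤ : Submodule R ρ.V)))] :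
    HasModel A (ρ.V ⧸ (I • (⊤ : Submodule R ρ.V))) fun σ x => ρ.levelAction I σ x := by
  obtain ⟨H, _, _, _, _, _, e, he, hact⟩ := hρ.2 I hI
  exact hasModel_of_hopf hA e he _ hact

end FA.LocalDef
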