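import Fermat.Agent.LocalDef.GlobalModel
import Fermat.Agent.LocalDef.Lift
import Fermat.Agent.LocalDef.FlatBridge
import Mathlib.RingTheory.Bialgebra.Convolution
import Mathlib.RingTheory.TensorProduct.Free
import Mathlib.LinearAlgebra.TensorProduct.Basis

/-!
# A model gives a finite flat Hopf algebra over `ℤ₍ₚ₎`

The Galois equivariant functions in the lattice of a global model form a Hopf algebra whose
points are the given group.
-/

set_option autoImplicit false
set_option linter.unusedSectionVars false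

noncomputable section

open GaloisRep TensorProduct WithConv FA.Local

namespace FA.LocalDef

local notation "Qb" => AlgebraicClosure ℚ
local notation "GQ" => AlgebraicClosure ℚ ≃ₐ[ℚ] AlgebraicClosure ℚ

section Eval

variable {R L : Type*} [CommRing R] [Field L] [Algebra R L] {M N : Type*} [CommRing M] [CommRing N]
  [Algebra R M] [Algebra R N] {X Y : Type*}

/-- Evaluation of a tensor product of algebras of functions. -/
def evProd (eM : M →ₐ[R] (X → L)) (eN : N →ₐ[R] (Y → L)) : M ⊗[R] N →ₐ[R] (X × Y → L) :=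
  Algebra.TensorProduct.lift
    (AlgHom.pi fun z : X × Y => (Pi.evalAlgHom R (fun _ : X => L) z.1).comp eM)
    (AlgHom.pi fun z : X × Y => (Pi.evalAlgHom R (fun _ : Y => L) z.2).comp eN) fun _ _ => .all ..

variable {eM : M →ₐ[R] (X → L)} {eN : N →ₐ[R] (Y → L)}

lemma evProd_tmul (m : M) (n : N) (x : X) (y : Y) :
    evProd eM eN (m ⊗ₜ n) (x, y) = eM m x * eN n y := by
  simp [evProd]

lemma linearIndependent_evProd {ι κ : Type*} {m : ι → M} {n : κ → N}
    (hm : LinearIndependent L fun i => eM (m i)) (hn : LinearIndependent L fun j => eN (n j)) :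
    LinearIndependent L fun ij : ι × κ => evProd eM eN (m ij.1 ⊗ₜ n ij.2) := by
  classical
  rw [linearIndependent_iff']
  intro s c hc ij hij
  let I := s.image Prod.fst
  let J := s.image Prod.snd
  let c' : ι → κ → L := fun i j => if (i, j) ∈ s then c (i, j) else 0
  have hc' : ∀ x y, ∑ i ∈ I, ∑ j ∈ J, c' i j * (eM (m i) x * eN (n j) y) = 0 := by
    intro x y
    have h := congrFun hc (x, y)
    simp only [Finset.sum_apply, Pi.smul_apply, smul_eq_mul, Pi.zero_apply, evProd_tmul] at h
    rw [← h, ← Finset.sum_product' (f := fun i j => c' i j * (eM (m i) x * eN (n j) y))]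
    symm
    refine Finset.sum_subset_zero_on_sdiff
      (fun z hz => Finset.mem_product.mpr
        ⟨Finset.mem_image_of_mem _ hz, Finset.mem_image_of_mem _ hz⟩)
      (fun z hz => ?_) fun z hz => ?_
    · simp [c', (Finset.mem_sdiff.mp hz).2]
    · simp [c', hz]
  have h1 : ∀ y, ∀ i ∈ I, ∑ j ∈ J, c' i j * eN (n j) y = 0 := fun y =>
    linearIndependent_iff'.mp hm I _ (funext fun x => by
      simp only [Finset.sum_apply, Pi.smul_apply, smul_eq_mul, Pi.zero_apply, Finset.sum_mul]
      rw [← hc' x y]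
      exact Finset.sum_congr rfl fun i _ => Finset.sum_congr rfl fun j _ => by ring)
  have h2 := linearIndependent_iff'.mp hn J (fun j => c' ij.1 j) (funext fun y => by
    simp only [Finset.sum_apply, Pi.smul_apply, smul_eq_mul, Pi.zero_apply]
    exact h1 y ij.1 (Finset.mem_image_of_mem _ hij)) ij.2 (Finset.mem_image_of_mem _ hij)
  simpa [c', hij] using h2

lemma evProd_injective {ι κ : Type*} (bM : Module.Basis ι R M) (bN : Module.Basis κ R N)
    (hinj : Function.Injective (algebraMap R L))
    (hm : LinearIndependent L fun i => eM (bM i)) (hn : LinearIndependent L fun j => eN (bN j)) :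
    Function.Injective (evProd eM eN) := by
  refine LinearMap.injective_of_linearIndependent (f := (evProd eM eN).toLinearMap)
    (bM.tensorProduct bN).span_eq ?_
  rw [show ((evProd eM eN).toLinearMap ∘ bM.tensorProduct bN) =
    fun ij : ι × κ => evProd eM eN (bM ij.1 ⊗ₜ bN ij.2) from funext fun ij => by
      rw [Function.comp_apply, Module.Basis.tensorProduct_apply']; rfl]
  refine (linearIndependent_evProd hm hn).restrict_scalars fun a b h => hinj ?_
  simpa [Algebra.smul_def] using h

end Eval


section Hopf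

open Algebra.TensorProduct (assoc map lid rid lift)

variable {R L H V : Type} [CommRing R] [Field L] [Algebra R L] [CommRing H] [Algebra R H]
  [AddCommGroup V] (val : H →ₐ[R] (V → L))

lemma evProd_assoc (Δ : H →ₐ[R] H ⊗[R] H) (hΔ : ∀ f x y, evProd val val (Δ f) (x, y) = val f (x + y))
    (t : H ⊗[R] H) (x y z : V) :
    evProd val (evProd val val) (assoc R R R H H H (map Δ (AlgHom.id R H) t)) (x, (y, z)) =
      evProd val val t (x + y, z) := by
  induction t using TensorProduct.induction_on with
  | zero => simp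
  | tmul f g =>
    rw [Algebra.TensorProduct.map_tmul, AlgHom.id_apply]
    have : ∀ s, evProd val (evProd val val) (assoc R R R H H H (s ⊗ₜ g)) (x, (y, z)) =
        evProd val val s (x, y) * val g z := fun s => by
      induction s using TensorProduct.induction_on with
      | zero => simp
      | tmul u w => simp [evProd_tmul, mul_assoc]
      | add u w hu hw => simp [add_tmul, map_add, hu, hw, add_mul]
    rw [this, hΔ, evProd_tmul]
  | add u w hu hw => simp [map_add, hu, hw]

lemma evProd_mapid (Δ : H →ₐ[R] H ⊗[R] H) (hΔ : ∀ f x y, evProd val val (Δ f) (x, y) = val f (x + y))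
    (t : H ⊗[R] H) (x y z : V) :
    evProd val (evProd val val) (map (AlgHom.id R H) Δ t) (x, (y, z)) =
      evProd val val t (x, y + z) := by
  induction t using TensorProduct.induction_on with
  | zero => simp
  | tmul f g => simp [evProd_tmul, hΔ]
  | add u w hu hw => simp [map_add, hu, hw]

lemma evProd_lid (ε : H →ₐ[R] R) (hε : ∀ f, algebraMap R L (ε f) = val f 0) (t : H ⊗[R] H) (x : V) :
    val (lid R H (map ε (AlgHom.id R H) t)) x = evProd val val t (0, x) := by
  induction t using TensorProduct.induction_on with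
  | zero => simp
  | tmul f g => simp [evProd_tmul, ← hε, Algebra.smul_def]
  | add u w hu hw => simp [map_add, hu, hw]

lemma evProd_rid (ε : H →ₐ[R] R) (hε : ∀ f, algebraMap R L (ε f) = val f 0) (t : H ⊗[R] H) (x : V) :
    val (rid R R H (map (AlgHom.id R H) ε t)) x = evProd val val t (x, 0) := by
  induction t using TensorProduct.induction_on with
  | zero => simp
  | tmul f g => simp [evProd_tmul, ← hε, Algebra.smul_def, mul_comm]
  | add u w hu hw => simp [map_add, hu, hw]

lemma evProd_lift {φ ψ : H →ₐ[R] H} (t : H ⊗[R] H) {x u w : V} (hφ : ∀ f, val (φ f) x = val f u)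
    (hψ : ∀ f, val (ψ f) x = val f w) :
    val (lift φ ψ (fun _ _ => .all ..) t) x = evProd val val t (u, w) := by
  induction t using TensorProduct.induction_on with
  | zero => simp
  | tmul f g => simp [evProd_tmul, hφ, hψ]
  | add u w hu hw => simp [map_add, hu, hw]

lemma evProd_pts (t : H ⊗[R] H) (x y : V) :
    lift ((Pi.evalAlgHom R (fun _ : V => L) x).comp val) ((Pi.evalAlgHom R (fun _ : V => L) y).comp val)
      (fun _ _ => .all ..) t = evProd val val t (x, y) := by
  induction t using TensorProduct.induction_on with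
  | zero => simp
  | tmul f g => simp [evProd_tmul]
  | add u w hu hw => simp [map_add, hu, hw]

lemma evProd_comm (t : H ⊗[R] H) (x y : V) :
    evProd val val (TensorProduct.comm R H H t) (x, y) = evProd val val t (y, x) := by
  induction t using TensorProduct.induction_on with
  | zero => simp
  | tmul f g => simp [evProd_tmul, mul_comm]
  | add u w hu hw => simp [map_add, hu, hw]

/-- An algebra of functions on a group which is stable under the group operations is a Hopf
algebra. -/
theorem exists_hopf_of_eval {p : ℕ} {H V : Type} [CommRing H] [Algebra (ratLocalizedAt p) H]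
    [AddCommGroup V] [Fintype V] (val : H →ₐ[ratLocalizedAt p] (V → Qb))
    (hval : Function.Injective val) (b : Module.Basis V (ratLocalizedAt p) H)
    (hinj : Function.Injective (algebraMap (ratLocalizedAt p) Qb))
    (hb : LinearIndependent Qb fun i => val (b i))
    (hfull : ∀ F : V → Qb, ∃ d : V → Qb, F = ∑ i, d i • val (b i))
    (hΦ : ∀ f, (AlgHom.pi fun z : V × V =>
      (Pi.evalAlgHom (ratLocalizedAt p) (fun _ : V => Qb) (z.1 + z.2)).comp val) f ∈
        (evProd val val).range)
    (he0 : ∀ f, val f 0 ∈ (Algebra.ofId (ratLocalizedAt p) Qb).range)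
    (N : H →ₐ[ratLocalizedAt p] H) (hN : ∀ f x, val (N f) x = val f (-x))
    {act : GQ → V → V} (hact : ∀ σ x f, σ (val f x) = val f (act σ x)) :
    ∃ (H : Type) (_ : CommRing H) (_ : HopfAlgebra (ratLocalizedAt p) H),
      Module.Finite (ratLocalizedAt p) H ∧ Module.Flat (ratLocalizedAt p) H ∧
      Coalgebra.IsCocomm (ratLocalizedAt p) H ∧
      ∃ e : WithConv (H →ₐ[ratLocalizedAt p] Qb) ≃ V,
        (∀ f g : WithConv (H →ₐ[ratLocalizedAt p] Qb), e (f * g) = e f + e g) ∧
        ∀ (σ : GQ) (f g : WithConv (H →ₐ[ratLocalizedAt p] Qb)),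
          (∀ h : H, g h = σ (f h)) → e g = act σ (e f) := by
  classical
  let ev2 := evProd val val
  have hev2 : Function.Injective ev2 := evProd_injective b b hinj hb hb
  have hev3 : Function.Injective (evProd val ev2) := evProd_injective b (b.tensorProduct b) hinj hb (by
    simpa only [ev2, Module.Basis.tensorProduct_apply'] using linearIndependent_evProd hb hb)
  let Δ : H →ₐ[ratLocalizedAt p] H ⊗[ratLocalizedAt p] H :=
    (AlgEquiv.ofInjective ev2 hev2).symm.toAlgHom.comp (AlgHom.codRestrict _ ev2.range hΦ)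
  have hΔ : ∀ f x y, ev2 (Δ f) (x, y) = val f (x + y) := fun f x y => by
    have h := congrArg Subtype.val
      ((AlgEquiv.ofInjective ev2 hev2).apply_symm_apply (AlgHom.codRestrict _ ev2.range hΦ f))
    exact congrFun h (x, y)
  let ε : H →ₐ[ratLocalizedAt p] ratLocalizedAt p := (AlgEquiv.ofInjective (Algebra.ofId (ratLocalizedAt p) Qb) hinj).symm.toAlgHom.comp
      (((Pi.evalAlgHom (ratLocalizedAt p) (fun _ : V => Qb) 0).comp val).codRestrict _ he0)
  have hε : ∀ f, algebraMap (ratLocalizedAt p) Qb (ε f) = val f 0 := fun f =>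
    congrArg Subtype.val ((AlgEquiv.ofInjective (Algebra.ofId (ratLocalizedAt p) Qb) hinj).apply_symm_apply
      (((Pi.evalAlgHom (ratLocalizedAt p) (fun _ : V => Qb) 0).comp val).codRestrict _ he0 f))
  let B : Bialgebra (ratLocalizedAt p) H := Bialgebra.ofAlgHom Δ ε
    (AlgHom.ext fun f => hev3 (funext fun ⟨x, y, z⟩ => by
      show evProd val (evProd val val) (assoc (ratLocalizedAt p) (ratLocalizedAt p) (ratLocalizedAt p) H H H (map Δ (AlgHom.id (ratLocalizedAt p) H) (Δ f))) (x, y, z) =
        evProd val (evProd val val) (map (AlgHom.id (ratLocalizedAt p) H) Δ (Δ f)) (x, y, z)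
      rw [evProd_assoc val Δ hΔ, evProd_mapid val Δ hΔ, hΔ, hΔ, add_assoc]))
    (AlgHom.ext fun f => (lid (ratLocalizedAt p) H).injective (hval (funext fun x => by
      show val (lid (ratLocalizedAt p) H (map ε (AlgHom.id (ratLocalizedAt p) H) (Δ f))) x = val (lid (ratLocalizedAt p) H ((lid (ratLocalizedAt p) H).symm f)) x
      rw [AlgEquiv.apply_symm_apply, evProd_lid val ε hε, hΔ, zero_add])))
    (AlgHom.ext fun f => (rid (ratLocalizedAt p) (ratLocalizedAt p) H).injective (hval (funext fun x => by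
      show val (rid (ratLocalizedAt p) (ratLocalizedAt p) H (map (AlgHom.id (ratLocalizedAt p) H) ε (Δ f))) x = val (rid (ratLocalizedAt p) (ratLocalizedAt p) H ((rid (ratLocalizedAt p) (ratLocalizedAt p) H).symm f)) x
      rw [AlgEquiv.apply_symm_apply, evProd_rid val ε hε, hΔ, add_zero])))
  let HH : HopfAlgebra (ratLocalizedAt p) H := @HopfAlgebra.ofAlgHom _ _ _ _ B N
    (AlgHom.ext fun f => hval (funext fun x => by
      show val (lift N (AlgHom.id (ratLocalizedAt p) H) (fun _ _ => .all ..) (Δ f)) x = val (algebraMap (ratLocalizedAt p) H (ε f)) x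
      rw [evProd_lift val _ (fun f => hN f x) (fun f => rfl), hΔ, neg_add_cancel, ← hε, AlgHom.commutes,
        Pi.algebraMap_apply]))
    (AlgHom.ext fun f => hval (funext fun x => by
      show val (lift (AlgHom.id (ratLocalizedAt p) H) N (fun _ _ => .all ..) (Δ f)) x = val (algebraMap (ratLocalizedAt p) H (ε f)) x
      rw [evProd_lift val _ (fun f => rfl) (fun f => hN f x), hΔ, add_neg_cancel, ← hε, AlgHom.commutes,
        Pi.algebraMap_apply]))
  let pts : V → WithConv (H →ₐ[ratLocalizedAt p] Qb) := fun x =>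
    toConv ((Pi.evalAlgHom _ (fun _ : V => Qb) x).comp val)
  have hpts : ∀ x (f : H), (pts x).ofConv f = val f x := fun x f => rfl
  have hpinj : Function.Injective pts := fun x y h => by
    by_contra hxy
    obtain ⟨d, hd⟩ := hfull (Pi.single x 1)
    have h2 : ∀ i, val (b i) x = val (b i) y := fun i => by rw [← hpts x (b i), h, hpts]
    have hx := congrFun hd x
    have hy := congrFun hd y
    simp only [Finset.sum_apply, Pi.smul_apply, h2] at hx hy
    rw [← hy, Pi.single_eq_same, Pi.single_eq_of_ne (Ne.symm hxy)] at hx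
    exact one_ne_zero hx
  have hsurj : Function.Surjective pts := fun φ => by
    by_contra hφ
    push Not at hφ
    let F : Option V → (H →ₐ[ratLocalizedAt p] Qb) := fun o => o.elim φ.ofConv fun x => (pts x).ofConv
    have hF : Function.Injective F := by
      rintro (_ | x) (_ | y) h
      · rfl
      · exact absurd (WithConv.ofConv_injective h).symm (hφ y)
      · exact absurd (WithConv.ofConv_injective h) (hφ x)
      · exact congrArg some (hpinj (WithConv.ofConv_injective h))
    have hli := (linearIndependent_algHom_toLinearMap (ratLocalizedAt p) H Qb).comp F hF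
    let E : (V → Qb) ≃ₗ[Qb] (H →ₗ[ratLocalizedAt p] Qb) := b.constr Qb
    have : Module.Finite Qb (H →ₗ[ratLocalizedAt p] Qb) := Module.Finite.equiv E
    have hc := hli.fintype_card_le_finrank
    rw [← E.finrank_eq, Module.finrank_fintype_fun_eq_card, Fintype.card_option] at hc
    omega
  let e : WithConv (H →ₐ[ratLocalizedAt p] Qb) ≃ V :=
    (Equiv.ofBijective pts ⟨hpinj, hsurj⟩).symm
  have he : ∀ x, e (pts x) = x := fun x => (Equiv.ofBijective pts ⟨hpinj, hsurj⟩).symm_apply_apply x
  have hfree : Module.Free (ratLocalizedAt p) H := Module.Free.of_basis b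
  refine ⟨H, inferInstance, HH, Module.Finite.of_basis b, inferInstance,
    ⟨LinearMap.ext fun f => hev2 (funext fun ⟨x, y⟩ => ?_)⟩, e, fun f g => ?_, fun σ f g hfg => ?_⟩
  · show evProd val val (TensorProduct.comm (ratLocalizedAt p) H H (Δ f)) (x, y) = ev2 (Δ f) (x, y)
    rw [evProd_comm, hΔ, hΔ, add_comm]
  · obtain ⟨x, rfl⟩ := hsurj f
    obtain ⟨y, rfl⟩ := hsurj g
    rw [he, he, ← he (x + y)]
    congr 1
    refine WithConv.ext (AlgHom.ext fun f => ?_)
    refine (AlgHom.convMul_apply _ _ f).trans ?_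
    show lift ((Pi.evalAlgHom (ratLocalizedAt p) (fun _ : V => Qb) x).comp val)
      ((Pi.evalAlgHom (ratLocalizedAt p) (fun _ : V => Qb) y).comp val) (fun _ _ => .all ..) (Δ f) = _
    rw [evProd_pts, hΔ, hpts]
  · obtain ⟨x, rfl⟩ := hsurj f
    rw [he, ← he (act σ x)]
    congr 1
    refine WithConv.ext (AlgHom.ext fun f => ?_)
    rw [hfg, hpts, hpts]
    exact hact σ x f

end Hopf

variable {A : ValuationSubring Qb} {p : ℕ} {V : Type} [AddCommGroup V] [Fintype V]

lemma exists_ratLocalizedAt (hp : p.Prime) (hA : A.LiesOverPrime p) {z : Qb}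
    (hfix : ∀ σ : GQ, σ z = z) (hz : A.valuation z ≤ 1) :
    ∃ r : ratLocalizedAt p, algebraMap (ratLocalizedAt p) Qb r = z := by
  have : IsGalois ℚ Qb := { }
  obtain ⟨q, rfl⟩ := (InfiniteGalois.mem_range_algebraMap_iff_fixed z).mpr hfix
  refine ⟨⟨q, ?_⟩, rfl⟩
  show q.den.Coprime p
  rw [Nat.coprime_comm, hp.coprime_iff_not_dvd]
  intro hden
  have hnum : A.valuation ((q.num : ℤ) : Qb) = 1 :=
    natCast_eq_one_of_not_dvd hp (valuation_p_lt_one hA) fun h => by
      have := Nat.dvd_gcd (Int.natCast_dvd.mp h) hden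
      rw [q.reduced.gcd_eq_one] at this
      exact hp.not_dvd_one this
  have hlt : A.valuation ((q.den : ℤ) : Qb) < 1 :=
    intCast_lt_one_of_dvd (valuation_p_lt_one hA) (Int.natCast_dvd_natCast.mpr hden)
  have e : algebraMap ℚ Qb q * ((q.den : ℤ) : Qb) = ((q.num : ℤ) : Qb) := by
    rw [Int.cast_natCast, ← map_natCast (algebraMap ℚ Qb), ← map_mul, Rat.mul_den_eq_num, map_intCast]
  have := congrArg A.valuation e
  rw [map_mul, hnum] at this
  exact absurd this (ne_of_lt (lt_of_le_of_lt (mul_le_of_le_one_left' hz) hlt))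

variable (M : Model A.valuation V)

lemma Model.InSpan.sum {ι : Type*} {s : Finset ι} {F : ι → V → Qb} (c : ι → Qb)
    (hc : ∀ j ∈ s, A.valuation (c j) ≤ 1) (h : ∀ j ∈ s, M.InSpan (F j)) :
    M.InSpan (∑ j ∈ s, c j • F j) := by
  choose d hd he using h
  refine ⟨fun i => ∑ j ∈ s.attach, c j * d j.1 j.2 i,
    fun i => map_sum_mul_le (fun j _ => hc _ j.2) fun j _ => hd _ _ i, ?_⟩
  rw [← Finset.sum_attach]
  simp only [Finset.sum_smul, ← smul_smul]
  rw [Finset.sum_comm]
  refine Finset.sum_congr rfl fun j _ => ?_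
  rw [← Finset.smul_sum, ← he]

lemma Model.InSpan.add {f g : V → Qb} (hf : M.InSpan f) (hg : M.InSpan g) : M.InSpan (f + g) := by
  obtain ⟨c, hc, rfl⟩ := hf
  obtain ⟨d, hd, rfl⟩ := hg
  exact ⟨c + d, fun i => A.valuation.map_add_le (hc i) (hd i), by
    simp [add_smul, Finset.sum_add_distrib]⟩

lemma Model.inSpan_const (z : Qb) (hz : A.valuation z ≤ 1) : M.InSpan fun _ => z := by
  obtain ⟨c, hc, he⟩ := M.one
  refine ⟨fun i => z * c i, fun i => by rw [map_mul]; exact mul_le_one' hz (hc i), funext fun x => ?_⟩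
  calc z = z * ∑ i, c i * M.a i x := by rw [← he, mul_one]
    _ = _ := by simp [Finset.mul_sum, mul_assoc]

lemma Model.InSpan.apply_le {f : V → Qb} (hf : M.InSpan f) (x : V) : A.valuation (f x) ≤ 1 := by
  obtain ⟨c, hc, rfl⟩ := hf
  simp only [Finset.sum_apply, Pi.smul_apply, smul_eq_mul]
  exact map_sum_mul_le (fun i _ => hc i) fun i _ => M.int i x

lemma Model.InSpan.comp_nsmul {f : V → Qb} (hf : M.InSpan f) (n : ℕ) :
    M.InSpan fun x => f (n • x) := by
  induction n generalizing f with
  | zero =>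
    simp only [zero_smul]
    exact M.inSpan_const _ (hf.apply_le M 0)
  | succ n ih =>
    obtain ⟨c, hc, rfl⟩ := hf
    have e : (fun x => (∑ i, c i • M.a i) ((n + 1) • x)) =
        ∑ i, c i • fun x => M.a i (n • x + x) := funext fun x => by simp [succ_nsmul]
    rw [e]
    refine Model.InSpan.sum M c (fun i _ => hc i) fun i _ => ?_
    obtain ⟨d, hd, he⟩ := M.comul i
    have e2 : (fun x => M.a i (n • x + x)) =
        ∑ z : V × V, d z.1 z.2 • ((fun x => M.a z.1 (n • x)) * M.a z.2) := funext fun x => by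
      simp [he, Fintype.sum_prod_type, mul_assoc]
    rw [e2]
    exact Model.InSpan.sum M _ (fun z _ => hd _ _) fun z _ =>
      (ih (Model.inSpan_a (M := M) z.1)).mul (Model.inSpan_a (M := M) z.2)

lemma Model.InSpan.comp_neg {f : V → Qb} (hf : M.InSpan f) : M.InSpan fun x => f (-x) := by
  have h : ∀ x : V, (Fintype.card V - 1) • x = -x := fun x => by
    rw [eq_neg_iff_add_eq_zero, ← succ_nsmul, Nat.sub_add_cancel Fintype.card_pos,
      card_nsmul_eq_zero]
  simpa only [h] using hf.comp_nsmul M (Fintype.card V - 1)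

/-- The Galois equivariant functions in the lattice. -/
def hopfAlg (act : GQ → V → V) (hA : A.LiesOverPrime p) :
    Subalgebra (ratLocalizedAt p) (V → Qb) where
  carrier := {f | (∀ (σ : GQ) x, σ (f x) = f (act σ x)) ∧ M.InSpan f}
  mul_mem' {f g} hf hg := ⟨fun σ x => by simp [hf.1 σ x, hg.1 σ x], hf.2.mul hg.2⟩
  add_mem' {f g} hf hg := ⟨fun σ x => by simp [hf.1 σ x, hg.1 σ x], hf.2.add M hg.2⟩
  algebraMap_mem' r :=
    ⟨fun σ _ => σ.commutes (r : ℚ), M.inSpan_const _ (valuation_ratLocalizedAt_le hA r)⟩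

variable {act : GQ → V → V}

theorem exists_hopf_of_global_model (hp : p.Prime) (hA : A.LiesOverPrime p)
    (hbij : ∀ σ, Function.Bijective (act σ)) (hadd : ∀ σ x y, act σ (x + y) = act σ x + act σ y)
    (hM : ∀ (σ : GQ) (i x : V), σ (M.a i x) = M.a i (act σ x)) :
    ∃ (H : Type) (_ : CommRing H) (_ : HopfAlgebra (ratLocalizedAt p) H),
      Module.Finite (ratLocalizedAt p) H ∧ Module.Flat (ratLocalizedAt p) H ∧
      Coalgebra.IsCocomm (ratLocalizedAt p) H ∧
      ∃ e : WithConv (H →ₐ[ratLocalizedAt p] Qb) ≃ V,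
        (∀ f g : WithConv (H →ₐ[ratLocalizedAt p] Qb), e (f * g) = e f + e g) ∧
        ∀ (σ : GQ) (f g : WithConv (H →ₐ[ratLocalizedAt p] Qb)),
          (∀ h : H, g h = σ (f h)) → e g = act σ (e f) := by
  classical
  have hzero : ∀ σ, act σ 0 = 0 := fun σ => by simpa using hadd σ 0 0
  have hneg : ∀ σ x, act σ (-x) = -act σ x := fun σ x =>
    eq_neg_of_add_eq_zero_left (by rw [← hadd, neg_add_cancel, hzero])
  have hinj : Function.Injective (algebraMap (ratLocalizedAt p) Qb) := fun a b h =>
    Subtype.ext ((algebraMap ℚ Qb).injective h)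
  let H := hopfAlg M act hA
  let val : H →ₐ[ratLocalizedAt p] (V → Qb) := H.val
  -- the basis
  let a' : V → H := fun i => ⟨M.a i, fun σ x => hM σ i x, Model.inSpan_a (M := M) i⟩
  have hli : LinearIndependent Qb fun i => val (a' i) := M.linearIndependent
  have hspan : ∀ f : H, ∃ c : V → ratLocalizedAt p, f = ∑ i, c i • a' i := fun f => by
    have hr := fun i => exists_ratLocalizedAt hp hA (z := M.coord f.1 i)
      (fun σ => M.coord_map σ (act σ) (fun i x => hM σ i x) (hbij σ).2 (f.2.1 σ) i)
      ((M.inSpan_iff f.1).mp f.2.2 i)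
    choose r hr using hr
    refine ⟨r, Subtype.ext ?_⟩
    rw [AddSubmonoidClass.coe_finsetSum]
    conv_lhs => rw [M.sum_coord f.1]
    refine Finset.sum_congr rfl fun i _ => ?_
    rw [← hr i]
    exact algebraMap_smul Qb (r i) (M.a i)
  let b : Module.Basis V (ratLocalizedAt p) H := Module.Basis.mk (v := a')
    (Fintype.linearIndependent_iff.mpr fun c hc i => hinj (by
      rw [map_zero]
      refine Fintype.linearIndependent_iff.mp hli (fun i => algebraMap _ Qb (c i)) ?_ i
      funext x
      have h := congrArg (fun f : H => f.1 x) hc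
      simp only [AddSubmonoidClass.coe_finsetSum, Finset.sum_apply, ZeroMemClass.coe_zero,
        Pi.zero_apply] at h
      simp only [Finset.sum_apply, Pi.smul_apply, Pi.zero_apply, smul_eq_mul]
      rw [← h]
      exact Finset.sum_congr rfl fun i _ => (Algebra.smul_def (c i) (M.a i x)).symm))
    (fun f _ => by
      obtain ⟨c, rfl⟩ := hspan f
      exact Submodule.sum_mem _ fun i _ => Submodule.smul_mem _ _ (Submodule.subset_span ⟨i, rfl⟩))
  have hb : ∀ i, b i = a' i := fun i => by simp [b]
  have hlib : LinearIndependent Qb fun i => val (b i) := by simpa only [hb] using hli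
  -- comultiplication
  let Φ : H →ₐ[ratLocalizedAt p] (V × V → Qb) :=
    AlgHom.pi fun z : V × V => (Pi.evalAlgHom _ (fun _ : V => Qb) (z.1 + z.2)).comp val
  have hΦ : ∀ f, Φ f ∈ (evProd val val).range := by
    have hgen : ∀ i, Φ (a' i) ∈ (evProd val val).range := fun i => by
      obtain ⟨c, hc, he⟩ := M.comul i
      have hli2 := linearIndependent_evProd (eM := val) (eN := val) (m := a') (n := a') hli hli
      have hfix : ∀ σ : GQ, ∀ j k, σ (c j k) = c j k := fun σ j k => by
        have key : ∑ z : V × V, (σ (c z.1 z.2) - c z.1 z.2) • evProd val val (a' z.1 ⊗ₜ a' z.2) = 0 := by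
          funext ⟨x', y'⟩
          obtain ⟨x, rfl⟩ := (hbij σ).2 x'
          obtain ⟨y, rfl⟩ := (hbij σ).2 y'
          have h1 := congrArg σ (he x y)
          simp only [map_sum, map_mul, hM, hadd] at h1
          rw [he] at h1
          simp only [Finset.sum_apply, Pi.smul_apply, smul_eq_mul, Pi.zero_apply, Fintype.sum_prod_type,
            evProd_tmul, sub_mul, Finset.sum_sub_distrib, sub_eq_zero]
          simp only [mul_assoc] at h1
          exact h1.symm
        exact sub_eq_zero.mp (Fintype.linearIndependent_iff.mp hli2 _ key (j, k))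
      choose r hr using fun j k => exists_ratLocalizedAt hp hA (fun σ => hfix σ j k) (hc j k)
      refine ⟨∑ j, ∑ k, r j k • (a' j ⊗ₜ a' k), funext fun z => ?_⟩
      show evProd val val _ (z.1, z.2) = M.a i (z.1 + z.2)
      rw [he]
      simp only [map_sum, map_smul, Finset.sum_apply, Pi.smul_apply, evProd_tmul]
      exact Finset.sum_congr rfl fun j _ => Finset.sum_congr rfl fun k _ => by
        rw [← hr, Algebra.smul_def, mul_assoc]; rfl
    intro f
    obtain ⟨c, rfl⟩ := hspan f
    rw [map_sum]
    exact sum_mem fun i _ => by rw [map_smul]; exact Subalgebra.smul_mem _ (hgen i) _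
  have he0 : ∀ f, val f 0 ∈ (Algebra.ofId (ratLocalizedAt p) Qb).range := fun f =>
    exists_ratLocalizedAt hp hA (fun σ => by
      show σ (f.1 0) = f.1 0
      rw [f.2.1, hzero]) (Model.InSpan.apply_le M f.2.2 0)
  let N : H →ₐ[ratLocalizedAt p] H :=
    ((AlgHom.pi fun x : V => (Pi.evalAlgHom _ (fun _ : V => Qb) (-x)).comp val)).codRestrict H
      fun f => ⟨fun σ x => by
        show σ (f.1 (-x)) = f.1 (-act σ x)
        rw [f.2.1, hneg], Model.InSpan.comp_neg M f.2.2⟩
  refine exists_hopf_of_eval val Subtype.coe_injective b hinj hlib (fun F => ?_) hΦ he0 N (fun f x => rfl)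
    (fun σ x f => f.2.1 σ x)
  obtain ⟨d, hd⟩ := M.full F
  exact ⟨d, hd.trans (Finset.sum_congr rfl fun i _ => by rw [hb]; rfl)⟩

/-- **Models give flatness.** A finite Galois module with a model at one place over `p` comes from
a finite flat Hopf algebra over `ℤ₍ₚ₎`. -/
theorem exists_hopf_of_hasModel (hp : p.Prime) (hA : A.LiesOverPrime p) {act : GQ → V → V}
    (h1 : ∀ x, act 1 x = x) (hmul : ∀ σ τ x, act (σ * τ) x = act σ (act τ x))
    (hadd : ∀ σ x y, act σ (x + y) = act σ x + act σ y)
    (hcont : ∃ F : IntermediateField ℚ Qb, FiniteDimensional ℚ F ∧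
      ∀ σ ∈ F.fixingSubgroup, ∀ x, act σ x = x)
    (hM : HasModel A V act) :
    ∃ (H : Type) (_ : CommRing H) (_ : HopfAlgebra (ratLocalizedAt p) H),
      Module.Finite (ratLocalizedAt p) H ∧ Module.Flat (ratLocalizedAt p) H ∧
      Coalgebra.IsCocomm (ratLocalizedAt p) H ∧
      ∃ e : WithConv (H →ₐ[ratLocalizedAt p] Qb) ≃ V,
        (∀ f g : WithConv (H →ₐ[ratLocalizedAt p] Qb), e (f * g) = e f + e g) ∧
        ∀ (σ : GQ) (f g : WithConv (H →ₐ[ratLocalizedAt p] Qb)),
          (∀ h : H, g h = σ (f h)) → e g = act σ (e f) := by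
  obtain ⟨M, hM'⟩ := exists_global_model hp hA h1 hmul hcont hM
  refine exists_hopf_of_global_model M hp hA (fun σ => ⟨fun x y h => ?_, fun y => ?_⟩) hadd hM'
  · rw [← h1 x, ← h1 y, ← inv_mul_cancel σ, hmul, hmul, h]
  · exact ⟨act σ⁻¹ y, by rw [← hmul, mul_inv_cancel, h1]⟩

/-- **Flatness from models at one place.** -/
theorem isFlatAt_of_hasModel (hp : p.Prime) (hA : A.LiesOverPrime p) {R : Type} [CommRing R]
    [IsLocalRing R] (ρ : GaloisRepAdic R) (hres : Finite (IsLocalRing.ResidueField R))
    (hm : ∀ I : Ideal R, Finite (R ⧸ I) → ∀ [Fintype (ρ.V ⧸ (I • (⊤ : Submodule R ρ.V)))],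
      HasModel A (ρ.V ⧸ (I • (⊤ : Submodule R ρ.V))) fun σ x => ρ.levelAction I σ x) :
    ρ.IsFlatAt p := by
  refine ⟨hres, fun I hI => ?_⟩
  have hfin : Finite (ρ.V ⧸ (I • (⊤ : Submodule R ρ.V))) :=
    Module.finite_of_finite (R ⧸ I)
  let _ : Fintype (ρ.V ⧸ (I • (⊤ : Submodule R ρ.V))) := Fintype.ofFinite _
  refine exists_hopf_of_hasModel hp hA (fun x => ?_) (fun σ τ x => ?_) (fun σ x y => map_add _ x y) ?_
    (hm I hI)
  · obtain ⟨x, rfl⟩ := Submodule.Quotient.mk_surjective _ x
    simp [GaloisRepAdic.levelAction]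
  · obtain ⟨x, rfl⟩ := Submodule.Quotient.mk_surjective _ x
    simp [GaloisRepAdic.levelAction]
  · obtain ⟨n, hn⟩ : ∃ n, IsLocalRing.maximalIdeal R ^ n ≤ I := by
      rcases eq_or_ne I ⊤ with rfl | hne
      · exact ⟨0, le_top⟩
      have : Nontrivial (R ⧸ I) := Ideal.Quotient.nontrivial_iff.mpr hne
      have : IsArtinianRing (R ⧸ I) := inferInstance
      have : IsLocalRing (R ⧸ I) :=
        IsLocalRing.of_surjective' _ Ideal.Quotient.mk_surjective
      obtain ⟨n, hn⟩ : IsNilpotent (IsLocalRing.maximalIdeal (R ⧸ I)) := by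
        have h := IsArtinianRing.isNilpotent_jacobson_bot (R := R ⧸ I)
        rwa [IsLocalRing.jacobson_eq_maximalIdeal ⊥ bot_ne_top] at h
      refine ⟨n, ?_⟩
      rw [← Ideal.mk_ker (I := I), RingHom.ker, ← Ideal.map_le_iff_le_comap, Ideal.map_pow]
      refine le_trans (Ideal.pow_right_mono ?_ n) hn.le
      refine IsLocalRing.le_maximalIdeal fun h => ?_
      have := Ideal.comap_map_of_surjective (Ideal.Quotient.mk I) Ideal.Quotient.mk_surjective (IsLocalRing.maximalIdeal R)
      rw [h, Ideal.comap_top, ← RingHom.ker, Ideal.mk_ker,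
        sup_eq_left.mpr (IsLocalRing.le_maximalIdeal hne)] at this
      exact (IsLocalRing.maximalIdeal.isMaximal R).ne_top this.symm
    obtain ⟨L, hL, hLn⟩ := ρ.isAdicContinuous n
    refine ⟨L, hL, fun σ hσ x => ?_⟩
    obtain ⟨x, rfl⟩ := Submodule.Quotient.mk_surjective _ x
    exact (Submodule.Quotient.eq _).mpr
      (Submodule.smul_mono_left hn (hLn σ (fun y hy => hσ ⟨y, hy⟩) x))

end FA.LocalDef
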