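import Fermat.Agent.LocalDef.EllipticModel
import Fermat.Agent.LocalDef.FlatBasics
import Fermat.Agent.LocalDef.HopfOfModel
import Fermat.Agent.Frob.Charpoly

/-!
# Torsion of a curve with good reduction is finite flat

`E[n]` has a model at every place of good reduction; so the mod `p` representation of a curve with
good reduction at `p` is finite flat at `p`.
-/

set_option autoImplicit false
set_option linter.unusedSectionVars false

noncomputable section

open WeierstrassCurve FA.Local FA.EC FA.Frob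
open scoped Pointwise WeierstrassCurve.Affine

namespace FA.LocalDef

local notation "Qb" => AlgebraicClosure ℚ
local notation "GQ" => AlgebraicClosure ℚ ≃ₐ[ℚ] AlgebraicClosure ℚ

variable {A : ValuationSubring Qb} {p : ℕ}

/-- An auxiliary prime. -/
lemma exists_aux_prime (p N : ℕ) (hN : 0 < N) : ∃ ℓ : ℕ, ℓ.Prime ∧ 7 ≤ ℓ ∧ ℓ ≠ p ∧ ¬ ℓ ∣ N := by
  obtain ⟨ℓ, hℓ, hprime⟩ := Nat.exists_infinite_primes (max 7 (max (p + 1) (N + 1)))
  simp only [max_le_iff] at hℓ
  exact ⟨ℓ, hprime, hℓ.1, by omega, fun h => by have := Nat.le_of_dvd hN h; omega⟩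

/-- `E[n]` has a model at a place of good reduction. -/
theorem hasModel_torsion_good (W : WeierstrassCurve ℤ) (hp : p.Prime) (hA : A.LiesOverPrime p)
    (hgood : W.IsGoodPrimeFor p) [(ratCurve W).IsElliptic] {n : ℕ} (hn : 0 < n)
    [Fintype (Submodule.torsionBy ℤ ((ratCurve W)⁄Qb).Point n)] :
    HasModel A (Submodule.torsionBy ℤ ((ratCurve W)⁄Qb).Point n) fun σ x => σ • x := by
  obtain ⟨ℓ, hℓ, h7, hℓp, hℓn⟩ := exists_aux_prime p n hn
  have hI := intCoeff_ratCurve W A
  have hΔ := valuation_Δ_ratCurve W hp hA hgood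
  have hu : A.valuation (ℓ : Qb) = 1 := by
    have h := valuation_intCast_of_liesOverPrime hp hA (n := (ℓ : ℤ)) (by
      rw [Int.natCast_dvd_natCast]; exact fun h => hℓp ((Nat.prime_dvd_prime_iff_eq hp hℓ).mp h).symm)
    simpa using h
  obtain ⟨R₀, hR₀, hR₀'⟩ : ∃ R : ((ratCurve W)⁄Qb).toAffine.Point, ℓ • R = 0 ∧ R ≠ 0 := by
    have hc := natCard_torsion (ratCurve W) hℓ.ne_zero
    have := finite_torsion (ratCurve W) hℓ.ne_zero
    have : Nontrivial (Submodule.torsionBy ℤ ((ratCurve W)⁄Qb).Point (ℓ : ℤ)) :=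
      Finite.one_lt_card_iff_nontrivial.mp (by rw [hc]; nlinarith [hℓ.two_le])
    obtain ⟨R, hR⟩ := exists_ne (0 : Submodule.torsionBy ℤ ((ratCurve W)⁄Qb).Point (ℓ : ℤ))
    refine ⟨R.1, ?_, fun h => hR (Subtype.ext h)⟩
    rw [← natCast_zsmul]; exact (Submodule.mem_torsionBy_iff _ _).mp R.2
  exact ChartData.hasModel
    { hI := hI
      G := ⊤
      nsRed := fun x y h _ hx => nsRed_of_unit_Δ hI hΔ h.1 hx
      smul_G := fun _ _ _ _ => trivial
      π := fun P => P.1
      π_mem := fun _ => trivial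
      π_smul := fun _ _ _ => rfl
      g := fun _ => 0
      g_int := fun _ => A.zero_mem
      g_smul := fun σ _ _ => map_zero σ
      g_sep := fun _ _ h => absurd rfl h
      g_add := fun P Q P' Q' _ _ => ⟨rfl, by simp⟩
      separated := fun P Q h => Or.inr fun h' => h (Subtype.ext h')
      N := n
      N_kill := fun P => by
        rw [show n • (P.1 : ((ratCurve W)⁄Qb).toAffine.Point) = 0 by
          rw [← natCast_zsmul]; exact (Submodule.mem_torsionBy_iff _ _).mp P.2]
        exact e1_zero
      ℓ := ℓ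
      prime := hℓ
      seven_le := h7
      unit_ℓ := hu
      not_dvd := hℓn
      R₀ := R₀
      R₀_mem := trivial
      R₀_tors := hR₀
      R₀_ne := hR₀' }

/-- A model of the space of a residual representation makes it flat. -/
theorem isFlatAt_ofResidual (hp : p.Prime) (hA : A.LiesOverPrime p) {k : Type} [Field k] [Finite k]
    (ρ : ResidualGaloisRep k) [Fintype ρ.V] (h : HasModel A ρ.V fun σ x => ρ.ρ σ x) :
    (GaloisRepAdic.ofResidualGaloisRep ρ).IsFlatAt p := by
  refine isFlatAt_of_hasModel hp hA _ ?_ fun I hI => ?_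
  · exact Finite.of_surjective _ IsLocalRing.residue_surjective
  intro _
  rcases Ideal.eq_bot_or_top I with rfl | rfl
  · have hbot : ((⊥ : Ideal k) • (⊤ : Submodule k (GaloisRepAdic.ofResidualGaloisRep ρ).V)) = ⊥ :=
      Submodule.bot_smul _
    let e := Submodule.quotEquivOfEqBot _ hbot
    refine h.of_injective e.toAddMonoidHom e.injective fun σ _ x => ?_
    obtain ⟨x, rfl⟩ := Submodule.Quotient.mk_surjective _ x
    rfl
  · have hsub : ∀ x : (GaloisRepAdic.ofResidualGaloisRep ρ).V ⧸
        ((⊤ : Ideal k) • (⊤ : Submodule k (GaloisRepAdic.ofResidualGaloisRep ρ).V)), x = 0 := fun x => by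
      obtain ⟨x, rfl⟩ := Submodule.Quotient.mk_surjective _ x
      rw [Submodule.Quotient.mk_eq_zero, Submodule.top_smul]
      trivial
    exact h.of_injective 0 (fun x y _ => by rw [hsub x, hsub y]) fun σ _ x => (map_zero (ρ.ρ σ)).symm

/-- **The mod `p` representation at a prime of good reduction is finite flat.** -/
theorem isFlatAt_torsion_good (W : WeierstrassCurve ℤ) [Fact p.Prime] (hA : A.LiesOverPrime p)
    (hgood : W.IsGoodPrimeFor p) [(ratCurve W).IsElliptic]
    (hcard : Nat.card (Submodule.torsionBy ℤ ((ratCurve W)⁄Qb).Point p) = p ^ 2)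
    (hker : GaloisFactorsThroughFiniteLevel
      (Affine.Point.galoisRepModuleEnd (K := Qb) ℚ (ratCurve W) p)) :
    (GaloisRepAdic.ofResidualGaloisRep
      ((ratCurve W).residualGaloisRepOf p hcard hker)).IsFlatAt p := by
  have := finite_torsion (ratCurve W) (Fact.out : p.Prime).ne_zero
  let _ : Fintype (Submodule.torsionBy ℤ ((ratCurve W)⁄Qb).Point p) := Fintype.ofFinite _
  let _ : Fintype ((ratCurve W).residualGaloisRepOf p hcard hker).V :=
    inferInstanceAs (Fintype (Submodule.torsionBy ℤ ((ratCurve W)⁄Qb).Point p))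
  exact isFlatAt_ofResidual Fact.out hA _
    (hasModel_torsion_good W Fact.out hA hgood (Fact.out : p.Prime).pos)

end FA.LocalDef
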