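import Fermat.Agent.LocalDef.MultNode
import Fermat.Agent.LocalDef.EllipticGood

/-!
# Torsion at a multiplicative prime dividing the order of the discriminant

If `p ∣ v_p(Δ)` then `E[p]` is, modulo the points of nonsingular reduction, generated by a point
with an integral abscissa, so `E[p]` has a model and is finite flat at `p`.
-/

set_option autoImplicit false
set_option linter.unusedSectionVars false

noncomputable section

open WeierstrassCurve FA.Local FA.Frob FA.EC
open scoped Pointwise WeierstrassCurve.Affine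

namespace FA.LocalDef

local notation "Qb" => AlgebraicClosure ℚ
local notation "GQ" => AlgebraicClosure ℚ ≃ₐ[ℚ] AlgebraicClosure ℚ

lemma map_a₁_ratCurve (W : WeierstrassCurve ℤ) : ((ratCurve W)⁄Qb).a₁ = (W.a₁ : Qb) :=
  (map_intCast (algebraMap ℚ Qb) W.a₁ :)

lemma map_b₂_ratCurve (W : WeierstrassCurve ℤ) : ((ratCurve W)⁄Qb).b₂ = (W.b₂ : Qb) := by
  show ((W.map (Int.castRingHom ℚ)).map (algebraMap ℚ Qb)).b₂ = _
  rw [WeierstrassCurve.map_b₂, WeierstrassCurve.map_b₂]
  simp

lemma map_b₄_ratCurve (W : WeierstrassCurve ℤ) : ((ratCurve W)⁄Qb).b₄ = (W.b₄ : Qb) := by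
  show ((W.map (Int.castRingHom ℚ)).map (algebraMap ℚ Qb)).b₄ = _
  rw [WeierstrassCurve.map_b₄, WeierstrassCurve.map_b₄]
  simp

/-- The symmetric representative is odd at an odd modulus. -/
lemma valMinAbs_neg_of_odd {n : ℕ} (hn : Odd n) (a : ZMod n) :
    (-a).valMinAbs = -a.valMinAbs :=
  ZMod.valMinAbs_neg_of_ne_half fun h => by
    obtain ⟨m, hm⟩ := hn
    omega

namespace NodeAt

variable {W : WeierstrassCurve ℤ} {p : ℕ} {A : ValuationSubring Qb} {r : Qb}
  (N : NodeAt W p A r) [(ratCurve W).IsElliptic]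

local notation "EQ" => ((ratCurve W)⁄Qb)
local notation "E'" => (toOrigin ((ratCurve W)⁄Qb) r)

include N

lemma valuation_disc : A.valuation (discB EQ r) = 1 := by
  rw [← toOrigin_disc]; exact N.node.hdisc

/-- The node is congruent to a rational integer. -/
lemma exists_int_congr : ∃ n : ℤ, A.valuation ((n : Qb) - r) < 1 := by
  have := Fact.mk N.mult.prime
  have := res_charP N.mult.prime N.mult.lies
  obtain ⟨F, hF, hFp⟩ := exists_frobenius N.mult.prime N.mult.lies
  have h := hFp r N.int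
  rw [res_congr N.int ((N.shift_le hF).1.trans_lt N.node.hb)] at h
  have hb : res A r ∈ (⊥ : Subfield (Res A)) := (Subfield.mem_bot_iff_pow_eq_self _ p).mpr h.symm
  rw [← ZMod.fieldRange_castHom_eq_bot (K := Res A) p] at hb
  obtain ⟨z, hz⟩ := hb
  have hzc : res A r = ((z.val : ℕ) : Res A) := by
    rw [← hz, ← map_natCast (ZMod.castHom (dvd_refl p) (Res A)), ZMod.natCast_zmod_val]
  refine ⟨(z.val : ℤ), ?_⟩
  push_cast
  have hle : A.valuation ((z.val : Qb) - r) ≤ 1 := A.valuation.map_sub_le (natCast_le_one _) N.int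
  rw [← res_eq_zero_iff hle]
  have h2 := res_add (A := A) hle N.int
  rw [sub_add_cancel, res_natCast, hzc, right_eq_add] at h2
  exact h2

/-- One step of the approximation: an integer closer to the node, and the value of the old
distance is the value of an integer. -/
lemma exists_closer {n : ℤ} (h1 : A.valuation ((n : Qb) - r) < 1)
    (h2 : A.valuation (E').a₄ < A.valuation ((n : Qb) - r)) :
    (∃ j : ℕ, 1 ≤ j ∧ A.valuation ((n : Qb) - r) = A.valuation (p : Qb) ^ j) ∧
      ∃ n' : ℤ, A.valuation ((n' : Qb) - r) < A.valuation ((n : Qb) - r) := by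
  set δ := (n : Qb) - r with hδdef
  set a₄ := (E').a₄
  have hp := N.mult.prime
  set q : ℤ := 6 * n ^ 2 + W.b₂ * n + W.b₄
  have hq2 : (q : Qb) = (((12 * n + W.b₂ : ℤ) : Qb)) * δ - 6 * δ ^ 2 + 2 * a₄ := by
    simp only [q, hδdef, a₄, toOrigin_a₄, halfY]
    push_cast
    rw [← map_b₂_ratCurve, ← map_b₄_ratCurve]
    simp only [WeierstrassCurve.b₂, WeierstrassCurve.b₄]
    field_simp
    ring
  have hBn : A.valuation (((12 * n + W.b₂ : ℤ) : Qb)) = 1 := by
    refine eq_one_of_sub_lt N.valuation_disc ?_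
    rw [discB, map_b₂_ratCurve]
    push_cast
    rw [show (12 : Qb) * n + W.b₂ - (W.b₂ + 12 * r) = 12 * δ by simp only [hδdef]; ring]
    exact map_mul_lt_one (natCast_le_one 12) h1
  have hsq : A.valuation (6 * δ ^ 2) < A.valuation δ := by
    rw [map_mul, map_pow, sq]
    exact lt_of_le_of_lt (mul_le_of_le_one_left' (natCast_le_one 6))
      (mul_lt_of_lt_one_left (lt_of_le_of_lt zero_le h2) h1)
  have htwo : A.valuation (2 * a₄) < A.valuation δ := by
    rw [map_mul, N.valuation_two, one_mul]; exact h2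
  have hqv : A.valuation (q : Qb) = A.valuation δ := by
    rw [hq2]
    have hmain : A.valuation ((((12 * n + W.b₂ : ℤ) : Qb)) * δ) = A.valuation δ := by
      rw [map_mul, hBn, one_mul]
    rw [A.valuation.map_add_eq_of_lt_left, A.valuation.map_sub_eq_of_lt_left, hmain]
    · rwa [hmain]
    · rw [A.valuation.map_sub_eq_of_lt_left (by rwa [hmain]), hmain]; exact htwo
  have hq0 : q ≠ 0 := fun h => by
    rw [h, Int.cast_zero, map_zero] at hqv
    exact (lt_of_le_of_lt zero_le h2).ne hqv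
  constructor
  · refine ⟨padicValInt p q, ?_, by rw [← hqv, exists_valuation_eq_pow hp N.mult.lies hq0]⟩
    by_contra hj
    rw [← hqv, exists_valuation_eq_pow hp N.mult.lies hq0, show padicValInt p q = 0 by omega,
      pow_zero] at h1
    exact lt_irrefl _ h1
  · have := Fact.mk hp
    have hne : ((12 * n + W.b₂ : ℤ) : ZMod p) ≠ 0 := by
      rw [Ne, ZMod.intCast_zmod_eq_zero_iff_dvd]
      exact fun hdvd => (intCast_lt_one_of_dvd N.mult.map_lt_one hdvd).ne hBn
    set u : ℕ := (((12 * n + W.b₂ : ℤ) : ZMod p))⁻¹.val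
    have hu : A.valuation (1 - (u : Qb) * ((12 * n + W.b₂ : ℤ) : Qb)) < 1 := by
      have h0 : ((1 - (u : ℤ) * (12 * n + W.b₂) : ℤ) : ZMod p) = 0 := by
        rw [Int.cast_sub, Int.cast_mul, Int.cast_one, Int.cast_natCast, ZMod.natCast_zmod_val,
          inv_mul_cancel₀ hne, sub_self]
      have h := intCast_lt_one_of_dvd N.mult.map_lt_one ((ZMod.intCast_zmod_eq_zero_iff_dvd _ _).mp h0)
      push_cast at h ⊢
      exact h
    refine ⟨n - u * q, ?_⟩
    rw [show ((n - (u : ℤ) * q : ℤ) : Qb) - r = δ * (1 - (u : Qb) * ((12 * n + W.b₂ : ℤ) : Qb))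
        + ((u : Qb) * (6 * δ ^ 2) - (u : Qb) * (2 * a₄)) by
      push_cast [hq2]
      simp only [hδdef]
      ring]
    refine A.valuation.map_add_lt ?_ (A.valuation.map_sub_lt ?_ ?_)
    · rw [map_mul]; exact mul_lt_of_lt_one_right (lt_of_le_of_lt zero_le h2) hu
    · rw [map_mul]; exact lt_of_le_of_lt (mul_le_of_le_one_left' (natCast_le_one u)) hsq
    · rw [map_mul]; exact lt_of_le_of_lt (mul_le_of_le_one_left' (natCast_le_one u)) htwo

/-- The node is approximated by integers, up to the value of `a₄`. -/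
lemma exists_int_close (m : ℕ) : ∃ n : ℤ, A.valuation ((n : Qb) - r) < 1 ∧
    (A.valuation ((n : Qb) - r) ≤ A.valuation (E').a₄ ∨
      A.valuation ((n : Qb) - r) ≤ A.valuation (p : Qb) ^ m) := by
  induction m with
  | zero =>
    obtain ⟨n, hn⟩ := N.exists_int_congr
    exact ⟨n, hn, Or.inr (by rw [pow_zero]; exact hn.le)⟩
  | succ m ih =>
    obtain ⟨n, hn1, hn⟩ := ih
    rcases le_or_gt (A.valuation ((n : Qb) - r)) (A.valuation (E').a₄) with h | h
    · exact ⟨n, hn1, Or.inl h⟩
    obtain ⟨-, n', hn'⟩ := N.exists_closer hn1 h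
    refine ⟨n', hn'.trans hn1, ?_⟩
    rcases le_or_gt (A.valuation ((n' : Qb) - r)) (A.valuation (E').a₄) with h' | h'
    · exact Or.inl h'
    obtain ⟨⟨j, -, hj⟩, -⟩ := N.exists_closer (hn'.trans hn1) h'
    refine Or.inr ?_
    rw [hj]
    refine pow_le_pow_right_of_le_one' N.mult.map_lt_one.le ?_
    by_contra hlt
    refine absurd (hn'.trans_le (hn.resolve_left h.not_ge)) (not_lt.mpr ?_)
    rw [hj]
    exact pow_le_pow_right_of_le_one' N.mult.map_lt_one.le (by omega)

/-- A generator of the torsion modulo the points of nonsingular reduction. -/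
theorem exists_generator {k : ℕ} (hk : A.valuation (W.Δ : Qb) = A.valuation (p : Qb) ^ (p * k)) :
    ∃ (R : (EQ).toAffine.Point) (η : Qb), A.valuation η = 1 ∧ p • R ∈ N.e0Group ∧
      R ∉ N.e0Group ∧
      (∀ σ ∈ A.decompositionSubgroup ℚ,
        (σ • R = R ∧ σ η = η) ∨ (σ • R = -R ∧ σ η = -η)) ∧
      ∀ x : (EQ).toAffine.Point, p • x = 0 → ∃ m : ℤ, x - m • R ∈ N.e0Group := by
  have hp := N.mult.prime
  have h2Q : (2 : Qb) ≠ 0 := two_ne_zero
  have hp3 : 3 ≤ p := by
    have := hp.two_le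
    have := N.ne_two
    omega
  obtain ⟨h, hh⟩ := hp.odd_of_ne_two N.ne_two
  set a := A.valuation (E').toAffine.a₄
  set d := A.valuation ((p : Qb) ^ k) with hddef
  have hd : d = A.valuation (p : Qb) ^ k := map_pow _ _ _
  have ha : a ^ 2 = d ^ p := by
    have hΔ := congrArg A.valuation (toOrigin_Δ_eq (V := EQ) h2Q N.root)
    rw [map_Δ_ratCurve, hk, map_mul, map_pow] at hΔ
    have hu : A.valuation (discB EQ r ^ 2 - 64 * (E').a₄) = 1 := by
      refine eq_one_of_sub_lt (a := discB EQ r ^ 2) (by rw [map_pow, N.valuation_disc, one_pow]) ?_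
      rw [show discB EQ r ^ 2 - 64 * (E').a₄ - discB EQ r ^ 2 = -(64 * (E').a₄) by ring,
        A.valuation.map_neg]
      exact map_mul_lt_one (natCast_le_one 64) N.node.hb
    rw [hu, mul_one] at hΔ
    rw [hd, ← pow_mul, mul_comm k p]
    exact hΔ.symm
  have hk1 : 1 ≤ k := by
    by_contra h0
    rw [show k = 0 by omega, mul_zero, pow_zero] at hk
    exact (intCast_lt_one_of_dvd N.mult.map_lt_one N.mult.dvd).ne hk
  have hd0 : 0 < d := A.valuation.pos_iff.mpr (pow_ne_zero _ (Nat.cast_ne_zero.mpr hp.ne_zero))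
  have hd1 : d < 1 := by rw [hd]; exact pow_lt_one₀ zero_le N.mult.map_lt_one (by omega)
  have hpow : ∀ i, 2 * i < p → a < d ^ i := fun i hi => by
    refine lt_of_pow_lt_pow_left₀ 2 zero_le ?_
    rw [ha, ← pow_mul]
    exact pow_lt_pow_right_of_lt_one₀ hd0 hd1 (by omega)
  -- an integer close to the node
  obtain ⟨r0, -, hr0⟩ := N.exists_int_close (k + 1)
  have hr0' : A.valuation ((r0 : Qb) - r) < d := by
    rcases hr0 with h' | h'
    · refine h'.trans_lt ?_
      have := hpow 1 (by omega)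
      rwa [pow_one] at this
    · refine h'.trans_lt ?_
      rw [hd, pow_succ]
      exact mul_lt_of_lt_one_right (hd ▸ hd0) N.mult.map_lt_one
  set X : Qb := (r0 : Qb) + (p : Qb) ^ k with hX
  obtain ⟨Y, hY⟩ : ∃ Y : Qb, (EQ).toAffine.Equation X Y := by
    obtain ⟨Y, hY⟩ := IsAlgClosed.exists_root (Polynomial.C 1 * Polynomial.X ^ 2
      + Polynomial.C ((EQ).a₁ * X + (EQ).a₃) * Polynomial.X
      + Polynomial.C (-(X ^ 3 + (EQ).a₂ * X ^ 2 + (EQ).a₄ * X + (EQ).a₆))) (by
        rw [Polynomial.degree_quadratic one_ne_zero]; exact two_ne_zero)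
    simp only [Polynomial.IsRoot.def, Polynomial.eval_add, Polynomial.eval_mul, Polynomial.eval_C,
      Polynomial.eval_pow, Polynomial.eval_X, one_mul] at hY
    refine ⟨Y, (Affine.equation_iff ..).mpr ?_⟩
    linear_combination hY
  have hns : (EQ).toAffine.Nonsingular X Y := Affine.equation_iff_nonsingular.mp hY
  set R : (EQ).toAffine.Point := .some X Y hns with hR
  obtain ⟨P, hP⟩ := (originEquiv EQ r).surjective R
  obtain ⟨x, y, hxy, rfl⟩ : ∃ x y hxy, P = .some x y hxy := by
    rcases P with _ | ⟨x, y, hxy⟩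
    · rw [← Affine.Point.zero_def, map_zero] at hP
      exact absurd hP.symm (Affine.Point.some_ne_zero hns)
    · exact ⟨x, y, hxy, rfl⟩
  obtain ⟨h', he⟩ := originEquiv_some hxy
  obtain ⟨hXx, hYy⟩ : x + r = X ∧ y + (E').a₁ * 0 + halfY EQ r = Y := by
    rw [he, hR, Affine.Point.some.injEq] at hP
    exact ⟨by linear_combination hP.1, by linear_combination hP.2⟩
  have hvx : A.valuation x = d := by
    rw [show x = (p : Qb) ^ k + ((r0 : Qb) - r) by linear_combination hXx + hX,
      A.valuation.map_add_eq_of_lt_left hr0']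
  have hbr : Br A.valuation (E').toAffine (.some x y hxy) d (y / x) := by
    have := N.node.br_self hxy (hvx ▸ (pow_one d ▸ hpow 1 (by omega))) (hvx ▸ hd1)
    rwa [hvx] at this
  set s := y / x
  have hs : A.valuation (qb (E').toAffine s) < 1 := hbr.2.2.2.2
  have hxne : x ≠ 0 := A.valuation.pos_iff.mp (hvx ▸ hd0)
  -- multiples of the generator
  have hmul : ∀ i, 1 ≤ i → 2 * i < p →
      Br A.valuation (E').toAffine (i • (.some x y hxy : (E').toAffine.Point)) (d ^ i) s := by
    intro i hi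
    induction i, hi using Nat.le_induction with
    | base => intro _; rwa [one_nsmul, pow_one]
    | succ i hi ih =>
      intro hip
      rw [succ_nsmul, pow_succ]
      exact N.node.br_add_same (ih (by omega)) hbr (by rw [← pow_succ]; exact hpow _ hip)
  have hh1 : 1 ≤ h := by omega
  -- the multiple by `p`
  have hpR : p • R ∈ N.e0Group := by
    rw [← hP, ← map_nsmul, N.mem_e0Group]
    have hh' := hmul h hh1 (by omega)
    have ha0 : 0 < a := A.valuation.pos_iff.mpr N.node.hb₀
    have hdh : 0 < d ^ h := pow_pos hd0 h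
    have hlt : d ^ h < a / d := by
      rw [lt_div_iff₀ hd0, ← pow_succ]
      refine lt_of_pow_lt_pow_left₀ 2 zero_le ?_
      rw [ha, ← pow_mul]
      exact pow_lt_pow_right_of_lt_one₀ hd0 hd1 (by omega)
    have b3 := (N.node.add_opp hh' (N.node.br_add_T hbr)).2 hlt
    have hg : d ^ h / (a / d) = a / d ^ h := by
      rw [div_div_eq_mul_div, div_eq_div_iff ha0.ne' hdh.ne', ← sq a, ha, ← pow_succ, ← pow_add]
      congr 1
      omega
    rw [hg] at b3
    have b4 := (N.node.add_opp b3 (N.node.br_add_T hh')).1 rfl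
    convert b4 using 1
    set P₀ : (E').toAffine.Point := .some x y hxy
    rw [show p • P₀ = h • P₀ + h • P₀ + P₀ by
      rw [← two_nsmul, ← mul_nsmul', ← succ_nsmul]; exact congrArg (· • P₀) hh]
    have hT := N.node.T_add_T
    rw [show h • P₀ + (P₀ + N.node.T) + (h • P₀ + N.node.T) =
      h • P₀ + h • P₀ + P₀ + (N.node.T + N.node.T) by abel, hT, add_zero]
  have hRG : R ∉ N.e0Group := by
    rw [← hP, N.mem_e0Group]; exact hbr.not_e0
  set η := fy (EQ).toAffine X Y / (p : Qb) ^ k with hη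
  have hηv : A.valuation η = 1 := by
    have e : fy (EQ).toAffine X Y = x * (2 * s + (E').a₁) := by
      rw [show x * (2 * s + (E').a₁) = 2 * y + (E').a₁ * x by simp only [s]; field_simp]
      simp only [fy, ← hXx, ← hYy, toOrigin_a₁, halfY]
      field_simp
      ring
    rw [hη, e, map_div₀, map_mul, ← hddef, hvx]
    rw [show A.valuation (2 * s + (E').a₁) = 1 from N.node.unit_root hs, mul_one, div_self hd0.ne']
  refine ⟨R, η, hηv, hpR, hRG, fun σ hσ => ?_, fun z hz => ?_⟩
  · obtain ⟨hσns, e⟩ := smul_some (σ := σ) (ratCurve W) hns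
    have hσX : σ X = X := by simp only [hX, map_add, map_pow, map_natCast, map_intCast]
    have ha₁ : σ (EQ).toAffine.a₁ = (EQ).toAffine.a₁ := σ.commutes _
    have ha₃ : σ (EQ).toAffine.a₃ = (EQ).toAffine.a₃ := σ.commutes _
    have hση : σ η = fy (EQ).toAffine X (σ Y) / (p : Qb) ^ k := by
      simp only [hη, fy, map_div₀, map_add, map_mul, map_pow, map_natCast, map_ofNat, hσX, ha₁, ha₃]
    rcases Affine.Y_eq_of_X_eq hσns.1 hns.1 hσX with hy | hy
    · refine Or.inl ⟨?_, by rw [hση, hy]⟩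
      rw [hR, e, Affine.Point.some.injEq]
      exact ⟨hσX, hy⟩
    · refine Or.inr ⟨?_, ?_⟩
      · rw [hR, e, Affine.Point.neg_some, Affine.Point.some.injEq]
        exact ⟨hσX, hy⟩
      · rw [hση, hy, hη, ← neg_div]
        congr 1
        simp only [fy, Affine.negY]
        ring
  · obtain ⟨Z, rfl⟩ := (originEquiv EQ r).surjective z
    have hz' : p • Z = 0 := (originEquiv EQ r).injective (by rw [map_nsmul, hz, map_zero])
    rcases N.node.e0_or_br ⟨h, hh⟩ hz' with hZ | ⟨g, t, hZ⟩
    · exact ⟨0, by rw [zero_zsmul, sub_zero]; exact N.mem_e0Group.mpr hZ⟩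
    obtain ⟨i, hi⟩ := N.node.pow_eq_of_torsion_even hp hZ hz'
    have hg : g = d ^ i := by
      refine (pow_left_inj₀ zero_le zero_le hp.ne_zero).mp ?_
      rw [hi, pow_mul, ha, ← pow_mul, ← pow_mul, mul_comm]
    obtain ⟨x', y', hx'y', rfl⟩ := hZ.exists_eq
    have hlow : a < g := hZ.2.1
    have hhigh : g < 1 := hZ.2.2.1
    have hi1 : 1 ≤ i := by
      by_contra h0
      rw [hg, show i = 0 by omega, pow_zero] at hhigh
      exact lt_irrefl _ hhigh
    have hi2 : 2 * i < p := by
      by_contra h0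
      have h3 := pow_lt_pow_left₀ hlow zero_le two_ne_zero
      rw [ha, hg, ← pow_mul] at h3
      exact absurd h3 (not_lt.mpr (pow_le_pow_right_of_le_one' hd1.le (by omega)))
    have ht : A.valuation (qb (E').toAffine t) < 1 := hZ.2.2.2.2
    have hi' := hmul i hi1 hi2
    rw [← hg] at hi'
    rcases Node.root_cases hs ht with hst | hst
    · refine ⟨(i : ℤ), ?_⟩
      rw [natCast_zsmul, ← hP, ← map_nsmul, ← map_sub, N.mem_e0Group]
      exact N.node.sub_e0_of_br (Node.br_congr hZ hs hst) hi'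
    · refine ⟨-(i : ℤ), ?_⟩
      rw [neg_zsmul, natCast_zsmul, sub_neg_eq_add, ← hP, ← map_nsmul, ← map_add, N.mem_e0Group,
        add_comm]
      exact (N.node.add_opp hi' (Node.br_congr hZ (by rwa [Node.qb_other]) hst)).1 rfl

variable [Fact p.Prime]

/-- `E[p]` has a model when `p` divides the order of the discriminant. -/
theorem hasModel_torsion [Fintype (Submodule.torsionBy ℤ ((ratCurve W)⁄Qb).Point p)]
    {k : ℕ} (hk : A.valuation (W.Δ : Qb) = A.valuation (p : Qb) ^ (p * k)) :
    HasModel A (Submodule.torsionBy ℤ ((ratCurve W)⁄Qb).Point p) fun σ x => σ • x := by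
  classical
  obtain ⟨R, η, hη, hpR, hRG, hgal, hgen⟩ := N.exists_generator hk
  have hodd : Odd p := N.mult.prime.odd_of_ne_two N.ne_two
  have hη0 : η ≠ 0 := fun h => by rw [h, map_zero] at hη; exact zero_ne_one hη
  have hkey : ∀ m : ℤ, m • R ∈ N.e0Group ↔ (p : ℤ) ∣ m := by
    intro m
    constructor
    · intro hm
      by_contra hdvd
      obtain ⟨a, b, hab⟩ := ((Nat.prime_iff_prime_int.mp N.mult.prime).coprime_iff_not_dvd).mpr hdvd
      refine hRG ?_
      rw [show R = b • (m • R) + a • ((p : ℤ) • R) by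
        rw [← mul_zsmul, ← mul_zsmul, ← add_zsmul, add_comm, hab, one_zsmul]]
      refine add_mem (AddSubgroup.zsmul_mem _ hm b) (AddSubgroup.zsmul_mem _ ?_ a)
      rw [natCast_zsmul]; exact hpR
    · rintro ⟨c, rfl⟩
      rw [mul_comm, mul_zsmul, natCast_zsmul]
      exact AddSubgroup.zsmul_mem _ hpR c
  have hex : ∀ x : Submodule.torsionBy ℤ ((ratCurve W)⁄Qb).Point p,
      ∃ c : ZMod p, x.1 - c.valMinAbs • R ∈ N.e0Group := by
    intro x
    obtain ⟨m, hm⟩ := hgen x.1 (nsmul_torsion x)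
    refine ⟨(m : ZMod p), ?_⟩
    rw [show x.1 - (m : ZMod p).valMinAbs • R =
      (x.1 - m • R) + (m - (m : ZMod p).valMinAbs) • R by rw [sub_zsmul]; abel]
    refine add_mem hm ((hkey _).mpr ?_)
    rw [← ZMod.intCast_zmod_eq_zero_iff_dvd, Int.cast_sub, ZMod.coe_valMinAbs, sub_self]
  choose cls hcls using hex
  have huniq : ∀ (x : Submodule.torsionBy ℤ ((ratCurve W)⁄Qb).Point p) (m : ℤ),
      x.1 - m • R ∈ N.e0Group → cls x = (m : ZMod p) := by
    intro x m hm
    have h := sub_mem hm (hcls x)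
    rw [sub_sub_sub_cancel_left, ← sub_smul, hkey, ← ZMod.intCast_zmod_eq_zero_iff_dvd,
      Int.cast_sub, ZMod.coe_valMinAbs, sub_eq_zero] at h
    exact h
  have hclsadd : ∀ x y, cls (x + y) = cls x + cls y := by
    intro x y
    rw [huniq (x + y) ((cls x).valMinAbs + (cls y).valMinAbs) (by
      rw [Submodule.coe_add, add_zsmul, add_sub_add_comm]
      exact add_mem (hcls x) (hcls y)), Int.cast_add, ZMod.coe_valMinAbs, ZMod.coe_valMinAbs]
  have hσcls : ∀ σ ∈ A.decompositionSubgroup ℚ,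
      ∀ x : Submodule.torsionBy ℤ ((ratCurve W)⁄Qb).Point p,
      σ • (x.1 - (cls x).valMinAbs • R) = (σ • x).1 - (cls (σ • x)).valMinAbs • R ∧
        σ (η * ((cls x).valMinAbs : Qb)) = η * ((cls (σ • x)).valMinAbs : Qb) := by
    intro σ hσ x
    have hmem : σ • x.1 - (cls x).valMinAbs • (σ • R) ∈ N.e0Group := by
      have := N.smul_e0Group hσ (hcls x)
      rwa [gal_smul_sub, smul_comm σ] at this
    rw [gal_smul_sub, smul_comm σ, map_mul, map_intCast]
    rcases hgal σ hσ with ⟨eR, eη⟩ | ⟨eR, eη⟩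
    · rw [eR] at hmem ⊢
      rw [huniq (σ • x) (cls x).valMinAbs hmem, ZMod.coe_valMinAbs, eη]
      exact ⟨rfl, rfl⟩
    · rw [eR, zsmul_neg, ← neg_zsmul] at hmem ⊢
      rw [huniq (σ • x) (-(cls x).valMinAbs) hmem, Int.cast_neg, ZMod.coe_valMinAbs,
        valMinAbs_neg_of_odd hodd, eη, Int.cast_neg, neg_mul_comm]
      exact ⟨rfl, rfl⟩
  have hginj : ∀ x y, η * ((cls x).valMinAbs : Qb) = η * ((cls y).valMinAbs : Qb) → cls x = cls y :=
    fun x y h => ZMod.valMinAbs_inj.mp (Int.cast_injective (mul_left_cancel₀ hη0 h))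
  choose n hn0 hn using fun x : Submodule.torsionBy ℤ ((ratCurve W)⁄Qb).Point p =>
    N.exists_kill (hcls x)
  have hI := intCoeff_ratCurve W A
  obtain ⟨ℓ, hℓ, h7, hℓp, hℓn⟩ :=
    exists_aux_prime p (∏ x, n x) (Finset.prod_pos fun x _ => hn0 x)
  have hu : A.valuation (ℓ : Qb) = 1 := by
    have h := valuation_intCast_of_liesOverPrime N.mult.prime N.mult.lies (n := (ℓ : ℤ)) (by
      rw [Int.natCast_dvd_natCast]
      exact fun h => hℓp ((Nat.prime_dvd_prime_iff_eq N.mult.prime hℓ).mp h).symm)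
    simpa using h
  obtain ⟨R₀, hR₀G, hR₀, hR₀'⟩ := N.exists_torsion hℓ (by omega)
  exact ChartData.hasModel
    { hI := hI
      G := N.e0Group
      nsRed := fun x y h hG hx => N.nsRed_e0Group h hG hx
      smul_G := fun σ hσ P hP => N.smul_e0Group hσ hP
      π := fun x => x.1 - (cls x).valMinAbs • R
      π_mem := hcls
      π_smul := fun σ hσ x => (hσcls σ hσ x).1
      g := fun x => η * ((cls x).valMinAbs : Qb)
      g_int := fun x => (A.valuation_le_one_iff _).mp (map_mul_le_one hη.le (intCast_le_one _))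
      g_smul := fun σ hσ x => (hσcls σ hσ x).2
      g_sep := fun x y hne => by
        rw [← mul_sub, map_mul, hη, one_mul, ← Int.cast_sub]
        refine valuation_intCast_of_liesOverPrime N.mult.prime N.mult.lies fun hdvd => hne ?_
        rw [← ZMod.intCast_zmod_eq_zero_iff_dvd, Int.cast_sub, ZMod.coe_valMinAbs,
          ZMod.coe_valMinAbs, sub_eq_zero] at hdvd
        rw [hdvd]
      g_add := fun P Q P' Q' hP hQ => by
        simp only [hclsadd, hginj _ _ hP, hginj _ _ hQ, Submodule.coe_add]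
        refine ⟨trivial, ?_⟩
        abel
      separated := fun P Q hne => by
        by_contra hc
        push Not at hc
        obtain ⟨h1, h2⟩ := hc
        rw [hginj _ _ h1] at h2
        exact hne (Subtype.ext (sub_left_injective h2))
      N := ∏ x, n x
      N_kill := fun x => by
        obtain ⟨c, hc⟩ := Finset.dvd_prod_of_mem n (Finset.mem_univ x)
        rw [hc, mul_nsmul]
        exact nsmul_mem (show n x • (x.1 - (cls x).valMinAbs • R) ∈ e1Subgroup hI from hn x) c
      ℓ := ℓ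
      prime := hℓ
      seven_le := h7
      unit_ℓ := hu
      not_dvd := hℓn
      R₀ := R₀
      R₀_mem := hR₀G
      R₀_tors := hR₀
      R₀_ne := hR₀' }

end NodeAt

/-- **The mod `p` representation at a multiplicative `p` with `p ∣ v_p(Δ)` is finite flat.** -/
theorem isFlatAt_torsion_mult (W : WeierstrassCurve ℤ) {p : ℕ} [Fact p.Prime]
    {A : ValuationSubring Qb} (hA : A.LiesOverPrime p) (hp2 : p ≠ 2) [(ratCurve W).IsElliptic]
    (hdvd : (p : ℤ) ∣ W.Δ) (hc4 : ¬ (p : ℤ) ∣ W.c₄)
    (hval : (p : ℤ) ∣ padicValRat p (ratCurve W).Δ)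
    (hcard : Nat.card (Submodule.torsionBy ℤ ((ratCurve W)⁄Qb).Point p) = p ^ 2)
    (hker : GaloisFactorsThroughFiniteLevel
      (Affine.Point.galoisRepModuleEnd (K := Qb) ℚ (ratCurve W) p)) :
    (GaloisRepAdic.ofResidualGaloisRep
      ((ratCurve W).residualGaloisRepOf p hcard hker)).IsFlatAt p := by
  have h0 : W.Δ ≠ 0 := fun h => (ratCurve W).isUnit_Δ.ne_zero (by simp [ratCurve, h])
  have h : MultAt W p A := ⟨h0, Fact.out, hdvd, hc4, hA⟩
  obtain ⟨r, N⟩ := exists_nodeAt h hp2
  rw [WeierstrassCurve.map_Δ, eq_intCast, padicValRat.of_int, Int.natCast_dvd_natCast] at hval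
  obtain ⟨k, hk⟩ := hval
  have := finite_torsion (ratCurve W) (Fact.out : p.Prime).ne_zero
  let _ : Fintype (Submodule.torsionBy ℤ ((ratCurve W)⁄Qb).Point p) := Fintype.ofFinite _
  let _ : Fintype ((ratCurve W).residualGaloisRepOf p hcard hker).V :=
    inferInstanceAs (Fintype (Submodule.torsionBy ℤ ((ratCurve W)⁄Qb).Point p))
  exact isFlatAt_ofResidual Fact.out hA _
    (N.hasModel_torsion (k := k) (by rw [exists_valuation_eq_pow Fact.out hA h0, hk]))

end FA.LocalDef
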