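import Fermat.Agent.LocalDef.MultNode
import Fermat.Prelude.Def_GaloisRep_StrictOrdinary
import Fermat.Prelude.Def_GaloisRep_Residual

/-!
# The mod `p` representation at a prime of multiplicative reduction is strictly ordinary

The line is the kernel of reduction. A decomposition element acts on the quotient by a sign, as it
fixes or exchanges the branches at the node, and the determinant is the cyclotomic character.
-/

set_option autoImplicit false
set_option linter.unusedSectionVars false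

noncomputable section

open WeierstrassCurve FA.Local FA.Frob FA.EC
open scoped Pointwise WeierstrassCurve.Affine

namespace FA.LocalDef

local notation "Qb" => AlgebraicClosure ℚ
local notation "GQ" => AlgebraicClosure ℚ ≃ₐ[ℚ] AlgebraicClosure ℚ

variable {W : WeierstrassCurve ℤ} {p : ℕ} [Fact p.Prime] {A : ValuationSubring Qb}

/-- The cyclotomic character computed from the action on the roots of unity of order `p ^ n`. -/
lemma cycloChar_eq_natCast (hn : Nat.card (rootsOfUnity p Qb) = p) {n a : ℕ} (hn0 : n ≠ 0)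
    {σ : GQ} (h : ∀ μ : Qb, μ ^ p ^ n = 1 → σ μ = μ ^ a) :
    ((cycloChar p hn σ : (ZMod p)ˣ) : ZMod p) = a := by
  have : NeZero p := ⟨(Fact.out : p.Prime).ne_zero⟩
  rw [cycloChar_apply]
  symm
  refine modularCyclotomicCharacter.unique Qb hn _ fun t ht => ?_
  have ht' : (t : Qb) ^ p = 1 := by
    rw [← Units.val_pow_eq_pow_val, (mem_rootsOfUnity p t).mp ht, Units.val_one]
  show σ (t : Qb) = _
  obtain ⟨c, hc⟩ := dvd_pow_self p hn0
  rw [h t (by rw [hc, pow_mul, ht', one_pow]), ZMod.val_natCast]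
  exact pow_eq_pow_mod a ht'

section

variable [(ratCurve W).IsElliptic]

set_option quotPrecheck false in
local notation "Tp" => Submodule.torsionBy ℤ ((ratCurve W)⁄Qb).Point p

/-- A point of `p`-torsion outside the kernel of reduction is moved by a sign. -/
theorem exists_sign (h : MultAt W p A) (hp2 : p ≠ 2) {y : Tp} (hy : y ∉ e1Torsion W A p)
    {σ : GQ} (hσ : σ ∈ A.decompositionSubgroup ℚ) :
    ∃ w : ZMod p, (w = 1 ∨ w = -1) ∧ σ • y - w • y ∈ e1Torsion W A p := by
  have hp : p.Prime := Fact.out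
  obtain ⟨r, N⟩ := exists_nodeAt h hp2
  set e := originEquiv ((ratCurve W)⁄Qb) r
  have hpy : p • (y.1 : ((ratCurve W)⁄Qb).toAffine.Point) = 0 := nsmul_torsion y
  have hpy' : p • e.symm y.1 = 0 := by rw [← map_nsmul, hpy, map_zero]
  have hyG : y.1 ∉ N.e0Group := fun hG => hy (N.e1_of_torsion hG hpy)
  obtain ⟨g, s, hbr⟩ := (N.node.e0_or_br (hp.odd_of_ne_two hp2) hpy').resolve_left hyG
  rcases N.smul_sign hσ hbr with hs | hs
  · refine ⟨1, Or.inl rfl, ?_⟩
    rw [AddEquiv.apply_symm_apply] at hs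
    rw [one_smul, mem_e1Torsion]
    exact N.e1_of_torsion hs (nsmul_torsion (σ • y - y))
  · refine ⟨-1, Or.inr rfl, ?_⟩
    rw [AddEquiv.apply_symm_apply] at hs
    rw [neg_one_smul, sub_neg_eq_add, mem_e1Torsion]
    exact N.e1_of_torsion hs (nsmul_torsion (σ • y + y))

/-- The strictly ordinary data on `E[p]`. -/
theorem exists_strict_line (h : MultAt W p A) (hp2 : p ≠ 2) :
    ∃ b : Module.Basis (Fin 2) (ZMod p) Tp,
      (∀ σ ∈ A.decompositionSubgroup ℚ,
        σ • b 0 ∈ Submodule.span (ZMod p) {b 0}) ∧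
      (∀ σ ∈ A.inertiaSubgroupIn ℚ, ∀ v : Tp, σ • v - v ∈ Submodule.span (ZMod p) {b 0}) ∧
      (∀ σ ∈ A.decompositionSubgroup ℚ, ∃ x z : ZMod p,
        σ • b 0 = x • b 0 ∧ (∀ v : Tp, σ • v - z • v ∈ Submodule.span (ZMod p) {b 0}) ∧
        ∀ (n a : ℕ), (∀ μ : Qb, μ ^ p ^ n = 1 → σ μ = μ ^ a) →
          x - (a : ZMod p) * z ∈ Ideal.span {((p ^ n : ℕ) : ZMod p)}) := by
  have hp : p.Prime := Fact.out
  have : NeZero p := ⟨hp.ne_zero⟩
  have : NeZero (p : Qb) := ⟨Nat.cast_ne_zero.mpr hp.ne_zero⟩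
  have hn : Nat.card (rootsOfUnity p Qb) = p := IsAlgClosed.card_rootsOfUnity_eq Qb p
  set N := e1Torsion W A p
  have hN1 := finrank_e1Torsion (p := p) h hp2
  obtain ⟨⟨z, hz⟩, hz0, hspan⟩ := finrank_eq_one_iff'.mp hN1
  have hz0' : z ≠ 0 := fun e => hz0 (Subtype.ext e)
  have hsp : N = Submodule.span (ZMod p) {z} := by
    refine le_antisymm (fun x hx => ?_) ((Submodule.span_singleton_le_iff_mem _ _).mpr hz)
    obtain ⟨c, hc⟩ := hspan ⟨x, hx⟩
    exact Submodule.mem_span_singleton.mpr ⟨c, congrArg Subtype.val hc⟩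
  obtain ⟨y, hy⟩ : ∃ y, y ∉ N := by
    by_contra hall
    push Not at hall
    have : N = ⊤ := eq_top_iff.mpr fun y _ => hall y
    rw [show e1Torsion W A p = ⊤ from this, finrank_top, finrank_torsion (ratCurve W) p] at hN1
    omega
  have hli : LinearIndependent (ZMod p) ![z, y] := by
    rw [LinearIndependent.pair_iff' hz0']
    intro a ha
    exact hy (ha ▸ N.smul_mem a hz)
  let b : Module.Basis (Fin 2) (ZMod p) Tp :=
    basisOfLinearIndependentOfCardEqFinrank hli (by simp [finrank_torsion (ratCurve W) p])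
  have hb0 : b 0 = z := by simp [b]
  have hb1 : b 1 = y := by simp [b]
  refine ⟨b, fun σ hσ => ?_, fun σ hσ v => ?_, fun σ hσ => ?_⟩
  · rw [hb0, ← hsp]; exact smul_mem_e1Torsion hσ hz
  · rw [hb0, ← hsp]; exact smul_sub_mem_e1Torsion h hp2 hσ v
  obtain ⟨x, hx⟩ := Submodule.mem_span_singleton.mp
    (hsp ▸ smul_mem_e1Torsion hσ hz : σ • z ∈ Submodule.span (ZMod p) {z})
  obtain ⟨w, hw, hwy⟩ := exists_sign h hp2 hy hσ
  have hlin : ∀ v : Tp, σ • v - w • v ∈ N := by
    intro v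
    rw [← b.sum_repr v, Fin.sum_univ_two, hb0, hb1, smul_add, smul_comm σ, smul_comm σ (b.repr v 1),
      smul_add, add_sub_add_comm, smul_comm w (b.repr v 0), smul_comm w (b.repr v 1), ← smul_sub,
      ← smul_sub]
    exact N.add_mem (N.smul_mem _ (N.sub_mem (smul_mem_e1Torsion hσ hz) (N.smul_mem _ hz)))
      (N.smul_mem _ hwy)
  refine ⟨x, w, by rw [hb0, hx], fun v => by rw [hb0, ← hsp]; exact hlin v, fun n a ha => ?_⟩
  rcases eq_or_ne n 0 with rfl | hn0
  · simp
  obtain ⟨d, hd⟩ := Submodule.mem_span_singleton.mp (show σ • y - w • y ∈ Submodule.span (ZMod p) {z} from hsp.le hwy)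
  have hdet := det_galoisRepModuleEnd p (ratCurve W) hn σ
  rw [← LinearMap.det_toMatrix b, Matrix.det_fin_two] at hdet
  have f0 : Affine.Point.galoisRepModuleEnd (K := Qb) ℚ (ratCurve W).toAffine p σ (b 0) =
      x • b 0 := by
    rw [Affine.Point.galoisRepModuleEnd_apply, hb0]; exact hx.symm
  have f1 : Affine.Point.galoisRepModuleEnd (K := Qb) ℚ (ratCurve W).toAffine p σ (b 1) =
      d • b 0 + w • b 1 := by
    rw [Affine.Point.galoisRepModuleEnd_apply, hb0, hb1, hd, sub_add_cancel]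
  simp only [LinearMap.toMatrix_apply, f0, f1, map_smul, map_add, Finsupp.smul_apply,
    Finsupp.add_apply, Module.Basis.repr_self, Finsupp.single_apply] at hdet
  simp at hdet
  rw [cycloChar_eq_natCast hn hn0 ha] at hdet
  have hxa : x - (a : ZMod p) * w = 0 := by
    rcases hw with rfl | rfl <;> rw [← hdet] <;> ring
  rw [hxa]
  exact Submodule.zero_mem _

/-- **Strictly ordinary at a multiplicative prime.** -/
theorem isStrictOrdinaryAt_torsion_mult (hp2 : p ≠ 2)
    (h0 : W.Δ ≠ 0) (hdvd : (p : ℤ) ∣ W.Δ) (hc4 : ¬ (p : ℤ) ∣ W.c₄)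
    (hcard : Nat.card Tp = p ^ 2)
    (hker : GaloisFactorsThroughFiniteLevel
      (Affine.Point.galoisRepModuleEnd (K := Qb) ℚ (ratCurve W) p)) :
    (GaloisRepAdic.ofResidualGaloisRep
      ((ratCurve W).residualGaloisRepOf p hcard hker)).IsStrictOrdinaryAt p := by
  refine ⟨by simp, fun P hP => ?_⟩
  obtain ⟨b, hD, hI, hX⟩ := exists_strict_line (A := P) ⟨h0, Fact.out, hdvd, hc4, hP⟩ hp2
  refine ⟨Submodule.span (ZMod p) {b 0}, ⟨b, rfl⟩, fun σ hσ v hv => ?_, hI, fun σ hσ => ?_⟩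
  · obtain ⟨c, rfl⟩ := Submodule.mem_span_singleton.mp hv
    show σ • (c • b 0) ∈ _
    rw [smul_comm]
    exact Submodule.smul_mem _ c (hD σ hσ)
  obtain ⟨x, z, hx, hz, ha⟩ := hX σ hσ
  refine ⟨x, z, fun v hv => ?_, hz, ha⟩
  obtain ⟨c, rfl⟩ := Submodule.mem_span_singleton.mp hv
  show σ • (c • b 0) = x • (c • b 0)
  rw [smul_comm, hx, smul_comm]

end

end FA.LocalDef
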