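import Fermat.Agent.LocalDef.TangentOrd
import Mathlib.LinearAlgebra.Matrix.ToLinearEquiv

/-!
# The flat tangent bound in the level two case

Over an algebraic closure a generator of tame inertia is diagonal and Frobenius antidiagonal. The
classes restricted to the kernel of the representation on inertia are homomorphisms whose common
image has at most `p ^ 2` elements.
-/

set_option autoImplicit false
set_option linter.unusedSectionVars false

noncomputable section

open Matrix FA.Local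
open scoped Pointwise

namespace FA.LocalDef

local notation "Qb" => AlgebraicClosure ℚ
local notation "GQ" => AlgebraicClosure ℚ ≃ₐ[ℚ] AlgebraicClosure ℚ
local notation "M2" k => Matrix (Fin 2) (Fin 2) k

variable {A : ValuationSubring Qb} {p : ℕ}

section Algebra

variable {k : Type} [Field k] {K : Type} [Field K]

lemma IsLocalCocycle.map_ringHom {r : GQ →* M2 k} {c : GQ → M2 k} (h : IsLocalCocycle A r c)
    (Φ : (M2 k) →+* M2 K) (r' : GQ →* M2 K) (hr : ∀ σ, r' σ = Φ (r σ))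
    (htr : ∀ X : M2 k, X.trace = 0 → (Φ X).trace = 0) :
    IsLocalCocycle A r' fun σ => Φ (c σ) :=
  ⟨fun σ hσ => htr _ (h.1 σ hσ), fun σ hσ τ hτ => by
    show Φ (c (σ * τ)) = Φ (c σ) + r' σ * Φ (c τ) * r' σ⁻¹
    rw [h.2 σ hσ τ hτ, map_add, map_mul, map_mul, hr, hr]⟩

/-- Conjugation by a diagonal matrix scales the entries. -/
lemma conj_diag {M N : M2 K} {l : Fin 2 → K} (hM : M = Matrix.diagonal l) (hMN : M * N = 1)
    (X : M2 K) (i j : Fin 2) : l i ≠ 0 ∧ (M * X * N) i j = l i * X i j * (l j)⁻¹ := by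
  have h : ∀ a b, l a * N a b = if a = b then 1 else 0 := fun a b => by
    have := congrFun (congrFun hMN a) b
    rwa [hM, Matrix.diagonal_mul, Matrix.one_apply] at this
  have hl : ∀ a, l a ≠ 0 := fun a h0 => by simpa [h0] using h a a
  refine ⟨hl i, ?_⟩
  have hN : N = Matrix.diagonal fun a => (l a)⁻¹ := by
    ext a b
    have h1 := h a b
    rw [Matrix.diagonal_apply]
    split_ifs at h1 ⊢ with hab
    · exact eq_inv_of_mul_eq_one_right h1
    · exact (mul_eq_zero.mp h1).resolve_left (hl a)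
  rw [hM, hN, Matrix.mul_diagonal, Matrix.diagonal_mul]

/-- Linear independence of functions persists over an extension field. -/
lemma linearIndependent_map [Algebra k K] {X ι : Type*} [Fintype ι] {c : ι → X → M2 k}
    (hc : LinearIndependent k c) (l : ι → K)
    (h : ∀ x, ∑ i, l i • (c i x).map (algebraMap k K) = 0) : l = 0 := by
  funext i
  refine (Module.forall_dual_apply_eq_zero_iff k (l i)).mp fun π => ?_
  refine Fintype.linearIndependent_iff.mp hc (fun j => π (l j)) ?_ i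
  funext x
  ext a b
  have h1 := congrFun (congrFun (h x) a) b
  simp only [Matrix.sum_apply, Matrix.smul_apply, Matrix.map_apply, smul_eq_mul,
    Matrix.zero_apply] at h1
  have h2 := congrArg π h1
  rw [map_sum, map_zero] at h2
  simp only [Finset.sum_apply, Pi.smul_apply, Matrix.sum_apply, Matrix.smul_apply, smul_eq_mul,
    Pi.zero_apply, Matrix.zero_apply]
  rw [← h2]
  refine Finset.sum_congr rfl fun j _ => ?_
  rw [mul_comm (l j), ← Algebra.smul_def, map_smul, smul_eq_mul, mul_comm]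

end Algebra

variable [hp : Fact p.Prime] {k : Type} [Field k] [Fintype k] [CharP k p] {r : GQ →* M2 k}

/-- Coordinates in which a generator of inertia is diagonal and Frobenius antidiagonal. -/
structure SSCoords (A : ValuationSubring Qb) (p : ℕ) (r : GQ →* M2 k) (g₀ F : GQ) where
  /-- the coordinate change -/
  Φ : (M2 k) →+* M2 (AlgebraicClosure k)
  /-- the inverse -/
  P : M2 (AlgebraicClosure k)
  /-- the change of basis -/
  Q : M2 (AlgebraicClosure k)
  hQP : Q * P = 1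
  hPQ : P * Q = 1
  hΦ : ∀ X, Φ X = Q * X.map (algebraMap k (AlgebraicClosure k)) * P
  /-- the eigenvalues -/
  ev : Fin 2 → AlgebraicClosure k
  hdiag : Φ (r g₀) = Matrix.diagonal ev
  hdiagF : Φ (r (F * g₀ * F⁻¹)) = Matrix.diagonal fun i => ev (1 - i)
  hne : ev 0 ≠ ev 1
  hF00 : Φ (r F) 0 0 = 0
  hF11 : Φ (r F) 1 1 = 0

namespace SSCoords

variable {g₀ F : GQ} (S : SSCoords A p r g₀ F)

/-- The representation in the new coordinates. -/
def rep : GQ →* M2 (AlgebraicClosure k) := S.Φ.toMonoidHom.comp r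

lemma rep_apply (σ : GQ) : S.rep σ = S.Φ (r σ) := rfl

lemma trace_Φ {X : M2 k} (hX : X.trace = 0) : (S.Φ X).trace = 0 := by
  rw [S.hΦ, Matrix.trace_mul_comm, ← mul_assoc, S.hPQ, one_mul]
  have := congrArg (algebraMap k (AlgebraicClosure k)) hX
  rw [map_zero] at this
  simpa [Matrix.trace, map_sum] using this

lemma Φ_injective : Function.Injective S.Φ := fun X Y h => by
  rw [S.hΦ, S.hΦ] at h
  have h1 := congrArg (fun Z => S.P * Z * S.Q) h
  simp only [← mul_assoc, S.hPQ, one_mul] at h1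
  rw [mul_assoc (X.map _), S.hPQ, mul_one, mul_assoc (Y.map _), S.hPQ, mul_one] at h1
  exact Matrix.map_injective (algebraMap k (AlgebraicClosure k)).injective h1

lemma F_off : S.Φ (r F) 0 1 ≠ 0 ∧ S.Φ (r F) 1 0 ≠ 0 ∧
    ∀ X : M2 (AlgebraicClosure k), (S.Φ (r F) * X * S.Φ (r F⁻¹)) 0 1 =
      S.Φ (r F) 0 1 * X 1 0 * (S.Φ (r F) 1 0)⁻¹ := by
  have h : S.Φ (r F) * S.Φ (r F⁻¹) = 1 := by rw [← map_mul, r_mul_inv, map_one]
  have h0 := congrFun (congrFun h 0) 0
  have h1 := congrFun (congrFun h 1) 1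
  have h01 := congrFun (congrFun h 0) 1
  simp only [Matrix.mul_apply, Fin.sum_univ_two, S.hF00, S.hF11, zero_mul, zero_add, add_zero,
    Matrix.one_apply_eq, Matrix.one_apply_ne (show (0 : Fin 2) ≠ 1 by decide)] at h0 h1 h01
  have hb : S.Φ (r F) 0 1 ≠ 0 := left_ne_zero_of_mul_eq_one h0
  have hc : S.Φ (r F) 1 0 ≠ 0 := left_ne_zero_of_mul_eq_one h1
  refine ⟨hb, hc, fun X => ?_⟩
  rw [Matrix.mul_apply, Fin.sum_univ_two, (mul_eq_zero.mp h01).resolve_left hb, mul_zero, add_zero,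
    Matrix.mul_apply, Fin.sum_univ_two, S.hF00, zero_mul, zero_add]
  rw [eq_inv_of_mul_eq_one_right h1]

include S in
/-- The square of Frobenius is a scalar. -/
lemma sq_scalar (X : M2 k) : r F * (r F * X * r F⁻¹) * r F⁻¹ = X := by
  refine S.Φ_injective ?_
  set B := S.Φ (r F) with hB
  have hBB : B * B = (B 0 1 * B 1 0) • 1 := by
    ext i j
    fin_cases i <;> fin_cases j <;>
      simp [Matrix.mul_apply, Fin.sum_univ_two, hB, S.hF00, S.hF11, mul_comm]
  have h : B * S.Φ (r F⁻¹) = 1 := by rw [hB, ← map_mul, r_mul_inv, map_one]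
  simp only [map_mul, ← hB]
  calc B * (B * S.Φ X * S.Φ (r F⁻¹)) * S.Φ (r F⁻¹)
      = (B * B) * S.Φ X * (S.Φ (r F⁻¹) * S.Φ (r F⁻¹)) := by simp only [mul_assoc]
    _ = S.Φ X * (B * B) * (S.Φ (r F⁻¹) * S.Φ (r F⁻¹)) := by
        rw [hBB, smul_mul_assoc, one_mul, mul_smul_comm, mul_one]
    _ = S.Φ X * (B * (B * S.Φ (r F⁻¹)) * S.Φ (r F⁻¹)) := by simp only [mul_assoc]
    _ = S.Φ X := by rw [h, mul_one, h, mul_one]

end SSCoords

include hp in
/-- The adapted coordinates of a level two representation. -/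
theorem exists_ssCoords (hA : A.LiesOverPrime p) {Λr : Layer A p}
    (hN : ∀ τ, τ ∈ Λr.N ↔ τ ∈ A.inertiaSubgroupIn ℚ ∧ r τ = 1) (hfil : Λr.fil 1 ≤ Λr.N)
    {g₀ F : GQ} (hg₀ : g₀ ∈ A.inertiaSubgroupIn ℚ) (hF : A.IsFrobeniusAt F p)
    (hnorm : Λr.Normalizes F)
    {t d : ℕ} (ht : (r g₀).trace = (t : k)) (hd : (r g₀).det = (d : k))
    {ν : Res A} (hν : ν * ν - (t : Res A) * ν + (d : Res A) = 0) (hνp : ν ^ p ≠ ν) :
    ∃ S : SSCoords A p r g₀ F, S.ev 0 * S.ev 1 = (d : AlgebraicClosure k) ∧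
      S.ev 0 + S.ev 1 = (t : AlgebraicClosure k) := by
  classical
  let K := AlgebraicClosure k
  have : CharP K p := charP_of_injective_algebraMap (algebraMap k K).injective p
  have := res_charP hp.out hA
  obtain ⟨a, ha⟩ := IsAlgClosed.exists_root
    (Polynomial.C (1 : K) * Polynomial.X ^ 2 + Polynomial.C (-(t : K)) * Polynomial.X +
      Polynomial.C (d : K))
    (by rw [Polynomial.degree_quadratic one_ne_zero]; decide)
  have ha' : a * a - (t : K) * a + (d : K) = 0 := by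
    simp [Polynomial.IsRoot.def] at ha
    linear_combination ha
  -- the roots are not rational
  have hirr : a ^ p ≠ a := fun heq => by
    have hb : a ∈ (⊥ : Subfield K) := (Subfield.mem_bot_iff_pow_eq_self K p).mpr heq
    rw [← ZMod.fieldRange_castHom_eq_bot (K := K) p] at hb
    obtain ⟨z, hz⟩ := hb
    have hroot : z * z - (t : ZMod p) * z + (d : ZMod p) = 0 :=
      (ZMod.castHom (dvd_refl p) K).injective (by
        rw [map_add, map_sub, map_mul, map_mul, map_natCast, map_natCast, map_zero, hz, ha'])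
    have h := congrArg (ZMod.castHom (dvd_refl p) (Res A)) hroot
    rw [map_add, map_sub, map_mul, map_mul, map_natCast, map_natCast, map_zero] at h
    set w := ZMod.castHom (dvd_refl p) (Res A) z
    have hwp : ∀ y : ZMod p, (ZMod.castHom (dvd_refl p) (Res A) y) ^ p =
        ZMod.castHom (dvd_refl p) (Res A) y := fun y => by rw [← map_pow, ZMod.pow_card]
    have h2 : (ν - w) * (ν + w - (t : Res A)) = 0 := by linear_combination hν - h
    rcases mul_eq_zero.mp h2 with h3 | h3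
    · exact hνp (by rw [sub_eq_zero.mp h3, hwp])
    · refine hνp ?_
      rw [show ν = ZMod.castHom (dvd_refl p) (Res A) ((t : ZMod p) - z) by
        rw [map_sub, map_natCast]; linear_combination h3, hwp]
  set b := (t : K) - a with hb
  have hb' : b * b - (t : K) * b + (d : K) = 0 := by rw [hb]; linear_combination ha'
  have hap : a ^ p = b := by
    have h := congrArg (frobenius K p) ha'
    rw [map_add, map_sub, map_mul, map_mul, map_zero, map_natCast, map_natCast, frobenius_def] at h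
    have h2 : (a ^ p - a) * (a ^ p - b) = 0 := by rw [hb]; linear_combination h - ha'
    exact sub_eq_zero.mp ((mul_eq_zero.mp h2).resolve_left (sub_ne_zero.mpr hirr))
  have hbp : b ^ p = a := by
    have htp : (t : K) ^ p = t := by rw [← frobenius_def, map_natCast]
    rw [hb, sub_pow_char, hap, htp, hb]
    ring
  have hab : a ≠ b := fun h => hirr (hap.trans h.symm)
  -- eigenvectors
  set M := (r g₀).map (algebraMap k K) with hM
  have htM : M 0 0 + M 1 1 = (t : K) := by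
    have := congrArg (algebraMap k K) ht
    rw [trace_fin_two, map_add, map_natCast] at this
    simpa [hM] using this
  have hdM : M 0 0 * M 1 1 - M 0 1 * M 1 0 = (d : K) := by
    have := congrArg (algebraMap k K) hd
    rw [det_fin_two, map_sub, map_mul, map_mul, map_natCast] at this
    simpa [hM] using this
  have heig : ∀ e : K, e * e - (t : K) * e + (d : K) = 0 →
      ∃ w : Fin 2 → K, w ≠ 0 ∧ M *ᵥ w = e • w := fun e he => by
    have hdet0 : (M - e • 1).det = 0 := by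
      simp [det_fin_two]
      linear_combination he + hdM - e * htM
    obtain ⟨w, hw, hw'⟩ := Matrix.exists_mulVec_eq_zero_iff.mpr hdet0
    refine ⟨w, hw, ?_⟩
    rw [sub_mulVec, smul_mulVec, one_mulVec, sub_eq_zero] at hw'
    exact hw'
  obtain ⟨u, hu, hMu⟩ := heig a ha'
  obtain ⟨w, hw, hMw⟩ := heig b hb'
  set P : M2 K := !![u 0, w 0; u 1, w 1] with hP
  set ev : Fin 2 → K := ![a, b] with hev
  have hMP : M * P = P * Matrix.diagonal ev := by
    have h0 := congrFun hMu 0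
    have h1 := congrFun hMu 1
    have h2 := congrFun hMw 0
    have h3 := congrFun hMw 1
    simp only [mulVec, dotProduct, Fin.sum_univ_two, Pi.smul_apply, smul_eq_mul] at h0 h1 h2 h3
    ext i j
    fin_cases i <;> fin_cases j <;>
      simp [Matrix.mul_apply, Fin.sum_univ_two, hP, hev] <;>
      first
        | linear_combination h0
        | linear_combination h1
        | linear_combination h2
        | linear_combination h3
  have hPdet : IsUnit P.det := by
    refine Ne.isUnit fun h0 => ?_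
    obtain ⟨z, hz, hz'⟩ := Matrix.exists_mulVec_eq_zero_iff.mpr h0
    have e : P *ᵥ z = z 0 • u + z 1 • w := by
      refine funext (Fin.forall_fin_two.mpr ⟨?_, ?_⟩)
      · simp only [hP, mulVec, dotProduct, Fin.sum_univ_two, Pi.add_apply, Pi.smul_apply,
          smul_eq_mul, Matrix.of_apply, Matrix.cons_val_zero, Matrix.cons_val_one,
          Matrix.cons_val_fin_one]
        ring
      · simp only [hP, mulVec, dotProduct, Fin.sum_univ_two, Pi.add_apply, Pi.smul_apply,
          smul_eq_mul, Matrix.of_apply, Matrix.cons_val_zero, Matrix.cons_val_one,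
          Matrix.cons_val_fin_one]
        ring
    rw [e] at hz'
    have h2 := congrArg (M *ᵥ ·) hz'
    simp only [mulVec_add, mulVec_smul, hMu, hMw, mulVec_zero] at h2
    have h3 : (z 0 * (a - b)) • u = 0 := by
      have := congrArg₂ (fun x y => x - b • y) h2 hz'
      simp only [smul_zero, sub_zero] at this
      rw [← this]
      module
    have hz0 : z 0 = 0 := by
      rcases smul_eq_zero.mp h3 with h4 | h4
      · exact (mul_eq_zero.mp h4).resolve_right (sub_ne_zero.mpr hab)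
      · exact absurd h4 hu
    rw [hz0, zero_smul, zero_add] at hz'
    have hz1 : z 1 = 0 := (smul_eq_zero.mp hz').resolve_right hw
    exact hz (funext (Fin.forall_fin_two.mpr ⟨hz0, hz1⟩))
  have hQP : P⁻¹ * P = 1 := Matrix.nonsing_inv_mul P hPdet
  have hPQ : P * P⁻¹ = 1 := Matrix.mul_nonsing_inv P hPdet
  let Φ : (M2 k) →+* M2 K :=
    { toFun := fun X => P⁻¹ * X.map (algebraMap k K) * P
      map_one' := by rw [Matrix.map_one _ (map_zero _) (map_one _), mul_one, hQP]
      map_mul' := fun X Y => by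
        rw [Matrix.map_mul]
        conv_rhs => rw [mul_assoc (P⁻¹ * _), ← mul_assoc P, ← mul_assoc P, hPQ, one_mul]
        simp only [mul_assoc]
      map_zero' := by rw [Matrix.map_zero _ (map_zero _), mul_zero, zero_mul]
      map_add' := fun X Y => by rw [Matrix.map_add _ (map_add _), mul_add, add_mul] }
  have hdiag : Φ (r g₀) = Matrix.diagonal ev := by
    show P⁻¹ * M * P = _
    rw [mul_assoc, hMP, ← mul_assoc, hQP, one_mul]
  have hFd := hF.mem_decompositionSubgroup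
  have hconj : r (F * g₀ * F⁻¹) = r g₀ ^ p := by
    have h1 := ((hN _).mp (hfil (Λr.conj_frob_mem hF hnorm hg₀))).2
    rw [← map_pow, ← mul_one (r (g₀ ^ p)), ← h1, ← map_mul, mul_inv_cancel_left]
  have hdiagF : Φ (r (F * g₀ * F⁻¹)) = Matrix.diagonal fun i => ev (1 - i) := by
    rw [hconj, map_pow, hdiag, Matrix.diagonal_pow]
    refine congrArg Matrix.diagonal (funext (Fin.forall_fin_two.mpr ⟨?_, ?_⟩)) <;>
      simp [hev, hap, hbp]
  have hcomm : Φ (r F) * Matrix.diagonal ev = (Matrix.diagonal fun i => ev (1 - i)) * Φ (r F) := by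
    rw [← hdiag, ← hdiagF, ← map_mul, ← map_mul, ← map_mul, ← map_mul, inv_mul_cancel_right]
  have h00 := congrFun (congrFun hcomm 0) 0
  have h11 := congrFun (congrFun hcomm 1) 1
  simp only [Matrix.mul_diagonal, Matrix.diagonal_mul] at h00 h11
  refine ⟨⟨Φ, P, P⁻¹, hQP, hPQ, fun X => rfl, ev, hdiag, hdiagF, by simpa [hev] using hab, ?_, ?_⟩,
    ?_, ?_⟩
  · refine (mul_eq_zero.mp (?_ : Φ (r F) 0 0 * (a - b) = 0)).resolve_right (sub_ne_zero.mpr hab)
    simp [hev] at h00
    linear_combination h00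
  · refine (mul_eq_zero.mp (?_ : Φ (r F) 1 1 * (b - a) = 0)).resolve_right (sub_ne_zero.mpr hab.symm)
    simp [hev] at h11
    linear_combination h11
  · show ev 0 * ev 1 = _
    simp [hev, hb]
    linear_combination (-1 : K) * ha'
  · show ev 0 + ev 1 = _
    simp [hev, hb]

set_option maxHeartbeats 1000000 in
include hp in
/-- At most four independent flat classes. -/
lemma ss_family_le (hA : A.LiesOverPrime p) (hp2 : p ≠ 2) {Λr : Layer A p}
    (hN : ∀ τ, τ ∈ Λr.N ↔ τ ∈ A.inertiaSubgroupIn ℚ ∧ r τ = 1) (hfil : Λr.fil 1 ≤ Λr.N)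
    (hnormr : ∀ g ∈ A.decompositionSubgroup ℚ, Λr.Normalizes g) (hDr : Λr.D = p ^ 2 - 1)
    {g₀ : GQ} (hg₀ : g₀ ∈ A.inertiaSubgroupIn ℚ)
    (hgen : ∀ σ ∈ A.inertiaSubgroupIn ℚ, ∃ j : ℕ, (g₀ ^ j)⁻¹ * σ ∈ Λr.N)
    (hord : orderOf (Λr.chi0 g₀) = p ^ 2 - 1) {t d : ℕ} (ht : (r g₀).trace = (t : k))
    (hd : (r g₀).det = (d : k))
    (hν : Λr.chi0 g₀ * Λr.chi0 g₀ - (t : Res A) * Λr.chi0 g₀ + (d : Res A) = 0) {m : ℕ}
    (cs : Fin m → GQ → M2 k) (hco : ∀ i, IsLocalCocycle A r (cs i))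
    (hfl : ∀ i, IsFlatClass A r (cs i))
    (hli : LinearIndependent k fun i => fun σ : A.decompositionSubgroup ℚ => cs i σ) : m ≤ 4 := by
  classical
  rcases Nat.eq_zero_or_pos m with rfl | hm
  · omega
  let _ : Algebra (ZMod p) k := ZMod.algebra k p
  let K := AlgebraicClosure k
  have : CharP K p := charP_of_injective_algebraMap (algebraMap k K).injective p
  let _ : Algebra (ZMod p) K := ZMod.algebra K p
  have := res_charP hp.out hA
  let _ : Algebra (ZMod p) (Res A) := ZMod.algebra (Res A) p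
  have h3 : 3 ≤ p := by have := hp.out.two_le; omega
  set ν := Λr.chi0 g₀ with hνdef
  have hsq : p ^ 2 - 1 = (p - 1) * (p + 1) := by
    obtain ⟨q, rfl⟩ : ∃ q, p = q + 1 := ⟨p - 1, by omega⟩
    rw [Nat.add_sub_cancel]; ring_nf; omega
  have hbig : (p - 1) * (p - 1) < p ^ 2 - 1 := by
    rw [hsq]; exact Nat.mul_lt_mul_of_pos_left (by omega) (by omega)
  have hνe : ν ^ (p ^ 2 - 1) = 1 := by rw [← hord]; exact pow_orderOf_eq_one ν
  have hν0 : ν ≠ 0 := Λr.chi0_ne_zero (inertia_le_decomposition hg₀)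
  have hνp : ν ^ p ≠ ν := fun heq => by
    have h1 : ν ^ (p - 1) = 1 := mul_left_cancel₀ hν0 (by
      rw [← pow_succ', Nat.sub_add_cancel hp.out.one_le, heq, mul_one])
    have := Nat.le_of_dvd (by omega) (hord ▸ orderOf_dvd_of_pow_eq_one h1)
    have := Nat.le_mul_self (p - 1)
    omega
  obtain ⟨F, hF⟩ := FA.Deform.exists_isFrobeniusAt hp.out hA
  have hFd := hF.mem_decompositionSubgroup
  have hg₀d := inertia_le_decomposition hg₀
  obtain ⟨S, hSprod, hSsum⟩ :=
    exists_ssCoords hA hN hfil hg₀ hF (hnormr F hFd) ht hd hν hνp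
  -- the quadratic relation of the ratio of the eigenvalues
  have hd0 : (d : ZMod p) ≠ 0 := fun h0 => by
    have h1 : (d : k) = 0 := by rw [← map_natCast (algebraMap (ZMod p) k), h0, map_zero]
    have hu := congrArg Matrix.det (r_mul_inv (r := r) g₀)
    rw [det_mul, hd, h1, zero_mul, det_one] at hu
    exact zero_ne_one hu
  set s : ZMod p := ((t : ZMod p) ^ 2 - 2 * (d : ZMod p)) / (d : ZMod p) with hs
  have hsd : s * (d : ZMod p) = (t : ZMod p) ^ 2 - 2 * (d : ZMod p) := by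
    rw [hs, div_mul_cancel₀ _ hd0]
  set l0 := S.ev 0
  set l1 := S.ev 1
  have hd0K : (d : K) ≠ 0 := by
    rw [← map_natCast (algebraMap (ZMod p) K)]; exact (map_ne_zero _).mpr hd0
  have hl0 : l0 ≠ 0 := left_ne_zero_of_mul (hSprod ▸ hd0K)
  have hl1 : l1 ≠ 0 := right_ne_zero_of_mul (hSprod ▸ hd0K)
  have hsK : algebraMap (ZMod p) K s * (l0 * l1) = l0 ^ 2 + l1 ^ 2 := by
    have h := congrArg (algebraMap (ZMod p) K) hsd
    rw [map_mul, map_sub, map_pow, map_mul, map_natCast, map_natCast, map_ofNat, ← hSprod,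
      ← hSsum] at h
    linear_combination h
  have hcan : ∀ l y : K, l ≠ 0 → l * y * l⁻¹ = y := fun l y hl => by
    rw [mul_comm l y, mul_inv_cancel_right₀ hl]
  set η := l0 * l1⁻¹ with hη
  have hηq : η * η - algebraMap (ZMod p) K s * η + 1 = 0 := by
    rw [hη]; field_simp; linear_combination -hsK
  have hηq' : (l1 * l0⁻¹) * (l1 * l0⁻¹) - algebraMap (ZMod p) K s * (l1 * l0⁻¹) + 1 = 0 := by
    field_simp; linear_combination -hsK
  have hs2 : algebraMap (ZMod p) K s ≠ 2 := fun h => by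
    rw [h] at hsK
    exact S.hne (sub_eq_zero.mp (pow_eq_zero_iff two_ne_zero |>.mp
      (by linear_combination -hsK : (l0 - l1) ^ 2 = 0)))
  -- the residual side
  have hsum : ν + ν ^ p = (t : Res A) := by
    have h := congrArg (frobenius (Res A) p) hν
    rw [map_add, map_sub, map_mul, map_mul, map_zero, map_natCast, map_natCast, frobenius_def] at h
    have h2 : (ν ^ p - ν) * (ν + ν ^ p - (t : Res A)) = 0 := by linear_combination h - hν
    exact sub_eq_zero.mp ((mul_eq_zero.mp h2).resolve_left (sub_ne_zero.mpr hνp))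
  have hprod : ν * ν ^ p = (d : Res A) := by
    linear_combination (-1 : Res A) * hν + ν * hsum
  set η₀ := ν ^ (p - 1) with hη₀
  set η₁ := ν ^ (p * p - p) with hη₁
  have hη01 : η₀ * η₁ = 1 := by
    rw [hη₀, hη₁, ← pow_add, show p - 1 + (p * p - p) = p ^ 2 - 1 by
      have := Nat.le_mul_self p
      rw [sq]; omega, hνe]
  have hνpp : η₀ * ν = ν ^ p := by rw [hη₀, ← pow_succ, Nat.sub_add_cancel hp.out.one_le]
  have hsR : η₀ + η₁ = algebraMap (ZMod p) (Res A) s := by
    have h := congrArg (algebraMap (ZMod p) (Res A)) hsd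
    rw [map_mul, map_sub, map_pow, map_mul, map_natCast, map_natCast, map_ofNat, ← hsum,
      ← hprod, ← hνpp] at h
    have hne0 : ν * (η₀ * ν) ≠ 0 := mul_ne_zero hν0 (mul_ne_zero (pow_ne_zero _ hν0) hν0)
    refine mul_right_cancel₀ hne0 ?_
    linear_combination -h + ν ^ 2 * hη01
  -- the layer of the family
  obtain ⟨Λ, hbd, hΛN, hnorm, E, hEfin, hE⟩ := exists_family_layer (p := p) hA hm hfl
  let H : GQ → (Fin m → M2 k) := fun σ i => cs i σ
  have hH : ∀ σ ∈ Λr.N, ∀ τ ∈ Λr.N, H (σ * τ) = H σ + H τ := fun σ hσ τ hτ => funext fun i => by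
    show cs i (σ * τ) = cs i σ + cs i τ
    rw [(hco i).2 σ (inertia_le_decomposition (Λr.le hσ)) τ (inertia_le_decomposition (Λr.le hτ)),
      ((hN σ).mp hσ).2, ((hN σ⁻¹).mp (inv_mem hσ)).2, one_mul, mul_one]
  have hH1 : H 1 = 0 := funext fun i => (hco i).map_one
  have hHN : ∀ σ, σ ∈ Λ.N → σ ∈ Λr.N ∧ H σ = 0 := fun σ hσ => by
    obtain ⟨hI, hr, hcs⟩ := (hΛN σ).mp hσ
    exact ⟨(hN σ).mpr ⟨hI, hr⟩, funext hcs⟩
  have hNH : ∀ σ ∈ Λr.N, H σ = 0 → σ ∈ Λ.N := fun σ hσ h0 =>
    (hΛN σ).mpr ⟨Λr.le hσ, ((hN σ).mp hσ).2, fun i => congrFun h0 i⟩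
  have hHpow : ∀ σ ∈ Λr.N, ∀ j : ℕ, H (σ ^ j) = j • H σ := fun σ hσ j => by
    induction j with
    | zero => rw [pow_zero, zero_smul, hH1]
    | succ j ih => rw [pow_succ, hH _ (pow_mem hσ j) σ hσ, ih, succ_nsmul]
  have hHinv : ∀ σ ∈ Λr.N, H σ⁻¹ = -H σ := fun σ hσ => by
    have h := hH σ hσ σ⁻¹ (inv_mem hσ)
    rw [mul_inv_cancel, hH1] at h
    exact (neg_eq_of_add_eq_zero_right h.symm).symm
  let W : Layer.Wild Λ :=
    { G := Λr.N
      le_G := fun σ hσ => (hHN σ hσ).1
      G_le := Λr.le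
      normal := fun g hg σ hσ => Λr.N_conj hg hσ
      not_dvd := by
        rw [Λr.D_eq, hDr]
        intro hdvd
        have h1 : p ∣ p ^ 2 - 1 + 1 := by
          rw [Nat.sub_add_cancel (Nat.one_le_pow _ _ hp.out.pos)]; exact dvd_pow_self p two_ne_zero
        exact hp.out.one_lt.ne' (Nat.dvd_one.mp ((Nat.dvd_add_right hdvd).mp h1))
      exp := fun σ hσ => hNH _ (pow_mem hσ p) (by
        rw [hHpow σ hσ, ← Nat.cast_smul_eq_nsmul (ZMod p), ZMod.natCast_self, zero_smul])
      comm := fun σ hσ τ hτ => hNH _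
        (mul_mem (mul_mem (mul_mem (inv_mem hσ) (inv_mem hτ)) hσ) hτ) (by
          rw [hH _ (mul_mem (mul_mem (inv_mem hσ) (inv_mem hτ)) hσ) _ hτ,
            hH _ (mul_mem (inv_mem hσ) (inv_mem hτ)) _ hσ, hH _ (inv_mem hσ) _ (inv_mem hτ),
            hHinv σ hσ, hHinv τ hτ]
          abel) }
  have hWfil : ∀ {σ}, σ ∈ Λr.N → σ ∈ Λ.fil 1 := fun {σ} hσ => W.G_eq_fil_one ▸ (hσ : σ ∈ W.G)
  have hB : Layer.Below Λ Λr := ⟨fun σ hσ => (hHN σ hσ).1⟩
  set ν' := Λ.chi0 g₀ with hν'
  have hνν' : ν = ν' ^ W.d := by rw [hνdef, Layer.chi0_below hB hg₀]; rfl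
  -- conjugation
  have hadj : ∀ g ∈ A.decompositionSubgroup ℚ, ∀ σ ∈ Λr.N,
      H (g * σ * g⁻¹) = fun i => r g * H σ i * r g⁻¹ := fun g hg σ hσ => funext fun i => by
    have hσd := inertia_le_decomposition (Λr.le hσ)
    have hc := hnormr g hg σ hσ
    show cs i (g * σ * g⁻¹) = _
    rw [(hco i).map_conj hg hσd, ((hN _).mp hc).2, show g * σ⁻¹ * g⁻¹ = (g * σ * g⁻¹)⁻¹ by group,
      ((hN _).mp (inv_mem hc)).2, one_mul, mul_one, add_sub_cancel_left]
  let Wsp := imageModule (p := p) Λr.N H hH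
  obtain ⟨T, hT⟩ := exists_descend (p := p) Λr.N H hH
    (fun σ => if hσ : σ ∈ Λr.N then
      (⟨H (g₀ * σ * g₀⁻¹), mem_imageModule _ H hH (Λr.N_conj hg₀ hσ)⟩ : Wsp) else 0)
    (fun σ hσ τ hτ => by
      rw [dif_pos hσ, dif_pos hτ, dif_pos (mul_mem hσ hτ)]
      refine Subtype.ext ?_
      show H _ = H _ + H _
      rw [← hH _ (Λr.N_conj hg₀ hσ) _ (Λr.N_conj hg₀ hτ)]
      congr 1
      group)
    (fun σ hσ h0 => by
      rw [dif_pos hσ]
      exact Subtype.ext (hHN _ (Λ.N_conj hg₀ (hNH σ hσ h0))).2)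
  have hTw : ∀ w : Wsp, ∀ i, (T w).1 i = r g₀ * w.1 i * r g₀⁻¹ := by
    rintro ⟨_, σ, hσ, rfl⟩ i
    rw [hT σ hσ, dif_pos hσ]
    exact congrFun (hadj g₀ hg₀d σ hσ) i
  have hMinv : S.Φ (r g₀) * S.Φ (r g₀⁻¹) = 1 := by rw [← map_mul, r_mul_inv, map_one]
  have hΦT : ∀ (w : Wsp) i a b, S.Φ ((T w).1 i) a b = S.ev a * S.Φ (w.1 i) a b * (S.ev b)⁻¹ :=
    fun w i a b => by
      rw [hTw, map_mul, map_mul]
      exact (conj_diag S.hdiag hMinv _ a b).2
  have hpoly : ∀ w : Wsp, T (T (T w)) - (s + 1) • T (T w) + (s + 1) • T w - w = 0 := fun w => by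
    refine Subtype.ext (funext fun i => S.Φ_injective ?_)
    have hsm : ∀ (x : ZMod p) (X : M2 k), S.Φ (x • X) = algebraMap (ZMod p) K x • S.Φ X :=
      fun x X => by
        rw [algebraMap_smul]
        exact ZMod.map_smul S.Φ.toAddMonoidHom x X
    show S.Φ ((T (T (T w))).1 i - (s + 1) • (T (T w)).1 i + (s + 1) • (T w).1 i - w.1 i) =
      S.Φ ((0 : Fin m → M2 k) i)
    rw [map_sub, map_add, map_sub, hsm, hsm, Pi.zero_apply, map_zero]
    ext a b
    simp only [Matrix.sub_apply, Matrix.add_apply, Matrix.smul_apply, smul_eq_mul, hΦT,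
      Matrix.zero_apply, map_add, map_one]
    set y := S.Φ (w.1 i) a b
    fin_cases a <;> fin_cases b <;> simp only [Fin.zero_eta, Fin.mk_one]
    · simp only [fun y => hcan (S.ev 0) y hl0]; ring
    · linear_combination (y * (l0 * l1⁻¹ - 1)) * hηq
    · linear_combination (y * (l1 * l0⁻¹ - 1)) * hηq'
    · simp only [fun y => hcan (S.ev 1) y hl1]; ring
  -- admissible breaks
  have hcubic : ∀ (g : Wsp →ₗ[ZMod p] Res A) (μ : Res A), (∀ w, g (T w) = μ * g w) →
      (∃ w, g w ≠ 0) → μ = 1 ∨ μ = η₀ ∨ μ = η₁ := by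
    rintro g μ hg ⟨w, hw⟩
    have h := congrArg g (hpoly w)
    rw [map_sub, map_add, map_sub, map_smul, map_smul, map_zero, hg, hg, hg, Algebra.smul_def,
      Algebra.smul_def, map_add, map_one, ← hsR] at h
    have h2 : ((μ - 1) * (μ - η₀) * (μ - η₁)) * g w = 0 := by
      linear_combination h + (μ - 1) * g w * hη01
    rcases mul_eq_zero.mp h2 with h4 | h4
    · rcases mul_eq_zero.mp h4 with h5 | h5
      · rcases mul_eq_zero.mp h5 with h6 | h6
        · exact Or.inl (sub_eq_zero.mp h6)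
        · exact Or.inr (Or.inl (sub_eq_zero.mp h6))
      · exact Or.inr (Or.inr (sub_eq_zero.mp h5))
    · exact absurd h4 hw
  have hconjI : ∀ σ ∈ Λr.N, g₀ * σ * g₀⁻¹ ∈ Λr.N := fun σ hσ => Λr.N_conj hg₀ hσ
  have hallow : ∀ j : ℕ, 1 ≤ j → (p - 1) * j ≤ W.e → ∀ ξ : GQ → Res A,
      (∀ σ ∈ W.G, ∀ τ ∈ W.G, ξ (σ * τ) = ξ σ + ξ τ) → (∀ σ ∈ Λ.N, ξ σ = 0) →
      (∃ σ ∈ W.G, ξ σ ≠ 0) →
      (∀ g ∈ A.inertiaSubgroupIn ℚ, ∀ σ ∈ W.G,
          ξ (g * σ * g⁻¹) = Λ.chi0 g ^ (W.d * j) * ξ σ) → j = p - 1 := by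
    intro j hj1 hje ξ hadd hker hne hequiv
    obtain ⟨g, hg⟩ := exists_descend (p := p) Λr.N H hH ξ hadd
      fun σ hσ h0 => hker σ (hNH σ hσ h0)
    have he : W.e = p ^ 2 - 1 := Λr.D_eq.trans hDr
    rw [he, hsq] at hje
    have hjle : j ≤ p + 1 := Nat.le_of_mul_le_mul_left hje (by omega)
    have hlt : p + 1 < orderOf ν := by
      rw [hord, hsq]
      have := Nat.mul_le_mul_right (p + 1) (show 2 ≤ p - 1 by omega)
      omega
    have hcases := hcubic g (ν ^ j) (by
      rintro ⟨_, σ, hσ, rfl⟩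
      rw [hT σ hσ, dif_pos hσ, hg _ (hconjI σ hσ), hg σ hσ, hequiv g₀ hg₀ σ hσ, ← hν', hνν',
        ← pow_mul])
      (hne.elim fun σ hσ => ⟨⟨H σ, mem_imageModule _ H hH hσ.1⟩, by rw [hg σ hσ.1]; exact hσ.2⟩)
    rcases hcases with h | h | h
    · rw [← pow_zero ν] at h
      have := pow_injOn_Iio_orderOf (show j ∈ Set.Iio (orderOf ν) by simp only [Set.mem_Iio]; omega)
        (show 0 ∈ Set.Iio (orderOf ν) by simp only [Set.mem_Iio]; omega) h
      omega
    · exact pow_injOn_Iio_orderOf (show j ∈ Set.Iio (orderOf ν) by simp only [Set.mem_Iio]; omega)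
        (show p - 1 ∈ Set.Iio (orderOf ν) by simp only [Set.mem_Iio]; omega) h
    · exfalso
      have hlo : p + 1 < p * p - p := by
        obtain ⟨q, rfl⟩ : ∃ q, p = q + 3 := ⟨p - 3, by omega⟩
        have : (q + 3) * (q + 3) = q * q + 6 * q + 9 := by ring
        omega
      have hhi : p * p - p < orderOf ν := by
        rw [hord, sq]
        have := Nat.le_mul_self p
        omega
      have := pow_injOn_Iio_orderOf (show j ∈ Set.Iio (orderOf ν) by simp only [Set.mem_Iio]; omega)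
        (show p * p - p ∈ Set.Iio (orderOf ν) by simp only [Set.mem_Iio]; omega) h
      omega
  have hsingle : ∀ σ ∈ Λr.N, σ ∉ Λ.N → σ ∈ Λ.fil (p - 1) ∧ σ ∉ Λ.fil (p - 1 + 1) :=
    fun σ hσ hσN => by
      obtain ⟨⟨-, -, hle⟩, h⟩ := W.single_break hbd hallow (fun hle => hσN (hle hσ))
      exact ⟨hle hσ, h σ hσ hσN⟩
  have hfilp : ∀ {σ}, σ ∈ Λr.N → σ ∈ Λ.fil (p - 1) := fun {σ} hσ => by
    by_cases hσN : σ ∈ Λ.N
    · exact Λ.N_le_fil _ hσN
    · exact (hsingle σ hσ hσN).1
  obtain ⟨a, ha⟩ := exists_descend (p := p) Λr.N H hH (Λ.gr (p - 1))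
    (fun σ hσ τ hτ => Λ.gr_mul (by omega) (hfilp hσ) (hfilp hτ))
    (fun σ hσ h0 => Layer.gr_eq_zero_of_mem_N _ (hNH σ hσ h0))
  have hainj : Function.Injective a := by
    rw [← LinearMap.ker_eq_bot, LinearMap.ker_eq_bot']
    rintro ⟨_, σ, hσ, rfl⟩ h0
    refine Subtype.ext ?_
    by_contra hne
    exact (hsingle σ hσ fun h => hne (hHN σ h).2).2
      ((Λ.gr_eq_zero_iff (hfilp hσ)).mp ((ha σ hσ).symm.trans h0))
  set ν₁ := ν' ^ (p - 1) with hν₁
  have haT : ∀ w, a (T w) = ν₁ * a w := by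
    rintro ⟨_, σ, hσ, rfl⟩
    rw [hT σ hσ, dif_pos hσ, ha _ (hconjI σ hσ), ha σ hσ, Λ.gr_conj_inertia hg₀ (hfilp hσ)]
  have hν₁p : ν₁ ^ p ≠ ν₁ := fun heq => by
    have hν'0 : ν₁ ≠ 0 := pow_ne_zero _ (Λ.chi0_ne_zero hg₀d)
    have h1 : ν₁ ^ (p - 1) = 1 := mul_left_cancel₀ hν'0 (by
      rw [← pow_succ', Nat.sub_add_cancel hp.out.one_le, heq, mul_one])
    have h2 : ν ^ ((p - 1) * (p - 1)) = 1 := by
      rw [hνν', ← pow_mul, mul_comm W.d, pow_mul, pow_mul, ← hν₁, h1, one_pow]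
    have := Nat.le_of_dvd (Nat.mul_pos (by omega) (by omega))
      (hord ▸ orderOf_dvd_of_pow_eq_one h2)
    omega
  have hquad : ∀ w, T (T w) - s • T w + w = 0 := fun w => by
    refine hainj ?_
    rw [map_zero]
    by_cases hw : a w = 0
    · rw [map_add, map_sub, map_smul, haT, haT, hw, mul_zero, mul_zero, smul_zero, sub_zero,
        add_zero]
    have hne1 : ν₁ ≠ 1 := fun h => hν₁p (by rw [h, one_pow])
    have hq : ν₁ * ν₁ - (η₀ + η₁) * ν₁ + 1 = 0 := by
      rcases hcubic a ν₁ haT ⟨w, hw⟩ with h | h | h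
      · exact absurd h hne1
      · rw [h]; linear_combination -hη01
      · rw [h]; linear_combination -hη01
    rw [map_add, map_sub, map_smul, haT, haT, Algebra.smul_def, ← hsR]
    linear_combination a w * hq
  -- at most `p ^ 2` points
  have hfix : ∀ w, a w = Λ.chi0 F ^ (p - 1) * (Λ.chi0 F ^ (p - 1)) ^ p * a w ^ (p * p) := by
    rintro ⟨_, σ, hσ, rfl⟩
    have h1 : F * σ * F⁻¹ ∈ Λr.N := hnormr F hFd σ hσ
    have h2 : F * (F * σ * F⁻¹) * F⁻¹ ∈ Λr.N := hnormr F hFd _ h1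
    have hHeq : H (F * (F * σ * F⁻¹) * F⁻¹) = H σ := by
      rw [hadj F hFd _ h1, hadj F hFd σ hσ]
      exact funext fun i => S.sq_scalar _
    have he : a ⟨H σ, mem_imageModule _ H hH hσ⟩ =
        Λ.gr (p - 1) (F * (F * σ * F⁻¹) * F⁻¹) := by
      rw [← ha _ h2]
      exact congrArg a (Subtype.ext hHeq.symm)
    conv_lhs => rw [he]
    rw [Λ.gr_conj hFd (hnorm F hFd) (hfilp h1), hF.smul_residue_eq,
      Λ.gr_conj hFd (hnorm F hFd) (hfilp hσ), hF.smul_residue_eq, mul_pow, ← pow_mul (Λ.gr _ σ),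
      ha σ hσ]
    ring
  have hcard : Nat.card Wsp ≤ p * p := by
    set c := Λ.chi0 F ^ (p - 1) * (Λ.chi0 F ^ (p - 1)) ^ p with hc
    set R : Polynomial (Res A) := Polynomial.C c * Polynomial.X ^ (p * p) - Polynomial.X with hR
    have hdeg : R.natDegree ≤ p * p := by
      refine (Polynomial.natDegree_sub_le _ _).trans (max_le (Polynomial.natDegree_C_mul_X_pow_le _ _) ?_)
      rw [Polynomial.natDegree_X]
      exact Nat.mul_pos hp.out.pos hp.out.pos
    have hR0 : R ≠ 0 := fun h0 => by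
      have := congrArg (fun P => Polynomial.coeff P 1) h0
      have h1 : 1 ≠ p * p := by
        have := Nat.mul_le_mul h3 h3
        omega
      simp [hR, Polynomial.coeff_C_mul, Polynomial.coeff_X_pow, h1] at this
    calc Nat.card Wsp ≤ Nat.card R.roots.toFinset :=
          Nat.card_le_card_of_injective (fun w => ⟨a w, by
            rw [Multiset.mem_toFinset, Polynomial.mem_roots hR0, Polynomial.IsRoot.def, hR]
            simp [← hfix w]⟩) fun x y hxy => hainj (congrArg Subtype.val hxy)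
      _ ≤ p * p := by
          rw [Nat.card_eq_fintype_card, Fintype.card_coe]
          exact (Multiset.toFinset_card_le _).trans ((Polynomial.card_roots' R).trans hdeg)
  obtain ⟨x₀, hx₀⟩ : ∃ x₀ : Wsp, ∀ h : Wsp →ₗ[ZMod p] K, (∀ w, h (T w) = η * h w) →
      h x₀ = 0 → h = 0 := by
    by_cases htriv : ∀ w : Wsp, w = 0
    · exact ⟨0, fun h _ _ => LinearMap.ext fun w => by rw [htriv w, map_zero]; rfl⟩
    push Not at htriv
    obtain ⟨x₀, hx₀⟩ := htriv
    have hfin : Finite Wsp := inferInstance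
    let f : ZMod p × ZMod p → Wsp := fun q => q.1 • x₀ + q.2 • T x₀
    have hf : Function.Injective f := fun q q' hqq => by
      have h : (q.1 - q'.1) • x₀ + (q.2 - q'.2) • T x₀ = 0 := by
        have h' := sub_eq_zero.mpr hqq
        rw [← h']
        simp only [f]
        module
      have h2 := congrArg a h
      rw [map_add, map_smul, map_smul, haT, map_zero, Algebra.smul_def, Algebra.smul_def] at h2
      have hax : a x₀ ≠ 0 := fun h0 => hx₀ (hainj (h0.trans a.map_zero.symm))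
      set α := algebraMap (ZMod p) (Res A) (q.1 - q'.1)
      set β := algebraMap (ZMod p) (Res A) (q.2 - q'.2) with hβ
      have h4 : α + β * ν₁ = 0 := (mul_eq_zero.mp (by linear_combination h2 :
        (α + β * ν₁) * a x₀ = 0)).resolve_right hax
      by_cases hb : q.2 - q'.2 = 0
      · rw [hβ, hb, map_zero, zero_mul, add_zero] at h4
        exact Prod.ext (sub_eq_zero.mp ((map_eq_zero _).mp h4)) (sub_eq_zero.mp hb)
      · refine absurd ?_ hν₁p
        have h5 : ν₁ = algebraMap (ZMod p) (Res A) (-(q.1 - q'.1) / (q.2 - q'.2)) := by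
          rw [map_div₀, eq_div_iff ((map_ne_zero _).mpr hb), map_neg]
          linear_combination h4
        rw [h5, ← map_pow, ZMod.pow_card]
    have hbij := hf.bijective_of_nat_card_le (by
      rwa [Nat.card_prod, Nat.card_zmod])
    refine ⟨x₀, fun h hh h0 => LinearMap.ext fun w => ?_⟩
    obtain ⟨q, rfl⟩ := hbij.2 w
    simp [f, hh, h0]
  -- four functionals
  refine le_of_functionals (n := 4) (K := K)
    (LinearMap.pi fun j => Fintype.linearCombination K
      (fun i => (![S.Φ (cs i g₀) 0 1, S.Φ (cs i g₀) 1 0, S.Φ (x₀.1 i) 0 1, S.Φ (cs i F) 0 0] :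
        Fin 4 → K) j)) fun l hl => ?_
  have hl' : ∀ j, ∑ i, l i * (![S.Φ (cs i g₀) 0 1, S.Φ (cs i g₀) 1 0, S.Φ (x₀.1 i) 0 1,
      S.Φ (cs i F) 0 0] : Fin 4 → K) j = 0 := fun j => by
    simpa [Fintype.linearCombination_apply] using congrFun hl j
  have hl01 : ∑ i, l i * S.Φ (cs i g₀) 0 1 = 0 := hl' 0
  have hl10 : ∑ i, l i * S.Φ (cs i g₀) 1 0 = 0 := hl' 1
  have hlx : ∑ i, l i * S.Φ (x₀.1 i) 0 1 = 0 := hl' 2
  have hlF : ∑ i, l i * S.Φ (cs i F) 0 0 = 0 := hl' 3
  set C : GQ → M2 K := fun σ => ∑ i, l i • S.Φ (cs i σ) with hC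
  have hCco : IsLocalCocycle A S.rep C := IsLocalCocycle.sum_smul Finset.univ l
    fun i => (hco i).map_ringHom S.Φ S.rep (fun _ => rfl) fun X => S.trace_Φ
  have hCap : ∀ σ a b, C σ a b = ∑ i, l i * S.Φ (cs i σ) a b := fun σ a b => by
    simp [hC, Matrix.sum_apply, smul_eq_mul]
  have hC11 : ∀ σ ∈ A.decompositionSubgroup ℚ, C σ 0 0 = 0 → C σ 1 1 = 0 := fun σ hσ h => by
    have h1 := hCco.1 σ hσ
    rwa [trace_fin_two, h, zero_add] at h1
  let h01 : Wsp →ₗ[ZMod p] K :=
    (AddMonoidHom.mk' (fun w : Wsp => ∑ i, l i * S.Φ (w.1 i) 0 1) fun w w' => by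
      simp [mul_add, Finset.sum_add_distrib]).toZModLinearMap p
  let h00 : Wsp →ₗ[ZMod p] K :=
    (AddMonoidHom.mk' (fun w : Wsp => ∑ i, l i * S.Φ (w.1 i) 0 0) fun w w' => by
      simp [mul_add, Finset.sum_add_distrib]).toZModLinearMap p
  have hh01 : h01 = 0 := hx₀ h01 (fun w => by
    show ∑ i, l i * S.Φ ((T w).1 i) 0 1 = η * ∑ i, l i * S.Φ (w.1 i) 0 1
    rw [Finset.mul_sum]
    exact Finset.sum_congr rfl fun i _ => by rw [hΦT, hη]; ring) hlx
  have hh00 : ∀ w, h00 w = 0 := fun w => by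
    have hT00 : ∀ w, h00 (T w) = h00 w := fun w => by
      show ∑ i, l i * S.Φ ((T w).1 i) 0 0 = ∑ i, l i * S.Φ (w.1 i) 0 0
      refine Finset.sum_congr rfl fun i _ => ?_
      rw [hΦT, hcan _ _ hl0]
    have h := congrArg h00 (hquad w)
    rw [map_add, map_sub, h00.map_smul, hT00, hT00, map_zero, Algebra.smul_def] at h
    exact (mul_eq_zero.mp (by linear_combination h :
      (2 - algebraMap (ZMod p) K s) * h00 w = 0)).resolve_left (sub_ne_zero.mpr (Ne.symm hs2))
  have hCG : ∀ σ ∈ Λr.N, C σ = 0 := fun σ hσ => by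
    have hσd := inertia_le_decomposition (Λr.le hσ)
    have e00 : C σ 0 0 = 0 := by rw [hCap]; exact hh00 ⟨H σ, mem_imageModule _ H hH hσ⟩
    have e01 : ∀ τ ∈ Λr.N, C τ 0 1 = 0 := fun τ hτ => by
      rw [hCap]; exact LinearMap.congr_fun hh01 ⟨H τ, mem_imageModule _ H hH hτ⟩
    have e10 : C σ 1 0 = 0 := by
      have hc := hnormr F hFd σ hσ
      have h := e01 _ hc
      have hrep1 : ∀ τ ∈ Λr.N, S.rep τ = 1 := fun τ hτ => by
        rw [S.rep_apply, ((hN τ).mp hτ).2, map_one]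
      rw [hCco.map_conj hFd hσd, hrep1 _ hc, show F * σ⁻¹ * F⁻¹ = (F * σ * F⁻¹)⁻¹ by group,
        hrep1 _ (inv_mem hc), one_mul, mul_one, add_sub_cancel_left, S.rep_apply, S.rep_apply,
        S.F_off.2.2] at h
      simpa [S.F_off.1, S.F_off.2.1] using h
    ext a b
    fin_cases a <;> fin_cases b
    · exact e00
    · exact e01 σ hσ
    · exact e10
    · exact hC11 σ hσd e00
  have hg00 : ∀ j : ℕ, C (g₀ ^ j) 0 0 = j * C g₀ 0 0 := fun j => by
    induction j with
    | zero => rw [pow_zero, hCco.map_one, Nat.cast_zero, zero_mul]; rfl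
    | succ j ih =>
      rw [pow_succ', hCco.2 g₀ hg₀d _ (pow_mem hg₀d j), Matrix.add_apply, S.rep_apply, S.rep_apply,
        (conj_diag S.hdiag hMinv _ 0 0).2, hcan _ _ hl0, ih]
      push_cast
      ring
  have hCg : C g₀ = 0 := by
    have hmem : g₀ ^ (p ^ 2 - 1) ∈ Λr.N :=
      hfil ((Λr.chi0_eq_one_iff (pow_mem hg₀ _)).mp (by rw [Λr.chi0_pow hg₀, ← hνdef, hνe]))
    have h := hg00 (p ^ 2 - 1)
    rw [hCG _ hmem, Matrix.zero_apply, Nat.cast_sub (Nat.one_le_pow _ _ hp.out.pos), Nat.cast_pow,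
      CharP.cast_eq_zero, Nat.cast_one, zero_pow two_ne_zero, zero_sub, neg_one_mul] at h
    have e00 : C g₀ 0 0 = 0 := neg_eq_zero.mp h.symm
    ext a b
    fin_cases a <;> fin_cases b
    · exact e00
    · exact (hCap _ 0 1).trans hl01
    · exact (hCap _ 1 0).trans hl10
    · exact hC11 _ hg₀d e00
  have hCI : ∀ σ ∈ A.inertiaSubgroupIn ℚ, C σ = 0 := fun σ hσ => by
    obtain ⟨j, hj⟩ := hgen σ hσ
    have hgj : C (g₀ ^ j) = 0 := by
      clear hj
      induction j with
      | zero => rw [pow_zero, hCco.map_one]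
      | succ j ih =>
        rw [pow_succ, hCco.2 _ (pow_mem hg₀d j) g₀ hg₀d, ih, hCg, mul_zero, zero_mul, add_zero]
    rw [show σ = g₀ ^ j * ((g₀ ^ j)⁻¹ * σ) by rw [mul_inv_cancel_left],
      hCco.2 _ (pow_mem hg₀d j) _ (inertia_le_decomposition (Λr.le hj)), hgj, hCG _ hj, mul_zero,
      zero_mul, add_zero]
  have hCF : C F = 0 := by
    have hσ' := conj_mem_inertia hp.out hA hFd hg₀
    have h := hCco.map_conj hFd hg₀d
    rw [hCI _ hσ', hCg, mul_zero, zero_mul, add_zero, show F * g₀⁻¹ * F⁻¹ = (F * g₀ * F⁻¹)⁻¹ by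
      group] at h
    have hMF : S.rep (F * g₀ * F⁻¹) * S.rep (F * g₀ * F⁻¹)⁻¹ = 1 := by
      rw [← map_mul, mul_inv_cancel, map_one]
    have hent : ∀ a b, C F a b = S.ev (1 - a) * C F a b * (S.ev (1 - b))⁻¹ := fun a b => by
      rw [← (conj_diag S.hdiagF hMF (C F) a b).2]
      exact congrFun (congrFun (sub_eq_zero.mp h.symm) a) b
    ext a b
    fin_cases a <;> fin_cases b
    · exact (hCap F 0 0).trans hlF
    · have := hent 0 1
      simp only [sub_zero, sub_self] at this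
      by_contra hne
      refine S.hne ?_
      change C F 0 1 ≠ 0 at hne
      refine mul_left_cancel₀ hne ?_
      conv_lhs => rw [this]
      rw [mul_assoc, inv_mul_cancel₀ hl0, mul_one, mul_comm]
    · have := hent 1 0
      simp only [sub_zero, sub_self] at this
      by_contra hne
      refine S.hne ?_
      change C F 1 0 ≠ 0 at hne
      refine mul_left_cancel₀ hne (Eq.symm ?_)
      conv_lhs => rw [this]
      rw [mul_assoc, inv_mul_cancel₀ hl1, mul_one, mul_comm]
    · exact hC11 F hFd ((hCap F 0 0).trans hlF)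
  have hzero := hCco.eq_zero hA hF hCI hCF E fun σ hσ hσ' => by
    simp only [hC]
    exact Finset.sum_eq_zero fun i _ => by rw [hE σ hσ hσ' i, map_zero, smul_zero]
  refine linearIndependent_map (K := K) hli l fun σ => ?_
  have h := congrArg (fun Z => S.P * Z * S.Q) (hzero σ σ.2)
  simp only [hC, Matrix.mul_sum, Matrix.sum_mul, mul_smul_comm, smul_mul_assoc, S.hΦ, mul_zero,
    zero_mul] at h
  rw [← h]
  refine Finset.sum_congr rfl fun i _ => congrArg (l i • ·) ?_
  simp only [← mul_assoc, S.hPQ, one_mul]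
  rw [mul_assoc _ S.P S.Q, S.hPQ, mul_one]

include hp in
/-- **The flat tangent bound, level two case.** -/
theorem tangentBound_flat_ss (hA : A.LiesOverPrime p) (hp2 : p ≠ 2) (hflat : IsFlatRes A r)
    (hss : IsSSType (p := p) A r) : TangentBound A r (IsFlatClass A r) := by
  classical
  obtain ⟨Λr, hN, hfil, hDr, g₀, hg₀, hgen, hord, t, d, ht, hd, hν⟩ := hss
  have hnormr : ∀ g ∈ A.decompositionSubgroup ℚ, Λr.Normalizes g := fun g hg τ hτ => by
    obtain ⟨hI, hr⟩ := (hN τ).mp hτ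
    exact (hN _).mpr ⟨conj_mem_inertia hp.out hA hg hI, by
      rw [map_mul, map_mul, hr, mul_one, r_mul_inv]⟩
  let res' : (GQ → M2 k) → (A.decompositionSubgroup ℚ → M2 k) := fun c σ => c σ
  let S : Set (A.decompositionSubgroup ℚ → M2 k) :=
    res' '' {c | IsLocalCocycle A r c ∧ IsFlatClass A r c}
  have hS := finrank_span_le_of_indep (k := k) S 4 fun m c hcS hli => by
    choose cs hcs hcse using hcS
    exact ss_family_le hA hp2 hN hfil hnormr hDr hg₀ hgen hord ht hd hν cs (fun i => (hcs i).1)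
      (fun i => (hcs i).2) (by
        rwa [show (fun i => fun σ : A.decompositionSubgroup ℚ => cs i σ) = c from funext hcse])
  refine ⟨Submodule.span k S, hS.1, hS.2, fun X _ => Submodule.subset_span ?_,
    fun c hco hfl => Submodule.subset_span ⟨c, ⟨hco, hfl⟩, rfl⟩⟩
  have h0 : IsLocalCocycle A r (0 : GQ → M2 k) :=
    ⟨fun σ _ => by simp, fun σ _ τ _ => by simp⟩
  exact ⟨_, ⟨by simpa using h0.add_cob X, isFlatClass_cob hflat X⟩, rfl⟩

include hp in
/-- **The flat tangent bound.** -/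
theorem tangentBound_flat (hp2 : p ≠ 2) (hA : A.LiesOverPrime p) (r : GQ →* M2 k)
    (hdet : DetOmega A p r) (hflat : IsFlatRes A r) : TangentBound A r (IsFlatClass A r) := by
  rcases flat_residual_type hA hp2 hdet hflat with h | h
  · exact tangentBound_flat_ord hA hp2 hdet hflat h
  · exact tangentBound_flat_ss hA hp2 hflat h

end FA.LocalDef
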