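import Fermat.Agent.LocalDef.FlatBasics
import Mathlib.NumberTheory.LegendreSymbol.AddCharacter
import Mathlib.RingTheory.RootsOfUnity.PrimitiveRoots
import Mathlib.LinearAlgebra.LinearIndependent.Basic
import Mathlib.FieldTheory.Galois.Profinite
import Mathlib.FieldTheory.PrimitiveElement

/-!
# Cocycles with values in the `p`-th roots of unity on a decomposition group at `p`

They are combinations of the Kummer cocycles of `p` and `1 + p` and of the coboundary.
-/

set_option autoImplicit false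
set_option linter.unusedSectionVars false

noncomputable section

open FA.Local
open scoped Pointwise

namespace FA.LocalDef

local notation "Qb" => AlgebraicClosure ℚ
local notation "GQ" => AlgebraicClosure ℚ ≃ₐ[ℚ] AlgebraicClosure ℚ

variable {A : ValuationSubring Qb} {p : ℕ} [hp : Fact p.Prime] {ζ : Qb}

local notation "v" => ValuationSubring.valuation A

/-- `a ↦ ζ ^ a`. -/
def zp (hζ : IsPrimitiveRoot ζ p) : AddChar (ZMod p) Qb :=
  have : NeZero p := ⟨hp.out.ne_zero⟩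
  AddChar.zmodChar p hζ.pow_eq_one

lemma zp_apply (hζ : IsPrimitiveRoot ζ p) (a : ZMod p) : zp hζ a = ζ ^ a.val := rfl

lemma zp_natCast (hζ : IsPrimitiveRoot ζ p) (n : ℕ) : zp hζ (n : ZMod p) = ζ ^ n := by
  rw [zp_apply, ZMod.val_natCast]
  exact (pow_eq_pow_mod _ hζ.pow_eq_one).symm

lemma zp_injective (hζ : IsPrimitiveRoot ζ p) : Function.Injective (zp hζ) := fun a b h => by
  have : NeZero p := ⟨hp.out.ne_zero⟩
  exact ZMod.val_injective p (hζ.pow_inj (ZMod.val_lt a) (ZMod.val_lt b) h)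

/-- The exponent of a `p`-th root of unity. -/
def expo (hζ : IsPrimitiveRoot ζ p) (μ : Qb) : ZMod p := Function.invFun (zp hζ) μ

lemma zp_expo (hζ : IsPrimitiveRoot ζ p) {μ : Qb} (h : μ ^ p = 1) : zp hζ (expo hζ μ) = μ := by
  have : NeZero p := ⟨hp.out.ne_zero⟩
  obtain ⟨i, -, rfl⟩ := hζ.eq_pow_of_pow_eq_one h
  exact Function.invFun_eq ⟨(i : ZMod p), zp_natCast hζ i⟩

lemma expo_zp (hζ : IsPrimitiveRoot ζ p) (a : ZMod p) : expo hζ (zp hζ a) = a :=
  Function.leftInverse_invFun (zp_injective hζ) a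

lemma map_zp (hζ : IsPrimitiveRoot ζ p) (σ : GQ) {m : ℕ} (hm : σ ζ = ζ ^ m) (a : ZMod p) :
    σ (zp hζ a) = zp hζ ((m : ZMod p) * a) := by
  rw [zp_apply, map_pow, hm, ← pow_mul, ← zp_natCast hζ, Nat.cast_mul, ZMod.natCast_zmod_val]

include hp in
/-- An integral element fixed by the decomposition group has residue in the prime field. -/
lemma exists_natCast_res (hA : A.LiesOverPrime p) {x : Qb} (hx : v x ≤ 1)
    (hfix : ∀ σ ∈ A.decompositionSubgroup ℚ, σ x = x) : ∃ n : ℕ, res A x = (n : Res A) := by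
  have := res_charP hp.out hA
  obtain ⟨F, hF, hFp⟩ := exists_frobenius hp.out hA
  have h := hFp x hx
  rw [hfix F hF] at h
  have hb : res A x ∈ (⊥ : Subfield (Res A)) := (Subfield.mem_bot_iff_pow_eq_self _ p).mpr h.symm
  rw [← ZMod.fieldRange_castHom_eq_bot (K := Res A) p] at hb
  obtain ⟨z, hz⟩ := hb
  exact ⟨z.val, by rw [← hz, ← map_natCast (ZMod.castHom (dvd_refl p) (Res A)),
    ZMod.natCast_zmod_val]⟩

/-- An open subgroup contains the fixing group of a number field. -/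
lemma exists_fixingSubgroup_le {N : Subgroup GQ} (hN : IsOpen (N : Set GQ)) :
    ∃ E : IntermediateField ℚ Qb, FiniteDimensional ℚ E ∧ E.fixingSubgroup ≤ N := by
  obtain ⟨U, hU⟩ := ProfiniteGrp.exist_openNormalSubgroup_sub_open_nhds_of_one hN N.one_mem
  let E : IntermediateField ℚ Qb := IntermediateField.fixedField U.toSubgroup
  have hEfix : E.fixingSubgroup = U.toSubgroup := InfiniteGalois.fixingSubgroup_fixedField
    ⟨U.toSubgroup, Subgroup.isClosed_of_isOpen _ U.isOpen'⟩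
  exact ⟨E, (InfiniteGalois.isOpen_iff_finite E).mp (hEfix.symm ▸ U.isOpen'),
    hEfix.trans_le hU⟩

/-- Hilbert's theorem 90 for a smooth cocycle on a group of automorphisms. -/
theorem exists_eq_div (hζ : IsPrimitiveRoot ζ p) (D : Subgroup GQ) (b : GQ → ZMod p)
    (hb : ∀ σ ∈ D, ∀ τ ∈ D, ∀ m : ℕ, σ ζ = ζ ^ m → b (σ * τ) = b σ + (m : ZMod p) * b τ)
    (E : IntermediateField ℚ Qb) [FiniteDimensional ℚ E]
    (hE : ∀ σ ∈ D, σ ∈ E.fixingSubgroup → b σ = 0) :
    ∃ y : Qb, y ≠ 0 ∧ ∀ σ ∈ D, σ y = zp hζ (-b σ) * y := by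
  classical
  let L : IntermediateField ℚ Qb := E ⊔ IntermediateField.adjoin ℚ {ζ}
  have : FiniteDimensional ℚ (IntermediateField.adjoin ℚ ({ζ} : Set Qb)) :=
    IntermediateField.adjoin.finiteDimensional (Algebra.IsAlgebraic.isAlgebraic ζ).isIntegral
  have hLfin : FiniteDimensional ℚ L := IntermediateField.finiteDimensional_sup _ _
  let S := {f : L →ₐ[ℚ] Qb // ∃ σ ∈ D, ∀ x : L, σ (x : Qb) = f x}
  have hwd : ∀ σ ∈ D, ∀ τ ∈ D, (∀ x : L, σ (x : Qb) = τ (x : Qb)) → b σ = b τ := by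
    intro σ hσ τ hτ h
    obtain ⟨m, -, hm⟩ := exists_zeta_pow hζ σ
    have hmem : σ⁻¹ * τ ∈ E.fixingSubgroup := fun x => by
      show (σ⁻¹ * τ) (x : Qb) = x
      rw [AlgEquiv.mul_apply, ← h ⟨x, (le_sup_left : E ≤ L) x.2⟩, AlgEquiv.aut_inv,
        AlgEquiv.symm_apply_apply]
    have h1 := hb σ hσ _ (mul_mem (inv_mem hσ) hτ) m hm
    rw [mul_inv_cancel_left, hE _ (mul_mem (inv_mem hσ) hτ) hmem, mul_zero, add_zero] at h1
    exact h1.symm
  let g : S → GQ := fun f => f.2.choose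
  have hg : ∀ f : S, g f ∈ D ∧ ∀ x : L, g f (x : Qb) = f.1 x := fun f => f.2.choose_spec
  obtain ⟨θ, hθ⟩ : ∃ θ : L, ∑ f : S, zp hζ (b (g f)) * f.1 θ ≠ 0 := by
    by_contra hall
    push Not at hall
    have hli := (linearIndependent_monoidHom L Qb).comp (fun f : S => (f.1 : L →* Qb))
      fun f f' h => Subtype.ext (AlgHom.ext fun x => DFunLike.congr_fun h x)
    have h0 := Fintype.linearIndependent_iff.mp hli (fun f => zp hζ (b (g f)))
      (funext fun x => by simpa using hall x)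
      ⟨((1 : GQ) : Qb →ₐ[ℚ] Qb).comp L.val, 1, one_mem _, fun x => rfl⟩
    rw [zp_apply] at h0
    exact pow_ne_zero _ (hζ.ne_zero hp.out.ne_zero) h0
  refine ⟨_, hθ, fun σ hσ => ?_⟩
  obtain ⟨m, -, hm⟩ := exists_zeta_pow hζ σ
  let e : S → S := fun f => ⟨(σ : Qb →ₐ[ℚ] Qb).comp f.1, σ * g f, mul_mem hσ (hg f).1, fun x => by
    show (σ * g f) (x : Qb) = σ (f.1 x)
    rw [AlgEquiv.mul_apply, (hg f).2]⟩
  have he : Function.Injective e := fun f f' h => by
    refine Subtype.ext (AlgHom.ext fun x => σ.injective ?_)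
    exact DFunLike.congr_fun (congrArg Subtype.val h) x
  rw [map_sum, Finset.mul_sum]
  refine Fintype.sum_bijective e (Finite.injective_iff_bijective.mp he) _ _ fun f => ?_
  have hbe : b (g (e f)) = b σ + (m : ZMod p) * b (g f) := by
    rw [← hb σ hσ _ (hg f).1 m hm]
    refine hwd _ (hg (e f)).1 _ (mul_mem hσ (hg f).1) fun x => ?_
    rw [(hg (e f)).2, AlgEquiv.mul_apply, (hg f).2]
    rfl
  rw [map_mul, map_zp hζ σ hm, hbe, AddChar.map_add_eq_mul, ← mul_assoc, ← mul_assoc,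
    ← AddChar.map_add_eq_mul, neg_add_cancel, AddChar.map_zero_eq_one, one_mul]
  rfl

include hp in
/-- A `p`-th root of a fixed element congruent to `1` modulo `p ^ 2` is a root of unity times a
fixed element. -/
theorem exists_fixed_root (hA : A.LiesOverPrime p) (hp2 : p ≠ 2) (hζ : IsPrimitiveRoot ζ p)
    {z : Qb} (hfix : ∀ σ ∈ A.decompositionSubgroup ℚ, σ (z ^ p) = z ^ p)
    (hclose : v (z ^ p - 1) ≤ v (p : Qb) ^ 2) :
    ∃ i : ℕ, ∀ σ ∈ A.decompositionSubgroup ℚ, σ (ζ ^ i * z) = ζ ^ i * z := by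
  classical
  have h3 : 3 ≤ p := by have := hp.out.two_le; omega
  have hvp := valuation_p_lt_one hA
  have hvp0 : 0 < v (p : Qb) := valuation_p_pos hp.out
  have : NeZero p := ⟨hp.out.ne_zero⟩
  have hprod := hζ.pow_sub_pow_eq_prod_sub_mul (1 : Qb) z hp.out.pos
  rw [one_pow] at hprod
  obtain ⟨μ, hμ, hmin⟩ := Finset.exists_min_image (Polynomial.nthRootsFinset p (1 : Qb))
    (fun μ => v (1 - μ * z)) ⟨1, by simp [Polynomial.mem_nthRootsFinset hp.out.pos]⟩
  have hle : v (1 - μ * z) ^ p ≤ v (p : Qb) ^ 2 := by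
    refine le_trans ?_ (le_of_eq_of_le (A.valuation.map_sub_swap 1 (z ^ p)) hclose)
    rw [hprod, map_prod]
    calc v (1 - μ * z) ^ p
        = ∏ _ν ∈ Polynomial.nthRootsFinset p (1 : Qb), v (1 - μ * z) := by
          rw [Finset.prod_const, hζ.card_nthRootsFinset]
      _ ≤ _ := Finset.prod_le_prod (fun _ _ => zero_le) hmin
  rw [Polynomial.mem_nthRootsFinset hp.out.pos] at hμ
  obtain ⟨i, -, rfl⟩ := hζ.eq_pow_of_pow_eq_one hμ
  set δ := v (1 - ζ ^ i * z) with hδ
  have hδ1 : δ < 1 := by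
    by_contra hc
    rw [not_lt] at hc
    exact absurd ((one_le_pow_of_one_le' hc p).trans hle)
      (not_le.mpr (pow_lt_one₀ zero_le hvp two_ne_zero))
  have hδp : δ ^ (p - 1) < v (p : Qb) := by
    by_contra hc
    rw [not_lt] at hc
    have h1 : v (p : Qb) * δ ≤ v (p : Qb) * v (p : Qb) := by
      refine le_trans (mul_le_mul_left hc δ) ?_
      rw [← pow_succ, Nat.sub_add_cancel hp.out.one_le, ← sq]
      exact hle
    have h2 : δ ≤ v (p : Qb) := le_of_mul_le_mul_left h1 hvp0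
    refine absurd (hc.trans (pow_le_pow_left₀ zero_le h2 _)) (not_le.mpr ?_)
    calc v (p : Qb) ^ (p - 1) < v (p : Qb) ^ 1 :=
          pow_lt_pow_right_of_lt_one₀ hvp0 hvp (by omega)
      _ = v (p : Qb) := pow_one _
  refine ⟨i, fun σ hσ => ?_⟩
  have hz1 : v (ζ ^ i * z) = 1 := by
    rw [show ζ ^ i * z = 1 - (1 - ζ ^ i * z) by ring,
      A.valuation.map_sub_eq_of_lt_left (by rwa [map_one]), map_one]
  have hz0 : ζ ^ i * z ≠ 0 := fun h0 => by simp [h0] at hz1
  have hpow : (σ (ζ ^ i * z) / (ζ ^ i * z)) ^ p = 1 := by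
    have e : (ζ ^ i * z) ^ p = z ^ p := by rw [mul_pow, hμ, one_mul]
    rw [div_pow, ← map_pow, e, hfix σ hσ, div_self (e ▸ pow_ne_zero p hz0)]
  have h1 := eq_one_of_close A.valuation hp.out hζ hpow (by
    refine lt_of_le_of_lt (pow_le_pow_left₀ zero_le ?_ _) hδp
    rw [div_sub_one hz0, map_div₀, hz1, div_one,
      show σ (ζ ^ i * z) - ζ ^ i * z = (1 - ζ ^ i * z) - σ (1 - ζ ^ i * z) by
        rw [map_sub, map_one]; ring]
    refine A.valuation.map_sub_le le_rfl ?_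
    rw [decomp_map_eq hσ])
  exact (div_eq_one_iff_eq hz0).mp h1

lemma exists_one_add_pow_eq (q j : ℕ) : ∃ M : ℕ, (1 + q) ^ j = 1 + j * q + q ^ 2 * M := by
  induction j with
  | zero => exact ⟨0, by simp⟩
  | succ j ih =>
    obtain ⟨M, hM⟩ := ih
    exact ⟨M + j + q * M, by rw [pow_succ, hM]; ring⟩

include hp in
/-- **Smooth `μ_p`-valued cocycles at a place over `p`.** -/
theorem exists_omega_cocycle_span (hA : A.LiesOverPrime p) (hp2 : p ≠ 2)
    (hζ : IsPrimitiveRoot ζ p) :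
    ∃ K : Fin 3 → GQ → ZMod p, ∀ b : GQ → ZMod p,
      (∀ σ ∈ A.decompositionSubgroup ℚ, ∀ τ ∈ A.decompositionSubgroup ℚ, ∀ m : ℕ,
        σ ζ = ζ ^ m → b (σ * τ) = b σ + (m : ZMod p) * b τ) →
      (∃ E : IntermediateField ℚ Qb, FiniteDimensional ℚ E ∧
        ∀ σ ∈ A.decompositionSubgroup ℚ, σ ∈ E.fixingSubgroup → b σ = 0) →
      ∃ l : Fin 3 → ZMod p, ∀ σ ∈ A.decompositionSubgroup ℚ, b σ = ∑ i, l i * K i σ := by
  classical
  have hpos := hp.out.pos
  have := res_charP hp.out hA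
  have hvp := valuation_p_lt_one hA
  have hp0 : (p : Qb) ≠ 0 := Nat.cast_ne_zero.mpr hp.out.ne_zero
  obtain ⟨π, hπ⟩ := IsAlgClosed.exists_pow_nat_eq (p : Qb) hpos
  obtain ⟨ε, hε⟩ := IsAlgClosed.exists_pow_nat_eq (1 + (p : Qb)) hpos
  refine ⟨![fun σ => expo hζ (σ π / π), fun σ => expo hζ (σ ε / ε),
    fun σ => expo hζ (σ ζ / ζ)], fun b hb hsm => ?_⟩
  obtain ⟨E, hEfin, hE⟩ := hsm
  obtain ⟨y, hy0, hy⟩ := exists_eq_div hζ (A.decompositionSubgroup ℚ) b hb E hE
  have hzp : ∀ a, zp hζ a ^ p = 1 := fun a => by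
    rw [zp_apply, ← pow_mul, mul_comm, pow_mul, hζ.pow_eq_one, one_pow]
  set u := y ^ p with hu
  have hufix : ∀ σ ∈ A.decompositionSubgroup ℚ, σ u = u := fun σ hσ => by
    rw [hu, map_pow, hy σ hσ, mul_pow, hzp, one_mul]
  have hkur : ∀ x : Qb, (∀ σ ∈ A.decompositionSubgroup ℚ, σ x = x) → x ∈ kur A := fun x h =>
    mem_kur.mpr fun σ hσ => h σ (inertia_le_decomposition hσ)
  obtain ⟨k, hk⟩ := exists_zpow_of_mem_kur hp.out hA (hkur u hufix) (pow_ne_zero _ hy0)
  set u₁ := u / (p : Qb) ^ k with hu₁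
  have hu₁fix : ∀ σ ∈ A.decompositionSubgroup ℚ, σ u₁ = u₁ := fun σ hσ => by
    rw [hu₁, map_div₀, map_zpow₀, map_natCast, hufix σ hσ]
  have hu₁v : v u₁ = 1 := by
    rw [hu₁, map_div₀, map_zpow₀, hk, div_self (zpow_ne_zero _ (valuation_p_pos hp.out).ne')]
  obtain ⟨n, hn⟩ := exists_natCast_res hA hu₁v.le hu₁fix
  have hn0 : (n : Res A) ≠ 0 := fun h0 => by
    rw [h0, res_eq_zero_iff hu₁v.le, hu₁v] at hn
    exact lt_irrefl _ hn
  have hnv : v (n : Qb) = 1 := by
    refine le_antisymm (natCast_le_one n) (not_lt.mp fun hlt => hn0 ?_)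
    rw [← res_natCast]
    exact (res_eq_zero_iff (natCast_le_one n)).mpr hlt
  set w := u₁ / (n : Qb) ^ p with hw
  have hwfix : ∀ σ ∈ A.decompositionSubgroup ℚ, σ w = w := fun σ hσ => by
    rw [hw, map_div₀, map_pow, map_natCast, hu₁fix σ hσ]
  have hnp : (n : Qb) ^ p ≠ 0 := pow_ne_zero _ fun h0 => by simp [h0] at hnv
  have hw1 : v (w - 1) < 1 := by
    rw [hw, div_sub_one hnp, map_div₀, map_pow, hnv, one_pow, div_one]
    refine (res_eq_zero_iff (A.valuation.map_sub_le hu₁v.le (map_pow_le_one (natCast_le_one n) p))).mp ?_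
    rw [sub_eq_add_neg, res_add hu₁v.le (by rw [A.valuation.map_neg]; exact map_pow_le_one (natCast_le_one n) p),
      hn]
    have e : res A (-(n : Qb) ^ p) = -(n : Res A) := by
      have h := res_add (A := A) (x := (n : Qb) ^ p) (y := -(n : Qb) ^ p)
        (map_pow_le_one (natCast_le_one n) p)
        (by rw [A.valuation.map_neg]; exact map_pow_le_one (natCast_le_one n) p)
      rw [add_neg_cancel, res_zero, res_pow (natCast_le_one n), res_natCast] at h
      rw [← frobenius_def, map_natCast] at h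
      exact (neg_eq_of_add_eq_zero_right h.symm).symm
    rw [e, add_neg_cancel]
  have hwle : v (w - 1) ≤ v (p : Qb) :=
    le_of_mem_kur hp.out hA (hkur _ fun σ hσ => by rw [map_sub, map_one, hwfix σ hσ]) hw1
  have hx1 : v ((w - 1) / p) ≤ 1 := by
    rw [map_div₀, div_le_one₀ (valuation_p_pos hp.out)]; exact hwle
  obtain ⟨j, hj⟩ := exists_natCast_res hA hx1 fun σ hσ => by
    rw [map_div₀, map_sub, map_one, map_natCast, hwfix σ hσ]
  have hwj : v (w - 1 - j * p) ≤ v (p : Qb) ^ 2 := by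
    have h1 : v ((w - 1) / p - j) < 1 := by
      refine (res_eq_zero_iff (A.valuation.map_sub_le hx1 (natCast_le_one j))).mp ?_
      have h := res_add (A := A) (x := (w - 1) / p - j) (y := (j : Qb))
        (A.valuation.map_sub_le hx1 (natCast_le_one j)) (natCast_le_one j)
      rw [sub_add_cancel, hj, res_natCast] at h
      exact right_eq_add.mp h
    have h2 := le_of_mem_kur hp.out hA (hkur _ fun σ hσ => by
      rw [map_sub, map_div₀, map_sub, map_one, map_natCast, map_natCast, hwfix σ hσ]) h1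
    rw [show w - 1 - j * p = ((w - 1) / p - j) * p by field_simp, map_mul, sq]
    exact mul_le_mul_left h2 _
  obtain ⟨M, hM⟩ := exists_one_add_pow_eq p j
  set q := (1 + (p : Qb)) ^ j with hq
  have hM' : q = 1 + j * p + (p : Qb) ^ 2 * M := by
    rw [hq]; exact_mod_cast congrArg (fun t : ℕ => (t : Qb)) hM
  have hεv : v (1 + (p : Qb)) = 1 := by
    rw [A.valuation.map_add_eq_of_lt_left (by rwa [map_one]), map_one]
  have hqv : v q = 1 := by rw [hq, map_pow, hεv, one_pow]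
  have hq0 : q ≠ 0 := fun h0 => by simp [h0] at hqv
  set a := y / π ^ k / n / ε ^ j with ha
  have hap : a ^ p = w / q := by
    rw [ha, div_pow, div_pow, div_pow, ← pow_mul ε, mul_comm j, pow_mul, hε, ← hq, hw, hu₁, hu,
      ← zpow_natCast (π ^ k) p, ← zpow_mul, mul_comm k, zpow_mul, zpow_natCast, hπ]
  have hclose : v (a ^ p - 1) ≤ v (p : Qb) ^ 2 := by
    rw [hap, div_sub_one hq0, map_div₀, hqv, div_one, hM',
      show w - (1 + j * p + (p : Qb) ^ 2 * M) = (w - 1 - j * p) - (p : Qb) ^ 2 * M by ring]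
    refine A.valuation.map_sub_le hwj ?_
    rw [map_mul, map_pow]
    exact mul_le_of_le_one_right' (natCast_le_one M)
  obtain ⟨i, hi⟩ := exists_fixed_root hA hp2 hζ (z := a) (fun σ hσ => by
    rw [hap, map_div₀, hwfix σ hσ, hq, map_pow, map_add, map_one, map_natCast]) hclose
  refine ⟨![-(k : ZMod p), -(j : ZMod p), (i : ZMod p)], fun σ hσ => ?_⟩
  have hπ0 : π ≠ 0 := fun h0 => hp0 (by rw [← hπ, h0, zero_pow hp.out.ne_zero])
  have hε0 : ε ≠ 0 := fun h0 => by
    rw [h0, zero_pow hp.out.ne_zero] at hε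
    rw [← hε, map_zero] at hεv
    exact zero_ne_one hεv
  have hζ0 := hζ.ne_zero hp.out.ne_zero
  have hroot : ∀ (x c : Qb), x ≠ 0 → x ^ p = c → σ c = c → (σ x / x) ^ p = 1 := fun x c hx hc hf => by
    rw [div_pow, ← map_pow, hc, hf, div_self (hc ▸ pow_ne_zero p hx)]
  have e1 : σ π = zp hζ (expo hζ (σ π / π)) * π := by
    rw [zp_expo hζ (hroot π _ hπ0 hπ (map_natCast σ p)), div_mul_cancel₀ _ hπ0]
  have e2 : σ ε = zp hζ (expo hζ (σ ε / ε)) * ε := by
    rw [zp_expo hζ (hroot ε _ hε0 hε (by rw [map_add, map_one, map_natCast])), div_mul_cancel₀ _ hε0]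
  have e3 : σ ζ = zp hζ (expo hζ (σ ζ / ζ)) * ζ := by
    rw [zp_expo hζ (hroot ζ _ hζ0 hζ.pow_eq_one (map_one σ)), div_mul_cancel₀ _ hζ0]
  have key := hi σ hσ
  rw [ha, map_mul, map_div₀, map_div₀, map_div₀, map_pow, map_zpow₀, map_natCast, map_pow,
    hy σ hσ, e1, e2, e3, mul_pow, mul_zpow, mul_pow, ← AddChar.map_nsmul_eq_pow,
    ← AddChar.map_nsmul_eq_pow, ← AddChar.map_zsmul_eq_zpow] at key
  have hn' : (n : Qb) ≠ 0 := fun h0 => by simp [h0] at hnv
  set Z := zp hζ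
  have hZ0 : ∀ c, Z c ≠ 0 := fun c => pow_ne_zero _ hζ0
  have heq : Z (i • expo hζ (σ ζ / ζ) + -b σ) =
      Z (k • expo hζ (σ π / π) + j • expo hζ (σ ε / ε)) := by
    rw [AddChar.map_add_eq_mul, AddChar.map_add_eq_mul]
    field_simp [hy0, hn', hπ0, hε0, hζ0, hZ0, zpow_ne_zero k hπ0, pow_ne_zero j hε0,
      pow_ne_zero i hζ0] at key ⊢
    linear_combination key
  have h := zp_injective hζ heq
  rw [nsmul_eq_mul, nsmul_eq_mul, zsmul_eq_mul] at h
  simp [Fin.sum_univ_three]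
  linear_combination -h

end FA.LocalDef
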