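import Fermat.Agent.LocalDef.TangentOrd
import Fermat.Agent.LocalDef.Kummer

/-!
# The strict ordinary tangent bound

Normalised classes are upper nilpotent with values twisted by the cyclotomic character, so they
are combinations of two Kummer cocycles and a coboundary. Smoothness is needed: abstract
homomorphisms on the decomposition group are not controlled.
-/

set_option autoImplicit false
set_option linter.unusedSectionVars false

noncomputable section

open Matrix FA.Local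
open scoped Pointwise

namespace FA.LocalDef

local notation "Qb" => AlgebraicClosure ℚ
local notation "GQ" => AlgebraicClosure ℚ ≃ₐ[ℚ] AlgebraicClosure ℚ
local notation "M2" k => Matrix (Fin 2) (Fin 2) k

variable {A : ValuationSubring Qb} {p : ℕ}

/-- The class vanishes on an open subgroup of the decomposition group. -/
def IsSmoothClass {k : Type} [Field k] (A : ValuationSubring Qb) (c : GQ → M2 k) : Prop :=
  ∃ N : Subgroup GQ, IsOpen (N : Set GQ) ∧
    ∀ σ ∈ A.decompositionSubgroup ℚ, σ ∈ N → c σ = 0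

section Transport

variable {k : Type} [Field k] {r r' : GQ →* M2 k} {P Q : M2 k}

lemma mulVec_cancel (hQP : Q * P = 1) (v : Fin 2 → k) : Q *ᵥ (P *ᵥ v) = v := by
  rw [mulVec_mulVec, hQP, one_mulVec]

lemma act2_conj (hPQ : P * Q = 1) (hr : ∀ σ, r' σ = Q * r σ * P) (c : GQ → M2 k) (σ : GQ)
    (v : (Fin 2 → k) × (Fin 2 → k)) :
    act2 r' (fun σ => Q * c σ * P) σ (Q *ᵥ v.1, Q *ᵥ v.2) =
      (Q *ᵥ (act2 r c σ v).1, Q *ᵥ (act2 r c σ v).2) := by
  simp only [act2, hr, ← mulVec_mulVec, mulVec_add, mulVec_cancel hPQ]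

lemma IsSmoothClass.conj {c : GQ → M2 k} (h : IsSmoothClass A c) :
    IsSmoothClass A fun σ => Q * c σ * P := by
  obtain ⟨N, hN, hc⟩ := h
  exact ⟨N, hN, fun σ hσ hσ' => by simp [hc σ hσ hσ']⟩

lemma IsStrictOrdRes.conj (hPQ : P * Q = 1) (hQP : Q * P = 1)
    (hr : ∀ σ, r' σ = Q * r σ * P) (h : IsStrictOrdRes A p r) : IsStrictOrdRes A p r' := by
  obtain ⟨l, hl, hD, hI⟩ := h
  have e : ∀ σ v, r' σ *ᵥ (Q *ᵥ v) = Q *ᵥ (r σ *ᵥ v) := fun σ v => by
    simp only [hr, ← mulVec_mulVec, mulVec_cancel hPQ]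
  refine ⟨Q *ᵥ l, fun h0 => hl ?_, fun σ hσ => ?_, fun σ hσ v => ?_⟩
  · rw [← mulVec_cancel hPQ l, h0, mulVec_zero]
  · obtain ⟨x, z, hx, hz, ha⟩ := hD σ hσ
    refine ⟨x, z, by rw [e, hx, mulVec_smul], fun v => ?_, ha⟩
    obtain ⟨s, hs⟩ := hz (P *ᵥ v)
    exact ⟨s, by rw [← mulVec_smul, ← hs, mulVec_sub, mulVec_smul, ← e, mulVec_cancel hQP]⟩
  · obtain ⟨s, hs⟩ := hI σ hσ (P *ᵥ v)
    exact ⟨s, by rw [← mulVec_smul, ← hs, mulVec_sub, ← e, mulVec_cancel hQP]⟩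

lemma IsStrictOrdClass.conj (hPQ : P * Q = 1) (hQP : Q * P = 1)
    (hr : ∀ σ, r' σ = Q * r σ * P) {c : GQ → M2 k} (h : IsStrictOrdClass A p r c) :
    IsStrictOrdClass A p r' fun σ => Q * c σ * P := by
  obtain ⟨l₀, l₁, hl, hD, hI⟩ := h
  refine ⟨Q *ᵥ l₀, Q *ᵥ l₁, fun h0 => hl ?_, fun σ hσ => ?_, fun σ hσ v => ?_⟩
  · rw [← mulVec_cancel hPQ l₀, h0, mulVec_zero]
  · obtain ⟨x₀, x₁, z₀, z₁, hx, hz, ha⟩ := hD σ hσ
    refine ⟨x₀, x₁, z₀, z₁, ?_, fun v => ?_, ha⟩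
    · rw [act2_conj hPQ hr c σ (l₀, l₁), hx]
      simp [mulVec_add, mulVec_smul]
    · obtain ⟨s₀, s₁, hs⟩ := hz (P *ᵥ v.1, P *ᵥ v.2)
      refine ⟨s₀, s₁, ?_⟩
      have hv : v = (Q *ᵥ (P *ᵥ v.1), Q *ᵥ (P *ᵥ v.2)) := by
        rw [mulVec_cancel hQP, mulVec_cancel hQP]
      conv_lhs => rw [hv, act2_conj hPQ hr c σ (P *ᵥ v.1, P *ᵥ v.2)]
      have h1 := congrArg (fun z : (Fin 2 → k) × (Fin 2 → k) => (Q *ᵥ z.1, Q *ᵥ z.2)) hs
      simp only [Prod.fst_sub, Prod.snd_sub, mulVec_sub, mulVec_add, mulVec_smul] at h1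
      exact h1
  · obtain ⟨s₀, s₁, hs⟩ := hI σ hσ (P *ᵥ v.1, P *ᵥ v.2)
    refine ⟨s₀, s₁, ?_⟩
    have hv : v = (Q *ᵥ (P *ᵥ v.1), Q *ᵥ (P *ᵥ v.2)) := by
      rw [mulVec_cancel hQP, mulVec_cancel hQP]
    conv_lhs => rw [hv, act2_conj hPQ hr c σ (P *ᵥ v.1, P *ᵥ v.2)]
    have h1 := congrArg (fun z : (Fin 2 → k) × (Fin 2 → k) => (Q *ᵥ z.1, Q *ᵥ z.2)) hs
    simp only [Prod.fst_sub, Prod.snd_sub, mulVec_sub, mulVec_add, mulVec_smul] at h1
    exact h1

end Transport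

variable [hp : Fact p.Prime] {k : Type} [Field k] [Fintype k] [CharP k p] {r : GQ →* M2 k} {ζ : Qb}

namespace OrdCoords

variable (hc : OrdCoords A r) (hA : A.LiesOverPrime p) (hp2 : p ≠ 2) (hdet : DetOmega A p r)
  (hζ : IsPrimitiveRoot ζ p)

include hc hA hp2 hdet hζ

/-- A line with inertia trivial on the quotient is the stable line. -/
lemma line_eq {l : Fin 2 → k} (hl : l ≠ 0)
    (hI : ∀ σ ∈ A.inertiaSubgroupIn ℚ, ∀ w : Fin 2 → k, ∃ s : k, r σ *ᵥ w - w = s • l) :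
    l 1 = 0 ∧ l 0 ≠ 0 := by
  obtain ⟨σ₀, hσ₀, hζ₀⟩ := exists_inertia_zeta hp.out hA hζ (m := 2)
    (fun h => by have := Nat.le_of_dvd two_pos h; have := hp.out.two_le; omega)
  obtain ⟨s, hs⟩ := hI σ₀ hσ₀ ![1, 0]
  have h0 := congrFun hs 0
  have h1 := congrFun hs 1
  simp only [mulVec, dotProduct, Fin.sum_univ_two, Pi.sub_apply, Pi.smul_apply, smul_eq_mul,
    Matrix.cons_val_zero, Matrix.cons_val_one, Matrix.cons_val_fin_one,
    hc.inertia_00 hdet hζ hσ₀ hζ₀, hc.lower σ₀ (inertia_le_decomposition hσ₀)] at h0 h1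
  norm_num at h0
  rcases mul_eq_zero.mp (by linear_combination -h1 : s * l 1 = 0) with hs0 | hl1
  · rw [hs0, zero_mul] at h0
    norm_num at h0
  · exact ⟨hl1, fun hl0 => hl (funext (Fin.forall_fin_two.mpr ⟨hl0, hl1⟩))⟩

lemma rel_of_res (hres : IsStrictOrdRes A p r) {σ : GQ} (hσ : σ ∈ A.decompositionSubgroup ℚ)
    {m : ℕ} (hm : σ ζ = ζ ^ m) : r σ 0 0 = (m : k) * r σ 1 1 := by
  obtain ⟨l, hl, hD, hI⟩ := hres
  obtain ⟨hl1, hl0⟩ := hc.line_eq hA hp2 hdet hζ hl hI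
  obtain ⟨x, z, hx, hz, ha⟩ := hD σ hσ
  have hx0 := congrFun hx 0
  simp only [mulVec, dotProduct, Fin.sum_univ_two, Pi.smul_apply, smul_eq_mul, hl1, mul_zero,
    add_zero] at hx0
  obtain ⟨s, hs⟩ := hz ![0, 1]
  have hs1 := congrFun hs 1
  simp [mulVec, dotProduct, Fin.sum_univ_two, hl1] at hs1
  rw [mul_right_cancel₀ hl0 hx0, ha m (pow_roots_of_zeta hζ hm), sub_eq_zero.mp hs1]

lemma normalize_strict {c : GQ → M2 k} (hco : IsLocalCocycle A r c)
    (hcl : IsStrictOrdClass A p r c) :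
    ∃ x : k, ∀ σ ∈ A.decompositionSubgroup ℚ,
      (c σ + (r σ * !![0, 0; x, 0] * r σ⁻¹ - !![0, 0; x, 0])) 1 0 = 0 ∧
      (c σ + (r σ * !![0, 0; x, 0] * r σ⁻¹ - !![0, 0; x, 0])) 0 0 = 0 := by
  obtain ⟨l₀, l₁, hl, hD, hI⟩ := hcl
  obtain ⟨hl1, ha0⟩ := hc.line_eq hA hp2 hdet hζ hl fun σ hσ w => by
    obtain ⟨s₀, s₁, hs⟩ := hI σ hσ (w, 0)
    exact ⟨s₀, congrArg Prod.fst hs⟩
  refine ⟨l₁ 1 / l₀ 0, fun σ hσ => ?_⟩
  set x := l₁ 1 / l₀ 0 with hx
  have hl11 : l₁ 1 = x * l₀ 0 := by rw [hx, div_mul_cancel₀ _ ha0]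
  obtain ⟨x₀, x₁, z₀, z₁, hline, hquot, hrel⟩ := hD σ hσ
  obtain ⟨m, -, hm⟩ := exists_zeta_pow hζ σ
  obtain ⟨hx0m, hx1m⟩ := hrel m (pow_roots_of_zeta hζ hm)
  obtain ⟨s₀, s₁, hs⟩ := hquot (![0, 1], 0)
  have e00 := congrFun (congrArg Prod.fst hline) 0
  have e10 := congrFun (congrArg Prod.snd hline) 0
  have e11 := congrFun (congrArg Prod.snd hline) 1
  have f00 := congrFun (congrArg Prod.fst hs) 0
  have f01 := congrFun (congrArg Prod.fst hs) 1
  have f11 := congrFun (congrArg Prod.snd hs) 1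
  simp [act2, mulVec, dotProduct, Fin.sum_univ_two, hl1, hl11, hc.lower σ hσ] at e00 e10 e11 f00 f01 f11
  -- the entries
  obtain ⟨h00, h11⟩ := hc.diag_mul hσ
  have h01 : r σ 0 0 * r σ⁻¹ 0 1 + r σ 0 1 * r σ⁻¹ 1 1 = 0 := by
    have h := congrFun (congrFun (r_mul_inv (r := r) σ) 0) 1
    simpa [Matrix.mul_apply, Fin.sum_univ_two] using h
  have hlow := hc.lower σ⁻¹ (inv_mem hσ)
  set α := r σ 0 0
  set β := r σ 1 1
  set u := r σ 0 1
  set a := l₀ 0
  have hα0 : α ≠ 0 := left_ne_zero_of_mul_eq_one h00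
  have hβ0 : β ≠ 0 := left_ne_zero_of_mul_eq_one h11
  have hXc : ∀ i j, (r σ * !![0, 0; x, 0] * r σ⁻¹ - !![0, 0; x, 0]) i j =
      r σ i 1 * x * r σ⁻¹ 0 j - (!![0, 0; x, 0] : M2 k) i j := fun i j => by
    simp [Matrix.mul_apply, Fin.sum_univ_two]
  have hx0 : x₀ = α := (e00.resolve_right ha0).symm
  have hz0 : z₀ = β := (sub_eq_zero.mp f01).symm
  have hs0 : s₀ * a = u := f00.symm
  have hαβ : α = m * β := by rw [← hx0, hx0m, hz0]
  have hi00 : r σ⁻¹ 0 0 = α⁻¹ := eq_inv_of_mul_eq_one_right h00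
  have hi11 : r σ⁻¹ 1 1 = β⁻¹ := eq_inv_of_mul_eq_one_right h11
  have hi01 : r σ⁻¹ 0 1 = -(u * β⁻¹) / α := by
    rw [eq_div_iff hα0, ← hi11]; linear_combination h01
  have hc10 : c σ 1 0 * α = x * (α - β) := by
    refine mul_right_cancel₀ ha0 ?_
    rw [hx0] at e11
    linear_combination e11
  have hx1 : x₁ = c σ 0 0 * α + u * x := by
    refine mul_right_cancel₀ ha0 ?_
    rw [hx0] at e10
    linear_combination -e10
  have hz1 : z₁ = c σ 1 0 * u + c σ 1 1 * β - u * x := by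
    linear_combination -f11 - x * hs0
  have key : c σ 0 0 * α + u * x = c σ 1 1 * α - u * x := by
    rw [hx1, hz1] at hx1m
    refine mul_right_cancel₀ hα0 ?_
    linear_combination α * hx1m + (m : k) * u * hc10 + (-(α * c σ 1 1) + u * x) * hαβ
  refine ⟨?_, ?_⟩
  · rw [Matrix.add_apply, hXc, hi00]
    simp
    field_simp
    linear_combination hc10
  · have ht := hco.1 σ hσ
    rw [trace_fin_two] at ht
    have h2 : (2 : k) ≠ 0 := fun h0 => by
      have h' : ((2 : ℕ) : k) = 0 := by exact_mod_cast h0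
      have hdvd := (CharP.cast_eq_zero_iff k p 2).mp h'
      have := Nat.le_of_dvd two_pos hdvd
      have := hp.out.two_le
      omega
    rw [Matrix.add_apply, hXc, hi00]
    simp
    field_simp
    refine mul_left_cancel₀ h2 ?_
    linear_combination key + α * ht

end OrdCoords

/-- **The strict ordinary tangent bound in adapted coordinates.** -/
theorem tangentBound_strict_coords (hA : A.LiesOverPrime p) (hp2 : p ≠ 2) (hdet : DetOmega A p r)
    (hker : IsOpen (r.ker : Set GQ)) (hres : IsStrictOrdRes A p r) (hc : OrdCoords A r) :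
    TangentBound A r fun c => IsSmoothClass A c ∧ IsStrictOrdClass A p r c := by
  classical
  let _ : Algebra (ZMod p) k := ZMod.algebra k p
  obtain ⟨ζ, hζ⟩ := exists_zeta hp.out
  obtain ⟨K, hK⟩ := exists_omega_cocycle_span hA hp2 hζ
  let e10 : A.decompositionSubgroup ℚ → M2 k := fun σ =>
    r σ * !![0, 0; 1, 0] * r σ.1⁻¹ - !![0, 0; 1, 0]
  let KE : Fin 3 → A.decompositionSubgroup ℚ → M2 k := fun i σ =>
    algebraMap (ZMod p) k (K i σ) • !![0, 1; 0, 0]
  set Z0 := Submodule.span k (Set.range KE) with hZ0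
  have hupper : ∀ C : GQ → M2 k, IsLocalCocycle A r C → IsSmoothClass A C →
      (∀ σ ∈ A.decompositionSubgroup ℚ, C σ 1 0 = 0 ∧ C σ 0 0 = 0) →
      (fun σ : A.decompositionSubgroup ℚ => C σ) ∈ Z0 := by
    intro C hCco hCsm hC
    have hC11 : ∀ σ ∈ A.decompositionSubgroup ℚ, C σ 1 1 = 0 := fun σ hσ => by
      have h := hCco.1 σ hσ
      rwa [trace_fin_two, (hC σ hσ).2, zero_add] at h
    have hb : ∀ σ ∈ A.decompositionSubgroup ℚ, ∀ τ ∈ A.decompositionSubgroup ℚ, ∀ m : ℕ,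
        σ ζ = ζ ^ m → C (σ * τ) 0 1 = C σ 0 1 + (m : k) * C τ 0 1 := fun σ hσ τ hτ m hm => by
      rw [hCco.2 σ hσ τ hτ, Matrix.add_apply,
        hc.conj_diag0 hσ (hC τ hτ).1 (hC τ hτ).2 (hC11 τ hτ),
        hc.rel_of_res hA hp2 hdet hζ hres hσ hm]
      linear_combination (m : k) * C τ 0 1 * (hc.diag_mul hσ).2
    let B := Module.finBasis (ZMod p) k
    have hcoord : ∀ e, ∃ l : Fin 3 → ZMod p, ∀ σ ∈ A.decompositionSubgroup ℚ,
        B.coord e (C σ 0 1) = ∑ i, l i * K i σ := fun e => hK (fun σ => B.coord e (C σ 0 1))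
      (fun σ hσ τ hτ m hm => by
        show B.coord e (C (σ * τ) 0 1) = _
        rw [hb σ hσ τ hτ m hm, map_add, ← nsmul_eq_mul, map_nsmul, nsmul_eq_mul])
      (by
        obtain ⟨N, hN, hvan⟩ := hCsm
        obtain ⟨E, hEfin, hEN⟩ := exists_fixingSubgroup_le hN
        exact ⟨E, hEfin, fun σ hσ hσ' => by
          show B.coord e (C σ 0 1) = 0
          rw [hvan σ hσ (hEN hσ'), Matrix.zero_apply, map_zero]⟩)
    choose l hl using hcoord
    have e1 : (fun σ : A.decompositionSubgroup ℚ => C σ) =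
        ∑ i, (∑ e, algebraMap (ZMod p) k (l e i) * B e) • KE i := by
      funext σ
      have h01 : C σ 0 1 =
          ∑ i, (∑ e, algebraMap (ZMod p) k (l e i) * B e) * algebraMap (ZMod p) k (K i σ) := by
        conv_lhs => rw [← B.sum_repr (C σ 0 1)]
        simp only [Finset.sum_mul]
        rw [Finset.sum_comm]
        refine Finset.sum_congr rfl fun e _ => ?_
        rw [← B.coord_apply, hl e σ σ.2, Finset.sum_smul]
        refine Finset.sum_congr rfl fun i _ => ?_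
        rw [Algebra.smul_def, map_mul]
        ring
      rw [Finset.sum_apply]
      ext a b
      rw [Matrix.sum_apply]
      fin_cases a <;> fin_cases b <;>
        simp [KE, (hC σ σ.2).1, (hC σ σ.2).2, hC11 σ σ.2, h01, Algebra.smul_def (R := ZMod p) (A := k), mul_comm]
    rw [e1]
    exact Submodule.sum_mem _ fun i _ => Submodule.smul_mem _ _ (Submodule.subset_span ⟨i, rfl⟩)
  have he10 : ∀ x : k, (fun σ : A.decompositionSubgroup ℚ =>
      r σ * !![0, 0; x, 0] * r σ.1⁻¹ - !![0, 0; x, 0]) = x • e10 := fun x => funext fun σ => by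
    rw [Pi.smul_apply, smul_sub, ← smul_mul_assoc, ← mul_smul_comm]
    congr <;> ext a b <;> fin_cases a <;> fin_cases b <;> simp
  have hsmcob : ∀ X : M2 k, IsSmoothClass A fun σ => r σ * X * r σ⁻¹ - X := fun X =>
    ⟨r.ker, hker, fun σ _ hσ => by
      have h1 : r σ = 1 := hσ
      have h2 : r σ⁻¹ = 1 := inv_mem (show σ ∈ r.ker from hσ)
      show r σ * X * r σ⁻¹ - X = 0
      rw [h1, h2, one_mul, mul_one, sub_self]⟩
  have : FiniteDimensional k Z0 := FiniteDimensional.span_of_finite k (Set.finite_range _)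
  refine ⟨Z0 ⊔ Submodule.span k {e10}, inferInstance, ?_, fun X hX => ?_, fun c hco hP => ?_⟩
  · have h1 : Module.finrank k (Submodule.span k {e10}) ≤ 1 :=
      (finrank_span_le_card {e10}).trans (by simp)
    have h2 : Module.finrank k Z0 ≤ 3 := (finrank_range_le_card KE).trans (by simp)
    exact ((Submodule.finrank_add_le_finrank_add_finrank _ _).trans (Nat.add_le_add h2 h1))
  · set Y := X - !![0, 0; X 1 0, 0] with hY
    have hY10 : Y 1 0 = 0 := by simp [hY]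
    have e' : (fun σ : A.decompositionSubgroup ℚ => r σ * X * r σ.1⁻¹ - X) =
        (fun σ : A.decompositionSubgroup ℚ => r σ * Y * r σ.1⁻¹ - Y) + X 1 0 • e10 := by
      rw [← he10]
      funext σ
      show _ = (r σ * Y * r σ.1⁻¹ - Y) + _
      rw [hY]
      simp only [mul_sub, sub_mul]
      abel
    rw [e']
    refine Submodule.add_mem_sup (hupper (fun σ => r σ * Y * r σ⁻¹ - Y) ?_ (hsmcob Y)
      fun σ hσ => ?_) (Submodule.smul_mem _ _ (Submodule.mem_span_singleton_self _))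
    · have h0 : IsLocalCocycle A r (0 : GQ → M2 k) :=
        ⟨fun σ _ => by simp, fun σ _ τ _ => by simp⟩
      simpa using h0.add_cob Y
    · obtain ⟨h1, h2⟩ := hc.conj_upper hσ hY10
      simp [Matrix.sub_apply, h1, h2, hY10]
  · obtain ⟨⟨N, hN, hvan⟩, hcl⟩ := hP
    obtain ⟨x, hx⟩ := hc.normalize_strict hA hp2 hdet hζ hco hcl
    set X : M2 k := !![0, 0; x, 0]
    have hsm : IsSmoothClass A fun σ => c σ + (r σ * X * r σ⁻¹ - X) := by
      obtain ⟨N', hN', hv'⟩ := hsmcob X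
      refine ⟨N ⊓ N', hN.inter hN', fun σ hσ hσ' => ?_⟩
      show c σ + (r σ * X * r σ⁻¹ - X) = 0
      rw [hvan σ hσ hσ'.1, zero_add]
      exact hv' σ hσ hσ'.2
    have e : (fun σ : A.decompositionSubgroup ℚ => c σ) =
        (fun σ : A.decompositionSubgroup ℚ => c σ + (r σ * X * r σ.1⁻¹ - X)) + (-x) • e10 := by
      rw [neg_smul, ← he10]
      funext σ
      simp only [Pi.add_apply, Pi.neg_apply, X, add_neg_cancel_right]
    rw [e]
    exact Submodule.add_mem_sup (hupper _ (hco.add_cob X) hsm hx)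
      (Submodule.smul_mem _ _ (Submodule.mem_span_singleton_self _))

/-- **The strict ordinary tangent bound.** -/
theorem tangentBound_strictOrd (hp2 : p ≠ 2) (hA : A.LiesOverPrime p) (r : GQ →* M2 k)
    (hker : IsOpen (r.ker : Set GQ)) (hdet : DetOmega A p r) (hres : IsStrictOrdRes A p r) :
    TangentBound A r fun c => IsSmoothClass A c ∧ IsStrictOrdClass A p r c := by
  have hord : IsOrdType A r := by
    obtain ⟨l, hl, hD, hI⟩ := hres
    exact ⟨l, hl, fun σ hσ => (hD σ hσ).elim fun x h => h.elim fun _ h => ⟨x, h.1⟩, hI⟩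
  obtain ⟨P, Q, r', hPQ, hQP, hr, hc⟩ := exists_ordCoords hord
  have hker' : IsOpen (r'.ker : Set GQ) := by
    refine Subgroup.isOpen_mono (fun σ (hσ : r σ = 1) => ?_) hker
    show r' σ = 1
    rw [hr, hσ, mul_one, hQP]
  refine TangentBound.of_conj hPQ hr (fun c _ h => ⟨h.1.conj, h.2.conj hPQ hQP hr⟩)
    (tangentBound_strict_coords hA hp2 (fun σ hσ a ha => ?_) hker' (hres.conj hPQ hQP hr) hc)
  rw [hr, det_mul, det_mul, mul_comm, ← mul_assoc, ← det_mul, hPQ, det_one, one_mul]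
  exact hdet σ hσ a ha

end FA.LocalDef
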