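import Fermat.Agent.LocalDef.Sys
import Fermat.Agent.LocalDef.FlatBasics

/-!
# Quotients of models

For a surjection `π : V →+ W` the functions on `W` whose pullback lies in the lattice of a model of
`V` form a model of `W`: the coordinates at a set of indices of maximal minor give a basis.
-/

set_option autoImplicit false
set_option linter.unusedSectionVars false

noncomputable section

namespace FA.LocalDef

section Quot

variable {L Γ : Type*} [Field L] [CharZero L] [LinearOrderedCommGroupWithZero Γ]
  {v : Valuation L Γ} {V W : Type*} [AddCommGroup V] [Fintype V] [AddCommGroup W] [Fintype W]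

/-- The model of a quotient. -/
theorem Model.exists_quotient (M : Model v V) (π : V →+ W) (hπ : Function.Surjective π) :
    ∃ (N : Model v W) (S : W → V), (∀ s, M.InSpan fun x => N.a s (π x)) ∧
      ∀ s t, M.coord (fun x => N.a s (π x)) (S t) =
        open Classical in if s = t then 1 else 0 := by
  classical
  let p : W → V → L := fun w => M.coord fun x => if π x = w then 1 else 0
  have hcoord : ∀ f : W → L, ∀ y, M.coord (fun x => f (π x)) y = ∑ w, f w * p w y := by
    intro f y
    refine (congrFun (M.coord_unique (c := fun y => ∑ w, f w * p w y) ?_) y).symm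
    rw [← M.sum_coord fun x => f (π x)]
    funext x
    calc (∑ y, (∑ w, f w * p w y) • M.a y) x = ∑ w, f w * ∑ y, p w y * M.a y x := by
          simp only [Finset.sum_apply, Pi.smul_apply, smul_eq_mul, Finset.sum_mul, Finset.mul_sum,
            mul_assoc]
          exact Finset.sum_comm
      _ = ∑ w, f w * (if π x = w then (1 : L) else 0) :=
          Finset.sum_congr rfl fun w _ => by rw [← M.apply_eq_sum]
      _ = f (π x) := by simp
  let col : V → W → L := fun y w => p w y
  let mat : (W → V) → Matrix W W L := fun S => Matrix.of fun s w => col (S s) w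
  have hspan : Submodule.span L (Set.range col) = ⊤ := by
    by_contra hne
    obtain ⟨φ, hφne, hφ⟩ := Submodule.exists_le_ker_of_lt_top _ (lt_top_iff_ne_top.mpr hne)
    refine hφne (LinearMap.ext fun z => ?_)
    set f : W → L := fun w => φ (Pi.single w 1) with hf
    have h0 : M.coord (fun x => f (π x)) = 0 := by
      funext y
      rw [hcoord, Pi.zero_apply]
      have h := hφ (Submodule.subset_span ⟨y, rfl⟩)
      rw [LinearMap.mem_ker, pi_eq_sum_univ (col y), map_sum] at h
      rw [← h]
      refine Finset.sum_congr rfl fun w _ => ?_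
      rw [map_smul, smul_eq_mul, mul_comm, hf]
      congr 1
      show φ (Pi.single w 1) = _
      congr 1
      funext u
      simp [Pi.single_apply, eq_comm]
    have hf0 : f = 0 := funext fun w => by
      obtain ⟨x, rfl⟩ := hπ w
      have := M.apply_eq_sum (fun x => f (π x)) x
      rw [h0] at this
      simpa using this
    rw [pi_eq_sum_univ z, map_sum, LinearMap.zero_apply]
    refine Finset.sum_eq_zero fun w _ => ?_
    have := congrFun hf0 w
    rw [map_smul, show (fun j : W => if w = j then (1 : L) else 0) = Pi.single w 1 by
      funext u; simp [Pi.single_apply, eq_comm]]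
    simp only [hf, Pi.zero_apply] at this
    rw [this, smul_zero]
  obtain ⟨S₀, hS₀⟩ : ∃ S : W → V, (mat S).det ≠ 0 := by
    obtain ⟨κ, a, -, hsp, hli⟩ := exists_linearIndependent' (K := L) col
    rw [hspan] at hsp
    let B : Module.Basis κ L (W → L) := Module.Basis.mk hli hsp.ge
    let e : W ≃ κ := (Pi.basisFun L W).indexEquiv B
    refine ⟨a ∘ e, ?_⟩
    have hrows : LinearIndependent L (mat (a ∘ e)).row := hli.comp e e.injective
    exact (Matrix.isUnit_iff_isUnit_det _).mp (Matrix.linearIndependent_rows_iff_isUnit.mp hrows)
      |>.ne_zero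
  obtain ⟨S, -, hS⟩ := Finset.exists_max_image (Finset.univ : Finset (W → V))
    (fun S => v (mat S).det) ⟨S₀, Finset.mem_univ _⟩
  have hdet : (mat S).det ≠ 0 := fun h0 => by
    have := hS S₀ (Finset.mem_univ _)
    rw [h0, map_zero, le_zero_iff, map_eq_zero] at this
    exact hS₀ this
  set inv := (mat S)⁻¹
  have hcols : ∀ F : W → L, F = ∑ s, Matrix.vecMul F inv s • col (S s) := fun F => by
    have e := Matrix.vecMul_vecMul F inv (mat S)
    rw [Matrix.nonsing_inv_mul _ (Ne.isUnit hdet), Matrix.vecMul_one] at e
    conv_lhs => rw [← e]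
    funext x
    simp [Matrix.vecMul, dotProduct, mat]
  let e : V → W → L := fun y => Matrix.vecMul (col y) inv
  have he : ∀ y s, v (e y s) ≤ 1 := by
    intro y i
    have h1 : mat (Function.update S i y) = (mat S).updateRow i (∑ k, e y k • mat S k) := by
      ext a x
      rcases eq_or_ne a i with rfl | ha
      · rw [Matrix.updateRow_self]
        simp only [mat, Matrix.of_apply, Function.update_self]
        rw [hcols (col y)]
        simp [Finset.sum_apply, e]
      · rw [Matrix.updateRow_ne ha]
        simp only [mat, Matrix.of_apply, Function.update_of_ne ha]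
    have h2 := hS (Function.update S i y) (Finset.mem_univ _)
    rw [h1, Matrix.det_updateRow_sum, smul_eq_mul, map_mul] at h2
    exact le_of_mul_le_mul_right (h2.trans_eq (one_mul _).symm) (v.pos_iff.mpr hdet)
  have hrec : ∀ f : W → L, ∀ y, M.coord (fun x => f (π x)) y =
      ∑ s, e y s * M.coord (fun x => f (π x)) (S s) := fun f y => by
    simp only [hcoord, Finset.mul_sum]
    rw [Finset.sum_comm]
    refine Finset.sum_congr rfl fun w _ => ?_
    have := congrFun (hcols (col y)) w
    simp only [Finset.sum_apply, Pi.smul_apply, smul_eq_mul] at this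
    show f w * col y w = _
    rw [this, Finset.mul_sum]
    exact Finset.sum_congr rfl fun s _ => by ring
  let g : W → W → L := fun s w => inv w s
  have hgS : ∀ s t, M.coord (fun x => g s (π x)) (S t) = if s = t then 1 else 0 := fun s t => by
    rw [hcoord]
    have := congrFun (congrFun (Matrix.mul_nonsing_inv _ (Ne.isUnit hdet) :
      mat S * inv = 1) t) s
    rw [Matrix.mul_apply, Matrix.one_apply] at this
    rw [show (if s = t then (1 : L) else 0) = if t = s then 1 else 0 by simp [eq_comm], ← this]
    exact Finset.sum_congr rfl fun w _ => mul_comm _ _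
  have hgspan : ∀ s, M.InSpan fun x => g s (π x) := fun s => (M.inSpan_iff _).mpr fun y => by
    rw [hrec]
    simp only [hgS, mul_ite, mul_one, mul_zero, Finset.sum_ite_eq, Finset.mem_univ, if_true]
    exact he y s
  have hexp : ∀ f : W → L, ∀ w, f w = ∑ s, M.coord (fun x => f (π x)) (S s) * g s w := by
    intro f w
    obtain ⟨x, rfl⟩ := hπ w
    calc f (π x) = ∑ y, M.coord (fun x => f (π x)) y * M.a y x := M.apply_eq_sum (fun x => f (π x)) x
      _ = ∑ y, (∑ s, e y s * M.coord (fun x => f (π x)) (S s)) * M.a y x :=
          Finset.sum_congr rfl fun y _ => by rw [← hrec]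
      _ = ∑ s, M.coord (fun x => f (π x)) (S s) * ∑ y, e y s * M.a y x := by
          simp only [Finset.sum_mul, Finset.mul_sum]
          rw [Finset.sum_comm]
          exact Finset.sum_congr rfl fun s _ => Finset.sum_congr rfl fun y _ => by ring
      _ = _ := Finset.sum_congr rfl fun s _ => by
          congr 1
          rw [M.apply_eq_sum (fun x => g s (π x)) x]
          refine Finset.sum_congr rfl fun y _ => ?_
          rw [hrec (g s) y]
          simp [hgS]
  refine ⟨{
    a := g
    full := fun f => ⟨_, funext fun w => by simpa using hexp f w⟩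
    int := fun s w => ?_
    one := ?_
    mul := fun i j => ?_
    comul := fun i => ?_ }, S, hgspan, hgS⟩
  · obtain ⟨x, rfl⟩ := hπ w
    obtain ⟨c, hc, hce⟩ := hgspan s
    have := congrFun hce x
    simp only [Finset.sum_apply, Pi.smul_apply, smul_eq_mul] at this
    rw [this]
    exact v.map_sum_le fun y _ => by rw [map_mul]; exact mul_le_one' (hc y) (M.int y x)
  · refine ⟨fun s => M.coord (fun _ => (1 : L)) (S s), fun s => (M.inSpan_iff _).mp ?_ _, fun w => hexp 1 w⟩
    obtain ⟨c, hc, hce⟩ := M.one
    exact ⟨c, hc, funext fun x => by simpa using hce x⟩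
  · exact ⟨fun k => M.coord (fun x => g i (π x) * g j (π x)) (S k),
      fun k => (M.inSpan_iff _).mp ((hgspan i).mul (hgspan j)) _, fun w => hexp (g i * g j) w⟩
  · choose c hc hce using M.comul
    obtain ⟨b, hb, hbe⟩ := hgspan i
    set C : V → V → L := fun j k => ∑ l, b l * c l j k
    have hC : ∀ j k, v (C j k) ≤ 1 := fun j k => v.map_sum_le fun l _ => by
      rw [map_mul]; exact mul_le_one' (hb l) (hc l j k)
    have hF : ∀ y, M.coord (fun x => g i (π x + π y)) = fun j => ∑ k, C j k * M.a k y := fun y => by
      refine (M.coord_unique ?_).symm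
      rw [← M.sum_coord]
      funext x
      have := congrFun hbe (x + y)
      simp only [Finset.sum_apply, Pi.smul_apply, smul_eq_mul, map_add] at this
      rw [this]
      simp only [Finset.sum_apply, Pi.smul_apply, smul_eq_mul, C, hce, Finset.sum_mul, Finset.mul_sum]
      conv_lhs => rw [Finset.sum_congr rfl fun j _ => Finset.sum_comm, Finset.sum_comm]
      exact Finset.sum_congr rfl fun l _ => Finset.sum_congr rfl fun j _ =>
        Finset.sum_congr rfl fun k _ => by ring
    refine ⟨fun s t => C (S s) (S t), fun s t => hC _ _, fun w u => ?_⟩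
    set h : W → W → L := fun s u => M.coord (fun x => g i (π x + u)) (S s)
    have hh : ∀ s, M.coord (fun y => h s (π y)) = C (S s) := fun s => by
      refine (M.coord_unique ?_).symm
      rw [← M.sum_coord]
      funext y
      simp only [Finset.sum_apply, Pi.smul_apply, smul_eq_mul, h, hF y]
    calc g i (w + u) = ∑ s, h s u * g s w := hexp (fun w => g i (w + u)) w
      _ = ∑ s, (∑ t, C (S s) (S t) * g t u) * g s w := Finset.sum_congr rfl fun s _ => by
          rw [hexp (h s) u]
          simp only [hh]
      _ = _ := by
          simp only [Finset.sum_mul]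
          exact Finset.sum_congr rfl fun s _ => Finset.sum_congr rfl fun t _ => by ring

end Quot

local notation "Qb" => AlgebraicClosure ℚ
local notation "GQ" => AlgebraicClosure ℚ ≃ₐ[ℚ] AlgebraicClosure ℚ

/-- A field automorphism respecting the functions of a model respects those of a quotient. -/
theorem Model.quotient_equivariant {A : ValuationSubring Qb} {V W : Type} [AddCommGroup V]
    [Fintype V] [AddCommGroup W] [Fintype W] (M : Model A.valuation V) (N : Model A.valuation W)
    (π : V →+ W) (hπ : Function.Surjective π) (S : W → V)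
    (hS : ∀ s t, M.coord (fun x => N.a s (π x)) (S t) =
      open Classical in if s = t then 1 else 0)
    (σ : GQ) (f₁ : V → V) (f₂ : W → W) (hM : ∀ i x, σ (M.a i x) = M.a i (f₁ x))
    (hc : ∀ x, π (f₁ x) = f₂ (π x)) (s : W) (w : W) : σ (N.a s w) = N.a s (f₂ w) := by
  classical
  have hinj : Function.Injective f₁ := fun x y hxy => by
    by_contra hne
    obtain ⟨d, hd⟩ := M.full fun z => if z = x then (1 : Qb) else 0
    have h1 : ∀ i, M.a i x = M.a i y := fun i => σ.injective (by rw [hM, hM, hxy])
    have hx := congrFun hd x
    have hy := congrFun hd y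
    simp only [Finset.sum_apply, Pi.smul_apply, smul_eq_mul, if_true] at hx
    simp only [Finset.sum_apply, Pi.smul_apply, smul_eq_mul, if_neg (Ne.symm hne), ← h1] at hy
    rw [← hy] at hx
    exact one_ne_zero hx
  have hsurj := Finite.surjective_of_injective hinj
  have hsurj' : Function.Surjective (f₂) := fun w => by
    obtain ⟨x, rfl⟩ := hπ w
    obtain ⟨x, rfl⟩ := hsurj x
    exact ⟨π x, (hc x).symm⟩
  have hinj' := Finite.injective_iff_surjective.mpr hsurj'
  -- the conjugate of a basis function, pulled back
  set f : W → Qb := fun w => σ (N.a s (Function.surjInv hsurj' w))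
  have hfw : ∀ w, f (f₂ w) = σ (N.a s w) := fun w => by
    simp only [f]
    rw [hinj' (Function.surjInv_eq hsurj' (f₂ w))]
  have hco : ∀ i, σ (M.coord (fun x => N.a s (π x)) i) = M.coord (fun x => f (π x)) i :=
    M.coord_map σ f₁ hM hsurj (fun x => by rw [hc, hfw])
  have hpull : (fun x => f (π x)) = fun x => N.a s (π x) := by
    funext x
    have hexp := N.apply_eq_sum f (π x)
    rw [hexp]
    -- the coordinates are those of the basis function
    have hcf : ∀ t, N.coord f t = if s = t then 1 else 0 := fun t => by
      have h1 : M.coord (fun x => f (π x)) (S t) = N.coord f t := by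
        have e : M.coord (fun x => f (π x)) =
            fun y => ∑ u, N.coord f u * M.coord (fun x => N.a u (π x)) y := by
          refine (M.coord_unique ?_).symm
          rw [← M.sum_coord]
          funext x
          rw [N.apply_eq_sum f (π x)]
          simp only [Finset.sum_apply, Pi.smul_apply, smul_eq_mul, Finset.sum_mul]
          rw [Finset.sum_comm]
          refine Finset.sum_congr rfl fun u _ => ?_
          rw [M.apply_eq_sum (fun x => N.a u (π x)) x, Finset.mul_sum]
          exact Finset.sum_congr rfl fun y _ => mul_assoc _ _ _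
        rw [e]
        simp [hS]
      rw [← h1, ← hco, hS, apply_ite (f := (σ : Qb → Qb)), map_one, map_zero]
    simp [hcf]
  obtain ⟨x, rfl⟩ := hπ w
  rw [← hfw, ← hc]
  exact congrFun hpull (f₁ x)

/-- Models descend along equivariant surjections. -/
theorem HasModel.of_surjective {A : ValuationSubring Qb} {V W : Type} [AddCommGroup V] [Fintype V]
    [AddCommGroup W] [Fintype W] {act : GQ → V → V} {act' : GQ → W → W} (h : HasModel A V act)
    (π : V →+ W) (hπ : Function.Surjective π)
    (hc : ∀ σ ∈ A.decompositionSubgroup ℚ, ∀ x, π (act σ x) = act' σ (π x)) :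
    HasModel A W act' := by
  obtain ⟨M, hM⟩ := h
  obtain ⟨N, S, -, hS⟩ := M.exists_quotient π hπ
  exact ⟨N, fun σ hσ s w =>
    M.quotient_equivariant N π hπ S hS σ (act σ) (act' σ) (hM σ hσ) (hc σ hσ) s w⟩

end FA.LocalDef
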