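import Fermat.Agent.LocalDef.Sys
import Fermat.Agent.LocalDef.Perturb
import Fermat.Agent.LocalDef.Lift
import Mathlib.RingTheory.RootsOfUnity.PrimitiveRoots
import Mathlib.Algebra.Ring.GeomSum
import Mathlib.Algebra.Module.ZMod

/-!
# The connected part of a model and the cyclotomic layer

The points congruent to `0` form a stable subgroup. For odd `p` inertia fixes no nonzero point of
it, and there is no nonzero invariant functional on a stable subgroup of it.
-/

set_option autoImplicit false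
set_option linter.unusedSectionVars false

noncomputable section

open Polynomial FA.Local
open scoped Pointwise

namespace FA.LocalDef

local notation "Qb" => AlgebraicClosure ℚ
local notation "GQ" => AlgebraicClosure ℚ ≃ₐ[ℚ] AlgebraicClosure ℚ

variable {A : ValuationSubring Qb} {p : ℕ}

local notation "v" => ValuationSubring.valuation A

section Cyclo

variable {ζ : Qb}

lemma stab_le (z : Qb) : Layer.stab A z ≤ A.inertiaSubgroupIn ℚ := fun _ h => h.1

/-- The cyclotomic layer. -/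
theorem exists_cyclo_layer (hp : p.Prime) (hA : A.LiesOverPrime p) (hζ : IsPrimitiveRoot ζ p) :
    ∃ Λ : Layer A p, Λ.N = Layer.stab A ζ ∧ Λ.π = 1 - ζ ∧ Λ.D = p - 1 := by
  classical
  have hn : ∀ σ ∈ A.inertiaSubgroupIn ℚ, ∀ τ ∈ Layer.stab A ζ, σ⁻¹ * τ * σ ∈ Layer.stab A ζ := by
    intro σ hσ τ hτ
    refine ⟨mul_mem (mul_mem (inv_mem hσ) hτ.1) hσ, ?_⟩
    have : NeZero p := ⟨hp.ne_zero⟩
    obtain ⟨i, -, hi⟩ := hζ.eq_pow_of_pow_eq_one (show σ ζ ^ p = 1 by
      rw [← map_pow, hζ.pow_eq_one, map_one])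
    rw [AlgEquiv.mul_apply, AlgEquiv.mul_apply, ← hi, map_pow τ, hτ.2, hi, AlgEquiv.aut_inv,
      AlgEquiv.symm_apply_apply]
  let E : IntermediateField ℚ Qb := IntermediateField.adjoin ℚ {ζ}
  have : FiniteDimensional ℚ E :=
    IntermediateField.adjoin.finiteDimensional (Algebra.IsAlgebraic.isAlgebraic ζ).isIntegral
  obtain ⟨Λ, hΛ⟩ := exists_layer hp hA (Layer.stab A ζ) (stab_le ζ) hn E fun τ hτ =>
    ⟨hτ.1, hτ.2 ⟨ζ, IntermediateField.subset_adjoin ℚ _ (Set.mem_singleton _)⟩⟩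
  have hsub : Layer.orb (A := A) ζ ⊆ primitiveRoots p Qb := by
    rintro _ ⟨σ, -, rfl⟩
    exact (mem_primitiveRoots hp.pos).mpr (hζ.map_of_injective σ.injective)
  have hle : Λ.D ≤ p - 1 := by
    rw [← Λ.D_eq, hΛ, ← Layer.ncard_orb]
    refine (Set.ncard_le_ncard hsub (Finset.finite_toSet _)).trans ?_
    rw [Set.ncard_coe_finset, hζ.card_primitiveRoots, Nat.totient_prime hp]
  have hval : v (1 - ζ) ^ (p - 1) = v (p : Qb) := pow_map_one_sub A.valuation hp hζ
  have hlt : v (1 - ζ) < 1 := by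
    by_contra h
    rw [not_lt] at h
    exact absurd (valuation_p_lt_one hA) (not_lt.mpr (hval ▸ one_le_pow_of_one_le' h _))
  obtain ⟨k, hk⟩ := Λ.exists_pow (z := 1 - ζ)
    (fun τ hτ => by rw [map_sub, map_one, (hΛ ▸ hτ : τ ∈ Layer.stab A ζ).2])
    (sub_ne_zero.mpr (hζ.ne_one hp.one_lt).symm) hlt.le
  have hD : Λ.D = k * (p - 1) := by
    rw [hk, ← pow_mul, ← Λ.val] at hval
    exact ((pow_right_strictAnti₀ Λ.π_pos Λ.π_lt_one).injective hval).symm
  have hk1 : k = 1 := by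
    have h2 := hp.two_le
    have h0 : k ≠ 0 := fun h0 => Λ.D_pos.ne' (by rw [hD, h0, zero_mul])
    by_contra hne
    have := Nat.mul_le_mul_right (p - 1) (show 2 ≤ k by omega)
    omega
  rw [hk1, one_mul] at hD
  refine ⟨⟨Λ.N, 1 - ζ, p - 1, hp, hA, Λ.le, Λ.normal, hD ▸ Λ.D_eq, by have := hp.two_le; omega,
    fun τ hτ => by rw [map_sub, map_one, (hΛ ▸ hτ : τ ∈ Layer.stab A ζ).2], hval⟩, hΛ, rfl, rfl⟩

/-- The cyclotomic character is surjective on inertia. -/
theorem exists_inertia_zeta (hp : p.Prime) (hA : A.LiesOverPrime p) (hζ : IsPrimitiveRoot ζ p)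
    {m : ℕ} (hm : ¬ p ∣ m) : ∃ σ ∈ A.inertiaSubgroupIn ℚ, σ ζ = ζ ^ m := by
  classical
  obtain ⟨Λ, hN, -, hD⟩ := exists_cyclo_layer hp hA hζ
  have hsub : Layer.orb (A := A) ζ ⊆ primitiveRoots p Qb := by
    rintro _ ⟨σ, -, rfl⟩
    exact (mem_primitiveRoots hp.pos).mpr (hζ.map_of_injective σ.injective)
  have heq : Layer.orb (A := A) ζ = primitiveRoots p Qb := by
    refine Set.eq_of_subset_of_ncard_le hsub ?_ (Finset.finite_toSet _)
    rw [Set.ncard_coe_finset, hζ.card_primitiveRoots, Nat.totient_prime hp, Layer.ncard_orb, ← hN,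
      Λ.D_eq, hD]
  have hmem : ζ ^ m ∈ Layer.orb (A := A) ζ := by
    rw [heq]
    exact (mem_primitiveRoots hp.pos).mpr (hζ.pow_of_coprime m
      (Nat.coprime_comm.mp (hp.coprime_iff_not_dvd.mpr hm)))
  exact hmem

end Cyclo

namespace Model

variable {V : Type} [AddCommGroup V] [Fintype V] (M : Model A.valuation V)

/-- All coordinates are small. -/
def Small (f : V → Qb) : Prop := ∀ i, v (M.coord f i) < 1

lemma coord_of_eq {f : V → Qb} {c : V → Qb} (h : f = ∑ i, c i • M.a i) : M.coord f = c :=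
  M.coord_unique (by rw [← M.sum_coord f, ← h])

lemma coord_add (f g : V → Qb) : M.coord (f + g) = M.coord f + M.coord g :=
  M.coord_of_eq (by
    conv_lhs => rw [M.sum_coord f, M.sum_coord g]
    rw [← Finset.sum_add_distrib]
    exact Finset.sum_congr rfl fun i _ => (add_smul _ _ _).symm)

lemma Small.mul_inSpan {f g : V → Qb} (hf : M.Small f) (hg : M.InSpan g) : M.Small (f * g) := by
  classical
  have h : ∀ i, M.InSpan (M.a i * g) := fun i => (Model.inSpan_a i).mul hg
  have e : f * g = ∑ i, M.coord f i • (M.a i * g) := by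
    conv_lhs => rw [M.sum_coord f]
    rw [Finset.sum_mul]
    exact Finset.sum_congr rfl fun i _ => smul_mul_assoc _ _ _
  have e2 : M.coord (f * g) = fun k => ∑ i, M.coord f i * M.coord (M.a i * g) k := M.coord_of_eq (by
    conv_lhs => rw [e]
    simp only [Finset.sum_smul]
    rw [Finset.sum_comm]
    refine Finset.sum_congr rfl fun i _ => ?_
    conv_lhs => rw [M.sum_coord (M.a i * g)]
    simp only [Finset.smul_sum, smul_smul])
  intro k
  rw [e2]
  refine A.valuation.map_sum_lt one_ne_zero fun i _ => ?_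
  rw [map_mul]
  exact lt_of_le_of_lt (mul_le_of_le_one_right' ((M.inSpan_iff _).mp (h i) k)) (hf i)

lemma inSpan_pow {f : V → Qb} (hf : M.InSpan f) : ∀ n : ℕ, M.InSpan (f ^ n)
  | 0 => by rw [pow_zero]; exact Model.inSpan_one
  | n + 1 => by rw [pow_succ]; exact (inSpan_pow hf n).mul hf

end Model

variable [hp : Fact p.Prime]

/-- On a group with a model equivariant for inertia, all points congruent to `0`, every invariant
character is trivial. -/
theorem Model.functional_eq_zero {X : Type} [AddCommGroup X] [Module (ZMod p) X] [Fintype X]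
    (M : Model A.valuation X) (hA : A.LiesOverPrime p) (hp2 : p ≠ 2) (act : GQ → X → X)
    (hsurj : ∀ σ ∈ A.inertiaSubgroupIn ℚ, Function.Surjective (act σ))
    (heq : ∀ σ ∈ A.inertiaSubgroupIn ℚ, ∀ i x, σ (M.a i x) = M.a i (act σ x))
    (hconn : ∀ i x, v (M.a i x - M.a i 0) < 1) (ξ : Module.Dual (ZMod p) X)
    (hinv : ∀ σ ∈ A.inertiaSubgroupIn ℚ, ∀ x, ξ (act σ x) = ξ x) : ξ = 0 := by
  classical
  obtain ⟨ζ, hζ⟩ := exists_zeta hp.out
  set f : X → Qb := chi ζ ξ with hf
  have hfspan : M.InSpan f := M.chi_inSpan hζ ξ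
  have h3 : 3 ≤ p := by have := hp.out.two_le; omega
  obtain ⟨σ, hσ, hσζ⟩ := exists_inertia_zeta hp.out hA hζ (m := 2)
    (fun h => by have := Nat.le_of_dvd two_pos h; omega)
  have hσf : ∀ i, σ (M.coord f i) = M.coord (f * f) i := fun i =>
    M.coord_map σ (act σ) (heq σ hσ) (hsurj σ hσ) (fun x => by
      rw [Pi.mul_apply, hf, chi, chi, hinv σ hσ, map_pow, hσζ, ← pow_mul, ← pow_add]
      congr 1; ring) i
  have hsmall : M.Small (f * f - f) := fun i => by
    rw [M.coord_sub, Pi.sub_apply, ← hσf]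
    exact (inert_of_mem_inertiaSubgroupIn A hσ).sub_lt _ ((M.inSpan_iff f).mp hfspan i)
  have hfp : f * f ^ (p - 1) = 1 := funext fun x => by
    rw [Pi.mul_apply, Pi.pow_apply, ← pow_succ', show p - 1 + 1 = p by omega, hf, chi_pow hζ]
    rfl
  have hsmall1 : M.Small (f - 1) := by
    have h := Model.Small.mul_inSpan M hsmall (M.inSpan_pow hfspan (p - 1))
    rwa [sub_mul, mul_assoc, hfp, mul_one] at h
  obtain ⟨Λ, hN, hπ, -⟩ := exists_cyclo_layer hp.out hA hζ
  have hdiv : M.InSpan ((1 - ζ)⁻¹ • (f - 1)) := (M.inSpan_iff _).mpr fun i => by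
    rw [M.coord_smul, Pi.smul_apply, smul_eq_mul, map_mul, map_inv₀, inv_mul_le_iff₀
      (A.valuation.pos_iff.mpr (sub_ne_zero.mpr (hζ.ne_one hp.out.one_lt).symm)), mul_one, ← hπ]
    refine Λ.le_of_lt_one (fun τ hτ => ?_) (hsmall1 i)
    rw [hN] at hτ
    exact M.coord_map τ (act τ) (heq τ hτ.1) (hsurj τ hτ.1) (fun x => by
      simp only [Pi.sub_apply, Pi.one_apply, map_sub, map_one, hf, chi, hinv τ hτ.1, map_pow,
        hτ.2]) i
  obtain ⟨c, hc, he⟩ := hdiv
  refine LinearMap.ext fun x => ?_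
  by_contra hx
  have h0 := congrFun he 0
  have h1 := congrFun he x
  simp only [Pi.smul_apply, Pi.sub_apply, Pi.one_apply, Finset.sum_apply, smul_eq_mul, hf,
    chi_zero_right, sub_self, mul_zero] at h0 h1
  have hlt : v ((1 - ζ)⁻¹ * (chi ζ ξ x - 1)) < 1 := by
    rw [h1, ← sub_zero (∑ i, c i * M.a i x), h0, ← Finset.sum_sub_distrib]
    refine A.valuation.map_sum_lt one_ne_zero fun i _ => ?_
    rw [← mul_sub, map_mul]
    exact lt_of_le_of_lt (mul_le_of_le_one_left' (hc i)) (hconn i x)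
  rw [chi, map_mul, map_inv₀, A.valuation.map_sub_swap _ (1 : Qb),
    map_one_sub_pow A.valuation hp.out hζ (fun hd => hx ((ZMod.val_eq_zero _).mp
      (Nat.eq_zero_of_dvd_of_lt hd (ZMod.val_lt _)))),
    inv_mul_cancel₀ (A.valuation.pos_iff.mpr (sub_ne_zero.mpr (hζ.ne_one hp.out.one_lt).symm)).ne'] at hlt
  exact lt_irrefl _ hlt

namespace Sys

variable {V : Type} [AddCommGroup V] [Module (ZMod p) V] [Fintype V] (S : Sys A V)

lemma apply_zero_fixed {σ : GQ} (hσ : σ ∈ A.decompositionSubgroup ℚ) (i : V) :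
    σ (S.M.a i 0) = S.M.a i 0 := by
  rw [S.equiv σ hσ, S.act_zero hσ]

lemma cong_add {x y : V} (h : ∀ i, v (S.M.a i x - S.M.a i y) < 1) (z : V) :
    ∀ i, v (S.M.a i (x + z) - S.M.a i (y + z)) < 1 := fun i => by
  obtain ⟨c, hc, he⟩ := S.M.comul i
  rw [he, he, ← Finset.sum_sub_distrib]
  refine A.valuation.map_sum_lt one_ne_zero fun j _ => ?_
  rw [← Finset.sum_sub_distrib]
  refine A.valuation.map_sum_lt one_ne_zero fun k _ => ?_
  rw [← sub_mul, ← mul_sub, map_mul, map_mul]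
  exact lt_of_le_of_lt (le_trans (mul_le_of_le_one_right' (S.M.int k z))
    (mul_le_of_le_one_left' (hc j k))) (h j)

/-- The points congruent to `0`. -/
def conn : Submodule (ZMod p) V :=
  AddSubgroup.toZModSubmodule p
    { carrier := {x | ∀ i, v (S.M.a i x - S.M.a i 0) < 1}
      zero_mem' := fun i => by simp
      add_mem' := fun {x y} hx hy i => by
        have h := S.cong_add hx y i
        rw [zero_add] at h
        rw [← sub_add_sub_cancel _ (S.M.a i y)]
        exact A.valuation.map_add_lt h (hy i)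
      neg_mem' := fun {x} hx i => by
        have h := S.cong_add hx (-x) i
        rw [add_neg_cancel, zero_add, A.valuation.map_sub_swap] at h
        exact h }

lemma mem_conn {x : V} : x ∈ S.conn (p := p) ↔ ∀ i, v (S.M.a i x - S.M.a i 0) < 1 := Iff.rfl

lemma act_mem_conn {σ : GQ} (hσ : σ ∈ A.decompositionSubgroup ℚ) {x : V}
    (hx : x ∈ S.conn (p := p)) : S.act σ x ∈ S.conn (p := p) := fun i => by
  rw [← S.equiv σ hσ, ← S.apply_zero_fixed (σ := σ) hσ i, ← map_sub, decomp_map_eq hσ]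
  exact hx i

lemma sub_mem_conn {σ : GQ} (hσ : σ ∈ A.inertiaSubgroupIn ℚ) (x : V) :
    S.act σ x - x ∈ S.conn (p := p) := fun i => by
  have h := S.cong_add (x := S.act σ x) (y := x) (fun j => by
    rw [← S.equiv σ (inertia_le_decomposition hσ)]
    exact (inert_of_mem_inertiaSubgroupIn A hσ).sub_lt _ (S.M.int j x)) (-x) i
  rwa [add_neg_cancel, ← sub_eq_add_neg] at h

/-- Inertia fixes no nonzero point of the connected part. -/
theorem eq_zero_of_fixed (hA : A.LiesOverPrime p) (hp2 : p ≠ 2) {x : V}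
    (hx : x ∈ S.conn (p := p)) (hfix : ∀ σ ∈ A.inertiaSubgroupIn ℚ, S.act σ x = x) : x = 0 := by
  obtain ⟨ζ, hζ⟩ := exists_zeta hp.out
  have hv := valuation_p_lt_one hA
  have h3 : 3 ≤ p := by have := hp.out.two_le; omega
  refine Model.eq_of_cong (M := S.M) hζ hv hv ?_ fun i => le_of_mem_kur hp.out hA
    (mem_kur.mpr fun σ hσ => ?_) (hx i)
  · calc v (p : Qb) ^ (p - 1) ≤ v (p : Qb) ^ 2 := pow_le_pow_right_of_le_one' hv.le (by omega)
      _ < v (p : Qb) ^ 1 := pow_lt_pow_right_of_lt_one₀ (valuation_p_pos hp.out) hv one_lt_two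
      _ = _ := pow_one _
  · rw [map_sub, S.apply_zero_fixed (inertia_le_decomposition hσ) i,
      S.equiv σ (inertia_le_decomposition hσ), hfix σ hσ]

/-- There is no invariant functional on a stable subspace of the connected part. -/
theorem functional_eq_zero (hA : A.LiesOverPrime p) (hp2 : p ≠ 2) (X : Submodule (ZMod p) V)
    (hX : X ≤ S.conn) (hstab : ∀ σ ∈ A.inertiaSubgroupIn ℚ, ∀ x ∈ X, S.act σ x ∈ X)
    (ξ : Module.Dual (ZMod p) X)
    (hinv : ∀ σ, ∀ hσ : σ ∈ A.inertiaSubgroupIn ℚ, ∀ x : X, ξ ⟨S.act σ x, hstab σ hσ x x.2⟩ = ξ x) :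
    ξ = 0 := by
  classical
  have : Fintype X := Fintype.ofFinite X
  obtain ⟨M, g, hg, -⟩ := S.M.exists_restrict X.toAddSubgroup.subtype Subtype.coe_injective
  let act : GQ → X → X := fun σ x =>
    if hσ : σ ∈ A.inertiaSubgroupIn ℚ then ⟨S.act σ x, hstab σ hσ x x.2⟩ else x
  have hact : ∀ σ (hσ : σ ∈ A.inertiaSubgroupIn ℚ) (x : X),
      act σ x = ⟨S.act σ x, hstab σ hσ x x.2⟩ := fun σ hσ x => dif_pos hσ
  refine Model.functional_eq_zero (X := X) M hA hp2 act (fun σ hσ => ?_) (fun σ hσ i x => ?_)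
    (fun i x => ?_) ξ fun σ hσ x => by rw [hact σ hσ]; exact hinv σ hσ x
  · intro y
    refine ⟨act σ⁻¹ y, ?_⟩
    rw [hact σ hσ, hact σ⁻¹ (inv_mem hσ)]
    exact Subtype.ext (S.act_act_inv (inertia_le_decomposition hσ) _)
  · rw [hg, hg, S.equiv σ (inertia_le_decomposition hσ), hact σ hσ]
    rfl
  · rw [hg, hg]
    exact hX x.2 _

end Sys

end FA.LocalDef
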