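import Fermat.Agent.LocalDef.Connected
import Fermat.Agent.LocalDef.ModelQuot

/-!
# Connected models equivariant for inertia

`HasConnModel A V act`: a model of `V`, all points congruent to `0`, with functions respected by
inertia.  It passes to subgroups, powers and quotients, and a `p`-torsion group with trivial
inertia and a connected model is trivial.
-/

set_option autoImplicit false
set_option linter.unusedSectionVars false

noncomputable section

namespace FA.LocalDef

local notation "Qb" => AlgebraicClosure ℚ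
local notation "GQ" => AlgebraicClosure ℚ ≃ₐ[ℚ] AlgebraicClosure ℚ

variable {A : ValuationSubring Qb} {p : ℕ} {V V' : Type} [AddCommGroup V] [Fintype V]
  [AddCommGroup V'] [Fintype V']

local notation "v" => ValuationSubring.valuation A

/-- A connected model equivariant for inertia. -/
def HasConnModel (A : ValuationSubring Qb) (V : Type) [AddCommGroup V] [Fintype V]
    (act : GQ → V → V) : Prop :=
  ∃ M : Model A.valuation V, (∀ σ ∈ A.inertiaSubgroupIn ℚ, ∀ i x, σ (M.a i x) = M.a i (act σ x)) ∧
    ∀ i x, A.valuation (M.a i x - M.a i 0) < 1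

theorem HasConnModel.of_injective {act : GQ → V → V} {act' : GQ → V' → V'}
    (h : HasConnModel A V act) (ι : V' →+ V) (hι : Function.Injective ι)
    (hc : ∀ σ ∈ A.inertiaSubgroupIn ℚ, ∀ x, ι (act' σ x) = act σ (ι x)) :
    HasConnModel A V' act' := by
  obtain ⟨M, hM, hconn⟩ := h
  obtain ⟨N, g, hg, -⟩ := M.exists_restrict ι hι
  exact ⟨N, fun σ hσ i x => by rw [hg, hg, hM σ hσ, hc σ hσ],
    fun i x => by rw [hg, hg, map_zero]; exact hconn _ _⟩

theorem HasConnModel.of_surjective {act : GQ → V → V} {act' : GQ → V' → V'}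
    (h : HasConnModel A V act) (π : V →+ V') (hπ : Function.Surjective π)
    (hc : ∀ σ ∈ A.inertiaSubgroupIn ℚ, ∀ x, π (act σ x) = act' σ (π x)) :
    HasConnModel A V' act' := by
  obtain ⟨M, hM, hconn⟩ := h
  obtain ⟨N, S, hN, hS⟩ := M.exists_quotient π hπ
  refine ⟨N, fun σ hσ s w =>
    M.quotient_equivariant N π hπ S hS σ (act σ) (act' σ) (hM σ hσ) (hc σ hσ) s w, fun s w => ?_⟩
  obtain ⟨x, rfl⟩ := hπ w
  obtain ⟨c, hc', he⟩ := hN s
  have hx := congrFun he x
  have h0 := congrFun he 0
  simp only [Finset.sum_apply, Pi.smul_apply, smul_eq_mul, map_zero] at hx h0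
  rw [hx, h0, ← Finset.sum_sub_distrib]
  refine A.valuation.map_sum_lt one_ne_zero fun i _ => ?_
  rw [← mul_sub, map_mul]
  exact lt_of_le_of_lt (mul_le_of_le_one_left' (hc' i)) (hconn i x)

theorem HasConnModel.pi {act : GQ → V → V} (h : HasConnModel A V act) (ι : Type) [Fintype ι]
    [DecidableEq ι] : HasConnModel A (ι → V) fun σ x i => act σ (x i) := by
  classical
  obtain ⟨M, hM, hconn⟩ := h
  refine ⟨Model.pi fun _ : ι => M, fun σ hσ J x => ?_, fun J x => ?_⟩
  · rw [Model.pi_a, Model.pi_a, map_prod]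
    exact Finset.prod_congr rfl fun j _ => hM σ hσ _ _
  · rw [Model.pi_a, Model.pi_a]
    suffices hs : ∀ s : Finset ι,
        v (∏ i ∈ s, M.a (J i) (x i) - ∏ i ∈ s, M.a (J i) ((0 : ι → V) i)) < 1 from hs _
    intro s
    induction s using Finset.induction_on with
    | empty => simp
    | @insert a s ha ih =>
      rw [Finset.prod_insert ha, Finset.prod_insert ha, Pi.zero_apply]
      set P := ∏ i ∈ s, M.a (J i) (x i)
      set P₀ := ∏ i ∈ s, M.a (J i) ((0 : ι → V) i)
      have hP : v P ≤ 1 := by
        rw [map_prod]; exact Finset.prod_le_one (fun _ _ => zero_le) fun i _ => M.int _ _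
      rw [show M.a (J a) (x a) * P - M.a (J a) 0 * P₀ =
        (M.a (J a) (x a) - M.a (J a) 0) * P + M.a (J a) 0 * (P - P₀) by ring]
      refine A.valuation.map_add_lt ?_ ?_
      · rw [map_mul]; exact lt_of_le_of_lt (mul_le_of_le_one_right' hP) (hconn _ _)
      · rw [map_mul]; exact lt_of_le_of_lt (mul_le_of_le_one_left' (M.int _ _)) ih

/-- A `p`-torsion group with trivial inertia and a connected model is trivial. -/
theorem HasConnModel.eq_zero_of_trivial [hp : Fact p.Prime] {act : GQ → V → V}
    (h : HasConnModel A V act) (hA : A.LiesOverPrime p) (hp2 : p ≠ 2)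
    (hV : ∀ x : V, p • x = 0) (htriv : ∀ σ ∈ A.inertiaSubgroupIn ℚ, ∀ x, act σ x = x) (x : V) :
    x = 0 := by
  let _ : Module (ZMod p) V := AddCommGroup.zmodModule hV
  obtain ⟨M, hM, hconn⟩ := h
  let b := Module.Basis.ofVectorSpace (ZMod p) V
  refine b.forall_coord_eq_zero_iff.mp fun i => ?_
  have hξ := M.functional_eq_zero hA hp2 act (fun σ hσ y => ⟨y, htriv σ hσ y⟩)
    (fun σ hσ i y => hM σ hσ i y) hconn (b.coord i) fun σ hσ y => by rw [htriv σ hσ]
  rw [hξ, LinearMap.zero_apply]

end FA.LocalDef
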