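import Fermat.Agent.LocalDef.ModelQuot
import Fermat.Agent.LocalDef.ConnModel

/-!
# Properties of finite modules at a place inherited by subquotients of powers

Having a model, and having a stable subgroup with a connected model outside of which inertia does
not move anything (`HasConnPart`), are inherited by subgroups, quotients and powers.
-/

set_option autoImplicit false
set_option linter.unusedSectionVars false
set_option linter.style.haveILetI false

noncomputable section

namespace FA.LocalDef

local notation "Qb" => AlgebraicClosure ℚ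
local notation "GQ" => AlgebraicClosure ℚ ≃ₐ[ℚ] AlgebraicClosure ℚ

/-- A property of finite modules at a place inherited by subgroups, quotients and powers. -/
structure IsTransfer (A : ValuationSubring Qb)
    (P : ∀ (V : Type) [AddCommGroup V] [Fintype V], (GQ → V → V) → Prop) : Prop where
  of_injective : ∀ {V V' : Type} [AddCommGroup V] [Fintype V] [AddCommGroup V'] [Fintype V']
    {act : GQ → V → V} {act' : GQ → V' → V'}, P V act → ∀ (ι : V' →+ V), Function.Injective ι →
      (∀ σ ∈ A.decompositionSubgroup ℚ, ∀ x, ι (act' σ x) = act σ (ι x)) → P V' act'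
  of_surjective : ∀ {V V' : Type} [AddCommGroup V] [Fintype V] [AddCommGroup V'] [Fintype V']
    {act : GQ → V → V} {act' : GQ → V' → V'}, P V act → ∀ (π : V →+ V'), Function.Surjective π →
      (∀ σ ∈ A.decompositionSubgroup ℚ, ∀ x, π (act σ x) = act' σ (π x)) → P V' act'
  pi : ∀ {V : Type} [AddCommGroup V] [Fintype V] {act : GQ → V → V}, P V act →
    ∀ (ι : Type) [Fintype ι] [DecidableEq ι], P (ι → V) fun σ x i => act σ (x i)

variable {A : ValuationSubring Qb}

/-- Having a model transfers. -/
theorem isTransfer_hasModel : IsTransfer A fun V _ _ act => HasModel A V act where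
  of_injective h ι hι hc := HasModel.of_injective h ι hι hc
  of_surjective h π hπ hc := HasModel.of_surjective h π hπ hc
  pi h _ := HasModel.pi fun _ => h

/-- A stable subgroup with a connected model outside of which the elements of `E` move nothing. -/
def HasPart (E : Set GQ) (A : ValuationSubring Qb) (V : Type) [AddCommGroup V] [Fintype V]
    (act : GQ → V → V) : Prop :=
  ∃ (W : AddSubgroup V) (_ : Fintype W) (actW : GQ → W → W),
    (∀ δ ∈ A.decompositionSubgroup ℚ, ∀ x ∈ W, act δ x ∈ W) ∧
    (∀ σ ∈ E, ∀ x, act σ x - x ∈ W) ∧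
    (∀ σ ∈ A.inertiaSubgroupIn ℚ, ∀ x : W, (actW σ x : V) = act σ x) ∧
    HasConnModel A W actW

/-- A stable subgroup with a connected model outside of which inertia moves nothing. -/
abbrev HasConnPart (A : ValuationSubring Qb) (V : Type) [AddCommGroup V] [Fintype V]
    (act : GQ → V → V) : Prop :=
  HasPart (A.inertiaSubgroupIn ℚ : Set GQ) A V act

theorem HasPart.mk' {E : Set GQ} {V : Type} [AddCommGroup V] [Fintype V] {act : GQ → V → V}
    (W : AddSubgroup V) [Fintype W]
    (hD : ∀ δ ∈ A.decompositionSubgroup ℚ, ∀ x ∈ W, act δ x ∈ W)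
    (hE : ∀ σ ∈ E, ∀ x, act σ x - x ∈ W)
    (h : ∀ actW : GQ → W → W, (∀ σ ∈ A.inertiaSubgroupIn ℚ, ∀ x : W, (actW σ x : V) = act σ x) →
      HasConnModel A W actW) : HasPart E A V act := by
  classical
  let actW : GQ → W → W := fun σ x => if hm : act σ x ∈ W then ⟨_, hm⟩ else 0
  have hW : ∀ σ ∈ A.inertiaSubgroupIn ℚ, ∀ x : W, (actW σ x : V) = act σ x := fun σ hσ x => by
    simp only [actW, dif_pos (hD σ (inertia_le_decomposition hσ) x x.2)]
  exact ⟨W, inferInstance, actW, hD, hE, hW, h actW hW⟩

/-- Having a part transfers. -/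
theorem isTransfer_hasPart {E : Set GQ} (hED : ∀ σ ∈ E, σ ∈ A.decompositionSubgroup ℚ) :
    IsTransfer A fun V _ _ act => HasPart E A V act where
  of_injective := by
    rintro V V' _ _ _ _ act act' ⟨W, hW, actW, hD, hI, hact, hconn⟩ ι hι hc
    classical
    let W' := W.comap ι
    letI : Fintype W' := Fintype.ofFinite W'
    refine HasPart.mk' W' (fun δ hδ x hx => ?_) (fun σ hσ x => ?_) fun actW' hact' => ?_
    · show ι (act' δ x) ∈ W
      rw [hc δ hδ]
      exact hD δ hδ _ hx
    · show ι (act' σ x - x) ∈ W
      rw [map_sub, hc σ (hED σ hσ)]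
      exact hI σ hσ _
    · refine hconn.of_injective ((ι.comp W'.subtype).codRestrict W fun x => x.2)
        (fun x y h => Subtype.ext (hι (congrArg Subtype.val h))) fun σ hσ x => Subtype.ext ?_
      rw [hact σ hσ]
      show ι (actW' σ x : V') = act σ (ι (x : V'))
      rw [hact' σ hσ, hc σ (inertia_le_decomposition hσ)]
  of_surjective := by
    rintro V V' _ _ _ _ act act' ⟨W, hW, actW, hD, hI, hact, hconn⟩ π hπ hc
    classical
    let W' := W.map π
    letI : Fintype W' := Fintype.ofFinite W'
    refine HasPart.mk' W' ?_ (fun σ hσ y => ?_) fun actW' hact' => ?_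
    · rintro δ hδ _ ⟨x, hx, rfl⟩
      exact ⟨act δ x, hD δ hδ x hx, hc δ hδ x⟩
    · obtain ⟨x, rfl⟩ := hπ y
      exact ⟨act σ x - x, hI σ hσ x, by rw [map_sub, hc σ (hED σ hσ)]⟩
    · refine hconn.of_surjective ((π.comp W.subtype).codRestrict W' fun x => ⟨x, x.2, rfl⟩) ?_
        fun σ hσ x => Subtype.ext ?_
      · rintro ⟨_, x, hx, rfl⟩
        exact ⟨⟨x, hx⟩, rfl⟩
      · rw [hact' σ hσ]
        show π (actW σ x : V) = act' σ (π (x : V))
        rw [hact σ hσ, hc σ (inertia_le_decomposition hσ)]
  pi := by
    rintro V _ _ act ⟨W, hW, actW, hD, hI, hact, hconn⟩ ι _ _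
    classical
    let W' : AddSubgroup (ι → V) := AddSubgroup.pi Set.univ fun _ => W
    letI : Fintype W' := Fintype.ofFinite W'
    refine HasPart.mk' W' (fun δ hδ x hx i hi => hD δ hδ _ (hx i hi))
      (fun σ hσ x i _ => hI σ hσ _) fun actW' hact' => ?_
    refine (hconn.pi ι).of_injective
      (AddMonoidHom.mk' (fun x i => ⟨x.1 i, x.2 i trivial⟩) fun x y => rfl)
      (fun x y h => Subtype.ext (funext fun i => congrArg Subtype.val (congrFun h i)))
      fun σ hσ x => funext fun i => Subtype.ext ?_
    show (actW' σ x : ι → V) i = (actW σ ⟨x.1 i, x.2 i trivial⟩ : V)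
    rw [hact' σ hσ, hact σ hσ]

/-- Having a connected part transfers. -/
theorem isTransfer_hasConnPart : IsTransfer A fun V _ _ act => HasConnPart A V act :=
  isTransfer_hasPart fun _ hσ => inertia_le_decomposition hσ

end FA.LocalDef
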