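import Fermat.Agent.LocalDef.NumberFieldVal
import Fermat.Agent.Local.Minkowski
import Fermat.Agent.Local.Inertia
import Mathlib.GroupTheory.Index
import Mathlib.FieldTheory.Normal.Closure

/-!
# The fixed field of inertia at a place of `ℚ̄`

For a place `A` of `ℚ̄` over `p` the inertia group acts on `ℚ̄` with fixed field an unramified
extension of `ℚ`: its values are powers of `v p`. Every finite layer of the inertia group is
totally ramified.
-/

set_option autoImplicit false
set_option linter.unusedSectionVars false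

noncomputable section

open NumberField FA.Deform FA.Local
open scoped Pointwise

namespace FA.LocalDef

local notation "Qb" => AlgebraicClosure ℚ
local notation "GQ" => AlgebraicClosure ℚ ≃ₐ[ℚ] AlgebraicClosure ℚ

variable {A : ValuationSubring Qb} {p : ℕ}

/-- The fixed field of inertia. -/
def kur (A : ValuationSubring Qb) : IntermediateField ℚ Qb :=
  IntermediateField.fixedField (A.inertiaSubgroupIn ℚ)

lemma mem_kur {x : Qb} : x ∈ kur A ↔ ∀ σ ∈ A.inertiaSubgroupIn ℚ, σ x = x :=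
  ⟨fun h σ hσ => h ⟨σ, hσ⟩, fun h σ => h σ.1 σ.2⟩

variable (E : IntermediateField ℚ Qb) [FiniteDimensional ℚ E]

/-- The valuation of `A` on a subfield. -/
def vOn (A : ValuationSubring Qb) : Valuation E A.ValueGroup := A.valuation.comap (algebraMap E Qb)

lemma vOn_apply (x : E) : vOn E A x = A.valuation (x : Qb) := rfl

instance numberFieldOfFinite : NumberField E where
  to_charZero := inferInstance
  to_finiteDimensional := inferInstance

/-- An automorphism of a finite Galois extension which is inertial at the centre of `A` extends to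
an element of the inertia group of `A`. -/
theorem exists_inertia_extend [IsGalois ℚ E] (hp : p.Prime) (hA : A.LiesOverPrime p)
    (τ : E ≃ₐ[ℚ] E) (hτ : τ ∈ (centre (vOn E A)).inertia (E ≃ₐ[ℚ] E)) :
    ∃ σ ∈ A.inertiaSubgroupIn ℚ, ∀ y : E, σ (y : Qb) = ((τ y : E) : Qb) := by
  let 𝒪 := 𝓞 E
  let P : Ideal 𝒪 := centre (vOn E A)
  have hAP : ∀ x : 𝒪, intIncl E x ∈ primeAt A ↔ x ∈ P := fun x => by
    rw [mem_primeAt, A.mem_nonunits_iff, coe_intIncl]
    exact Iff.rfl
  let _ : Algebra 𝒪 ZBar := (intIncl E).toAlgebra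
  let σ₀ : GQ := τ.liftNormal Qb
  have hσ₀ : ∀ y : E, σ₀ (y : Qb) = ((τ y : E) : Qb) := fun y => τ.liftNormal_commutes Qb y
  have hσ₀' : ∀ x : 𝒪, σ₀ • algebraMap 𝒪 ZBar x = algebraMap 𝒪 ZBar (τ • x) := fun x => by
    refine Subtype.ext ?_
    rw [integralClosure.coe_smul]
    show σ₀ ((x : E) : Qb) = (((τ • x : 𝒪) : E) : Qb)
    exact hσ₀ x
  let H := E.fixingSubgroup
  have hHclosed : IsClosed (H : Set GQ) := E.fixingSubgroup_isClosed
  have : CompactSpace H := isCompact_iff_compactSpace.mp hHclosed.isCompact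
  let _ : TopologicalSpace ZBar := ⊥
  have : DiscreteTopology ZBar := ⟨rfl⟩
  have : ContinuousSMul GQ ZBar := by
    rw [continuousSMul_iff_stabilizer_isOpen]
    intro x
    have h := stabilizer_isOpen_of_isIntegral (K := ℚ) (x : Qb)
    convert h using 2
    ext g
    simp only [MulAction.mem_stabilizer_iff, Subtype.ext_iff, integralClosure.coe_smul]
  have : ContinuousSMul H ZBar :=
    ⟨(continuous_smul (M := GQ) (X := ZBar)).comp (continuous_subtype_val.prodMap continuous_id)⟩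
  have hHfix : ∀ (g : H) (x : 𝒪), g • algebraMap 𝒪 ZBar x = algebraMap 𝒪 ZBar x := fun g x => by
    refine Subtype.ext ?_
    show ((g : GQ) • algebraMap 𝒪 ZBar x : ZBar).1 = _
    rw [integralClosure.coe_smul]
    exact g.2 ⟨((x : E) : Qb), (x : E).2⟩
  have : SMulCommClass H 𝒪 ZBar := ⟨fun g x b => by
    rw [Algebra.smul_def, Algebra.smul_def, smul_mul', hHfix]⟩
  have : Algebra.IsInvariant 𝒪 ZBar H := by
    constructor
    intro b hb
    have hbE : (b : Qb) ∈ E := by
      rw [← InfiniteGalois.fixedField_fixingSubgroup E]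
      intro g
      exact congrArg Subtype.val (hb g)
    refine ⟨⟨⟨(b : Qb), hbE⟩, ?_⟩, Subtype.ext rfl⟩
    exact (isIntegral_algebraMap_iff (B := Qb) (algebraMap E Qb).injective).mp b.2
  let Q := primeAt A
  have hunder : ∀ x : 𝒪, algebraMap 𝒪 ZBar x ∈ σ₀⁻¹ • Q ↔ algebraMap 𝒪 ZBar x ∈ Q := fun x => by
    rw [Ideal.mem_inv_pointwise_smul_iff, hσ₀']
    exact ⟨fun h => (hAP x).mpr (by simpa using P.sub_mem ((hAP _).mp h) (hτ x)),
      fun h => (hAP _).mpr (by simpa using P.add_mem (hτ x) ((hAP x).mp h))⟩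
  obtain ⟨g, hg⟩ := Algebra.IsInvariant.exists_smul_of_under_eq_of_profinite (A := 𝒪) (G := H)
    Q (σ₀⁻¹ • Q) (Ideal.ext fun x => (hunder x).symm)
  let σ₁ : GQ := σ₀ * (g : GQ)
  have hσ₁Q : σ₁ • Q = Q := by
    rw [show σ₁ • Q = σ₀ • ((g : GQ) • Q) from mul_smul _ _ _,
      show (g : GQ) • Q = σ₀⁻¹ • Q from hg.symm, smul_inv_smul]
  have hσ₁𝒪 : ∀ x : 𝒪, σ₁ • algebraMap 𝒪 ZBar x - algebraMap 𝒪 ZBar x ∈ Q := fun x => by
    rw [show σ₁ • algebraMap 𝒪 ZBar x = σ₀ • ((g : GQ) • algebraMap 𝒪 ZBar x) from mul_smul _ _ _,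
      show (g : GQ) • algebraMap 𝒪 ZBar x = g • algebraMap 𝒪 ZBar x from rfl, hHfix, hσ₀', ← map_sub]
    exact (hAP _).mpr (hτ x)
  have : Q.LiesOver P := ⟨Ideal.ext fun x => (hAP x).symm⟩
  let e : (ZBar ⧸ Q) ≃ₐ[𝒪 ⧸ P] (ZBar ⧸ Q) :=
    AlgEquiv.ofRingEquiv (f := Ideal.quotientEquiv Q Q (MulSemiringAction.toRingEquiv GQ ZBar σ₁)
      hσ₁Q.symm) (by
      intro a
      obtain ⟨x, rfl⟩ := Ideal.Quotient.mk_surjective a
      show Ideal.Quotient.mk Q (σ₁ • algebraMap 𝒪 ZBar x) = Ideal.Quotient.mk Q (algebraMap 𝒪 ZBar x)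
      rw [Ideal.Quotient.eq]
      exact hσ₁𝒪 x)
  obtain ⟨⟨g', hg'Q⟩, hg'⟩ :=
    Ideal.Quotient.stabilizerHom_surjective_of_profinite (G := H) P Q e
  let σ : GQ := (g' : GQ)⁻¹ * σ₁
  have hg'' : ∀ b : ZBar, (g' : GQ) • b - σ₁ • b ∈ Q := fun b => by
    rw [← Ideal.Quotient.eq]
    exact AlgEquiv.congr_fun hg' (Ideal.Quotient.mk Q b)
  have hσ : ∀ b : ZBar, σ • b - b ∈ Q := fun b => by
    have h := hg'' b
    have hgg : (g' : GQ)⁻¹ • Q = Q := by
      rw [inv_smul_eq_iff]; exact hg'Q.symm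
    rw [← Ideal.neg_mem_iff, neg_sub] at h
    have := Ideal.smul_mem_pointwise_smul (g' : GQ)⁻¹ _ _ h
    rwa [hgg, smul_sub, inv_smul_smul, ← mul_smul] at this
  refine ⟨σ, mem_inertiaSubgroupIn_of_forall hp hA hσ, fun y => ?_⟩
  show (g' : GQ)⁻¹ (σ₀ ((g : GQ) (y : Qb))) = _
  rw [show (g : GQ) (y : Qb) = y from g.2 y, hσ₀]
  exact (g'⁻¹).2 (τ y)

/-- Restriction to a normal subfield. -/
def resHom [IsGalois ℚ E] : GQ →* (E ≃ₐ[ℚ] E) := AlgEquiv.restrictNormalHom E

lemma resHom_apply [IsGalois ℚ E] (σ : GQ) (y : E) : ((resHom E σ y : E) : Qb) = σ (y : Qb) :=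
  AlgEquiv.restrictNormal_commutes σ E y

/-- The inertia group surjects on the inertia group of a finite Galois layer. -/
theorem map_inertia [IsGalois ℚ E] (hp : p.Prime) (hA : A.LiesOverPrime p) :
    (A.inertiaSubgroupIn ℚ).map (resHom E) = (centre (vOn E A)).inertia (E ≃ₐ[ℚ] E) := by
  ext τ
  constructor
  · rintro ⟨σ, hσ, rfl⟩ x
    show A.valuation ((((resHom E σ • x - x : 𝓞 E)) : E) : Qb) < 1
    have h1 : ((((resHom E σ • x - x : 𝓞 E)) : E) : Qb) = σ ((x : E) : Qb) - ((x : E) : Qb) := by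
      rw [← resHom_apply]
      rfl
    rw [h1]
    exact (inert_of_mem_inertiaSubgroupIn A hσ).sub_lt _ (map_ringOfIntegers_le_one (vOn E A) x)
  · intro hτ
    obtain ⟨σ, hσ, h⟩ := exists_inertia_extend E hp hA τ hτ
    exact ⟨σ, hσ, AlgEquiv.ext fun y => Subtype.ext (by rw [resHom_apply, h])⟩

lemma unif_rat {Γ : Type*} [LinearOrderedCommGroupWithZero Γ] (w : Valuation ℚ Γ) (hp : p.Prime)
    (hw : w (p : ℚ) < 1) : Unif w (p : ℚ) := by
  refine ⟨by exact_mod_cast hp.ne_zero, hw, fun z hz => ?_⟩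
  simpa using map_ratCast_eq_zpow (v := w) hp hw hz

/-- A uniformizer of a finite Galois layer, and its relation to `p`. -/
theorem exists_unif_layer [IsGalois ℚ E] (hp : p.Prime) (hA : A.LiesOverPrime p) :
    ∃ b : E, Unif (vOn E A) b ∧
      A.valuation (b : Qb) ^ Nat.card ((A.inertiaSubgroupIn ℚ).map (resHom E)) =
        A.valuation (p : Qb) := by
  have hv : vOn E A (p : E) < 1 := by
    rw [vOn_apply]; simpa using A.mem_nonunits_iff.mp hA
  obtain ⟨a, b, ha, hb, hab⟩ := exists_unif_pair (K := ℚ) hp.ne_zero hv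
  have hpa := ha.map_eq (unif_rat _ hp (by simpa using hv))
  refine ⟨b, hb, ?_⟩
  rw [Valuation.comap_apply, Valuation.comap_apply, map_natCast] at hpa
  rw [map_inertia E hp hA, ← vOn_apply, ← hab, hpa, vOn_apply]
  simp

lemma exists_normal_layer (s : Finset Qb) : ∃ E : IntermediateField ℚ Qb,
    FiniteDimensional ℚ E ∧ IsGalois ℚ E ∧ ∀ x ∈ s, x ∈ E := by
  let F : IntermediateField ℚ Qb := IntermediateField.adjoin ℚ (s : Set Qb)
  have : FiniteDimensional ℚ F := IntermediateField.finiteDimensional_adjoin fun x _ =>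
    (Algebra.IsAlgebraic.isAlgebraic x).isIntegral
  have hn : Normal ℚ (IntermediateField.normalClosure ℚ F Qb) := normalClosure.normal ℚ F Qb
  refine ⟨IntermediateField.normalClosure ℚ F Qb, inferInstance, isGalois_iff.mpr ⟨inferInstance, hn⟩,
    fun x hx => F.le_normalClosure (IntermediateField.subset_adjoin ℚ _ hx)⟩

/-- No element fixed by inertia has value strictly between `v p` and `1`. -/
theorem le_of_mem_kur (hp : p.Prime) (hA : A.LiesOverPrime p) {x : Qb} (hx : x ∈ kur A)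
    (h : A.valuation x < 1) : A.valuation x ≤ A.valuation (p : Qb) := by
  obtain ⟨E, hfin, hgal, hE⟩ := exists_normal_layer {x}
  obtain ⟨b, hb, hbp⟩ := exists_unif_layer E hp hA
  set J := (A.inertiaSubgroupIn ℚ).map (resHom E) with hJ
  let T : IntermediateField ℚ E := IntermediateField.fixedField J
  have : NumberField T := { }
  have : IsGalois T E := IsGalois.of_fixed_field E J
  have hv : vOn E A (p : E) < 1 := by
    rw [vOn_apply]; simpa using A.mem_nonunits_iff.mp hA
  obtain ⟨a, b', ha, hb', hab⟩ := exists_unif_pair (K := T) hp.ne_zero hv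
  have hcard : Nat.card ((centre (vOn E A)).inertia (E ≃ₐ[T] E)) = Nat.card J := by
    have htop : (centre (vOn E A)).inertia (E ≃ₐ[T] E) = ⊤ := by
      refine eq_top_iff.mpr fun σ _ => ?_
      have hσ : σ.restrictScalars ℚ ∈ J := by
        have : σ.restrictScalars ℚ ∈ T.fixingSubgroup := fun t => σ.commutes t
        rwa [IntermediateField.fixingSubgroup_fixedField] at this
      rw [hJ, map_inertia E hp hA] at hσ
      exact fun z => hσ z
    rw [htop, Subgroup.card_top, IsGalois.card_aut_eq_finrank]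
    exact IntermediateField.finrank_fixedField_eq_card J
  rw [hcard, hb'.map_eq hb, vOn_apply, vOn_apply, hbp] at hab
  let z : T := ⟨⟨x, hE x (Finset.mem_singleton_self x)⟩, by
    rintro ⟨τ, σ, hσ, rfl⟩
    exact Subtype.ext ((resHom_apply E σ _).trans (mem_kur.mp hx σ hσ))⟩
  calc A.valuation x = (vOn E A).comap (algebraMap T E) z := rfl
    _ ≤ (vOn E A).comap (algebraMap T E) a := ha.le_of_lt_one h
    _ = A.valuation (p : Qb) := hab

lemma valuation_p_pos (hp : p.Prime) : 0 < A.valuation (p : Qb) :=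
  A.valuation.pos_iff.mpr (Nat.cast_ne_zero.mpr hp.ne_zero)

/-- Values of elements fixed by inertia are powers of `v p`. -/
theorem exists_zpow_of_mem_kur (hp : p.Prime) (hA : A.LiesOverPrime p) {x : Qb} (hx : x ∈ kur A)
    (hx0 : x ≠ 0) : ∃ k : ℤ, A.valuation x = A.valuation (p : Qb) ^ k := by
  obtain ⟨E, hfin, hgal, hE⟩ := exists_normal_layer {x}
  obtain ⟨b, hb, hbp⟩ := exists_unif_layer E hp hA
  obtain ⟨m, hm⟩ := hb.exists_zpow ⟨x, hE x (Finset.mem_singleton_self x)⟩
    (fun h => hx0 (congrArg Subtype.val h))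
  set e := Nat.card ((A.inertiaSubgroupIn ℚ).map (resHom E))
  have he : (0 : ℤ) < e := by exact_mod_cast Nat.card_pos
  refine ⟨m / e, ?_⟩
  by_contra hne
  have hw : A.valuation (x * ((p : Qb) ^ (m / (e : ℤ)))⁻¹) = A.valuation (b : Qb) ^ (m % (e : ℤ)) := by
    rw [map_mul, map_inv₀, map_zpow₀, ← hbp, show A.valuation x = A.valuation (b : Qb) ^ m from hm,
      ← zpow_natCast, ← zpow_mul, ← zpow_neg, ← zpow_add₀ (ne_of_gt hb.pos : A.valuation (b : Qb) ≠ 0)]
    congr 1
    have := Int.emod_add_mul_ediv m e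
    linarith
  have hmod0 : m % (e : ℤ) ≠ 0 := fun h0 => hne (by
    rw [show A.valuation x = A.valuation (b : Qb) ^ m from hm, ← hbp, ← zpow_natCast, ← zpow_mul]
    congr 1
    have := Int.emod_add_mul_ediv m e
    linarith)
  have hpos : 0 < m % (e : ℤ) := lt_of_le_of_ne (Int.emod_nonneg m he.ne') (Ne.symm hmod0)
  have hlt := Int.emod_lt_of_pos m he
  have hb1 : A.valuation (b : Qb) < 1 := hb.lt_one
  have h1 : A.valuation (b : Qb) ^ (m % (e : ℤ)) < 1 := by
    calc A.valuation (b : Qb) ^ (m % (e : ℤ)) ≤ A.valuation (b : Qb) ^ (1 : ℤ) :=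
          zpow_le_zpow_right_of_le_one₀ hb.pos hb1.le hpos
      _ < 1 := by rwa [zpow_one]
  have hy : x * ((p : Qb) ^ (m / (e : ℤ)))⁻¹ ∈ kur A :=
    mul_mem hx (inv_mem (zpow_mem (natCast_mem _ p) _))
  have := le_of_mem_kur hp hA hy (hw ▸ h1)
  rw [hw, ← hbp, ← zpow_natCast] at this
  have hstrict : A.valuation (b : Qb) ^ (e : ℤ) < A.valuation (b : Qb) ^ (m % (e : ℤ)) :=
    zpow_lt_zpow_right_of_lt_one₀ hb.pos hb1 hlt
  exact absurd this (not_le.mpr hstrict)

/-- A subgroup of inertia containing the inertia elements fixing a finite extension is totally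
ramified: it fixes an element whose value is the `[I : N]`-th root of `v p`. -/
theorem exists_uniformizer (hp : p.Prime) (hA : A.LiesOverPrime p) (N : Subgroup GQ)
    (hN : N ≤ A.inertiaSubgroupIn ℚ) (E : IntermediateField ℚ Qb) [FiniteDimensional ℚ E]
    (hE : A.inertiaSubgroupIn ℚ ⊓ E.fixingSubgroup ≤ N) :
    N.relIndex (A.inertiaSubgroupIn ℚ) ≠ 0 ∧ ∃ θ : Qb, (∀ σ ∈ N, σ θ = θ) ∧
      A.valuation θ ^ N.relIndex (A.inertiaSubgroupIn ℚ) = A.valuation (p : Qb) := by
  obtain ⟨s, hs⟩ := IntermediateField.fg_of_fg_toSubalgebra E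
    (Subalgebra.fg_of_fg_toSubmodule (Module.Finite.iff_fg.mp (inferInstanceAs (Module.Finite ℚ E))))
  obtain ⟨E', hfin, hgal, hE'⟩ := exists_normal_layer s
  have hEE' : E ≤ E' := by
    rw [← hs, IntermediateField.adjoin_le_iff]; exact fun x hx => hE' x hx
  set I := A.inertiaSubgroupIn ℚ
  obtain ⟨b, hb, hbp⟩ := exists_unif_layer E' hp hA
  set J := I.map (resHom E')
  set H := N.map (resHom E')
  have hker : N = I ⊓ H.comap (resHom E') := by
    refine le_antisymm (le_inf hN (Subgroup.le_comap_map _ _)) fun σ hσ => ?_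
    obtain ⟨τ, hτ, hτσ⟩ := (Subgroup.mem_inf.mp hσ).2
    have h : τ⁻¹ * σ ∈ N := hE (Subgroup.mem_inf.mpr
      ⟨I.mul_mem (I.inv_mem (hN hτ)) (Subgroup.mem_inf.mp hσ).1, fun y => by
        have e : resHom E' (τ⁻¹ * σ) = 1 := by rw [map_mul, map_inv, hτσ, inv_mul_cancel]
        have := resHom_apply E' (τ⁻¹ * σ) ⟨y, hEE' y.2⟩
        rw [e] at this
        exact this.symm⟩)
    simpa using N.mul_mem hτ h
  have hidx : N.relIndex I = H.relIndex J := by
    rw [hker, Subgroup.inf_relIndex_left, Subgroup.relIndex_comap]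
  have hle : H ≤ J := Subgroup.map_mono hN
  have hfinJ : Finite J := inferInstance
  have hpos : H.relIndex J ≠ 0 := Subgroup.index_ne_zero_of_finite (H := H.subgroupOf J)
  let _ : Fintype H := Fintype.ofFinite H
  refine ⟨hidx ▸ hpos, ((∏ h : H, (h : E' ≃ₐ[ℚ] E') b : E') : Qb), fun σ hσ => ?_, ?_⟩
  · rw [← resHom_apply, map_prod]
    congr 1
    refine Fintype.prod_equiv (Equiv.mulLeft (⟨resHom E' σ, ⟨σ, hσ, rfl⟩⟩ : H)) _ _ fun h => ?_
    rfl
  · have hval : ∀ h : H, A.valuation (((h : E' ≃ₐ[ℚ] E') b : E') : Qb) = A.valuation (b : Qb) := by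
      rintro ⟨τ, σ, hσ, rfl⟩
      rw [resHom_apply, (inert_of_mem_inertiaSubgroupIn A (hN hσ)).map_eq]
    rw [IntermediateField.coe_prod, map_prod, Finset.prod_congr rfl (fun h _ => hval h),
      Finset.prod_const, ← pow_mul, Finset.card_univ, ← Nat.card_eq_fintype_card, hidx]
    have : Nat.card H * H.relIndex J = Nat.card J := by
      rw [← Subgroup.relIndex_bot_left, ← Subgroup.relIndex_bot_left,
        Subgroup.relIndex_mul_relIndex _ _ _ bot_le hle]
    rw [this, hbp]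

end FA.LocalDef
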