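import Fermat.Agent.Local.Node

/-!
# The multiplicative character on the points of nonsingular reduction

For a curve in nodal normal form with branch slopes `s`, `s' = -a₁ - s`, the ratio
`(y - s x) / (y - s' x)` is multiplicative modulo the maximal ideal on the points of nonsingular
reduction, and it is congruent to one only on the kernel of reduction.
-/

set_option autoImplicit false
set_option linter.unusedSectionVars false

noncomputable section

open WeierstrassCurve FA.Local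

namespace FA.LocalDef

variable {L Γ : Type*} [Field L] [LinearOrderedCommGroupWithZero Γ] {v : Valuation L Γ}
  [DecidableEq L] {W : Affine L} {s : L}

open scoped Classical in
/-- The character, one on the kernel of reduction. -/
def nodeChar (v : Valuation L Γ) (W : Affine L) (s : L) : W.Point → L
  | .zero => 1
  | .some x y _ => if 1 < v x then 1 else (y - s * x) / (y - (-W.a₁ - s) * x)

variable (hN : Node v W) (hs : v (qb W s) < 1)

@[simp] lemma nodeChar_e1 {P : W.Point} (hP : E1 v W P) : nodeChar v W s P = 1 := by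
  rcases P with _ | ⟨x, y, h⟩
  · rfl
  · exact if_pos hP

lemma nodeChar_some {x y : L} (h : W.Nonsingular x y) (hx : v x = 1) :
    nodeChar v W s (.some x y h) = (y - s * x) / (y - (-W.a₁ - s) * x) :=
  if_neg (by rw [hx]; exact lt_irrefl _)

include hN hs in
/-- On a unit abscissa the two branch forms are units. -/
lemma branch_units {x y : L} (h : W.Equation x y) (hx : v x = 1) :
    v (y - s * x) = 1 ∧ v (y - (-W.a₁ - s) * x) = 1 := by
  have hy := le_y_of_le_x hN.hI h hx.le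
  have hs1 := hN.root_le_one hs
  have hs1' : v (-W.a₁ - s) ≤ 1 := v.map_sub_le (by rw [v.map_neg]; exact hN.hI.h₁) hs1
  have a : v (y - s * x) ≤ 1 := v.map_sub_le hy (map_mul_le_one hs1 hx.le)
  have b : v (y - (-W.a₁ - s) * x) ≤ 1 := v.map_sub_le hy (map_mul_le_one hs1' hx.le)
  have he := (Affine.equation_iff x y).mp h
  rw [hN.h₃, hN.h₆] at he
  have hp : v ((y - s * x) * (y - (-W.a₁ - s) * x)) = 1 := by
    refine eq_one_of_sub_lt (a := x ^ 3) (by rw [map_pow, hx, one_pow]) ?_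
    rw [show (y - s * x) * (y - (-W.a₁ - s) * x) - x ^ 3 = W.a₄ * x - qb W s * x ^ 2 by
      simp only [qb]; linear_combination he]
    exact v.map_sub_lt (map_mul_lt_one' hN.hb hx.le) (map_mul_lt_one' hs (map_pow_le_one hx.le 2))
  constructor
  · refine eq_one_of_not_lt a fun hlt => ?_
    exact (map_mul_lt_one' hlt b).ne hp
  · refine eq_one_of_not_lt b fun hlt => ?_
    exact (map_mul_lt_one a hlt).ne hp

include hN hs in
lemma nodeChar_unit {P : W.Point} (hP : E0 v W P) : v (nodeChar v W s P) = 1 := by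
  rcases P with _ | ⟨x, y, h⟩
  · exact map_one v
  rcases lt_or_eq_of_le (show 1 ≤ v x from hP) with hx | hx
  · rw [nodeChar_e1 (P := .some x y h) hx, map_one]
  · obtain ⟨a, b⟩ := branch_units hN hs h.1 hx.symm
    rw [nodeChar_some h hx.symm, map_div₀, a, b, div_one]

include hN hs in
/-- Congruent points have congruent characters. -/
lemma nodeChar_congr {x₁ y₁ x₂ y₂ : L} (h₁ : W.Nonsingular x₁ y₁) (h₂ : W.Nonsingular x₂ y₂)
    (hx₁ : v x₁ = 1) (hx : v (x₂ - x₁) < 1) (hy : v (y₂ - y₁) < 1) :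
    v (nodeChar v W s (.some x₂ y₂ h₂) - nodeChar v W s (.some x₁ y₁ h₁)) < 1 := by
  have hx₂ : v x₂ = 1 := eq_one_of_sub_lt hx₁ hx
  rw [nodeChar_some h₁ hx₁, nodeChar_some h₂ hx₂]
  obtain ⟨a₁, b₁⟩ := branch_units hN hs h₁.1 hx₁
  obtain ⟨a₂, b₂⟩ := branch_units hN hs h₂.1 hx₂
  rw [div_sub_div _ _ (v.ne_zero_iff.mp (by rw [b₂]; exact one_ne_zero))
    (v.ne_zero_iff.mp (by rw [b₁]; exact one_ne_zero)), map_div₀, map_mul (f := v), b₁, b₂, one_mul,
    div_one]
  have hs1 := hN.root_le_one hs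
  have hs1' : v (-W.a₁ - s) ≤ 1 := v.map_sub_le (by rw [v.map_neg]; exact hN.hI.h₁) hs1
  rw [show (y₂ - s * x₂) * (y₁ - (-W.a₁ - s) * x₁) - (y₂ - (-W.a₁ - s) * x₂) * (y₁ - s * x₁) =
    ((y₂ - y₁) - s * (x₂ - x₁)) * (y₁ - (-W.a₁ - s) * x₁) -
      ((y₂ - y₁) - (-W.a₁ - s) * (x₂ - x₁)) * (y₁ - s * x₁) by ring]
  exact v.map_sub_lt (map_mul_lt_one' (v.map_sub_lt hy (map_mul_lt_one hs1 hx)) b₁.le)
    (map_mul_lt_one' (v.map_sub_lt hy (map_mul_lt_one hs1' hx)) a₁.le)

include hN in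
lemma nodeChar_neg {P : W.Point} (hP : E0 v W P) :
    nodeChar v W s (-P) = (nodeChar v W s P)⁻¹ := by
  rcases P with _ | ⟨x, y, h⟩
  · exact inv_one.symm
  rcases lt_or_eq_of_le (show 1 ≤ v x from hP) with hx | hx
  · rw [nodeChar_e1 (P := .some x y h) hx, nodeChar_e1 (e1_neg.mpr (show E1 v W (.some x y h) from hx)),
      inv_one]
  · rw [Affine.Point.neg_some, nodeChar_some _ hx.symm, nodeChar_some h hx.symm, inv_div]
    rw [← neg_div_neg_eq]
    congr 1 <;> (simp only [Affine.negY, hN.h₃]; ring)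

include hN hs in
/-- The character is multiplicative modulo the maximal ideal. -/
theorem nodeChar_add {P Q : W.Point} (hP : E0 v W P) (hQ : E0 v W Q) :
    v (nodeChar v W s (P + Q) - nodeChar v W s P * nodeChar v W s Q) < 1 := by
  have key : ∀ {P Q : W.Point}, E1 v W P → E0 v W Q →
      v (nodeChar v W s (P + Q) - nodeChar v W s Q) < 1 := by
    intro P Q hP hQ
    rcases Q with _ | ⟨x₁, y₁, h₁⟩
    · rw [← Affine.Point.zero_def, add_zero, nodeChar_e1 hP, nodeChar_e1 e1_zero, sub_self, map_zero]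
      exact zero_lt_one
    rcases lt_or_eq_of_le (show 1 ≤ v x₁ from hQ) with hx | hx
    · rw [nodeChar_e1 (e1_add hN.hI hP (show E1 v W (.some x₁ y₁ h₁) from hx)), nodeChar_e1 (P := .some x₁ y₁ h₁) hx, sub_self, map_zero]
      exact zero_lt_one
    rcases P with _ | ⟨x₂, y₂, h₂⟩
    · rw [← Affine.Point.zero_def, zero_add, sub_self, map_zero]; exact zero_lt_one
    obtain ⟨x₃, y₃, h₃, e, hxx, hyy⟩ := add_e1 hN.hI h₁ h₂ hx.ge hP
    rw [add_comm, e]
    exact nodeChar_congr hN hs h₁ h₃ hx.symm hxx hyy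
  by_cases hP1 : E1 v W P
  · rw [nodeChar_e1 hP1, one_mul]; exact key hP1 hQ
  by_cases hQ1 : E1 v W Q
  · rw [nodeChar_e1 hQ1, mul_one, add_comm]; exact key hQ1 hP
  by_cases hS1 : E1 v W (P + Q)
  · have h := key hS1 (e0_neg.mpr hP)
    rw [add_neg_cancel_comm, nodeChar_neg hN hP] at h
    rw [nodeChar_e1 hS1]
    have hu := nodeChar_unit hN hs hP
    have hne : nodeChar v W s P ≠ 0 := v.ne_zero_iff.mp (by rw [hu]; exact one_ne_zero)
    rw [show 1 - nodeChar v W s P * nodeChar v W s Q =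
      -(nodeChar v W s P * (nodeChar v W s Q - (nodeChar v W s P)⁻¹)) by field_simp; ring, v.map_neg]
    exact map_mul_lt_one hu.le h
  rcases P with _ | ⟨x₁, y₁, h₁⟩
  · exact absurd e1_zero hP1
  rcases Q with _ | ⟨x₂, y₂, h₂⟩
  · exact absurd e1_zero hQ1
  have hx₁ : v x₁ = 1 := le_antisymm (not_lt.mp hP1) hP
  have hx₂ : v x₂ = 1 := le_antisymm (not_lt.mp hQ1) hQ
  have hne : ¬ (v (x₁ - x₂) < 1 ∧ v (y₁ - W.negY x₂ y₂) < 1) := fun hne => hS1 (by
    have := e1_sub_of_congr hN.hI h₁ ((Affine.nonsingular_neg ..).mpr h₂) hx₁.le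
      (hN.nsRed h₁.1 hx₁) hne.1 hne.2
    rwa [← Affine.Point.neg_some h₂, sub_neg_eq_add] at this)
  have hl := slope_le_one hN.hI h₁.1 h₂.1 hx₁.le hx₂.le hne
  have hxy : ¬ (x₁ = x₂ ∧ y₁ = W.negY x₂ y₂) := fun h => hne ⟨by simp [h.1], by simp [h.2]⟩
  have hS := hN.e0_add (P := .some x₁ y₁ h₁) (Q := .some x₂ y₂ h₂) hP hQ
  rw [Affine.Point.add_some hxy] at hS hS1 ⊢
  set l := W.slope x₁ x₂ y₁ y₂ with hldef
  have hpoly := Affine.addPolynomial_slope h₁.1 h₂.1 hxy
  rw [Affine.addPolynomial_eq, neg_inj, Cubic.prod_X_sub_C_eq, Cubic.toPoly_injective] at hpoly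
  simp only [Cubic.mk.injEq, ← hldef, hN.h₃, hN.h₆, true_and] at hpoly
  obtain ⟨-, e2, e3⟩ := hpoly
  have hx₃ : v (W.addX x₁ x₂ l) = 1 := le_antisymm (not_lt.mp hS1) hS
  rw [nodeChar_some _ hx₃, nodeChar_some h₁ hx₁, nodeChar_some h₂ hx₂]
  set x₃ := W.addX x₁ x₂ l with hx₃def
  set n := y₁ - l * x₁ with hndef
  have hn3 : n ^ 2 = x₁ * x₂ * x₃ := by simp only [hndef]; linear_combination -e3
  have hn : v n = 1 := by
    have h := congrArg v hn3
    rw [map_pow, map_mul, map_mul, hx₁, hx₂, hx₃, one_mul, one_mul] at h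
    exact (pow_eq_one_iff_of_nonneg zero_le two_ne_zero).mp h
  have hy₂ : y₂ = l * x₂ + n := by
    by_cases hx : x₁ = x₂
    · have := Affine.Y_eq_of_Y_ne h₁.1 h₂.1 hx fun h => hxy ⟨hx, h⟩
      rw [hndef, ← this, ← hx]; ring
    · rw [hndef, hldef, Affine.slope_of_X_ne hx]
      field_simp [sub_ne_zero.mpr hx]
      ring
  have e1 : x₁ + x₂ + x₃ = l ^ 2 + W.a₁ * l - W.a₂ := by rw [hx₃def, Affine.addX]; ring
  have e2' : x₁ * x₂ + x₁ * x₃ + x₂ * x₃ = W.a₄ - W.a₁ * n - 2 * l * n := by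
    simp only [hndef]; linear_combination -e2
  -- the product along the line
  have hprod : ∀ t : L, v (qb W t) < 1 → v t ≤ 1 →
      v ((y₁ - t * x₁) * (y₂ - t * x₂) * (l * x₃ + n - t * x₃) - n ^ 3) < 1 := by
    intro t ht ht1
    have hident : (y₁ - t * x₁) * (y₂ - t * x₂) * (l * x₃ + n - t * x₃) - n ^ 3 =
        n ^ 2 * (l - t) * qb W t + (l - t) ^ 2 * n * W.a₄ := by
      rw [show y₁ = l * x₁ + n by rw [hndef]; ring, hy₂]
      simp only [qb]
      linear_combination (-(l - t) ^ 3) * hn3 + (l - t) ^ 2 * n * e2' + (l - t) * n ^ 2 * e1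
    rw [hident]
    exact v.map_add_lt (map_mul_lt_one (map_mul_le_one (map_pow_le_one hn.le 2)
      (v.map_sub_le hl ht1)) ht)
      (map_mul_lt_one (map_mul_le_one (map_pow_le_one (v.map_sub_le hl ht1) 2) hn.le) hN.hb)
  have hs1 := hN.root_le_one hs
  have hs' : v (qb W (-W.a₁ - s)) < 1 := by rwa [Node.qb_other]
  have p1 := hprod s hs hs1
  have p2 := hprod _ hs' (v.map_sub_le (by rw [v.map_neg]; exact hN.hI.h₁) hs1)
  have hY : W.addY x₁ x₂ y₁ l = -(l * x₃ + n) - W.a₁ * x₃ := by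
    rw [Affine.addY, Affine.negY, Affine.negAddY, hN.h₃, hndef, hx₃def]; ring
  rw [hY, show -(l * x₃ + n) - W.a₁ * x₃ - s * x₃ = -(l * x₃ + n - (-W.a₁ - s) * x₃) by ring,
    show -(l * x₃ + n) - W.a₁ * x₃ - (-W.a₁ - s) * x₃ = -(l * x₃ + n - s * x₃) by ring, neg_div_neg_eq]
  have hns := Affine.nonsingular_add h₁ h₂ hxy
  obtain ⟨a₁', b₁⟩ := branch_units hN hs h₁.1 hx₁
  obtain ⟨a₂', b₂⟩ := branch_units hN hs h₂.1 hx₂
  obtain ⟨a₃, b₃⟩ := branch_units hN hs hns.1 hx₃
  rw [hY, show -(l * x₃ + n) - W.a₁ * x₃ - s * x₃ = -(l * x₃ + n - (-W.a₁ - s) * x₃) by ring,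
    v.map_neg] at a₃
  rw [hY, show -(l * x₃ + n) - W.a₁ * x₃ - (-W.a₁ - s) * x₃ = -(l * x₃ + n - s * x₃) by ring,
    v.map_neg] at b₃
  rw [div_mul_div_comm, div_sub_div _ _ (v.ne_zero_iff.mp (by rw [b₃]; exact one_ne_zero))
    (mul_ne_zero (v.ne_zero_iff.mp (by rw [b₁]; exact one_ne_zero))
      (v.ne_zero_iff.mp (by rw [b₂]; exact one_ne_zero))), map_div₀, map_mul (f := v),
    map_mul (f := v) (y₁ - (-W.a₁ - s) * x₁), b₁, b₂, b₃, one_mul, one_mul, div_one]
  rw [show (l * x₃ + n - (-W.a₁ - s) * x₃) * ((y₁ - (-W.a₁ - s) * x₁) * (y₂ - (-W.a₁ - s) * x₂)) -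
      (l * x₃ + n - s * x₃) * ((y₁ - s * x₁) * (y₂ - s * x₂)) =
    ((y₁ - (-W.a₁ - s) * x₁) * (y₂ - (-W.a₁ - s) * x₂) * (l * x₃ + n - (-W.a₁ - s) * x₃) - n ^ 3) -
      ((y₁ - s * x₁) * (y₂ - s * x₂) * (l * x₃ + n - s * x₃) - n ^ 3) by ring]
  exact v.map_sub_lt p2 p1

include hN hs in
lemma nodeChar_nsmul {P : W.Point} (hP : E0 v W P) (n : ℕ) :
    v (nodeChar v W s (n • P) - nodeChar v W s P ^ n) < 1 := by
  induction n with
  | zero => rw [zero_nsmul, nodeChar_e1 e1_zero, pow_zero, sub_self, map_zero]; exact zero_lt_one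
  | succ n ih =>
    rw [succ_nsmul, pow_succ]
    have h := nodeChar_add hN hs (hN.e0_nsmul hP n) hP
    have := v.map_add_lt h (map_mul_lt_one' ih (nodeChar_unit hN hs hP).le)
    rwa [show nodeChar v W s (n • P + P) - nodeChar v W s (n • P) * nodeChar v W s P +
      (nodeChar v W s (n • P) - nodeChar v W s P ^ n) * nodeChar v W s P =
        nodeChar v W s (n • P + P) - nodeChar v W s P ^ n * nodeChar v W s P by ring] at this

include hN hs in
/-- The character is congruent to one only on the kernel of reduction. -/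
theorem e1_of_nodeChar {P : W.Point} (hP : E0 v W P) (h : v (nodeChar v W s P - 1) < 1) :
    E1 v W P := by
  rcases P with _ | ⟨x, y, hns⟩
  · trivial
  by_contra hx
  have hx1 : v x = 1 := le_antisymm (not_lt.mp hx) hP
  obtain ⟨a, b⟩ := branch_units hN hs hns.1 hx1
  rw [nodeChar_some hns hx1, div_sub_one (v.ne_zero_iff.mp (by rw [b]; exact one_ne_zero)), map_div₀,
    b, div_one, show y - s * x - (y - (-W.a₁ - s) * x) = -((2 * s + W.a₁) * x) by ring, v.map_neg,
    map_mul, hN.unit_root hs, one_mul, hx1] at h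
  exact lt_irrefl _ h

include hN hs in
/-- If a power of the character is congruent to one, the multiple is in the kernel of reduction. -/
theorem e1_nsmul_of_pow {P : W.Point} (hP : E0 v W P) {N : ℕ}
    (h : v (nodeChar v W s P ^ N - 1) < 1) : E1 v W (N • P) := by
  refine e1_of_nodeChar hN hs (hN.e0_nsmul hP N) ?_
  have := v.map_add_lt (nodeChar_nsmul hN hs hP N) h
  rwa [sub_add_sub_cancel] at this

end FA.LocalDef
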