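import Fermat.Agent.LocalDef.ConnModel
import Fermat.Agent.LocalDef.ModelOps
import Mathlib.RingTheory.Adjoin.FG
import Mathlib.RingTheory.IntegralClosure.IsIntegralClosure.Basic

/-!
# Connected models from generators

A finite separating family of integral functions, all congruent to their values at `0`, respected
by inertia, whose algebra is closed under the addition map, gives a connected model.
-/

set_option autoImplicit false
set_option linter.unusedSectionVars false
set_option linter.style.haveILetI false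
set_option maxHeartbeats 800000

noncomputable section

namespace FA.LocalDef

local notation "Qb" => AlgebraicClosure ℚ
local notation "GQ" => AlgebraicClosure ℚ ≃ₐ[ℚ] AlgebraicClosure ℚ

variable {A : ValuationSubring Qb} {V : Type} [AddCommGroup V] [Fintype V]

/-- **A connected model from generators.** -/
theorem HasConnModel.of_generators {act : GQ → V → V} {Γ : Type} [Finite Γ] (φ : Γ → V → Qb)
    (hint : ∀ γ x, φ γ x ∈ A) (hsep : ∀ x y, (∀ γ, φ γ x = φ γ y) → x = y)
    (hconn : ∀ γ x, A.valuation (φ γ x - φ γ 0) < 1)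
    (hI : ∀ σ ∈ A.inertiaSubgroupIn ℚ, ∀ γ x, σ (φ γ x) = φ γ (act σ x))
    (hcomul : ∀ γ, (fun z : V × V => φ γ (z.1 + z.2)) ∈ Algebra.adjoin A
      (Set.range (fun γ (z : V × V) => φ γ z.1) ∪ Set.range fun γ (z : V × V) => φ γ z.2)) :
    HasConnModel A V act := by
  classical
  let fst : (V → Qb) →ₐ[A] (V × V → Qb) :=
    AlgHom.pi fun z : V × V => Pi.evalAlgHom A (fun _ : V => Qb) z.1
  let snd : (V → Qb) →ₐ[A] (V × V → Qb) :=
    AlgHom.pi fun z : V × V => Pi.evalAlgHom A (fun _ : V => Qb) z.2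
  let addh : (V → Qb) →ₐ[A] (V × V → Qb) :=
    AlgHom.pi fun z : V × V => Pi.evalAlgHom A (fun _ : V => Qb) (z.1 + z.2)
  set R := Algebra.adjoin A (Set.range φ) with hR
  set P₂ := Algebra.adjoin A (fst '' Set.range φ ∪ snd '' Set.range φ) with hP₂
  have hRadd : R ≤ P₂.comap addh := Algebra.adjoin_le (by
    rintro _ ⟨γ, rfl⟩
    refine Algebra.adjoin_mono ?_ (hcomul γ)
    rintro _ (⟨δ, rfl⟩ | ⟨δ, rfl⟩)
    · exact Or.inl ⟨_, ⟨δ, rfl⟩, rfl⟩
    · exact Or.inr ⟨_, ⟨δ, rfl⟩, rfl⟩)
  have hmonR : ∀ {m : V → Qb}, m ∈ Submonoid.closure (Set.range φ) → m ∈ R := fun {m} hm => by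
    have h : Submonoid.closure (Set.range φ) ≤ R.toSubsemiring.toSubmonoid :=
      Submonoid.closure_le.mpr Algebra.subset_adjoin
    exact h hm
  -- integrality, congruence and inertia along monomials
  have hmon : ∀ m ∈ Submonoid.closure (Set.range φ), (∀ x, A.valuation (m x) ≤ 1) ∧
      (∀ x, A.valuation (m x - m 0) < 1) ∧
      ∀ σ ∈ A.inertiaSubgroupIn ℚ, ∀ x, σ (m x) = m (act σ x) := by
    intro m hm
    induction hm using Submonoid.closure_induction with
    | mem x hx =>
      obtain ⟨γ, rfl⟩ := hx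
      exact ⟨fun x => (A.valuation_le_one_iff _).2 (hint γ x), hconn γ, fun σ hσ => hI σ hσ γ⟩
    | one => exact ⟨fun x => by simp, fun x => by simp, fun σ _ x => by simp⟩
    | mul a b _ _ ha hb =>
      refine ⟨fun x => ?_, fun x => ?_, fun σ hσ x => ?_⟩
      · rw [Pi.mul_apply, map_mul]; exact mul_le_one₀ (ha.1 x) zero_le (hb.1 x)
      · rw [Pi.mul_apply, Pi.mul_apply, show a x * b x - a 0 * b 0 =
          (a x - a 0) * b x + a 0 * (b x - b 0) by ring]
        refine A.valuation.map_add_lt ?_ ?_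
        · rw [map_mul]; exact lt_of_le_of_lt (mul_le_of_le_one_right' (hb.1 x)) (ha.2.1 x)
        · rw [map_mul]; exact lt_of_le_of_lt (mul_le_of_le_one_left' (ha.1 0)) (hb.2.1 x)
      · rw [Pi.mul_apply, Pi.mul_apply, map_mul, ha.2.2 σ hσ, hb.2.2 σ hσ]
  have hintg : ∀ f ∈ Set.range φ, IsIntegral A f := by
    rintro _ ⟨i, rfl⟩
    refine ⟨∏ x, (Polynomial.X - Polynomial.C (⟨φ i x, hint i x⟩ : A)),
      Polynomial.monic_prod_of_monic _ _ fun x _ => Polynomial.monic_X_sub_C _, funext fun x => ?_⟩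
    have e : Polynomial.eval₂ (algebraMap A (V → Qb)) (φ i)
        (∏ x, (Polynomial.X - Polynomial.C (⟨φ i x, hint i x⟩ : A))) x =
        Polynomial.eval₂ (algebraMap A Qb) (φ i x)
          (∏ x, (Polynomial.X - Polynomial.C (⟨φ i x, hint i x⟩ : A))) :=
      Polynomial.hom_eval₂ _ (algebraMap A (V → Qb)) (Pi.evalRingHom (fun _ : V => Qb) x) (φ i)
    rw [e, Polynomial.eval₂_finsetProd]
    exact Finset.prod_eq_zero (Finset.mem_univ x) (by
      rw [Polynomial.eval₂_sub, Polynomial.eval₂_X, Polynomial.eval₂_C]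
      exact sub_self _)
  have hfg : (Subalgebra.toSubmodule R).FG := fg_adjoin_of_finite (Set.finite_range φ) hintg
  rw [hR, Algebra.adjoin_eq_span] at hfg
  obtain ⟨T, hT, hTspan⟩ := Submodule.fg_span_iff_fg_span_finset_subset _ |>.mp hfg
  let f : T → V → Qb := fun t => t
  have hRspan : ∀ a ∈ R, a ∈ Submodule.span A (Set.range f) := fun a ha => by
    rw [← Subalgebra.mem_toSubmodule, hR, Algebra.adjoin_eq_span, hTspan] at ha
    rwa [show Set.range f = (T : Set (V → Qb)) from Subtype.range_coe]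
  have hfR : ∀ t, f t ∈ R := fun t => by
    rw [← Subalgebra.mem_toSubmodule, hR, Algebra.adjoin_eq_span]
    exact Submodule.subset_span (hT t.2)
  have hcoef : ∀ a ∈ R, ∃ c : T → Qb, (∀ t, A.valuation (c t) ≤ 1) ∧
      ∀ x, a x = ∑ t, c t * f t x := fun a ha => by
    obtain ⟨c, hc⟩ := (Submodule.mem_span_range_iff_exists_fun A).mp (hRspan a ha)
    exact ⟨fun t => c t, fun t => A.valuation_le_one _, fun x => by rw [← hc]; simp; rfl⟩
  have hP₂span : ∀ g ∈ P₂,
      g ∈ Submodule.span A (Set.range fun z : T × T => fst (f z.1) * snd (f z.2)) := by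
    intro g hg
    rw [← Subalgebra.mem_toSubmodule, hP₂, Algebra.adjoin_eq_span, Submonoid.closure_union] at hg
    refine (Submodule.span_le (p := Submodule.span A _)).mpr ?_ hg
    intro m hm
    obtain ⟨a, ha, b, hb, rfl⟩ := Submonoid.mem_sup.mp hm
    rw [show (fst : (V → Qb) → (V × V → Qb)) '' Set.range φ =
      (fst.toRingHom.toMonoidHom : (V → Qb) → (V × V → Qb)) '' Set.range φ from rfl,
      ← MonoidHom.map_mclosure] at ha
    rw [show (snd : (V → Qb) → (V × V → Qb)) '' Set.range φ =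
      (snd.toRingHom.toMonoidHom : (V → Qb) → (V × V → Qb)) '' Set.range φ from rfl,
      ← MonoidHom.map_mclosure] at hb
    obtain ⟨a, ha, rfl⟩ := ha
    obtain ⟨b, hb, rfl⟩ := hb
    obtain ⟨c, hc⟩ := (Submodule.mem_span_range_iff_exists_fun A).mp (hRspan a (hmonR ha))
    obtain ⟨d, hd⟩ := (Submodule.mem_span_range_iff_exists_fun A).mp (hRspan b (hmonR hb))
    show fst a * snd b ∈ _
    rw [← hc, ← hd, map_sum, map_sum, Finset.sum_mul_sum]
    refine sum_mem fun i _ => sum_mem fun j _ => ?_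
    rw [map_smul, map_smul, smul_mul_smul_comm]
    exact Submodule.smul_mem _ _ (Submodule.subset_span ⟨(i, j), rfl⟩)
  have hspan : Submodule.span Qb (Set.range f) = ⊤ := by
    have hle : Subalgebra.toSubmodule (Algebra.adjoin Qb (Set.range φ)) ≤
        Submodule.span Qb (Set.range f) := by
      rw [Algebra.adjoin_eq_span, Submodule.span_le]
      intro m hm
      exact Submodule.span_le_restrictScalars A Qb _ (hRspan m (hmonR hm))
    refine eq_top_iff.mpr fun g _ => hle ?_
    set B := Algebra.adjoin Qb (Set.range φ)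
    have hφB : ∀ γ, φ γ ∈ B := fun γ => Algebra.subset_adjoin ⟨γ, rfl⟩
    have hind : ∀ x, (Pi.single x (1 : Qb) : V → Qb) ∈ B := fun x => by
      have hy : ∀ y ∈ Finset.univ.erase x, ∃ h ∈ B, h x = 1 ∧ h y = 0 := fun y hy => by
        obtain ⟨γ, hγ⟩ : ∃ γ, φ γ x ≠ φ γ y := by
          by_contra hh
          push Not at hh
          exact Finset.ne_of_mem_erase hy (hsep x y hh).symm
        refine ⟨(φ γ x - φ γ y)⁻¹ • (φ γ - algebraMap Qb (V → Qb) (φ γ y)),
          Subalgebra.smul_mem _ (sub_mem (hφB γ) (Subalgebra.algebraMap_mem _ _)) _, ?_, ?_⟩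
        · simp [sub_ne_zero.mpr hγ]
        · simp
      choose! h hhB hhx hhy using hy
      have he : (Pi.single x (1 : Qb) : V → Qb) = ∏ y ∈ Finset.univ.erase x, h y := funext fun z => by
        rw [Finset.prod_apply]
        rcases eq_or_ne z x with rfl | hz
        · rw [Pi.single_eq_same, Finset.prod_eq_one fun y hy => hhx y hy]
        · rw [Pi.single_eq_of_ne hz]
          exact (Finset.prod_eq_zero (f := fun y => h y z)
            (Finset.mem_erase.mpr ⟨hz, Finset.mem_univ z⟩)
            (hhy z (Finset.mem_erase.mpr ⟨hz, Finset.mem_univ z⟩))).symm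
      rw [he]
      exact prod_mem fun y hy => hhB y hy
    rw [Subalgebra.mem_toSubmodule, show g = ∑ x, g x • (Pi.single x (1 : Qb) : V → Qb) from
      pi_eq_sum_univ' g]
    exact sum_mem fun x _ => Subalgebra.smul_mem _ (hind x) _
  obtain ⟨Mo, gi, hgi, -⟩ := exists_model_of_family (v := A.valuation) f hspan
    (fun t x => (hmon _ (hT t.2)).1 x)
    (by
      obtain ⟨c, hc, hcx⟩ := hcoef 1 (one_mem R)
      exact ⟨c, hc, fun x => hcx x⟩)
    (fun i j => by
      obtain ⟨c, hc, hcx⟩ := hcoef _ (mul_mem (hfR i) (hfR j))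
      exact ⟨c, hc, fun x => hcx x⟩)
    (fun i => by
      obtain ⟨c, hc⟩ := (Submodule.mem_span_range_iff_exists_fun A).mp
        (hP₂span _ (hRadd (hfR i)))
      refine ⟨fun j k => c (j, k), fun j k => A.valuation_le_one _, fun x y => ?_⟩
      have := congrFun hc (x, y)
      refine this.symm.trans ?_
      simp [Fintype.sum_prod_type, Finset.sum_apply, Algebra.smul_def, mul_assoc, fst, snd])
  refine ⟨Mo, fun σ hσ i x => ?_, fun i x => ?_⟩
  · rw [hgi]
    exact (hmon _ (hT (gi i).2)).2.2 σ hσ x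
  · rw [hgi]
    exact (hmon _ (hT (gi i).2)).2.1 x

end FA.LocalDef
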