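import Fermat.Agent.LocalDef.FlatBasics
import Mathlib.LinearAlgebra.Matrix.ToLinearEquiv
import Mathlib.LinearAlgebra.Matrix.Determinant.Basic
import Mathlib.GroupTheory.GroupAction.Quotient
import Mathlib.FieldTheory.IsAlgClosed.AlgebraicClosure

/-!
# The two types of flat residual representations

A flat representation with cyclotomic determinant is either ordinary or its restriction to
inertia is tame of level two.
-/

set_option autoImplicit false
set_option linter.unusedSectionVars false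

noncomputable section

open Matrix FA.Local
open scoped Pointwise

namespace FA.LocalDef

local notation "Qb" => AlgebraicClosure ℚ
local notation "GQ" => AlgebraicClosure ℚ ≃ₐ[ℚ] AlgebraicClosure ℚ
local notation "M2" k => Matrix (Fin 2) (Fin 2) k

variable {A : ValuationSubring Qb} {p : ℕ} [hp : Fact p.Prime]

local notation "v" => ValuationSubring.valuation A

/-- `r` is ordinary at `A`: there is a stable line with unramified quotient. -/
def IsOrdType {k : Type} [Field k] (A : ValuationSubring Qb) (r : GQ →* M2 k) : Prop :=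
  ∃ l : Fin 2 → k, l ≠ 0 ∧ (∀ σ ∈ A.decompositionSubgroup ℚ, ∃ x : k, r σ *ᵥ l = x • l) ∧
    ∀ σ ∈ A.inertiaSubgroupIn ℚ, ∀ w : Fin 2 → k, ∃ s : k, r σ *ᵥ w - w = s • l

/-- `r` is of level two at `A`: the image of inertia is cyclic of order `p ^ 2 - 1`, generated by
an element with the eigenvalues `ν`, `ν ^ p` for the tame character `ν` of its layer. -/
def IsSSType {k : Type} [Field k] [CharP k p] (A : ValuationSubring Qb) (r : GQ →* M2 k) : Prop :=
  ∃ Λ : Layer A p, (∀ τ, τ ∈ Λ.N ↔ τ ∈ A.inertiaSubgroupIn ℚ ∧ r τ = 1) ∧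
    Λ.fil 1 ≤ Λ.N ∧ Λ.D = p ^ 2 - 1 ∧
    ∃ g₀ ∈ A.inertiaSubgroupIn ℚ, (∀ σ ∈ A.inertiaSubgroupIn ℚ, ∃ j : ℕ, (g₀ ^ j)⁻¹ * σ ∈ Λ.N) ∧
      orderOf (Λ.chi0 g₀) = p ^ 2 - 1 ∧
      ∃ t d : ℕ, (r g₀).trace = (t : k) ∧ (r g₀).det = (d : k) ∧
        Λ.chi0 g₀ * Λ.chi0 g₀ - (t : Res A) * Λ.chi0 g₀ + (d : Res A) = 0

lemma mul_self_two {R : Type*} [CommRing R] (M : M2 R) : M * M = M.trace • M - M.det • 1 := by
  ext i j
  fin_cases i <;> fin_cases j <;>
    simp [Matrix.mul_apply, Fin.sum_univ_two, Matrix.trace_fin_two, Matrix.det_fin_two] <;> ring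

include hp in
/-- The trace of the `p`-th power is the `p`-th power of the trace. -/
lemma trace_pow_char_two {k : Type} [Field k] [CharP k p] (M : M2 k) :
    (M ^ p).trace = M.trace ^ p := by
  let K := AlgebraicClosure k
  have : CharP K p := charP_of_injective_algebraMap (algebraMap k K).injective p
  set t := algebraMap k K M.trace
  set d := algebraMap k K M.det
  obtain ⟨a, ha⟩ := IsAlgClosed.exists_root
    (Polynomial.C (1 : K) * Polynomial.X ^ 2 + Polynomial.C (-t) * Polynomial.X + Polynomial.C d)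
    (by rw [Polynomial.degree_quadratic one_ne_zero]; decide)
  have ha' : a ^ 2 - t * a + d = 0 := by
    simpa [Polynomial.IsRoot.def, sub_eq_add_neg] using ha
  have key : ∀ n : ℕ, algebraMap k K (M ^ n).trace = a ^ n + (t - a) ^ n ∧
      algebraMap k K (M ^ (n + 1)).trace = a ^ (n + 1) + (t - a) ^ (n + 1) := by
    intro n
    induction n with
    | zero =>
      refine ⟨?_, by simp [t]⟩
      rw [pow_zero, pow_zero, pow_zero, Matrix.trace_fin_two, map_add]
      simp
    | succ n ih =>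
      refine ⟨ih.2, ?_⟩
      rw [show M ^ (n + 1 + 1) = M ^ n * (M * M) by rw [pow_succ, pow_succ, mul_assoc],
        mul_self_two, mul_sub, mul_smul_comm, mul_smul_comm, mul_one, ← pow_succ, trace_sub,
        trace_smul, trace_smul, map_sub, smul_eq_mul, smul_eq_mul, map_mul, map_mul, ih.1, ih.2]
      have ht : (t - a) ^ 2 - t * (t - a) + d = 0 := by linear_combination ha'
      show t * (a ^ (n + 1) + (t - a) ^ (n + 1)) - d * (a ^ n + (t - a) ^ n) =
        a ^ (n + 1 + 1) + (t - a) ^ (n + 1 + 1)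
      linear_combination (-(a ^ n)) * ha' + (-((t - a) ^ n)) * ht
  refine (algebraMap k K).injective ?_
  rw [(key p).1, map_pow, ← add_pow_char, add_sub_cancel]

namespace Sys

variable {V : Type} [AddCommGroup V] [Module (ZMod p) V] [Fintype V] (S : Sys A V)

include hp in
/-- The connected part is generated by the displacements under inertia. -/
theorem conn_le_span (hA : A.LiesOverPrime p) (hp2 : p ≠ 2) :
    S.conn ≤ Submodule.span (ZMod p)
      {w | ∃ σ ∈ A.inertiaSubgroupIn ℚ, ∃ x ∈ S.conn (p := p), S.act σ x - x = w} := by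
  classical
  set C' := Submodule.span (ZMod p)
    {w | ∃ σ ∈ A.inertiaSubgroupIn ℚ, ∃ x ∈ S.conn (p := p), S.act σ x - x = w}
  by_contra hnot
  set X := (S.conn (p := p))
  obtain ⟨x₀, hx₀, hx₀'⟩ := SetLike.not_le_iff_exists.mp hnot
  obtain ⟨ξ, hξne, hξ⟩ : ∃ ξ : Module.Dual (ZMod p) X, ξ ≠ 0 ∧
      C'.comap X.subtype ≤ LinearMap.ker ξ := by
    refine Submodule.exists_le_ker_of_lt_top _ (lt_top_iff_ne_top.mpr fun htop => hx₀' ?_)
    exact (htop.symm ▸ Submodule.mem_top : (⟨x₀, hx₀⟩ : X) ∈ C'.comap X.subtype)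
  refine hξne (S.functional_eq_zero hA hp2 X le_rfl
    (fun σ hσ x hx => S.act_mem_conn (inertia_le_decomposition hσ) hx) ξ fun σ hσ x => ?_)
  refine sub_eq_zero.mp ?_
  rw [← map_sub]
  exact LinearMap.mem_ker.mp (hξ (Submodule.subset_span ⟨σ, hσ, x, x.2, rfl⟩))

include hp in
/-- The connected part is stable under the endomorphisms commuting with inertia. -/
theorem map_mem_conn (hA : A.LiesOverPrime p) (hp2 : p ≠ 2) (f : V →+ V)
    (hf : ∀ σ ∈ A.inertiaSubgroupIn ℚ, ∀ x, f (S.act σ x) = S.act σ (f x)) {x : V}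
    (hx : x ∈ S.conn (p := p)) : f x ∈ S.conn (p := p) := by
  have h := S.conn_le_span hA hp2 hx
  clear hx
  induction h using Submodule.span_induction with
  | mem w hw =>
    obtain ⟨σ, hσ, y, -, rfl⟩ := hw
    rw [map_sub, hf σ hσ]
    exact S.sub_mem_conn hσ _
  | zero => rw [map_zero]; exact zero_mem _
  | add a b _ _ ha hb => rw [map_add]; exact add_mem ha hb
  | smul c a _ ha => rw [ZMod.map_smul f c a]; exact Submodule.smul_mem _ c ha

end Sys

namespace Layer

variable (Λ : Layer A p)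

include hp in
/-- A layer containing its wild inertia, as a section. -/
def tameWild (h : Λ.fil 1 ≤ Λ.N) : Wild Λ where
  G := Λ.N
  le_G := le_rfl
  G_le := Λ.le
  normal g hg τ hτ := Λ.N_conj hg hτ
  not_dvd := by
    rw [Λ.D_eq]
    intro hd
    have hN : (Λ.N.subgroupOf (A.inertiaSubgroupIn ℚ)).Normal :=
      ⟨fun x hx g => Λ.N_conj g.2 hx⟩
    have : Finite (A.inertiaSubgroupIn ℚ ⧸ Λ.N.subgroupOf (A.inertiaSubgroupIn ℚ)) :=
      Nat.finite_of_card_ne_zero (show Λ.N.relIndex _ ≠ 0 by rw [Λ.D_eq]; exact Λ.D_pos.ne')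
    obtain ⟨q, hq⟩ : ∃ q : A.inertiaSubgroupIn ℚ ⧸ Λ.N.subgroupOf (A.inertiaSubgroupIn ℚ),
        orderOf q = p :=
      exists_prime_orderOf_dvd_card' p (Λ.D_eq.symm ▸ hd :)
    obtain ⟨g, rfl⟩ := QuotientGroup.mk'_surjective _ q
    have := res_charP hp.out Λ.lies
    have h1 : (g : GQ) ^ p ∈ Λ.N := by
      have h2 := pow_orderOf_eq_one (QuotientGroup.mk' (Λ.N.subgroupOf (A.inertiaSubgroupIn ℚ)) g)
      rw [hq, ← map_pow, QuotientGroup.mk'_apply, QuotientGroup.eq_one_iff] at h2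
      exact h2
    have h3 : (g : GQ) ∈ Λ.fil 1 := (Λ.chi0_eq_one_iff g.2).mp
      (frobenius_inj (Res A) p (by
        rw [frobenius_def, frobenius_def, one_pow, ← Λ.chi0_pow g.2, chi0_eq_one_of_mem_N h1]))
    rw [show QuotientGroup.mk' (Λ.N.subgroupOf (A.inertiaSubgroupIn ℚ)) g = 1 from
      (QuotientGroup.eq_one_iff g).mpr (h h3), orderOf_one] at hq
    exact hp.out.one_lt.ne hq
  exp σ hσ := pow_mem hσ p
  comm σ hσ τ hτ := mul_mem (mul_mem (mul_mem (inv_mem hσ) (inv_mem hτ)) hσ) hτ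

variable {Λ}

include hp in
/-- A generator of tame inertia. -/
theorem Wild.exists_gen (W : Wild Λ) : ∃ g₀ ∈ A.inertiaSubgroupIn ℚ,
    orderOf (Λ.chi0 g₀) = W.e ∧ ∀ σ ∈ A.inertiaSubgroupIn ℚ, ∃ j : ℕ, (g₀ ^ j)⁻¹ * σ ∈ W.G := by
  have hGn : (W.G.subgroupOf (A.inertiaSubgroupIn ℚ)).Normal :=
    ⟨fun x hx g => W.normal g.1 g.2 x.1 hx⟩
  let f : A.inertiaSubgroupIn ℚ →* Res A :=
    { toFun := fun g => Λ.chi0 g
      map_one' := Λ.chi0_one
      map_mul' := fun g g' => Λ.chi0_mul g.2 g'.2 }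
  let Φ : A.inertiaSubgroupIn ℚ ⧸ W.G.subgroupOf (A.inertiaSubgroupIn ℚ) →* Res A :=
    QuotientGroup.lift _ f fun g hg => MonoidHom.mem_ker.mpr
      ((Λ.chi0_eq_one_iff g.2).mpr (W.G_eq_fil_one ▸ hg : g.1 ∈ Λ.fil 1))
  have hΦ : Function.Injective Φ := by
    rw [injective_iff_map_eq_one]
    intro q hq
    obtain ⟨g, rfl⟩ := QuotientGroup.mk'_surjective _ q
    exact (QuotientGroup.eq_one_iff g).mpr
      (show g.1 ∈ W.G from W.G_eq_fil_one ▸ (Λ.chi0_eq_one_iff g.2).mp hq)
  have hfin : Finite (A.inertiaSubgroupIn ℚ ⧸ W.G.subgroupOf (A.inertiaSubgroupIn ℚ)) :=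
    Nat.finite_of_card_ne_zero (show W.G.relIndex (A.inertiaSubgroupIn ℚ) ≠ 0 from W.e_pos.ne')
  have hc := isCyclic_of_injective_ringHom Φ hΦ
  obtain ⟨q, hq⟩ := IsCyclic.exists_generator
    (α := A.inertiaSubgroupIn ℚ ⧸ W.G.subgroupOf (A.inertiaSubgroupIn ℚ))
  obtain ⟨g, rfl⟩ := QuotientGroup.mk'_surjective _ q
  refine ⟨g, g.2, ?_, fun σ hσ => ?_⟩
  · rw [show Λ.chi0 (g : GQ) = Φ (QuotientGroup.mk' _ g) from rfl, orderOf_injective Φ hΦ,
      orderOf_eq_card_of_forall_mem_zpowers hq]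
    rfl
  · obtain ⟨j, hj⟩ := (mem_powers_iff_mem_zpowers).mpr
      (hq (QuotientGroup.mk' _ (⟨σ, hσ⟩ : A.inertiaSubgroupIn ℚ)))
    exact ⟨j, (QuotientGroup.eq.mp hj :)⟩

end Layer

section Residual

variable {k : Type} [Field k] [Fintype k] [CharP k p]

include hp in
/-- **Flat residual representations.** -/
theorem flat_residual_type (hA : A.LiesOverPrime p) (hp2 : p ≠ 2) {r : GQ →* M2 k}
    (hdet : DetOmega A p r) (hflat : IsFlatRes A r) :
    IsOrdType A r ∨ IsSSType (p := p) A r := by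
  classical
  let _ : Algebra (ZMod p) k := ZMod.algebra k p
  have h2 := hp.out.two_le
  obtain ⟨S, hS⟩ := exists_sys hflat fun σ _ x y => mulVec_add (r σ) x y
  have hact : ∀ σ x, S.act σ x = r σ *ᵥ x := fun σ x => by rw [hS]; rfl
  obtain ⟨ζ, hζ⟩ := exists_zeta hp.out
  let C : Submodule k (Fin 2 → k) :=
    { carrier := {x | x ∈ S.conn (p := p)}
      add_mem' := fun hx hy => (S.conn (p := p)).add_mem hx hy
      zero_mem' := (S.conn (p := p)).zero_mem
      smul_mem' := fun c x hx => S.map_mem_conn (p := p) hA hp2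
        (DistribSMul.toAddMonoidHom (Fin 2 → k) c)
        (fun σ _ y => by
          show c • S.act σ y = S.act σ (c • y)
          rw [hact, hact, mulVec_smul]) hx }
  have hCsub : ∀ σ ∈ A.inertiaSubgroupIn ℚ, ∀ w, r σ *ᵥ w - w ∈ C := fun σ hσ w => by
    rw [← hact]; exact S.sub_mem_conn (p := p) hσ w
  have hCbot : C ≠ ⊥ := by
    intro hbot
    obtain ⟨σ, hσ, hσζ⟩ := exists_inertia_zeta hp.out hA hζ (m := 2)
      (fun h => by have := Nat.le_of_dvd two_pos h; omega)
    have hr : r σ = 1 := Matrix.ext_of_mulVec_single fun i => by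
      have := hCsub σ hσ (Pi.single i 1)
      rw [hbot, Submodule.mem_bot, sub_eq_zero] at this
      rw [this, one_mulVec]
    have hd := det_eq_natCast hζ hdet (inertia_le_decomposition hσ) hσζ
    rw [hr, det_one, ← Nat.cast_one] at hd
    have := (CharP.natCast_eq_natCast k p).mp hd
    rw [Nat.ModEq, Nat.mod_eq_of_lt hp.out.one_lt, Nat.mod_eq_of_lt (by omega)] at this
    omega
  by_cases hCtop : C = ⊤
  swap
  · refine Or.inl ?_
    have h1 : Module.finrank k C = 1 := by
      have hlt := Submodule.finrank_lt hCtop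
      have hpos := Submodule.one_le_finrank_iff.mpr hCbot
      rw [Module.finrank_fin_fun] at hlt
      omega
    obtain ⟨⟨l, hl⟩, hl0, hspan⟩ := finrank_eq_one_iff'.mp h1
    have hl0' : l ≠ 0 := fun h => hl0 (Subtype.ext h)
    refine ⟨l, hl0', fun σ hσ => ?_, fun σ hσ w => ?_⟩
    · have hm : r σ *ᵥ l ∈ C := by rw [← hact]; exact S.act_mem_conn (p := p) hσ hl
      obtain ⟨c, hc⟩ := hspan ⟨_, hm⟩
      exact ⟨c, (congrArg Subtype.val hc).symm⟩
    · obtain ⟨c, hc⟩ := hspan ⟨_, hCsub σ hσ w⟩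
      exact ⟨c, (congrArg Subtype.val hc).symm⟩
  refine Or.inr ?_
  have hconn : ∀ x, x ∈ S.conn (p := p) := fun x => (hCtop.symm ▸ Submodule.mem_top : x ∈ C)
  obtain ⟨Λ, hΛ, -⟩ := S.exists_kerLayer hA
  have hN : ∀ τ, τ ∈ Λ.N ↔ τ ∈ A.inertiaSubgroupIn ℚ ∧ r τ = 1 := fun τ => by
    rw [hΛ, S.mem_ker]
    exact and_congr_right fun _ => ⟨fun h => Matrix.ext_of_mulVec_single fun i => by
      rw [← hact, h, one_mulVec], fun h x => by rw [hact, h, one_mulVec]⟩
  obtain ⟨F, hF⟩ := FA.Deform.exists_isFrobeniusAt hp.out hA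
  have hFd := hF.mem_decompositionSubgroup
  have hnorm := fun {g : GQ} (hg : g ∈ A.decompositionSubgroup ℚ) => S.normalizes_ker hA Λ hΛ hg
  -- no stable line
  have hline : ∀ l : Fin 2 → k, l ≠ 0 →
      ¬ ∀ σ ∈ A.decompositionSubgroup ℚ, ∃ x : k, r σ *ᵥ l = x • l := by
    intro l hl hst
    choose! α hα using hst
    obtain ⟨-, hnat⟩ := Λ.exists_natCast_of_char (k := k) hF (hnorm hFd) α
      (fun σ hσ τ hτ => smul_left_injective k hl (by
        show α (σ * τ) • l = (α σ * α τ) • l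
        rw [← hα _ (mul_mem hσ hτ), map_mul, ← mulVec_mulVec, hα τ hτ, mulVec_smul, hα σ hσ,
          smul_smul, mul_comm]))
      (fun σ hσ => smul_left_injective k hl (by
        show α σ • l = (1 : k) • l
        rw [← hα σ (inertia_le_decomposition (Λ.le hσ)), ((hN σ).mp hσ).2, one_mulVec, one_smul]))
    let X : Submodule (ZMod p) (Fin 2 → k) := (Submodule.span k {l}).restrictScalars (ZMod p)
    have hlX : l ∈ X := Submodule.mem_span_singleton_self l
    have hXne : X ≠ ⊥ := fun h => hl ((Submodule.eq_bot_iff X).mp h l hlX)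
    have hsc : ∀ σ ∈ A.inertiaSubgroupIn ℚ, ∀ m : ℕ, α σ = (m : k) → ∀ x ∈ X,
        S.act σ x = (m : ZMod p) • x := fun σ hσ m hm x hx => by
      obtain ⟨c, rfl⟩ := Submodule.mem_span_singleton.mp hx
      rw [hact, mulVec_smul, hα σ (inertia_le_decomposition hσ), hm, Nat.cast_smul_eq_nsmul,
        Nat.cast_smul_eq_nsmul, smul_comm]
    have hall : ∀ σ ∈ A.inertiaSubgroupIn ℚ, ∀ w, r σ *ᵥ w - w ∈ Submodule.span k {l} := by
      intro σ hσ w
      obtain ⟨m, -, hm⟩ := exists_zeta_pow hζ σ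
      have hom := S.scalar_eq_omega hA hζ X (fun x _ => hconn x) hXne
        (fun g hg => (hnat g hg).elim fun i hi => ⟨(i : ZMod p), hsc g hg i hi⟩) hσ hm l hlX
      rw [hact, Nat.cast_smul_eq_nsmul, ← Nat.cast_smul_eq_nsmul k] at hom
      have hd := det_eq_natCast hζ hdet (inertia_le_decomposition hσ) hm
      have hm0 : (m : k) ≠ 0 := fun h0 => by
        rw [h0] at hd
        have hu := congrArg Matrix.det (r_mul_inv (r := r) σ)
        rw [det_mul, hd, zero_mul, det_one] at hu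
        exact zero_ne_one hu
      -- the quotient character is trivial
      obtain ⟨i, hi⟩ : ∃ i, l i ≠ 0 := Function.ne_iff.mp hl
      have e0 := congrFun hom 0
      have e1 := congrFun hom 1
      simp only [mulVec, dotProduct, Fin.sum_univ_two, Pi.smul_apply, smul_eq_mul] at e0 e1
      rw [det_fin_two] at hd
      have key : (r σ *ᵥ w - w) 0 * l 1 - (r σ *ᵥ w - w) 1 * l 0 = 0 := by
        have h3 : (m : k) * ((r σ *ᵥ w - w) 0 * l 1 - (r σ *ᵥ w - w) 1 * l 0) = 0 := by
          simp only [Pi.sub_apply, mulVec, dotProduct, Fin.sum_univ_two]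
          linear_combination
            ((r σ 1 0 * w 0 + r σ 1 1 * w 1)) * e0 - (r σ 0 0 * w 0 + r σ 0 1 * w 1) * e1 +
              (w 0 * l 1 - w 1 * l 0) * hd
        exact (mul_eq_zero.mp h3).resolve_left hm0
      refine Submodule.mem_span_singleton.mpr ⟨(r σ *ᵥ w - w) i / l i, funext fun j => ?_⟩
      rw [Pi.smul_apply, smul_eq_mul]
      fin_cases i <;> fin_cases j <;> first
        | exact div_mul_cancel₀ _ hi
        | (rw [div_mul_eq_mul_div, div_eq_iff hi]; simp only [Fin.isValue, Fin.zero_eta, Fin.mk_one] at key ⊢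
           linear_combination key)
        | (rw [div_mul_eq_mul_div, div_eq_iff hi]; simp only [Fin.isValue, Fin.zero_eta, Fin.mk_one] at key ⊢
           linear_combination -key)
    have hle : ∀ x, x ∈ X := fun x => by
      refine (Submodule.span_le.mpr ?_) (S.conn_le_span hA hp2 (hconn x))
      rintro _ ⟨σ, hσ, y, -, rfl⟩
      rw [hact]
      exact hall σ hσ y
    have hfr := Submodule.finrank_mono (R := k) (show (⊤ : Submodule k (Fin 2 → k)) ≤
      Submodule.span k {l} from fun x _ => hle x)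
    rw [finrank_top, Module.finrank_fin_fun, finrank_span_singleton hl] at hfr
    omega
  -- no wild inertia
  have hfil : Λ.fil 1 ≤ Λ.N := by
    intro τ₀ hτ₀
    by_contra hτ₀N
    let φ : Λ.fil 1 →* Equiv.Perm (Fin 2 → k) :=
      { toFun := fun σ => (S.actHom (inertia_le_decomposition σ.2.1)).toEquiv
        map_one' := Equiv.ext fun x => S.act_one x
        map_mul' := fun σ τ => Equiv.ext fun x =>
          S.act_mul (inertia_le_decomposition σ.2.1) (inertia_le_decomposition τ.2.1) x }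
    have hPG : IsPGroup p φ.range := by
      rintro ⟨_, σ, rfl⟩
      obtain ⟨T, hT⟩ := Λ.exists_pow_mem σ.2
      refine ⟨T, Subtype.ext ?_⟩
      rw [SubgroupClass.coe_pow, ← map_pow, OneMemClass.coe_one]
      refine Equiv.ext fun x => ?_
      show S.act _ x = x
      exact (S.mem_ker.mp (hΛ ▸ hT)).2 x
    have hcard : p ∣ Nat.card (Fin 2 → k) := by
      obtain ⟨n, -, hn⟩ := FiniteField.card k p
      rw [Nat.card_eq_fintype_card, Fintype.card_fun, Fintype.card_fin, hn]
      exact dvd_pow (dvd_pow_self p n.pos.ne') two_ne_zero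
    have h0fix : (0 : Fin 2 → k) ∈ MulAction.fixedPoints φ.range (Fin 2 → k) := by
      rintro ⟨_, σ, rfl⟩
      exact S.act_zero (inertia_le_decomposition σ.2.1)
    obtain ⟨x, hx, hxne⟩ := hPG.exists_fixed_point_of_prime_dvd_card_of_fixed_point (α := Fin 2 → k)
      hcard h0fix
    have hxfix : ∀ σ ∈ Λ.fil 1, r σ *ᵥ x = x := fun σ hσ => by
      rw [← hact]; exact hx ⟨_, ⟨σ, hσ⟩, rfl⟩
    let Wf : Submodule k (Fin 2 → k) :=
      { carrier := {w | ∀ σ ∈ Λ.fil 1, r σ *ᵥ w = w}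
        add_mem' := fun ha hb σ hσ => by rw [mulVec_add, ha σ hσ, hb σ hσ]
        zero_mem' := fun σ _ => mulVec_zero _
        smul_mem' := fun c w hw σ hσ => by rw [mulVec_smul, hw σ hσ] }
    have hxW : x ∈ Wf := hxfix
    have hWtop : Wf ≠ ⊤ := fun htop => hτ₀N ((hN τ₀).mpr ⟨hτ₀.1,
      Matrix.ext_of_mulVec_single fun i => by
        rw [one_mulVec]
        exact (htop.symm ▸ Submodule.mem_top : Pi.single i 1 ∈ Wf) τ₀ hτ₀⟩)
    have hW1 : Module.finrank k Wf = 1 := by
      have hlt := Submodule.finrank_lt hWtop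
      have hpos := Submodule.one_le_finrank_iff.mpr
        (fun h => hxne (((Submodule.eq_bot_iff Wf).mp h x hxW).symm))
      rw [Module.finrank_fin_fun] at hlt
      omega
    refine hline x (fun h => hxne h.symm) fun σ hσ => ?_
    have hm : r σ *ᵥ x ∈ Wf := fun τ hτ => by
      have h1 := Λ.conj_mem_fil (inv_mem hσ) (hnorm (inv_mem hσ)) hτ
      rw [inv_inv] at h1
      calc r τ *ᵥ (r σ *ᵥ x) = r σ *ᵥ (r (σ⁻¹ * τ * σ) *ᵥ x) := by
            rw [mulVec_mulVec, mulVec_mulVec, ← map_mul, ← map_mul, mul_assoc, mul_inv_cancel_left]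
        _ = r σ *ᵥ x := by rw [hxfix _ h1]
    obtain ⟨c, hc⟩ := (finrank_eq_one_iff_of_nonzero' ⟨x, hxW⟩
      (fun h => hxne (congrArg Subtype.val h).symm)).mp hW1 ⟨_, hm⟩
    exact ⟨c, (congrArg Subtype.val hc).symm⟩
  -- the generator
  set W := Λ.tameWild hfil
  obtain ⟨g₀, hg₀, hord, hgen⟩ := W.exists_gen
  have hWe : W.e = Λ.D := Λ.D_eq
  rw [hWe] at hord
  have hg₀d := inertia_le_decomposition hg₀
  have hrgen : ∀ σ ∈ A.inertiaSubgroupIn ℚ, ∃ j : ℕ, r σ = r g₀ ^ j := fun σ hσ => by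
    obtain ⟨j, hj⟩ := hgen σ hσ
    refine ⟨j, ?_⟩
    have h1 := ((hN _).mp (show (g₀ ^ j)⁻¹ * σ ∈ Λ.N from hj)).2
    calc r σ = r (g₀ ^ j) * r ((g₀ ^ j)⁻¹ * σ) := by rw [← map_mul, mul_inv_cancel_left]
      _ = r g₀ ^ j := by rw [h1, mul_one, map_pow]
  set M := r g₀ with hM
  -- trace and determinant
  have htp : M.trace ^ p = M.trace := by
    have h1 := ((hN _).mp (hfil (Λ.conj_frob_mem hF (hnorm hFd) hg₀))).2
    have h2' : r (F * g₀ * F⁻¹) = M ^ p := by
      rw [← map_pow, ← mul_one (r (g₀ ^ p)), ← h1, ← map_mul, mul_inv_cancel_left]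
    rw [← trace_pow_char_two, ← h2', map_mul, map_mul, Matrix.trace_mul_comm, ← mul_assoc,
      r_inv_mul, one_mul]
  obtain ⟨t, ht⟩ : ∃ t : ℕ, M.trace = (t : k) := by
    have hb : M.trace ∈ (⊥ : Subfield k) := (Subfield.mem_bot_iff_pow_eq_self k p).mpr htp
    rw [← ZMod.fieldRange_castHom_eq_bot (K := k) p] at hb
    obtain ⟨z, hz⟩ := hb
    exact ⟨z.val, by rw [← hz, ← map_natCast (ZMod.castHom (dvd_refl p) k), ZMod.natCast_zmod_val]⟩
  obtain ⟨m₀, hm₀, hζm₀⟩ := exists_zeta_pow hζ g₀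
  have hd : M.det = (m₀ : k) := det_eq_natCast hζ hdet hg₀d hζm₀
  have := res_charP hp.out hA
  let _ : Algebra (ZMod p) (Res A) := ZMod.algebra (Res A) p
  -- leading coefficient
  obtain ⟨n, hn1, hnD, lam, hadd, ⟨x₁, -, hl⟩, hlam⟩ := S.exists_leading Λ ⊤ (fun x _ => hconn x)
    (fun h => by
      have := (Submodule.eq_bot_iff _).mp h (Pi.single 0 1) Submodule.mem_top
      simpa using congrFun this 0)
    (fun τ hτ x _ => (S.mem_ker.mp (hΛ ▸ hτ)).2 x)
  let L : (Fin 2 → k) →+ Res A :=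
    AddMonoidHom.mk' lam fun x y => hadd x trivial y trivial
  have hLsmul : ∀ (i : ℕ) x, L ((i : k) • x) = i * L x := fun i x => by
    rw [Nat.cast_smul_eq_nsmul, map_nsmul, nsmul_eq_mul]
  set ν := Λ.chi0 g₀ with hν
  have hLM : ∀ x, L (M *ᵥ x) = ν ^ n * L x := fun x => by
    show lam (M *ᵥ x) = _
    rw [← hact g₀ x, hlam g₀ hg₀ x trivial]
    rfl
  set θ := ν ^ n with hθdef
  have hθ : θ * θ - (t : Res A) * θ + (m₀ : Res A) = 0 := by
    have h := congrArg (fun Q : M2 k => L (Q *ᵥ x₁)) (mul_self_two M)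
    simp only [ht, hd, ← mulVec_mulVec, sub_mulVec, smul_mulVec, one_mulVec, map_sub, hLM, hLsmul]
      at h
    refine (mul_eq_zero.mp (?_ : (θ * θ - (t : Res A) * θ + (m₀ : Res A)) * L x₁ = 0)).resolve_right hl
    linear_combination h
  have hθp : θ ^ p * θ ^ p - (t : Res A) * θ ^ p + (m₀ : Res A) = 0 := by
    have h := congrArg (frobenius (Res A) p) hθ
    rw [map_add, map_sub, map_mul, map_mul, map_zero, map_natCast, map_natCast, frobenius_def] at h
    exact h
  have hne : θ ^ p ≠ θ := by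
    intro heq
    -- a rational eigenvalue
    have hb : θ ∈ (⊥ : Subfield (Res A)) := (Subfield.mem_bot_iff_pow_eq_self _ p).mpr heq
    rw [← ZMod.fieldRange_castHom_eq_bot (K := Res A) p] at hb
    obtain ⟨a, ha⟩ := hb
    have hroot : a * a - (t : ZMod p) * a + (m₀ : ZMod p) = 0 :=
      (ZMod.castHom (dvd_refl p) (Res A)).injective (by
        rw [map_add, map_sub, map_mul, map_mul, map_natCast, map_natCast, map_zero, ha, hθ])
    set c : ZMod p →+* k := ZMod.castHom (dvd_refl p) k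
    have hc := congrArg c hroot
    rw [map_add, map_sub, map_mul, map_mul, map_natCast, map_natCast, map_zero] at hc
    have hm0 : (m₀ : ZMod p) ≠ 0 := by rwa [Ne, ZMod.natCast_eq_zero_iff]
    have ha0 : a ≠ 0 := fun h0 => hm0 (by simpa [h0] using hroot)
    have heig : ∀ e : ZMod p, c e * c e - (t : k) * c e + (m₀ : k) = 0 →
        ∃ w : Fin 2 → k, w ≠ 0 ∧ M *ᵥ w = c e • w := fun e he => by
      have hdet0 : (M - c e • 1).det = 0 := by
        rw [det_fin_two]
        rw [Matrix.trace_fin_two] at ht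
        rw [det_fin_two] at hd
        simp
        linear_combination he + hd - c e * ht
      obtain ⟨w, hw, hw'⟩ := Matrix.exists_mulVec_eq_zero_iff.mpr hdet0
      refine ⟨w, hw, ?_⟩
      rw [sub_mulVec, smul_mulVec, one_mulVec, sub_eq_zero] at hw'
      exact hw'
    obtain ⟨w, hw, hMw⟩ := heig a hc
    let X : Submodule (ZMod p) (Fin 2 → k) := (Submodule.span k {w}).restrictScalars (ZMod p)
    have hwX : w ∈ X := Submodule.mem_span_singleton_self w
    have hpowv : ∀ (j : ℕ) (u : Fin 2 → k), ∀ e : k, M *ᵥ u = e • u → M ^ j *ᵥ u = e ^ j • u :=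
      fun j u e hu => by
        induction j with
        | zero => rw [pow_zero, pow_zero, one_mulVec, one_smul]
        | succ j ih => rw [pow_succ, ← mulVec_mulVec, hu, mulVec_smul, ih, smul_smul, pow_succ']
    have hsc : ∀ σ ∈ A.inertiaSubgroupIn ℚ, ∃ e : ZMod p, ∀ x ∈ X, S.act σ x = e • x :=
      fun σ hσ => by
        obtain ⟨j, hj⟩ := hrgen σ hσ
        refine ⟨a ^ j, fun x hx => ?_⟩
        obtain ⟨e, rfl⟩ := Submodule.mem_span_singleton.mp hx
        rw [hact, hj, mulVec_smul, hpowv j w _ hMw, ← map_pow, ← algebraMap_smul k (a ^ j) (e • w),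
          smul_comm e]
        rfl
    have h1 := S.scalar_eq_omega hA hζ X (fun x _ => hconn x)
      (fun h => hw ((Submodule.eq_bot_iff X).mp h w hwX)) hsc hg₀ hζm₀ w hwX
    have h2' : S.act g₀ w = a • w := by
      rw [hact, ← algebraMap_smul k a w]; exact hMw
    have ham : a = (m₀ : ZMod p) := smul_left_injective (ZMod p) hw (h2'.symm.trans h1)
    have hone : (t : ZMod p) - a = 1 := by
      refine mul_left_cancel₀ ha0 ?_
      rw [mul_one, mul_sub]
      linear_combination -hroot - ham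
    obtain ⟨u, hu, hMu⟩ := heig ((t : ZMod p) - a) (by
      rw [map_sub, map_natCast]; linear_combination hc)
    rw [hone, map_one] at hMu
    refine hu (S.eq_zero_of_fixed hA hp2 (hconn u) fun σ hσ => ?_)
    obtain ⟨j, hj⟩ := hrgen σ hσ
    rw [hact, hj, hpowv j u 1 hMu, one_pow, one_smul]
  -- the other root
  have hsum : θ + θ ^ p = (t : Res A) := by
    have h : (θ ^ p - θ) * (θ + θ ^ p - (t : Res A)) = 0 := by linear_combination hθp - hθ
    exact sub_eq_zero.mp ((mul_eq_zero.mp h).resolve_left (sub_ne_zero.mpr hne))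
  have hprod : θ ^ (p + 1) = (m₀ : Res A) := by
    rw [pow_succ]; linear_combination (-1 : Res A) * hθ + θ * hsum
  -- the order of the image divides `p ^ 2 - 1`
  have hM2 : M ^ (p * p) = M := by
    have key : ∀ j : ℕ, ∃ a b : ZMod p,
        M ^ j = algebraMap (ZMod p) k a • M + algebraMap (ZMod p) k b • 1 ∧
          θ ^ j = algebraMap (ZMod p) (Res A) a * θ + algebraMap (ZMod p) (Res A) b := by
      intro j
      induction j with
      | zero => exact ⟨0, 1, by simp, by simp⟩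
      | succ j ih =>
        obtain ⟨a, b, h1, h2⟩ := ih
        refine ⟨a * t + b, -(a * m₀), ?_, ?_⟩
        · rw [pow_succ, h1, add_mul, smul_mul_assoc, smul_mul_assoc, one_mul, mul_self_two, ht, hd]
          simp only [map_add, map_mul, map_neg, map_natCast]
          module
        · rw [pow_succ, h2]
          simp only [map_add, map_mul, map_neg, map_natCast]
          linear_combination algebraMap (ZMod p) (Res A) a * hθ
    obtain ⟨a, b, h1, h2'⟩ := key (p * p)
    have hpp : θ ^ (p * p) = θ := by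
      have h := congrArg (frobenius (Res A) p) hsum
      rw [map_add, map_natCast, frobenius_def, frobenius_def, ← pow_mul] at h
      linear_combination h - hsum
    rw [hpp] at h2'
    have ha1 : a = 1 := by
      by_contra hne1
      have h3 : θ = algebraMap (ZMod p) (Res A) (b / (1 - a)) := by
        rw [map_div₀, eq_div_iff ((map_ne_zero _).mpr (sub_ne_zero.mpr (Ne.symm hne1))), map_sub,
          map_one]
        linear_combination h2'
      exact hne (by rw [h3, ← map_pow, ZMod.pow_card])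
    have hb0 : b = 0 := by
      rw [ha1, map_one, one_mul, left_eq_add] at h2'
      exact (map_eq_zero _).mp h2'
    rw [h1, ha1, hb0, map_one, map_zero, one_smul, zero_smul, add_zero]
  have hDdvd : Λ.D ∣ p * p - 1 := by
    rw [← hord]
    refine orderOf_dvd_of_pow_eq_one ?_
    rw [hν, ← Λ.chi0_pow hg₀]
    refine Layer.chi0_eq_one_of_mem_N ((hN _).mpr ⟨pow_mem hg₀ _, ?_⟩)
    have hu : IsUnit M := ⟨⟨M, r g₀⁻¹, r_mul_inv g₀, r_inv_mul g₀⟩, rfl⟩
    rw [map_pow, ← hM]
    refine hu.mul_left_cancel ?_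
    rw [← pow_succ', Nat.sub_add_cancel (Nat.one_le_iff_ne_zero.mpr
      (Nat.mul_ne_zero hp.out.ne_zero hp.out.ne_zero)), hM2, mul_one]
  -- compare with the cyclotomic layer
  obtain ⟨Λc, hNc, hπc, hDc⟩ := exists_cyclo_layer hp.out hA hζ
  have hB : Layer.Below Λ Λc := ⟨fun τ hτ => by
    obtain ⟨hτI, hr⟩ := (hN τ).mp hτ
    rw [hNc]
    refine ⟨hτI, ?_⟩
    obtain ⟨i, -, hi⟩ := exists_zeta_pow hζ τ
    have h := det_eq_natCast hζ hdet (inertia_le_decomposition hτI) hi
    rw [hr, det_one, ← Nat.cast_one] at h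
    rw [hi, pow_eq_pow_mod _ hζ.pow_eq_one, ((CharP.natCast_eq_natCast k p).mp h).symm,
      Nat.mod_eq_of_lt hp.out.one_lt, pow_one]⟩
  set f := Layer.relDeg Λ Λc with hf
  have hDf : f * (p - 1) = Λ.D := hDc ▸ Layer.deg_mul hB
  have hcyc : ν ^ f = (m₀ : Res A) := by
    rw [hν, ← Layer.chi0_below hB hg₀, Layer.chi0_cyclo hζ hπc hζm₀]
  obtain ⟨g, hg⟩ : f ∣ p + 1 := by
    refine Nat.dvd_of_mul_dvd_mul_right (show 0 < p - 1 by omega) ?_
    rw [hDf, show (p + 1) * (p - 1) = p * p - 1 from (Nat.mul_self_sub_mul_self_eq p 1).symm.trans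
      (by rw [one_mul])]
    exact hDdvd
  have hnf : n ≤ f := Nat.le_of_mul_le_mul_left (by rwa [mul_comm (p - 1) f, hDf])
    (show 0 < p - 1 by omega)
  have hνD : ν ^ Λ.D = 1 := by rw [← hord]; exact pow_orderOf_eq_one ν
  have hν0 : ν ≠ 0 := Λ.chi0_ne_zero hg₀d
  have hnlt : n < f := by
    refine lt_of_le_of_ne hnf fun heq => hne ?_
    rw [hθdef, ← pow_mul, show n * p = n + n * (p - 1) by
      rw [Nat.mul_sub, mul_one, Nat.add_sub_cancel' (Nat.le_mul_of_pos_right _ hp.out.pos)],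
      pow_add, heq, hDf, hνD, mul_one]
  have hf0 : 0 < f := Layer.relDeg_pos hB
  have hge : f ≤ n * (p + 1) := (Nat.le_of_dvd (by omega) ⟨g, hg⟩).trans
    (Nat.le_mul_of_pos_left _ (by omega))
  obtain ⟨j, hj⟩ : Λ.D ∣ n * (p + 1) - f := by
    rw [← hord]
    refine orderOf_dvd_of_pow_eq_one (mul_left_cancel₀ (pow_ne_zero f hν0) ?_)
    rw [← pow_add, Nat.add_sub_cancel' hge, mul_one, hcyc, ← hprod, hθdef, ← pow_mul]
  have hng : n * g = 1 + (p - 1) * j := by
    refine Nat.eq_of_mul_eq_mul_left hf0 ?_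
    have e1 : f * (n * g) = n * (p + 1) := by rw [hg]; ring
    have e2 : f * ((p - 1) * j) = Λ.D * j := by rw [← hDf]; ring
    rw [e1, mul_add f, mul_one f, e2, ← hj, Nat.add_sub_cancel' hge]
  have hgpos : 0 < g := Nat.pos_of_ne_zero fun h0 => by rw [h0, mul_zero] at hg; omega
  have hj1 : j ≤ 1 := by
    by_contra hc
    have h3 := Nat.mul_le_mul_left (p - 1) (show 2 ≤ j by omega)
    have h4 : (n + 1) * g ≤ f * g := Nat.mul_le_mul_right g hnlt
    rw [← hg, add_mul, one_mul] at h4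
    omega
  have hgp : g = 1 ∧ (n = 1 ∨ n = p) := by
    rcases Nat.le_one_iff_eq_zero_or_eq_one.mp hj1 with rfl | rfl
    · rw [mul_zero, add_zero] at hng
      exact ⟨Nat.eq_one_of_mul_eq_one_left hng, Or.inl (Nat.eq_one_of_mul_eq_one_right hng)⟩
    · rw [mul_one, show 1 + (p - 1) = p by omega] at hng
      rcases (Nat.dvd_prime hp.out).mp ⟨n, by rw [mul_comm, hng]⟩ with h | h
      · rw [h, mul_one] at hng; exact ⟨h, Or.inr hng⟩
      · exfalso
        have h3 : p ∣ p + 1 := ⟨f, by rw [hg, h]; ring⟩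
        exact hp.out.one_lt.ne' (Nat.dvd_one.mp ((Nat.dvd_add_right dvd_rfl).mp h3))
  have hDval : Λ.D = p ^ 2 - 1 := by
    rw [← hDf, show f = p + 1 by rw [hg, hgp.1, mul_one], sq, ← Nat.mul_self_sub_mul_self_eq,
      one_mul]
  refine ⟨Λ, hN, hfil, hDval, g₀, hg₀, fun σ hσ => hgen σ hσ, by rw [hord, hDval], t, m₀, ht, hd, ?_⟩
  show ν * ν - (t : Res A) * ν + (m₀ : Res A) = 0
  rcases hgp.2 with h | h
  · rw [hθdef, h, pow_one] at hθ; exact hθ
  · rw [hθdef, h, ← pow_mul, show p * p = Λ.D + 1 by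
      rw [hDval, ← sq, Nat.sub_add_cancel (Nat.one_le_pow _ _ hp.out.pos)], pow_succ, hνD, one_mul] at hθp
    exact hθp

end Residual

end FA.LocalDef
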