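import Mathlib.RingTheory.RootsOfUnity.PrimitiveRoots
import Mathlib.RingTheory.Polynomial.Cyclotomic.Eval
import Mathlib.RingTheory.Valuation.Basic
import Mathlib.LinearAlgebra.Dual.Lemmas
import Mathlib.Algebra.Field.ZMod
import Mathlib.LinearAlgebra.FiniteDimensional.Defs
import Mathlib.Algebra.BigOperators.Field

/-!
# Characters of a finite vector space over `ℤ/p` with values in a field
-/

set_option autoImplicit false
set_option linter.unusedSectionVars false

noncomputable section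

namespace FA.LocalDef

section Roots

variable {L Γ : Type*} [Field L] [LinearOrderedCommGroupWithZero Γ] (v : Valuation L Γ)
  {p : ℕ} {ζ : L}

lemma map_eq_one_of_pow_eq_one {z : L} {n : ℕ} (hn : n ≠ 0) (hz : z ^ n = 1) : v z = 1 := by
  refine (pow_eq_one_iff_of_nonneg zero_le hn).mp ?_
  rw [← map_pow, hz, map_one]

lemma map_one_sub_pow_le (hp : p ≠ 0) (hζ : IsPrimitiveRoot ζ p) (k : ℕ) :
    v (1 - ζ ^ k) ≤ v (1 - ζ) := by
  induction k with
  | zero => simp
  | succ k ih =>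
    rw [show 1 - ζ ^ (k + 1) = (1 - ζ ^ k) + ζ ^ k * (1 - ζ) by ring]
    refine v.map_add_le ih ?_
    rw [map_mul, map_pow, map_eq_one_of_pow_eq_one v hp hζ.pow_eq_one, one_pow, one_mul]

lemma map_one_sub_pow (hp : p.Prime) (hζ : IsPrimitiveRoot ζ p) {k : ℕ} (hk : ¬ p ∣ k) :
    v (1 - ζ ^ k) = v (1 - ζ) := by
  refine le_antisymm (map_one_sub_pow_le v hp.ne_zero hζ k) ?_
  have hζ' : IsPrimitiveRoot (ζ ^ k) p :=
    hζ.pow_of_coprime k (Nat.coprime_comm.mp (hp.coprime_iff_not_dvd.mpr hk))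
  have : NeZero p := ⟨hp.ne_zero⟩
  obtain ⟨j, -, hj⟩ := hζ'.eq_pow_of_pow_eq_one hζ.pow_eq_one
  conv_lhs => rw [← hj]
  exact map_one_sub_pow_le v hp.ne_zero hζ' j

lemma pow_map_one_sub (hp : p.Prime) (hζ : IsPrimitiveRoot ζ p) :
    v (1 - ζ) ^ (p - 1) = v (p : L) := by
  have h : NeZero p := ⟨hp.ne_zero⟩
  have hprod : ∏ k ∈ Finset.Ico 1 p, (1 - ζ ^ k) = (p : L) := by
    have h1 : ∏ μ ∈ primitiveRoots p L, (1 - μ) = (p : L) := by
      have : Fact p.Prime := ⟨hp⟩
      have := congrArg (Polynomial.eval 1) (Polynomial.cyclotomic_eq_prod_X_sub_primitiveRoots hζ)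
      rw [Polynomial.eval_one_cyclotomic_prime] at this
      rw [this, Polynomial.eval_prod]
      simp
    rw [← h1]
    refine Finset.prod_bij (fun k _ => ζ ^ k) (fun k hk => ?_) (fun a ha b hb hab => ?_)
      (fun μ hμ => ?_) (fun k _ => rfl)
    · rw [Finset.mem_Ico] at hk
      exact (mem_primitiveRoots hp.pos).mpr (hζ.pow_of_coprime k (Nat.coprime_comm.mp
        (hp.coprime_iff_not_dvd.mpr (Nat.not_dvd_of_pos_of_lt hk.1 hk.2))))
    · rw [Finset.mem_Ico] at ha hb
      exact hζ.pow_inj ha.2 hb.2 hab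
    · rw [mem_primitiveRoots hp.pos] at hμ
      obtain ⟨i, hi, rfl⟩ := hζ.eq_pow_of_pow_eq_one hμ.pow_eq_one
      refine ⟨i, Finset.mem_Ico.mpr ⟨?_, hi⟩, rfl⟩
      by_contra hc
      rw [show i = 0 by omega, pow_zero] at hμ
      exact hp.one_lt.ne' (hμ.unique IsPrimitiveRoot.one)
  rw [← hprod, map_prod, Finset.prod_congr rfl fun k hk => map_one_sub_pow v hp hζ
    (Nat.not_dvd_of_pos_of_lt (Finset.mem_Ico.mp hk).1 (Finset.mem_Ico.mp hk).2),
    Finset.prod_const, Nat.card_Ico]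

/-- A `p`-th root of unity close to `1` is `1`. -/
lemma eq_one_of_close (hp : p.Prime) (hζ : IsPrimitiveRoot ζ p) {z : L} (hz : z ^ p = 1)
    (hclose : v (z - 1) ^ (p - 1) < v (p : L)) : z = 1 := by
  have : NeZero p := ⟨hp.ne_zero⟩
  obtain ⟨i, -, rfl⟩ := hζ.eq_pow_of_pow_eq_one hz
  by_contra hne
  have hi : ¬ p ∣ i := fun ⟨m, hm⟩ => hne (by rw [hm, pow_mul, hζ.pow_eq_one, one_pow])
  rw [v.map_sub_swap, map_one_sub_pow v hp hζ hi, pow_map_one_sub v hp hζ] at hclose
  exact lt_irrefl _ hclose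

end Roots

variable {L : Type*} [Field L] {p : ℕ} [hp : Fact p.Prime] {ζ : L}
  {V : Type*} [AddCommGroup V] [Module (ZMod p) V] [Fintype V]

/-- The character `x ↦ ζ ^ φ x`. -/
def chi (ζ : L) (φ : Module.Dual (ZMod p) V) (x : V) : L := ζ ^ (φ x).val

lemma chi_add_right (hζ : IsPrimitiveRoot ζ p) (φ : Module.Dual (ZMod p) V) (x y : V) :
    chi ζ φ (x + y) = chi ζ φ x * chi ζ φ y := by
  rw [chi, chi, chi, map_add, ZMod.val_add, ← pow_add]
  exact (pow_eq_pow_mod _ hζ.pow_eq_one).symm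

lemma chi_add_left (hζ : IsPrimitiveRoot ζ p) (φ ψ : Module.Dual (ZMod p) V) (x : V) :
    chi ζ (φ + ψ) x = chi ζ φ x * chi ζ ψ x := by
  rw [chi, chi, chi, LinearMap.add_apply, ZMod.val_add, ← pow_add]
  exact (pow_eq_pow_mod _ hζ.pow_eq_one).symm

@[simp] lemma chi_zero_right (φ : Module.Dual (ZMod p) V) : chi ζ φ 0 = 1 := by
  simp [chi]

@[simp] lemma chi_zero_left (x : V) : chi ζ (0 : Module.Dual (ZMod p) V) x = 1 := by
  simp [chi]

lemma chi_pow (hζ : IsPrimitiveRoot ζ p) (φ : Module.Dual (ZMod p) V) (x : V) :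
    chi ζ φ x ^ p = 1 := by
  rw [chi, ← pow_mul, mul_comm, pow_mul, hζ.pow_eq_one, one_pow]

lemma chi_ne_zero (hζ : IsPrimitiveRoot ζ p) (φ : Module.Dual (ZMod p) V) (x : V) :
    chi ζ φ x ≠ 0 := pow_ne_zero _ (hζ.ne_zero hp.out.ne_zero)

lemma chi_neg_right (hζ : IsPrimitiveRoot ζ p) (φ : Module.Dual (ZMod p) V) (x : V) :
    chi ζ φ (-x) = (chi ζ φ x)⁻¹ := by
  refine eq_inv_of_mul_eq_one_left ?_
  rw [← chi_add_right hζ, neg_add_cancel, chi_zero_right]

lemma exists_chi_ne_one (hζ : IsPrimitiveRoot ζ p) {x : V} (hx : x ≠ 0) :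
    ∃ φ : Module.Dual (ZMod p) V, chi ζ φ x ≠ 1 := by
  obtain ⟨φ, hφ⟩ : ∃ φ : Module.Dual (ZMod p) V, φ x ≠ 0 := by
    by_contra hc
    push Not at hc
    exact hx ((Module.forall_dual_apply_eq_zero_iff (ZMod p) x).mp hc)
  refine ⟨φ, fun h => hφ ?_⟩
  have hd := hζ.dvd_of_pow_eq_one _ h
  exact (ZMod.val_eq_zero _).mp (Nat.eq_zero_of_dvd_of_lt hd (ZMod.val_lt _))

lemma eq_of_forall_chi (hζ : IsPrimitiveRoot ζ p) {x y : V}
    (h : ∀ φ : Module.Dual (ZMod p) V, chi ζ φ x = chi ζ φ y) : x = y := by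
  by_contra hne
  obtain ⟨φ, hφ⟩ := exists_chi_ne_one hζ (sub_ne_zero.mpr hne)
  refine hφ ?_
  rw [sub_eq_add_neg, chi_add_right hζ, chi_neg_right hζ, h, mul_inv_cancel₀ (chi_ne_zero hζ φ y)]

instance fintypeDual : Fintype (Module.Dual (ZMod p) V) :=
  have : Finite (Module.Dual (ZMod p) V) := Finite.of_injective _ DFunLike.coe_injective
  Fintype.ofFinite _

lemma card_dual : Fintype.card (Module.Dual (ZMod p) V) = Fintype.card V := by
  rw [← Nat.card_eq_fintype_card, ← Nat.card_eq_fintype_card,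
    Module.natCard_eq_pow_finrank (K := ZMod p), Module.natCard_eq_pow_finrank (K := ZMod p) (V := V),
    Subspace.dual_finrank_eq]

lemma sum_chi_left (hζ : IsPrimitiveRoot ζ p) [DecidableEq V] (x : V) :
    ∑ φ : Module.Dual (ZMod p) V, chi ζ φ x = if x = 0 then (Fintype.card V : L) else 0 := by
  split_ifs with h
  · subst h; simp [card_dual]
  obtain ⟨ψ, hψ⟩ := exists_chi_ne_one hζ h
  have e : ∑ φ : Module.Dual (ZMod p) V, chi ζ φ x =
      chi ζ ψ x * ∑ φ : Module.Dual (ZMod p) V, chi ζ φ x := by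
    rw [Finset.mul_sum]
    exact (Fintype.sum_equiv (Equiv.addLeft ψ) _ _ fun φ => (chi_add_left hζ ψ φ x).symm).symm
  by_contra hne
  exact hψ ((mul_eq_right₀ hne).mp e.symm)

lemma sum_chi_right (hζ : IsPrimitiveRoot ζ p) (φ : Module.Dual (ZMod p) V) [Decidable (φ = 0)] :
    ∑ x : V, chi ζ φ x = if φ = 0 then (Fintype.card V : L) else 0 := by
  split_ifs with h
  · subst h; simp
  obtain ⟨y, hy⟩ : ∃ y, chi ζ φ y ≠ 1 := by
    by_contra hc
    push Not at hc
    refine h (LinearMap.ext fun x => ?_)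
    have hd := hζ.dvd_of_pow_eq_one _ (hc x)
    exact (ZMod.val_eq_zero _).mp (Nat.eq_zero_of_dvd_of_lt hd (ZMod.val_lt _))
  have e : ∑ x : V, chi ζ φ x = chi ζ φ y * ∑ x : V, chi ζ φ x := by
    rw [Finset.mul_sum]
    exact (Fintype.sum_equiv (Equiv.addLeft y) _ _ fun x => (chi_add_right hζ φ y x).symm).symm
  by_contra hne
  exact hy ((mul_eq_right₀ hne).mp e.symm)

/-- The weights of the functional with values `U` on the characters. -/
def wt (ζ : L) (U : Module.Dual (ZMod p) V → L) (x : V) : L :=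
  (Fintype.card V : L)⁻¹ * ∑ φ : Module.Dual (ZMod p) V, U φ * chi ζ φ (-x)

/-- The functional on functions with values `U` on the characters. -/
def evF (ζ : L) (U : Module.Dual (ZMod p) V → L) (f : V → L) : L := ∑ x : V, wt ζ U x * f x

variable (U W : Module.Dual (ZMod p) V → L) (f g : V → L)

lemma evF_add_right : evF ζ U (f + g) = evF ζ U f + evF ζ U g := by
  simp [evF, mul_add, Finset.sum_add_distrib]

lemma evF_sub_right : evF ζ U (f - g) = evF ζ U f - evF ζ U g := by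
  simp [evF, mul_sub, Finset.sum_sub_distrib]

lemma evF_smul_right (c : L) : evF ζ U (c • f) = c * evF ζ U f := by
  simp [evF, Finset.mul_sum, mul_left_comm]

lemma evF_sum_right {ι : Type*} (s : Finset ι) (F : ι → V → L) :
    evF ζ U (∑ i ∈ s, F i) = ∑ i ∈ s, evF ζ U (F i) := by
  simp only [evF, Finset.sum_apply, Finset.mul_sum]
  exact Finset.sum_comm

lemma evF_add_left : evF ζ (U + W) f = evF ζ U f + evF ζ W f := by
  simp [evF, wt, add_mul, Finset.sum_add_distrib, mul_add]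

lemma evF_smul_left (c : L) : evF ζ (c • U) f = c * evF ζ U f := by
  simp [evF, wt, Finset.mul_sum, Finset.sum_mul, mul_left_comm, mul_assoc]

lemma evF_sub_left : evF ζ (U - W) f = evF ζ U f - evF ζ W f := by
  have e : U - W = U + (-1 : L) • W := by ext; simp [sub_eq_add_neg]
  rw [e, evF_add_left, evF_smul_left]; ring

variable [CharZero L]

lemma evF_chi (hζ : IsPrimitiveRoot ζ p) (φ : Module.Dual (ZMod p) V) :
    evF ζ U (chi ζ φ) = U φ := by
  classical
  have hN : (Fintype.card V : L) ≠ 0 := Nat.cast_ne_zero.mpr Fintype.card_ne_zero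
  have hinner : ∀ ψ : Module.Dual (ZMod p) V, ∑ x : V, chi ζ ψ (-x) * chi ζ φ x =
      if φ - ψ = 0 then (Fintype.card V : L) else 0 := fun ψ => by
    rw [← sum_chi_right hζ (φ - ψ)]
    refine Finset.sum_congr rfl fun x _ => ?_
    conv_lhs => rw [show φ = (φ - ψ) + ψ from (sub_add_cancel φ ψ).symm, chi_add_left hζ,
      chi_neg_right hζ]
    field_simp [chi_ne_zero hζ ψ x]
  simp only [evF, wt, mul_assoc, Finset.sum_mul, ← Finset.mul_sum]
  rw [Finset.sum_comm]
  simp only [← Finset.mul_sum, hinner, sub_eq_zero, mul_ite, mul_zero, Finset.sum_ite_eq,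
    Finset.mem_univ, if_true]
  field_simp

lemma evF_point (hζ : IsPrimitiveRoot ζ p) (y : V) :
    evF ζ (fun φ : Module.Dual (ZMod p) V => chi ζ φ y) f = f y := by
  classical
  have hN : (Fintype.card V : L) ≠ 0 := Nat.cast_ne_zero.mpr Fintype.card_ne_zero
  have hw : ∀ x, wt ζ (fun φ => chi ζ φ y) x = if x = y then 1 else 0 := fun x => by
    have e : ∀ φ : Module.Dual (ZMod p) V, chi ζ φ y * chi ζ φ (-x) = chi ζ φ (y - x) := fun φ => by
      rw [← chi_add_right hζ, sub_eq_add_neg]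
    show (Fintype.card V : L)⁻¹ * ∑ φ : Module.Dual (ZMod p) V, chi ζ φ y * chi ζ φ (-x) = _
    simp only [e, sum_chi_left hζ, sub_eq_zero]
    by_cases hxy : x = y
    · rw [if_pos hxy, if_pos hxy.symm]; exact inv_mul_cancel₀ hN
    · rw [if_neg hxy, if_neg (Ne.symm hxy), mul_zero]
  simp only [evF, hw, ite_mul, one_mul, zero_mul, Finset.sum_ite_eq', Finset.mem_univ, if_true]

lemma evF_one (hζ : IsPrimitiveRoot ζ p) :
    evF ζ (1 : Module.Dual (ZMod p) V → L) f = f 0 := by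
  rw [← evF_point f hζ 0]
  exact congrArg (evF ζ · f) (funext fun φ => (chi_zero_right φ).symm)

lemma exists_eq_sum_chi (hζ : IsPrimitiveRoot ζ p) :
    ∃ c : Module.Dual (ZMod p) V → L, f = ∑ φ, c φ • chi ζ φ := by
  classical
  have hN : (Fintype.card V : L) ≠ 0 := Nat.cast_ne_zero.mpr Fintype.card_ne_zero
  refine ⟨fun φ => (Fintype.card V : L)⁻¹ * ∑ x, f x * chi ζ φ (-x), funext fun y => ?_⟩
  simp only [Finset.sum_apply, Pi.smul_apply, smul_eq_mul, mul_assoc, Finset.sum_mul,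
    ← Finset.mul_sum, ← chi_add_right hζ]
  rw [Finset.sum_comm]
  simp only [← Finset.mul_sum, sum_chi_left hζ, neg_add_eq_zero, mul_ite, mul_zero,
    Finset.sum_ite_eq', Finset.mem_univ, if_true]
  field_simp

lemma eq_zero_of_evF (hζ : IsPrimitiveRoot ζ p) (h : ∀ f, evF ζ U f = 0) : U = 0 :=
  funext fun φ => by rw [← evF_chi U hζ φ, h]; rfl

/-- The product of two functionals is their convolution. -/
lemma evF_mul_eq (hζ : IsPrimitiveRoot ζ p) :
    evF ζ (U * W) f = evF ζ U fun x => evF ζ W fun y => f (x + y) := by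
  obtain ⟨d, rfl⟩ := exists_eq_sum_chi f hζ
  have h1 : ∀ x, (fun y => (∑ φ, d φ • chi ζ φ) (x + y)) =
      ∑ φ, (d φ * chi ζ φ x) • chi ζ φ := fun x => funext fun y => by
    simp [Finset.sum_apply, chi_add_right hζ, mul_assoc]
  have h2 : (fun x => evF ζ W fun y => (∑ φ, d φ • chi ζ φ) (x + y)) =
      ∑ φ, (d φ * W φ) • chi ζ φ := funext fun x => by
    rw [h1, evF_sum_right]
    simp only [evF_smul_right, evF_chi _ hζ, Finset.sum_apply, Pi.smul_apply, smul_eq_mul]
    exact Finset.sum_congr rfl fun φ _ => by ring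
  simp only [h2, evF_sum_right, evF_smul_right, evF_chi _ hζ, Pi.mul_apply]
  exact Finset.sum_congr rfl fun φ _ => by ring

lemma evF_mul (hζ : IsPrimitiveRoot ζ p) {ι : Type*} [Fintype ι] (c : ι → ι → L) (a : ι → V → L)
    (h : ∀ x y, f (x + y) = ∑ j, ∑ k, c j k * a j x * a k y) :
    evF ζ (U * W) f = ∑ j, ∑ k, c j k * evF ζ U (a j) * evF ζ W (a k) := by
  have h1 : ∀ x, (fun y => f (x + y)) = ∑ k, (∑ j, c j k * a j x) • a k := fun x => funext fun y => by
    rw [h, Finset.sum_comm]; simp [Finset.sum_apply, Finset.sum_mul]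
  have h2 : (fun x => evF ζ W fun y => f (x + y)) =
      ∑ j, (∑ k, c j k * evF ζ W (a k)) • a j := funext fun x => by
    simp only [h1, evF_sum_right, evF_smul_right, Finset.sum_mul, Finset.sum_apply, Pi.smul_apply,
      smul_eq_mul]
    rw [Finset.sum_comm]
    exact Finset.sum_congr rfl fun j _ => Finset.sum_congr rfl fun k _ => by ring
  rw [evF_mul_eq U W f hζ, h2]
  simp only [evF_sum_right, evF_smul_right, Finset.sum_mul]
  exact Finset.sum_congr rfl fun j _ => Finset.sum_congr rfl fun k _ => by ring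

end FA.LocalDef
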