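import Mathlib.GroupTheory.QuotientGroup.Basic
import Mathlib.GroupTheory.Index
import Mathlib.Algebra.Module.ZMod
import Mathlib.Algebra.Field.ZMod
import Mathlib.LinearAlgebra.Basis.VectorSpace
import Mathlib.LinearAlgebra.Projection
import Mathlib.Algebra.CharP.Lemmas

/-!
# Stable complements in elementary abelian sections
-/

set_option autoImplicit false
set_option linter.unusedSectionVars false

noncomputable section

namespace FA.LocalDef

/-- Averaged projection onto a stable subgroup of an elementary abelian `p`-group. -/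
theorem exists_equivariant_proj {p : ℕ} [Fact p.Prime] {W Q : Type*} [AddCommGroup W]
    [Module (ZMod p) W] [Group Q] [Fintype Q] (Ψ : Q →* AddMonoid.End W) (S : AddSubgroup W)
    (hS : ∀ q, ∀ w ∈ S, Ψ q w ∈ S) (hQ : ¬ p ∣ Fintype.card Q) :
    ∃ P : W →+ W, (∀ w, P w ∈ S) ∧ (∀ w ∈ S, P w = w) ∧ ∀ q w, P (Ψ q w) = Ψ q (P w) := by
  let S' : Submodule (ZMod p) W := AddSubgroup.toZModSubmodule p S
  obtain ⟨C, hC⟩ := S'.exists_isCompl
  let π₀ : W →ₗ[ZMod p] W := S'.subtype.comp (S'.projectionOnto C hC)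
  let T : Q → W →ₗ[ZMod p] W := fun q => (Ψ q).toZModLinearMap p
  have hTT : ∀ q w, T q w = Ψ q w := fun q w => rfl
  have hu : (Fintype.card Q : ZMod p) ≠ 0 := fun h => hQ ((ZMod.natCast_eq_zero_iff _ _).mp h)
  let π₁ : W →ₗ[ZMod p] W :=
    (Fintype.card Q : ZMod p)⁻¹ • ∑ q : Q, (T q).comp (π₀.comp (T q⁻¹))
  have hmul : ∀ a b w, Ψ a (Ψ b w) = Ψ (a * b) w := fun a b w => by rw [map_mul]; rfl
  refine ⟨π₁.toAddMonoidHom, fun w => ?_, fun w hw => ?_, fun r w => ?_⟩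
  · show π₁ w ∈ S'
    simp only [π₁, LinearMap.smul_apply, LinearMap.sum_apply, LinearMap.comp_apply]
    exact S'.smul_mem _ (S'.sum_mem fun q _ => hS q _ (S'.projectionOnto C hC (T q⁻¹ w)).2)
  · show π₁ w = w
    have h : ∀ q : Q, T q (π₀ (T q⁻¹ w)) = w := fun q => by
      rw [show π₀ (T q⁻¹ w) = T q⁻¹ w from congrArg Subtype.val
        (Submodule.projectionOnto_apply_left hC ⟨_, hS _ w hw⟩), hTT, hTT, hmul,
        mul_inv_cancel, map_one]
      rfl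
    simp only [π₁, LinearMap.smul_apply, LinearMap.sum_apply, LinearMap.comp_apply, h,
      Finset.sum_const, Finset.card_univ, ← Nat.cast_smul_eq_nsmul (ZMod p), smul_smul]
    rw [inv_mul_cancel₀ hu, one_smul]
  · show π₁ (T r w) = T r (π₁ w)
    simp only [π₁, LinearMap.smul_apply, LinearMap.sum_apply, LinearMap.comp_apply, map_smul,
      map_sum]
    congr 1
    refine (Fintype.sum_equiv (Equiv.mulLeft r) _ _ fun q => ?_).symm
    simp only [Equiv.coe_mulLeft, hTT, hmul]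
    simp

/-- In an elementary abelian `p`-section `G / N`, normal in `I` with index prime to `p`, every
`I`-stable subgroup has an `I`-stable complement. -/
theorem exists_stable_compl {Γ : Type*} [Group Γ] {p : ℕ} [hp : Fact p.Prime]
    (I G N S : Subgroup Γ) (hGI : G ≤ I) (hNS : N ≤ S) (hSG : S ≤ G)
    (hGn : ∀ g ∈ I, ∀ x ∈ G, g * x * g⁻¹ ∈ G) (hNn : ∀ g ∈ I, ∀ x ∈ N, g * x * g⁻¹ ∈ N)
    (hSn : ∀ g ∈ I, ∀ x ∈ S, g * x * g⁻¹ ∈ S) (hidx : ¬ p ∣ G.relIndex I)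
    (hexp : ∀ x ∈ G, x ^ p ∈ N) (hcomm : ∀ x ∈ G, ∀ y ∈ G, x⁻¹ * y⁻¹ * x * y ∈ N) :
    ∃ H : Subgroup Γ, N ≤ H ∧ H ≤ G ∧ (∀ g ∈ I, ∀ x ∈ H, g * x * g⁻¹ ∈ H) ∧
      (∀ x ∈ S, x ∈ H → x ∈ N) ∧ ∀ x ∈ G, ∃ a ∈ S, ∃ b ∈ H, x = a * b := by
  classical
  let N' : Subgroup G := N.subgroupOf G
  have hN'n : N'.Normal := ⟨fun x hx g => hNn g.1 (hGI g.2) x.1 hx⟩
  have hmc : ∀ a b : G ⧸ N', a * b = b * a := fun a b => by
    obtain ⟨a, rfl⟩ := QuotientGroup.mk'_surjective N' a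
    obtain ⟨b, rfl⟩ := QuotientGroup.mk'_surjective N' b
    rw [← map_mul, ← map_mul]
    refine QuotientGroup.eq.mpr ?_
    show ((a * b)⁻¹ * (b * a) : Γ) ∈ N
    have h := hcomm (b : Γ) b.2 (a : Γ) a.2
    simpa [mul_inv_rev, mul_assoc] using h
  let _ : CommGroup (G ⧸ N') := { (inferInstance : Group (G ⧸ N')) with mul_comm := hmc }
  have hzero : ∀ w : Additive (G ⧸ N'), p • w = 0 := fun w => by
    obtain ⟨q, rfl⟩ := Additive.ofMul.surjective w
    obtain ⟨x, rfl⟩ := QuotientGroup.mk'_surjective N' q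
    rw [← ofMul_pow, ← map_pow, QuotientGroup.mk'_apply,
      (QuotientGroup.eq_one_iff (N := N') _).mpr (hexp x.1 x.2), ofMul_one]
  let π : G → Additive (G ⧸ N') := fun x => Additive.ofMul (QuotientGroup.mk' N' x)
  have hπ0 : ∀ x : G, π x = 0 ↔ (x : Γ) ∈ N := fun x =>
    (Additive.ofMul.injective.eq_iff' rfl).trans (QuotientGroup.eq_one_iff (N := N') x)
  have hπmul : ∀ x y : G, π (x * y) = π x + π y := fun x y => by
    show Additive.ofMul _ = _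
    rw [map_mul]; rfl
  have hπinv : ∀ x : G, π x⁻¹ = -π x := fun x =>
    congrArg Additive.ofMul (map_inv (QuotientGroup.mk' N') x)
  have hπsurj : Function.Surjective π := fun w => by
    obtain ⟨x, hx⟩ := QuotientGroup.mk'_surjective N' (Additive.toMul w)
    exact ⟨x, congrArg Additive.ofMul hx⟩
  let cj : I → G →* G := fun g =>
    { toFun := fun x => ⟨g.1 * x.1 * g.1⁻¹, hGn g.1 g.2 x.1 x.2⟩
      map_one' := Subtype.ext (by simp)
      map_mul' := fun x y => Subtype.ext (by simp [mul_assoc]) }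
  have hmapN : ∀ g : I, N' ≤ N'.comap (cj g) := fun g x hx => hNn g.1 g.2 x.1 hx
  let T : I → AddMonoid.End (Additive (G ⧸ N')) := fun g =>
    MonoidHom.toAdditive (QuotientGroup.map N' N' (cj g) (hmapN g))
  have hT : ∀ (g : I) (x : G), T g (π x) = π (cj g x) := fun g x => rfl
  let φ : I →* AddMonoid.End (Additive (G ⧸ N')) :=
    { toFun := T
      map_one' := AddMonoidHom.ext fun w => by
        obtain ⟨x, rfl⟩ := hπsurj w
        show T 1 (π x) = π x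
        rw [hT]
        exact congrArg π (Subtype.ext (by simp [cj]))
      map_mul' := fun g h => AddMonoidHom.ext fun w => by
        obtain ⟨x, rfl⟩ := hπsurj w
        show T (g * h) (π x) = T g (T h (π x))
        rw [hT, hT, hT]
        exact congrArg π (Subtype.ext (by simp [cj, mul_assoc])) }
  have hGI' : (G.subgroupOf I).Normal := ⟨fun x hx g => hGn g.1 g.2 x.1 hx⟩
  have hker : G.subgroupOf I ≤ φ.ker := fun g hg => by
    refine MonoidHom.mem_ker.mpr (AddMonoidHom.ext fun w => ?_)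
    obtain ⟨x, rfl⟩ := hπsurj w
    show T g (π x) = π x
    rw [hT]
    have e : cj g x = ⟨g.1, hg⟩ * x * ⟨g.1, hg⟩⁻¹ := Subtype.ext rfl
    rw [e, hπmul, hπmul, hπinv]
    abel
  let Φ : I ⧸ G.subgroupOf I →* AddMonoid.End (Additive (G ⧸ N')) :=
    QuotientGroup.lift (G.subgroupOf I) φ hker
  have hfin : Finite (I ⧸ G.subgroupOf I) := Nat.finite_of_card_ne_zero fun h => hidx (by
    rw [show G.relIndex I = Nat.card (I ⧸ G.subgroupOf I) from rfl, h]; exact dvd_zero p)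
  let _ : Fintype (I ⧸ G.subgroupOf I) := Fintype.ofFinite _
  let S' : AddSubgroup (Additive (G ⧸ N')) :=
    { carrier := {w | ∃ x : G, (x : Γ) ∈ S ∧ π x = w}
      zero_mem' := ⟨1, S.one_mem, (hπ0 1).mpr N.one_mem⟩
      add_mem' := fun ⟨x, hx, hx'⟩ ⟨y, hy, hy'⟩ => ⟨x * y, S.mul_mem hx hy, by rw [hπmul, hx', hy']⟩
      neg_mem' := fun ⟨x, hx, hx'⟩ => ⟨x⁻¹, S.inv_mem hx, by rw [hπinv, hx']⟩ }
  have hS'mem : ∀ x : G, π x ∈ S' ↔ (x : Γ) ∈ S := fun x => by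
    constructor
    · rintro ⟨y, hy, hyx⟩
      have h : π (y⁻¹ * x) = 0 := by rw [hπmul, hπinv, hyx, neg_add_cancel]
      simpa using S.mul_mem hy (hNS ((hπ0 (y⁻¹ * x)).mp h))
    · exact fun hx => ⟨x, hx, rfl⟩
  have hstable : ∀ q, ∀ w ∈ S', Φ q w ∈ S' := by
    intro q w hw
    obtain ⟨g, rfl⟩ := QuotientGroup.mk_surjective q
    obtain ⟨x, rfl⟩ := hπsurj w
    show T g (π x) ∈ S'
    rw [hT]
    exact (hS'mem _).mpr (hSn g.1 g.2 x.1 ((hS'mem x).mp hw))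
  obtain ⟨P, hPmem, hPid, hPcomm⟩ := @exists_equivariant_proj p hp _ _ _
    (AddCommGroup.zmodModule hzero) _ _ Φ S' hstable (fun h => hidx (by
      rw [show G.relIndex I = Nat.card (I ⧸ G.subgroupOf I) from rfl, Nat.card_eq_fintype_card]
      exact h))
  refine ⟨{ carrier := {x | ∃ h : x ∈ G, P (π ⟨x, h⟩) = 0}
            one_mem' := ⟨G.one_mem, by rw [(hπ0 _).mpr N.one_mem, map_zero]⟩
            mul_mem' := ?_, inv_mem' := ?_ }, ?_, ?_, ?_, ?_, ?_⟩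
  · rintro x y ⟨hx, hx'⟩ ⟨hy, hy'⟩
    exact ⟨G.mul_mem hx hy, by
      rw [show (⟨x * y, G.mul_mem hx hy⟩ : G) = ⟨x, hx⟩ * ⟨y, hy⟩ from rfl, hπmul, map_add, hx',
        hy', add_zero]⟩
  · rintro x ⟨hx, hx'⟩
    refine ⟨G.inv_mem hx, ?_⟩
    rw [show (⟨x⁻¹, G.inv_mem hx⟩ : G) = ⟨x, hx⟩⁻¹ from rfl, hπinv, map_neg, hx', neg_zero]
  · exact fun x hx => ⟨hSG (hNS hx), by rw [(hπ0 _).mpr hx, map_zero]⟩
  · rintro x ⟨hx, -⟩; exact hx
  · rintro g hg x ⟨hx, hx'⟩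
    refine ⟨hGn g hg x hx, ?_⟩
    rw [show π ⟨g * x * g⁻¹, hGn g hg x hx⟩ = Φ (QuotientGroup.mk ⟨g, hg⟩) (π ⟨x, hx⟩) from rfl,
      hPcomm, hx', map_zero]
  · rintro x hxS ⟨hx, hx'⟩
    rw [hPid _ ((hS'mem _).mpr hxS)] at hx'
    exact (hπ0 _).mp hx'
  · intro x hx
    obtain ⟨a, ha, haw⟩ := hPmem (π ⟨x, hx⟩)
    refine ⟨a, ha, a.1⁻¹ * x, ⟨G.mul_mem (G.inv_mem a.2) hx, ?_⟩, by simp⟩
    rw [show (⟨a.1⁻¹ * x, G.mul_mem (G.inv_mem a.2) hx⟩ : G) = a⁻¹ * ⟨x, hx⟩ from rfl, hπmul,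
      hπinv, map_add, map_neg, hPid _ ⟨a, ha, rfl⟩, haw, neg_add_cancel]

end FA.LocalDef
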