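import Fermat.Agent.LocalDef.Model
import Mathlib.RingTheory.Valuation.ValuationSubring
import Mathlib.FieldTheory.IsAlgClosed.AlgebraicClosure
import Mathlib.LinearAlgebra.Matrix.Trace
import Mathlib.LinearAlgebra.Matrix.NonsingularInverse
import Fermat.Prelude.Def_FLTPrelim_Ramification

/-!
# Local conditions on residual representations and first order deformations

The residual representation is a map `r` to `2 × 2` matrices, a first order deformation with
constant determinant is a cocycle `c` for the adjoint action, the deformation being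
`σ ↦ (1 + ε c σ) r σ` on `k[ε] ^ 2`.
-/

set_option autoImplicit false
set_option linter.unusedSectionVars false

noncomputable section

namespace FA.LocalDef

open Matrix

local notation "Qb" => AlgebraicClosure ℚ
local notation "GQ" => AlgebraicClosure ℚ ≃ₐ[ℚ] AlgebraicClosure ℚ
local notation "M2" k => Matrix (Fin 2) (Fin 2) k

variable {k : Type} [Field k]

/-- The action on `k²`. -/
def act1 (r : GQ →* M2 k) (σ : GQ) (x : Fin 2 → k) : Fin 2 → k := r σ *ᵥ x

/-- The action of the first order deformation given by `c` on `k[ε]² = k² × k²`. -/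
def act2 (r : GQ →* M2 k) (c : GQ → M2 k) (σ : GQ) (x : (Fin 2 → k) × (Fin 2 → k)) :
    (Fin 2 → k) × (Fin 2 → k) :=
  (r σ *ᵥ x.1, r σ *ᵥ x.2 + c σ *ᵥ (r σ *ᵥ x.1))

/-- There is a model of `V` at `A` on which the decomposition group acts compatibly. -/
def HasModel (A : ValuationSubring Qb) (V : Type) [AddCommGroup V] [Fintype V]
    (act : GQ → V → V) : Prop :=
  ∃ M : Model A.valuation V, ∀ σ ∈ A.decompositionSubgroup ℚ, ∀ i x, σ (M.a i x) = M.a i (act σ x)

/-- `r` is finite flat at `A`. -/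
def IsFlatRes (A : ValuationSubring Qb) [Fintype k] (r : GQ →* M2 k) : Prop :=
  HasModel A (Fin 2 → k) (act1 r)

/-- The deformation given by `c` is finite flat at `A`. -/
def IsFlatClass (A : ValuationSubring Qb) [Fintype k] (r : GQ →* M2 k) (c : GQ → M2 k) : Prop :=
  HasModel A ((Fin 2 → k) × (Fin 2 → k)) (act2 r c)

/-- The determinant is the mod `p` cyclotomic character on the decomposition group. -/
def DetOmega (A : ValuationSubring Qb) (p : ℕ) (r : GQ →* M2 k) : Prop :=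
  ∀ σ ∈ A.decompositionSubgroup ℚ, ∀ a : ℕ, (∀ μ : Qb, μ ^ p = 1 → σ μ = μ ^ a) →
    (r σ).det = (a : k)

/-- A trace zero cocycle on the decomposition group. -/
def IsLocalCocycle (A : ValuationSubring Qb) (r : GQ →* M2 k) (c : GQ → M2 k) : Prop :=
  (∀ σ ∈ A.decompositionSubgroup ℚ, (c σ).trace = 0) ∧
    ∀ σ ∈ A.decompositionSubgroup ℚ, ∀ τ ∈ A.decompositionSubgroup ℚ,
      c (σ * τ) = c σ + r σ * c τ * r σ⁻¹

/-- The first order deformation given by `c` is strict ordinary at `A`: there is a line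
`k[ε] (l₀ + ε l₁)` stable under the decomposition group, inertia acts trivially on the quotient,
and the scalars `x`, `z` on the line and the quotient satisfy `x = a z` modulo `p`. -/
def IsStrictOrdClass (A : ValuationSubring Qb) (p : ℕ) (r : GQ →* M2 k) (c : GQ → M2 k) : Prop :=
  ∃ l₀ l₁ : Fin 2 → k, l₀ ≠ 0 ∧
    (∀ σ ∈ A.decompositionSubgroup ℚ, ∃ x₀ x₁ z₀ z₁ : k,
      act2 r c σ (l₀, l₁) = (x₀ • l₀, x₀ • l₁ + x₁ • l₀) ∧
      (∀ v : (Fin 2 → k) × (Fin 2 → k), ∃ s₀ s₁ : k,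
        act2 r c σ v - (z₀ • v.1, z₀ • v.2 + z₁ • v.1) = (s₀ • l₀, s₀ • l₁ + s₁ • l₀)) ∧
      ∀ a : ℕ, (∀ μ : Qb, μ ^ p = 1 → σ μ = μ ^ a) → x₀ = a * z₀ ∧ x₁ = a * z₁) ∧
    ∀ σ ∈ A.inertiaSubgroupIn ℚ, ∀ v : (Fin 2 → k) × (Fin 2 → k), ∃ s₀ s₁ : k,
      act2 r c σ v - v = (s₀ • l₀, s₀ • l₁ + s₁ • l₀)

/-- `r` is strict ordinary at `A`. -/
def IsStrictOrdRes (A : ValuationSubring Qb) (p : ℕ) (r : GQ →* M2 k) : Prop :=
  ∃ l : Fin 2 → k, l ≠ 0 ∧
    (∀ σ ∈ A.decompositionSubgroup ℚ, ∃ x z : k, r σ *ᵥ l = x • l ∧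
      (∀ v : Fin 2 → k, ∃ s : k, r σ *ᵥ v - z • v = s • l) ∧
      ∀ a : ℕ, (∀ μ : Qb, μ ^ p = 1 → σ μ = μ ^ a) → x = a * z) ∧
    ∀ σ ∈ A.inertiaSubgroupIn ℚ, ∀ v : Fin 2 → k, ∃ s : k, r σ *ᵥ v - v = s • l

/-- The conclusion of the tangent bound: the classes satisfying `P` lie in a subspace of dimension
at most `4` containing the coboundaries. As coboundaries have dimension `3 - h⁰`, this says
`h¹_P ≤ 1 + h⁰`. -/
def TangentBound (A : ValuationSubring Qb) (r : GQ →* M2 k) (P : (GQ → M2 k) → Prop) : Prop :=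
  ∃ Z : Submodule k (A.decompositionSubgroup ℚ → M2 k),
    FiniteDimensional k Z ∧ Module.finrank k Z ≤ 4 ∧
    (∀ X : M2 k, X.trace = 0 →
      (fun σ : A.decompositionSubgroup ℚ => r σ * X * r σ.1⁻¹ - X) ∈ Z) ∧
    ∀ c : GQ → M2 k, IsLocalCocycle A r c → P c →
      (fun σ : A.decompositionSubgroup ℚ => c σ) ∈ Z

end FA.LocalDef
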