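import Fermat.Agent.LocalDef.FunctionModel
import Fermat.Agent.LocalDef.Qbar
import Fermat.Agent.Local.Inertia
import Fermat.Agent.Local.Torsion
import Fermat.Agent.EC.Coord
import Fermat.Agent.EC.TorsionGalois

/-!
# Models of finite groups of points of an elliptic curve

Let a finite group `V` be mapped to points of good reduction of a curve, additively up to a defect
which only depends on residual classes. The coordinates of the translates by auxiliary points of
prime order `ℓ` generate an algebra of functions on `V` which is closed under addition: the chord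
between two translates in general position has integral slope. So `V` has a model.
-/

set_option autoImplicit false
set_option linter.unusedSectionVars false

noncomputable section

open WeierstrassCurve FA.Local FA.EC
open scoped Pointwise WeierstrassCurve.Affine

namespace FA.LocalDef

local notation "Qb" => AlgebraicClosure ℚ
local notation "GQ" => AlgebraicClosure ℚ ≃ₐ[ℚ] AlgebraicClosure ℚ

variable {A : ValuationSubring Qb}

/-- The ordinate, with junk value `0` at the point at infinity. -/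
def yc {E : WeierstrassCurve Qb} : E.toAffine.Point → Qb
  | .zero => 0
  | .some _ y _ => y

lemma yc_some {E : WeierstrassCurve Qb} {x y : Qb} (h : E.toAffine.Nonsingular x y) :
    yc (.some x y h) = y := rfl

/-- An affine integral point with nonsingular reduction. -/
def GoodPt (A : ValuationSubring Qb) {E : WeierstrassCurve Qb} (P : E.toAffine.Point) : Prop :=
  ∃ x y h, P = .some x y h ∧ A.valuation x ≤ 1 ∧ NsRed A.valuation E.toAffine x y

section Chord

variable {E : WeierstrassCurve Qb} (hI : IntCoeff A.valuation E.toAffine)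

include hI in
lemma GoodPt.int {P : E.toAffine.Point} (h : GoodPt A P) : xc P ∈ A ∧ yc P ∈ A := by
  obtain ⟨x, y, hns, rfl, hx, -⟩ := h
  exact ⟨(A.valuation_le_one_iff _).mp hx,
    (A.valuation_le_one_iff _).mp (le_y_of_le_x hI hns.1 hx)⟩

include hI in
/-- Residually distinct points up to sign have abscissae differing by a unit. -/
lemma GoodPt.sub_unit {P Q : E.toAffine.Point} (hP : GoodPt A P) (hQ : GoodPt A Q)
    (hsub : ¬ E1 A.valuation E.toAffine (P - Q)) (hadd : ¬ E1 A.valuation E.toAffine (P + Q)) :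
    A.valuation (xc P - xc Q) = 1 := by
  obtain ⟨x₁, y₁, h₁, rfl, hx₁, hns⟩ := hP
  obtain ⟨x₂, y₂, h₂, rfl, hx₂, -⟩ := hQ
  refine le_antisymm (A.valuation.map_sub_le hx₁ hx₂) (not_lt.mp fun hlt => ?_)
  rw [xc_some, xc_some] at hlt
  by_cases hy : A.valuation (y₁ - y₂) < 1
  · exact hsub (e1_sub_of_congr hI h₁ h₂ hx₁ hns hlt hy)
  · have hy₁ := le_y_of_le_x hI h₁.1 hx₁
    have hy₂ := le_y_of_le_x hI h₂.1 hx₂
    have key := chord_identity h₁.1 h₂.1
    have hsmall : A.valuation ((y₁ - y₂) * (y₁ + y₂ + E.toAffine.a₁ * x₁ + E.toAffine.a₃)) < 1 := by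
      rw [key]
      refine map_mul_lt_one' hlt ?_
      refine A.valuation.map_sub_le (A.valuation.map_add_le (A.valuation.map_add_le
        (A.valuation.map_add_le (A.valuation.map_add_le (map_pow_le_one hx₁ 2) (map_mul_le_one hx₁ hx₂))
          (map_pow_le_one hx₂ 2)) (map_mul_le_one hI.h₂ (A.valuation.map_add_le hx₁ hx₂))) hI.h₄)
        (map_mul_le_one hI.h₁ hy₂)
    rw [map_mul, eq_one_of_not_lt (A.valuation.map_sub_le hy₁ hy₂) hy, one_mul] at hsmall
    refine hadd ?_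
    have hn : E.toAffine.Nonsingular x₂ (E.toAffine.negY x₂ y₂) :=
      (Affine.nonsingular_neg _ _).mpr h₂
    rw [show (Affine.Point.some x₁ y₁ h₁ : E.toAffine.Point) + .some x₂ y₂ h₂ =
      .some x₁ y₁ h₁ - .some x₂ _ hn by
        rw [sub_eq_add_neg, Affine.Point.neg_some]; congr 1; simp only [Affine.negY]; congr 1; ring]
    refine e1_sub_of_congr hI h₁ hn hx₁ hns hlt ?_
    rw [show y₁ - E.toAffine.negY x₂ y₂ = (y₁ + y₂ + E.toAffine.a₁ * x₁ + E.toAffine.a₃) -
      E.toAffine.a₁ * (x₁ - x₂) by rw [Affine.negY]; ring]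
    exact A.valuation.map_sub_lt hsmall (map_mul_lt_one hI.h₁ hlt)

include hI in
/-- The coordinates of a sum of points in general position are in any algebra containing those of
the summands. -/
theorem chord_mem {Z : Type*} [Fintype Z] {Λ : Subalgebra A (Z → Qb)}
    (P Q : Z → E.toAffine.Point) (hP : ∀ z, GoodPt A (P z)) (hQ : ∀ z, GoodPt A (Q z))
    (hsub : ∀ z, ¬ E1 A.valuation E.toAffine (P z - Q z))
    (hadd : ∀ z, ¬ E1 A.valuation E.toAffine (P z + Q z))
    (hxP : (fun z => xc (P z)) ∈ Λ) (hyP : (fun z => yc (P z)) ∈ Λ)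
    (hxQ : (fun z => xc (Q z)) ∈ Λ) (hyQ : (fun z => yc (Q z)) ∈ Λ) :
    (fun z => xc (P z + Q z)) ∈ Λ ∧ (fun z => yc (P z + Q z)) ∈ Λ := by
  have hu : ∀ z, A.valuation ((fun z => xc (P z)) z - (fun z => xc (Q z)) z) = 1 := fun z =>
    (hP z).sub_unit hI (hQ z) (hsub z) (hadd z)
  let l : Z → Qb := fun z => (yc (P z) - yc (Q z)) * (xc (P z) - xc (Q z))⁻¹
  have hl : l ∈ Λ := Λ.mul_mem (Λ.sub_mem hyP hyQ) (inv_mem_of_units (Λ.sub_mem hxP hxQ) hu)
  let a₁ : Z → Qb := algebraMap A (Z → Qb) ⟨E.toAffine.a₁, (A.valuation_le_one_iff _).mp hI.h₁⟩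
  let a₂ : Z → Qb := algebraMap A (Z → Qb) ⟨E.toAffine.a₂, (A.valuation_le_one_iff _).mp hI.h₂⟩
  let a₃ : Z → Qb := algebraMap A (Z → Qb) ⟨E.toAffine.a₃, (A.valuation_le_one_iff _).mp hI.h₃⟩
  let X : Z → Qb := fun z => E.toAffine.addX (xc (P z)) (xc (Q z)) (l z)
  have hX : X ∈ Λ := by
    have e : X = l ^ 2 + a₁ * l - a₂ - (fun z => xc (P z)) - fun z => xc (Q z) := rfl
    rw [e]
    exact Λ.sub_mem (Λ.sub_mem (Λ.sub_mem (Λ.add_mem (Λ.pow_mem hl 2)
      (Λ.mul_mem (Λ.algebraMap_mem _) hl)) (Λ.algebraMap_mem _)) hxP) hxQ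
  let Y : Z → Qb := fun z => E.toAffine.addY (xc (P z)) (xc (Q z)) (yc (P z)) (l z)
  have hY : Y ∈ Λ := by
    have e : Y = -(l * (X - fun z => xc (P z)) + fun z => yc (P z)) - a₁ * X - a₃ := rfl
    rw [e]
    exact Λ.sub_mem (Λ.sub_mem (Λ.neg_mem (Λ.add_mem (Λ.mul_mem hl (Λ.sub_mem hX hxP)) hyP))
      (Λ.mul_mem (Λ.algebraMap_mem _) hX)) (Λ.algebraMap_mem _)
  have hsum : ∀ z, ∃ h, P z + Q z = .some (X z) (Y z) h := fun z => by
    have hz := hu z
    obtain ⟨x₁, y₁, h₁, e₁, -, -⟩ := hP z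
    obtain ⟨x₂, y₂, h₂, e₂, -, -⟩ := hQ z
    have hne : x₁ ≠ x₂ := fun h => by
      simp only [e₁, e₂, xc_some, h, sub_self, map_zero, zero_ne_one] at hz
    have hlz : l z = E.toAffine.slope x₁ x₂ y₁ y₂ := by
      show (yc (P z) - yc (Q z)) * (xc (P z) - xc (Q z))⁻¹ = _
      rw [e₁, e₂, xc_some, xc_some, yc_some, yc_some, Affine.slope_of_X_ne hne, div_eq_mul_inv]
    have hX' : X z = E.toAffine.addX x₁ x₂ (E.toAffine.slope x₁ x₂ y₁ y₂) := by
      show E.toAffine.addX (xc (P z)) (xc (Q z)) (l z) = _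
      rw [hlz, e₁, e₂, xc_some, xc_some]
    have hY' : Y z = E.toAffine.addY x₁ x₂ y₁ (E.toAffine.slope x₁ x₂ y₁ y₂) := by
      show E.toAffine.addY (xc (P z)) (xc (Q z)) (yc (P z)) (l z) = _
      rw [hlz, e₁, e₂, xc_some, xc_some, yc_some]
    refine ⟨hX' ▸ hY' ▸ Affine.nonsingular_add h₁ h₂ fun h => hne h.1, ?_⟩
    rw [e₁, e₂, Affine.Point.add_of_X_ne hne]
    simp [hX', hY']
  constructor
  · rw [show (fun z => xc (P z + Q z)) = X from funext fun z => by
      obtain ⟨h, e⟩ := hsum z; rw [e, xc_some]]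
    exact hX
  · rw [show (fun z => yc (P z + Q z)) = Y from funext fun z => by
      obtain ⟨h, e⟩ := hsum z; rw [e, yc_some]]
    exact hY

end Chord

variable (W : WeierstrassCurve ℚ) (A) (V : Type) [AddCommGroup V] [Fintype V]
  (act : GQ → V → V)

/-- Data giving a model of `V`: a map to a group of points of nonsingular reduction, additive up to
a defect which is constant on the classes of an equivariant function, and an auxiliary point of
prime order `ℓ`. -/
structure ChartData where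
  hI : IntCoeff A.valuation (W⁄Qb).toAffine
  G : AddSubgroup (W⁄Qb).toAffine.Point
  nsRed : ∀ x y h, (Affine.Point.some x y h : (W⁄Qb).toAffine.Point) ∈ G → A.valuation x ≤ 1 →
    NsRed A.valuation (W⁄Qb).toAffine x y
  smul_G : ∀ σ ∈ A.decompositionSubgroup ℚ, ∀ P ∈ G, σ • P ∈ G
  π : V → (W⁄Qb).toAffine.Point
  π_mem : ∀ P, π P ∈ G
  π_smul : ∀ σ ∈ A.decompositionSubgroup ℚ, ∀ P, σ • π P = π (act σ P)
  g : V → Qb
  g_int : ∀ P, g P ∈ A
  g_smul : ∀ σ ∈ A.decompositionSubgroup ℚ, ∀ P, σ (g P) = g (act σ P)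
  g_sep : ∀ P Q, g P ≠ g Q → A.valuation (g P - g Q) = 1
  g_add : ∀ P Q P' Q', g P = g P' → g Q = g Q' →
    g (P + Q) = g (P' + Q') ∧ π (P + Q) - π P - π Q = π (P' + Q') - π P' - π Q'
  separated : ∀ P Q, P ≠ Q → g P ≠ g Q ∨ π P ≠ π Q
  N : ℕ
  N_kill : ∀ P, E1 A.valuation (W⁄Qb).toAffine (N • π P)
  ℓ : ℕ
  prime : ℓ.Prime
  seven_le : 7 ≤ ℓ
  unit_ℓ : A.valuation (ℓ : Qb) = 1
  not_dvd : ¬ ℓ ∣ N
  R₀ : (W⁄Qb).toAffine.Point
  R₀_mem : R₀ ∈ G
  R₀_tors : ℓ • R₀ = 0
  R₀_ne : R₀ ≠ 0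

variable {W A V act} [W.IsElliptic]

namespace ChartData

variable (C : ChartData A W V act)

/-- The auxiliary points. -/
def S : Set (W⁄Qb).toAffine.Point := {R | R ∈ C.G ∧ C.ℓ • R = 0 ∧ R ≠ 0}

lemma finite_S : C.S.Finite := by
  have := finite_torsion W C.prime.ne_zero
  refine (Set.finite_range fun R : Submodule.torsionBy ℤ (W⁄Qb).Point (C.ℓ : ℤ) => R.1).subset
    fun R hR => ?_
  exact ⟨⟨R, (Submodule.mem_torsionBy_iff _ _).mpr (by rw [natCast_zsmul]; exact hR.2.1)⟩, rfl⟩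

/-- Points killed by `N` modulo the kernel of reduction. -/
def Zk : AddSubgroup (W⁄Qb).toAffine.Point :=
  (e1Subgroup C.hI).comap (nsmulAddMonoidHom C.N)

lemma mem_Zk {P} : P ∈ C.Zk ↔ E1 A.valuation (W⁄Qb).toAffine (C.N • P) := Iff.rfl

lemma π_Zk (P : V) : C.π P ∈ C.Zk := C.N_kill P

/-- The key genericity statement. -/
lemma not_e1 {R z : (W⁄Qb).toAffine.Point} (hR : R ∈ C.S) (hz : z ∈ C.Zk) {a : ℕ}
    (ha : ¬ C.ℓ ∣ a) : ¬ E1 A.valuation (W⁄Qb).toAffine (a • R + z) := fun h => by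
  have : WeierstrassCurve.IsElliptic (W⁄Qb).toAffine := inferInstanceAs (W⁄Qb).IsElliptic
  have h1 : E1 A.valuation (W⁄Qb).toAffine ((C.N * a) • R) := by
    have h' := e1_sub C.hI (e1_nsmul C.hI h C.N) (C.mem_Zk.mp hz)
    rwa [nsmul_add, add_sub_cancel_right, ← mul_nsmul'] at h'
  have h0 : (C.N * a) • R = 0 := eq_zero_of_e1_of_nsmul C.hI
    (C.prime.odd_of_ne_two (by have := C.seven_le; omega)) C.unit_ℓ h1
    (by rw [← mul_nsmul', mul_comm, mul_nsmul', hR.2.1, nsmul_zero])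
  have hdvd : C.ℓ ∣ C.N * a := by
    rw [← addOrderOf_dvd_iff_nsmul_eq_zero] at h0
    have hord : addOrderOf R = C.ℓ := by
      have : Fact C.ℓ.Prime := ⟨C.prime⟩
      exact addOrderOf_eq_prime hR.2.1 hR.2.2
    rwa [hord] at h0
  rcases C.prime.dvd_mul.mp hdvd with h | h
  · exact C.not_dvd h
  · exact ha h

lemma not_dvd_of_lt {a : ℕ} (h0 : 0 < a) (h : a < 7) : ¬ C.ℓ ∣ a := fun hd => by
  have := Nat.le_of_dvd h0 hd
  have := C.seven_le
  omega

lemma goodPt {X : (W⁄Qb).toAffine.Point} (hG : X ∈ C.G)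
    (h : ¬ E1 A.valuation (W⁄Qb).toAffine X) : GoodPt A X := by
  rcases X with _ | ⟨x, y, hns⟩
  · exact absurd e1_zero h
  · rw [e1_some, not_lt] at h
    exact ⟨x, y, hns, rfl, h, C.nsRed x y hns hG h⟩

lemma translate_good {R : (W⁄Qb).toAffine.Point} (hR : R ∈ C.S) (P : V) :
    GoodPt A (C.π P + R) := by
  refine C.goodPt (C.G.add_mem (C.π_mem P) hR.1) ?_
  simpa [add_comm] using C.not_e1 hR (C.π_Zk P) (C.not_dvd_of_lt one_pos (by norm_num))

lemma two_mem {R : (W⁄Qb).toAffine.Point} (hR : R ∈ C.S) : 2 • R ∈ C.S := by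
  refine ⟨C.G.nsmul_mem hR.1 2, by rw [smul_comm, hR.2.1, nsmul_zero], fun h => ?_⟩
  refine C.not_e1 hR C.Zk.zero_mem (C.not_dvd_of_lt two_pos (by norm_num)) ?_
  rw [h, add_zero]; exact e1_zero

lemma smul_mem_S {σ : GQ} (hσ : σ ∈ A.decompositionSubgroup ℚ) {R : (W⁄Qb).toAffine.Point}
    (hR : R ∈ C.S) : σ • R ∈ C.S :=
  ⟨C.smul_G σ hσ R hR.1, (map_nsmul (DistribSMul.toAddMonoidHom (W⁄Qb).toAffine.Point σ) C.ℓ R).symm.trans
    (by rw [DistribSMul.toAddMonoidHom_apply, hR.2.1, smul_zero]), fun h => hR.2.2 (by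
      have h' := congrArg (σ⁻¹ • ·) h
      simp only [inv_smul_smul] at h'
      exact h'.trans (gal_smul_zero W _))⟩

/-- The generators. -/
def gens : Finset (V → Qb) := by
  classical
  exact {C.g} ∪ C.finite_S.toFinset.image (fun R => fun P => xc (C.π P + R)) ∪
    C.finite_S.toFinset.image (fun R => fun P => yc (C.π P + R))

local notation "Λg" => Algebra.adjoin A (C.gens : Set (V → Qb))

lemma g_mem : C.g ∈ Λg := Algebra.subset_adjoin (by simp [gens])

lemma x_mem {R : (W⁄Qb).toAffine.Point} (hR : R ∈ C.S) : (fun P => xc (C.π P + R)) ∈ Λg :=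
  Algebra.subset_adjoin (by
    simp only [gens, Finset.coe_union, Set.mem_union, Finset.coe_image]
    exact Or.inl (Or.inr ⟨R, by simpa using hR, rfl⟩))

lemma y_mem {R : (W⁄Qb).toAffine.Point} (hR : R ∈ C.S) : (fun P => yc (C.π P + R)) ∈ Λg :=
  Algebra.subset_adjoin (by
    simp only [gens, Finset.coe_union, Set.mem_union, Finset.coe_image]
    exact Or.inr ⟨R, by simpa using hR, rfl⟩)

lemma fibre_mem (P₀ : V) [DecidablePred (· ∈ {P | C.g P = C.g P₀})] :
    (fun P => if P ∈ {P | C.g P = C.g P₀} then (1 : Qb) else 0) ∈ Λg :=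
  indicator_mem fun z hz => ⟨C.g, C.g_mem, C.g P₀, fun _ ht => ht,
    C.g_sep P₀ z (fun h => hz h.symm), (A.valuation_le_one_iff _).mpr (C.g_int z)⟩

/-- A function of two variables depending only on the classes is in the algebra of products. -/
lemma class_mem {F : V × V → Qb} (hF : ∀ z, F z ∈ A)
    (hcl : ∀ z z' : V × V, C.g z.1 = C.g z'.1 → C.g z.2 = C.g z'.2 → F z = F z') :
    F ∈ prodFns Λg Λg := by
  classical
  set T := Finset.univ.image C.g
  have hrep : ∀ w ∈ T, ∃ P, C.g P = w := fun w hw => by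
    obtain ⟨P, -, h⟩ := Finset.mem_image.mp hw
    exact ⟨P, h⟩
  choose rep hrep using hrep
  let ind : ∀ w ∈ T, V → Qb := fun w hw P => if P ∈ {P | C.g P = C.g (rep w hw)} then 1 else 0
  have e : F = ∑ w ∈ T.attach, ∑ u ∈ T.attach,
      algebraMap A (V × V → Qb) ⟨F (rep w.1 w.2, rep u.1 u.2), hF _⟩ *
        ((fun z => ind w.1 w.2 z.1) * fun z => ind u.1 u.2 z.2) := by
    funext z
    have hm : ∀ P, C.g P ∈ T := fun P => Finset.mem_image_of_mem _ (Finset.mem_univ P)
    simp only [Finset.sum_apply]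
    rw [Finset.sum_eq_single ⟨C.g z.1, hm _⟩ (fun w _ hw => Finset.sum_eq_zero fun u _ => ?_)
        (fun h => absurd (Finset.mem_attach _ _) h),
      Finset.sum_eq_single ⟨C.g z.2, hm _⟩ (fun u _ hu => ?_)
        (fun h => absurd (Finset.mem_attach _ _) h)]
    · simp only [Pi.mul_apply, ind, Set.mem_setOf_eq, hrep, if_true, mul_one]
      exact hcl _ _ (hrep _ _).symm (hrep _ _).symm
    · have : ¬ C.g z.2 = u.1 := fun h => hu (Subtype.ext h.symm)
      simp [ind, Set.mem_setOf_eq, hrep, this]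
    · have : ¬ C.g z.1 = w.1 := fun h => hw (Subtype.ext h.symm)
      simp [ind, Set.mem_setOf_eq, hrep, this]
  rw [e]
  exact sum_mem fun w _ => sum_mem fun u _ => (prodFns Λg Λg).mul_mem ((prodFns Λg Λg).algebraMap_mem _)
    ((prodFns Λg Λg).mul_mem (fst_mem_prodFns (C.fibre_mem (rep w.1 w.2)))
      (snd_mem_prodFns (C.fibre_mem (rep u.1 u.2))))

theorem comul_mem {R : (W⁄Qb).toAffine.Point} (hR : R ∈ C.S) :
    (fun z : V × V => xc (C.π (z.1 + z.2) + R)) ∈ prodFns Λg Λg ∧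
      (fun z : V × V => yc (C.π (z.1 + z.2) + R)) ∈ prodFns Λg Λg := by
  have hI := C.hI
  have hnd := fun {a : ℕ} => C.not_dvd_of_lt (a := a)
  have hneg : ∀ {z}, z ∈ C.Zk → -z ∈ C.Zk := fun h => C.Zk.neg_mem h
  let P : V × V → (W⁄Qb).toAffine.Point := fun z => C.π z.1 + R
  let Q : V × V → (W⁄Qb).toAffine.Point := fun z => C.π z.2 + 2 • R
  have h2 := C.two_mem hR
  obtain ⟨hxS, hyS⟩ := chord_mem hI (Λ := prodFns Λg Λg) P Q (fun z => C.translate_good hR z.1)
    (fun z => C.translate_good h2 z.2)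
    (fun z h => C.not_e1 hR (C.Zk.sub_mem (C.π_Zk z.2) (C.π_Zk z.1)) (hnd one_pos (by norm_num))
      (by
        have := e1_neg.mpr h
        convert this using 1
        simp only [P, Q, one_nsmul, two_nsmul]; abel))
    (fun z h => C.not_e1 hR (C.Zk.add_mem (C.π_Zk z.1) (C.π_Zk z.2))
      (hnd (a := 3) (by norm_num) (by norm_num)) (by
        convert h using 1
        simp only [P, Q, two_nsmul, succ_nsmul, zero_nsmul]; abel))
    (fst_mem_prodFns (C.x_mem hR)) (fst_mem_prodFns (C.y_mem hR))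
    (snd_mem_prodFns (C.x_mem h2)) (snd_mem_prodFns (C.y_mem h2))
  -- the correction
  let δ : V × V → (W⁄Qb).toAffine.Point := fun z =>
    C.π (z.1 + z.2) - C.π z.1 - C.π z.2 - 2 • R
  have hδZ : ∀ z : V × V, C.π (z.1 + z.2) - C.π z.1 - C.π z.2 ∈ C.Zk := fun z =>
    C.Zk.sub_mem (C.Zk.sub_mem (C.π_Zk _) (C.π_Zk _)) (C.π_Zk _)
  have hδG : ∀ z, δ z ∈ C.G := fun z => C.G.sub_mem (C.G.sub_mem (C.G.sub_mem (C.π_mem _)
    (C.π_mem _)) (C.π_mem _)) h2.1
  have hδgood : ∀ z, GoodPt A (δ z) := fun z => C.goodPt (hδG z) fun h =>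
    C.not_e1 hR (hneg (hδZ z)) (hnd two_pos (by norm_num)) (by
      convert e1_neg.mpr h using 1
      simp only [δ]; abel)
  have hδcl : ∀ z z' : V × V, C.g z.1 = C.g z'.1 → C.g z.2 = C.g z'.2 → δ z = δ z' :=
    fun z z' h1 h2' => by
      simp only [δ]
      rw [(C.g_add z.1 z.2 z'.1 z'.2 h1 h2').2]
  obtain ⟨hxT, hyT⟩ := chord_mem hI (Λ := prodFns Λg Λg) (fun z => P z + Q z) δ
    (fun z => C.goodPt (C.G.add_mem (C.G.add_mem (C.π_mem _) hR.1) (C.G.add_mem (C.π_mem _) h2.1))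
      fun h => C.not_e1 hR (C.Zk.add_mem (C.π_Zk z.1) (C.π_Zk z.2))
        (hnd (a := 3) (by norm_num) (by norm_num)) (by
          convert h using 1
          simp only [P, Q, two_nsmul, succ_nsmul, zero_nsmul]; abel))
    hδgood
    (fun z h => C.not_e1 hR (C.Zk.sub_mem (C.Zk.add_mem (C.π_Zk z.1) (C.π_Zk z.2)) (hδZ z))
      (hnd (a := 5) (by norm_num) (by norm_num)) (by
        convert h using 1
        simp only [P, Q, δ, two_nsmul, succ_nsmul, zero_nsmul]; abel))
    (fun z h => C.not_e1 hR (C.Zk.add_mem (C.Zk.add_mem (C.π_Zk z.1) (C.π_Zk z.2)) (hδZ z))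
      (hnd (a := 1) one_pos (by norm_num)) (by
        convert h using 1
        simp only [P, Q, δ, two_nsmul, one_nsmul]; abel))
    hxS hyS
    (C.class_mem (fun z => ((hδgood z).int hI).1) fun z z' h1 h2' => by rw [hδcl z z' h1 h2'])
    (C.class_mem (fun z => ((hδgood z).int hI).2) fun z z' h1 h2' => by rw [hδcl z z' h1 h2'])
  have hfinal : ∀ z, P z + Q z + δ z = C.π (z.1 + z.2) + R := fun z => by
    simp only [P, Q, δ]; abel
  simp only [hfinal] at hxT hyT
  exact ⟨hxT, hyT⟩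

/-- Functions on the auxiliary points with integral values are combinations of equivariant ones. -/
lemma mem_span_equiv_S [DecidableEq (W⁄Qb).toAffine.Point] (R : C.S) :
    (fun R' : C.S => if R' = R then (1 : Qb) else 0) ∈ Submodule.span A
      {e : C.S → Qb | (∀ R', e R' ∈ A) ∧ ∀ σ (hσ : σ ∈ A.decompositionSubgroup ℚ) (R' : C.S),
        σ (e R') = e ⟨σ • R'.1, C.smul_mem_S hσ R'.2⟩} := by
  classical
  set E0 := {e : C.S → Qb | (∀ R', e R' ∈ A) ∧ ∀ σ (hσ : σ ∈ A.decompositionSubgroup ℚ) (R' : C.S),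
        σ (e R') = e ⟨σ • R'.1, C.smul_mem_S hσ R'.2⟩}
  let _ : Fintype C.S := C.finite_S.fintype
  let B0 : Subalgebra A (C.S → Qb) :=
    Algebra.adjoin A ({fun R' : C.S => xc R'.1, fun R' : C.S => yc R'.1} : Set (C.S → Qb))
  have hgood : ∀ R' : C.S, GoodPt A R'.1 := fun R' => C.goodPt R'.2.1 fun h =>
    C.not_e1 R'.2 C.Zk.zero_mem (C.not_dvd_of_lt one_pos (by norm_num))
      (by simpa using h)
  have hint : ∀ e ∈ B0, ∀ R', e R' ∈ A := by
    intro e he R'
    induction he using Algebra.adjoin_induction with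
    | mem g hg =>
      rcases hg with rfl | rfl
      · exact ((hgood R').int C.hI).1
      · exact ((hgood R').int C.hI).2
    | algebraMap r => exact r.2
    | add a b _ _ h1 h2 => exact A.add_mem _ _ h1 h2
    | mul a b _ _ h1 h2 => exact A.mul_mem _ _ h1 h2
  have hone : (1 : C.S → Qb) ∈ E0 := ⟨fun _ => A.one_mem, fun σ _ _ => map_one σ⟩
  have hmul : ∀ a ∈ Submodule.span A E0, ∀ b ∈ Submodule.span A E0, a * b ∈ Submodule.span A E0 := by
    intro a ha b hb
    induction ha using Submodule.span_induction with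
    | mem a ha =>
      induction hb using Submodule.span_induction with
      | mem b hb =>
        exact Submodule.subset_span ⟨fun R' => A.mul_mem _ _ (ha.1 R') (hb.1 R'),
          fun σ hσ R' => by simp [ha.2 σ hσ R', hb.2 σ hσ R']⟩
      | zero => simp
      | add b c _ _ h1 h2 => rw [mul_add]; exact add_mem h1 h2
      | smul r b _ h1 => rw [mul_smul_comm]; exact Submodule.smul_mem _ r h1
    | zero => simp
    | add a c _ _ h1 h2 => rw [add_mul]; exact add_mem h1 h2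
    | smul r a _ h1 => rw [smul_mul_assoc]; exact Submodule.smul_mem _ r h1
  have hsm : ∀ σ ∈ A.decompositionSubgroup ℚ, ∀ R' : C.S,
      σ (xc R'.1) = xc (σ • R'.1) ∧ σ (yc R'.1) = yc (σ • R'.1) := fun σ _ R' => by
    obtain ⟨x, y, h, e, -, -⟩ := hgood R'
    obtain ⟨h', e'⟩ := smul_some (σ := σ) W h
    rw [e, e', xc_some, xc_some, yc_some, yc_some]; exact ⟨rfl, rfl⟩
  have hB : ∀ e ∈ B0, e ∈ Submodule.span A E0 := by
    intro e he
    induction he using Algebra.adjoin_induction with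
    | mem g hg =>
      rcases hg with rfl | rfl
      · exact Submodule.subset_span ⟨fun R' => ((hgood R').int C.hI).1,
          fun σ hσ R' => (hsm σ hσ R').1⟩
      · exact Submodule.subset_span ⟨fun R' => ((hgood R').int C.hI).2,
          fun σ hσ R' => (hsm σ hσ R').2⟩
    | algebraMap r =>
      rw [Algebra.algebraMap_eq_smul_one]
      exact Submodule.smul_mem _ r (Submodule.subset_span hone)
    | add a b _ _ h1 h2 => exact add_mem h1 h2
    | mul a b _ _ h1 h2 => exact hmul a h1 b h2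
  refine hB _ ?_
  have h := indicator_mem (Λ := B0) (T := {R}) fun z hz => ?_
  · simpa only [Set.mem_singleton_iff] using h
  · have hne : R.1 - z.1 ≠ 0 := fun h => hz (Subtype.ext (sub_eq_zero.mp h).symm)
    obtain ⟨x₁, y₁, h₁, e₁, hx₁, hns⟩ := hgood R
    obtain ⟨x₂, y₂, h₂, e₂, hx₂, -⟩ := hgood z
    have hxi := ((hgood z).int C.hI)
    rw [e₂, xc_some, yc_some] at hxi
    have hy₁ := le_y_of_le_x C.hI h₁.1 hx₁
    by_cases hxd : A.valuation (x₁ - x₂) < 1
    · have hy : ¬ A.valuation (y₁ - y₂) < 1 := fun hy => by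
        refine C.not_e1 (z := 0) (a := 1) ⟨C.G.sub_mem R.2.1 z.2.1, ?_, hne⟩ C.Zk.zero_mem
          (C.not_dvd_of_lt one_pos (by norm_num)) ?_
        · rw [nsmul_sub, R.2.2.1, z.2.2.1, sub_zero]
        · rw [one_nsmul, add_zero, e₁, e₂]
          exact e1_sub_of_congr C.hI h₁ h₂ hx₁ hns hxd hy
      refine ⟨_, Algebra.subset_adjoin (Or.inr rfl), y₁, fun t ht => ?_, ?_, ?_⟩
      · rw [Set.mem_singleton_iff] at ht; subst ht; show yc t.1 = _; rw [e₁, yc_some]
      · show A.valuation (y₁ - yc z.1) = 1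
        rw [e₂, yc_some]
        exact eq_one_of_not_lt (A.valuation.map_sub_le hy₁ ((A.valuation_le_one_iff _).mpr hxi.2)) hy
      · show A.valuation (yc z.1) ≤ 1
        rw [e₂, yc_some]; exact (A.valuation_le_one_iff _).mpr hxi.2
    · refine ⟨_, Algebra.subset_adjoin (Or.inl rfl), x₁, fun t ht => ?_, ?_, ?_⟩
      · rw [Set.mem_singleton_iff] at ht; subst ht; show xc t.1 = _; rw [e₁, xc_some]
      · show A.valuation (x₁ - xc z.1) = 1
        rw [e₂, xc_some]
        exact eq_one_of_not_lt (A.valuation.map_sub_le hx₁ hx₂) hxd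
      · show A.valuation (xc z.1) ≤ 1
        rw [e₂, xc_some]; exact hx₂

lemma gens_span [DecidableEq (W⁄Qb).toAffine.Point]
    (hbij : ∀ σ ∈ A.decompositionSubgroup ℚ, ∀ R ∈ C.S, σ⁻¹ • R ∈ C.S)
    (c : (W⁄Qb).toAffine.Point → Qb) (hc : ∀ R ∈ C.S, ∀ P, (fun P => c (C.π P + R)) P ∈ A)
    (hcmem : ∀ R ∈ C.S, (fun P => c (C.π P + R)) ∈ Λg)
    (hcsm : ∀ σ ∈ A.decompositionSubgroup ℚ, ∀ X, GoodPt A X → σ (c X) = c (σ • X))
    {R : (W⁄Qb).toAffine.Point} (hR : R ∈ C.S) :
    (fun P => c (C.π P + R)) ∈ Submodule.span A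
      {f | f ∈ Λg ∧ ∀ σ ∈ A.decompositionSubgroup ℚ, ∀ P, σ (f P) = f (act σ P)} := by
  classical
  let _ : Fintype C.S := C.finite_S.fintype
  let Φ : (C.S → Qb) →ₗ[A] (V → Qb) :=
    { toFun := fun e P => ∑ R' : C.S, e R' * c (C.π P + R'.1)
      map_add' := fun a b => funext fun P => by simp [add_mul, Finset.sum_add_distrib]
      map_smul' := fun r a => funext fun P => by
        simp only [Pi.smul_apply, RingHom.id_apply, Finset.smul_sum]
        exact Finset.sum_congr rfl fun R' _ => smul_mul_assoc _ _ _ }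
  have e : (fun P => c (C.π P + R)) = Φ (fun R' => if R' = ⟨R, hR⟩ then 1 else 0) :=
    funext fun P => by
      show _ = ∑ R' : C.S, (if R' = ⟨R, hR⟩ then (1 : Qb) else 0) * c (C.π P + R'.1)
      simp [ite_mul]
  rw [e]
  have h := Submodule.mem_map_of_mem (f := Φ) (C.mem_span_equiv_S ⟨R, hR⟩)
  rw [Submodule.map_span] at h
  refine Submodule.span_mono ?_ h
  rintro _ ⟨f, ⟨hfA, hf⟩, rfl⟩
  refine ⟨?_, fun σ hσ P => ?_⟩
  · rw [show Φ f = ∑ R' : C.S, algebraMap A (V → Qb) ⟨f R', hfA R'⟩ * fun P => c (C.π P + R'.1) from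
      funext fun P => by rw [Finset.sum_apply]; rfl]
    exact sum_mem fun R' _ => (Λg).mul_mem ((Λg).algebraMap_mem _) (hcmem _ R'.2)
  · show σ (∑ R' : C.S, f R' * c (C.π P + R'.1)) = ∑ R' : C.S, f R' * c (C.π (act σ P) + R'.1)
    rw [map_sum]
    refine Fintype.sum_equiv
      ⟨fun R' => ⟨σ • R'.1, C.smul_mem_S hσ R'.2⟩, fun R' => ⟨σ⁻¹ • R'.1, hbij σ hσ _ R'.2⟩,
        fun R' => Subtype.ext (inv_smul_smul σ R'.1), fun R' => Subtype.ext (smul_inv_smul σ R'.1)⟩
      _ _ fun R' => ?_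
    show σ (f R' * c (C.π P + R'.1)) = f ⟨σ • R'.1, _⟩ * c (C.π (act σ P) + σ • R'.1)
    rw [map_mul, hf σ hσ R', hcsm σ hσ _ (C.translate_good R'.2 P)]
    refine congrArg (fun X => _ * c X) ((gal_smul_add W σ _ _).trans ?_)
    exact congrArg (· + σ • R'.1) (C.π_smul σ hσ P)

/-- **Chart data give a model.** -/
theorem hasModel (C : ChartData A W V act) : HasModel A V act := by
  classical
  have hgood := fun {R} (hR : R ∈ C.S) P => (C.translate_good hR P).int C.hI
  have hR₀ : C.R₀ ∈ C.S := ⟨C.R₀_mem, C.R₀_tors, C.R₀_ne⟩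
  have hsm : ∀ σ : GQ, ∀ X : (W⁄Qb).toAffine.Point, GoodPt A X →
      σ (xc X) = xc (σ • X) ∧ σ (yc X) = yc (σ • X) := fun σ X hX => by
    obtain ⟨x, y, h, rfl, -, -⟩ := hX
    obtain ⟨h', e'⟩ := smul_some (σ := σ) W h
    rw [e', xc_some, xc_some, yc_some, yc_some]; exact ⟨rfl, rfl⟩
  have hinv : ∀ σ ∈ A.decompositionSubgroup ℚ, ∀ R ∈ C.S, σ⁻¹ • R ∈ C.S := fun σ hσ R hR =>
    C.smul_mem_S (inv_mem hσ) hR
  refine hasModel_of_adjoin C.gens (fun f hf => ?_) (fun f hf => ?_) (fun P Q hPQ => ?_)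
    fun f hf => ?_
  · simp only [gens, Finset.mem_union, Finset.mem_singleton, Finset.mem_image,
      Set.Finite.mem_toFinset] at hf
    rcases hf with (rfl | ⟨R, hR, rfl⟩) | ⟨R, hR, rfl⟩
    · exact C.g_int
    · exact fun P => (hgood hR P).1
    · exact fun P => (hgood hR P).2
  · simp only [gens, Finset.mem_union, Finset.mem_singleton, Finset.mem_image,
      Set.Finite.mem_toFinset] at hf
    rcases hf with (rfl | ⟨R, hR, rfl⟩) | ⟨R, hR, rfl⟩
    · exact Submodule.subset_span ⟨C.g_mem, C.g_smul⟩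
    · exact C.gens_span hinv xc (fun R hR P => (hgood hR P).1) (fun R hR => C.x_mem hR)
        (fun σ _ X hX => (hsm σ X hX).1) hR
    · exact C.gens_span hinv yc (fun R hR P => (hgood hR P).2) (fun R hR => C.y_mem hR)
        (fun σ _ X hX => (hsm σ X hX).2) hR
  · rcases C.separated P Q hPQ with h | h
    · exact ⟨C.g, by simp [gens], h⟩
    · obtain ⟨x₁, y₁, h₁, e₁, -, -⟩ := C.translate_good hR₀ P
      obtain ⟨x₂, y₂, h₂, e₂, -, -⟩ := C.translate_good hR₀ Q
      by_cases hx : x₁ = x₂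
      · refine ⟨fun P => yc (C.π P + C.R₀), ?_, ?_⟩
        · simp only [gens, Finset.mem_union, Finset.mem_image, Set.Finite.mem_toFinset]
          exact Or.inr ⟨C.R₀, hR₀, rfl⟩
        · show yc _ ≠ yc _
          rw [e₁, e₂, yc_some, yc_some]
          intro hy
          subst hx; subst hy
          exact h (add_right_cancel (e₁.trans e₂.symm))
      · refine ⟨fun P => xc (C.π P + C.R₀), ?_, ?_⟩
        · simp only [gens, Finset.mem_union, Finset.mem_image, Set.Finite.mem_toFinset]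
          exact Or.inl (Or.inr ⟨C.R₀, hR₀, rfl⟩)
        · show xc _ ≠ xc _
          rw [e₁, e₂, xc_some, xc_some]
          exact hx
  · simp only [gens, Finset.mem_union, Finset.mem_singleton, Finset.mem_image,
      Set.Finite.mem_toFinset] at hf
    rcases hf with (rfl | ⟨R, hR, rfl⟩) | ⟨R, hR, rfl⟩
    · exact C.class_mem (fun z => C.g_int _) fun z z' h1 h2 => (C.g_add _ _ _ _ h1 h2).1
    · exact (C.comul_mem hR).1
    · exact (C.comul_mem hR).2

end ChartData

end FA.LocalDef
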