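import Fermat.Agent.LocalDef.Defs
import Fermat.Agent.LocalDef.ModelOps
import Mathlib.RingTheory.IntegralClosure.IsIntegral.Basic
import Mathlib.RingTheory.Valuation.ValuationSubring
import Mathlib.FieldTheory.IsAlgClosed.AlgebraicClosure

/-!
# Algebras of integral functions on a finite set

An algebra of integral functions generated by finitely many functions is finite over the
valuation ring. It contains the inverse of a member with unit values, and the indicator of a
point separated residually from the others. If it is spanned by equivariant functions and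
closed under the addition map, it gives a model.
-/

set_option autoImplicit false
set_option linter.unusedSectionVars false

noncomputable section

namespace FA.LocalDef

local notation "Qb" => AlgebraicClosure ℚ
local notation "GQ" => AlgebraicClosure ℚ ≃ₐ[ℚ] AlgebraicClosure ℚ

open Polynomial

variable {A : ValuationSubring Qb} {V : Type*} [Fintype V]

/-- A function with integral values, as an integral element. -/
lemma isIntegral_of_values {f : V → Qb} (hf : ∀ x, f x ∈ A) : IsIntegral A f := by
  refine ⟨∏ x : V, (X - C (⟨f x, hf x⟩ : A)), monic_prod_of_monic _ _ fun x _ => monic_X_sub_C _, ?_⟩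
  rw [← aeval_def, map_prod]
  funext z
  rw [Finset.prod_apply]
  refine Finset.prod_eq_zero (Finset.mem_univ z) ?_
  rw [map_sub, aeval_X, aeval_C]
  show f z - algebraMap A Qb ⟨f z, hf z⟩ = 0
  exact sub_self _

/-- The inverse of a member with unit values. -/
lemma inv_mem_of_units {Λ : Subalgebra A (V → Qb)} {d : V → Qb} (hd : d ∈ Λ)
    (hu : ∀ x, A.valuation (d x) = 1) : (fun x => (d x)⁻¹) ∈ Λ := by
  have hmem : ∀ x, d x ∈ A := fun x => (A.valuation_le_one_iff _).mp (hu x).le
  set P : A[X] := ∏ x : V, (X - C (⟨d x, hmem x⟩ : A)) with hP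
  have h0 : IsUnit (P.coeff 0) := by
    rw [coeff_zero_eq_eval_zero, hP, eval_prod]
    refine IsUnit.prod_univ_iff.mpr fun x => ?_
    rw [eval_sub, eval_X, eval_C, zero_sub, IsUnit.neg_iff]
    exact (A.valuation_eq_one_iff _).mpr (hu x)
  obtain ⟨u, hu0⟩ := h0
  obtain ⟨Q, hQ⟩ : X ∣ P - C (P.coeff 0) := X_dvd_iff.mpr (by simp)
  have hPd : aeval d P = 0 := funext fun z => by
    rw [hP, map_prod, Finset.prod_apply]
    refine Finset.prod_eq_zero (Finset.mem_univ z) ?_
    rw [map_sub, aeval_X, aeval_C]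
    show d z - algebraMap A Qb ⟨d z, hmem z⟩ = 0
    exact sub_self _
  have e : (fun x => (d x)⁻¹) = algebraMap A (V → Qb) (-((u⁻¹ : Aˣ) : A)) * aeval d Q := by
    funext z
    have hz : d z ≠ 0 := fun h => by simpa [h] using hu z
    have h1 := congrFun (congrArg (aeval d) hQ) z
    rw [map_sub, hPd, aeval_C, map_mul, aeval_X, ← hu0] at h1
    simp only [Pi.sub_apply, Pi.zero_apply, zero_sub, Pi.mul_apply, Pi.algebraMap_apply] at h1
    rw [Pi.mul_apply, Pi.algebraMap_apply, inv_eq_iff_eq_inv]
    refine eq_inv_of_mul_eq_one_left ?_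
    rw [map_neg]
    have h2 : algebraMap A Qb ((u⁻¹ : Aˣ) : A) * algebraMap A Qb (u : A) = 1 := by
      rw [← map_mul, Units.inv_mul, map_one]
    linear_combination algebraMap A Qb ((u⁻¹ : Aˣ) : A) * h1 + h2
  rw [e]
  have hQmem : aeval d Q ∈ Algebra.adjoin A {d} := by
    rw [Algebra.adjoin_singleton_eq_range_aeval]; exact ⟨Q, rfl⟩
  exact Λ.mul_mem (Λ.algebraMap_mem _) (Algebra.adjoin_le (Set.singleton_subset_iff.mpr hd) hQmem)

/-- An indicator lies in the algebra when, for each point outside the set, some member separates it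
residually from the set and is constant there. -/
lemma indicator_mem {Λ : Subalgebra A (V → Qb)} {T : Set V} [DecidablePred (· ∈ T)]
    (h : ∀ z ∉ T, ∃ f ∈ Λ, ∃ c : Qb, (∀ t ∈ T, f t = c) ∧ A.valuation (c - f z) = 1 ∧
      A.valuation (f z) ≤ 1) :
    (fun x => if x ∈ T then (1 : Qb) else 0) ∈ Λ := by
  classical
  choose f hf c hc hu hfz using h
  let q : V → (V → Qb) := fun z => if hz : z ∈ T then 1
    else fun x => (c z hz - f z hz z)⁻¹ * (f z hz x - f z hz z)
  have hq : ∀ z, q z ∈ Λ := fun z => by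
    by_cases hz : z ∈ T
    · simp only [q, dif_pos hz]; exact Λ.one_mem
    · simp only [q, dif_neg hz]
      have h1 : (c z hz - f z hz z)⁻¹ ∈ A := (A.valuation_le_one_iff _).mp (by
        rw [map_inv₀, hu z hz, inv_one])
      exact Λ.mul_mem (Λ.algebraMap_mem ⟨_, h1⟩)
        (Λ.sub_mem (hf z hz) (Λ.algebraMap_mem ⟨_, (A.valuation_le_one_iff _).mp (hfz z hz)⟩))
  have e : (fun x => if x ∈ T then (1 : Qb) else 0) = ∏ z, q z := by
    funext x
    rw [Finset.prod_apply]
    by_cases hx : x ∈ T
    · rw [if_pos hx, Finset.prod_eq_one fun z _ => ?_]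
      by_cases hz : z ∈ T
      · simp [q, dif_pos hz]
      · simp only [q, dif_neg hz, hc z hz x hx]
        refine inv_mul_cancel₀ fun h0 => ?_
        simpa [h0] using hu z hz
    · rw [if_neg hx]
      refine (Finset.prod_eq_zero (Finset.mem_univ x) ?_).symm
      simp [q, dif_neg hx]
  rw [e]
  exact prod_mem fun z _ => hq z

/-- The products `f(x) g(y)` of members. -/
def prodFns {W : Type*} (Λ : Subalgebra A (V → Qb)) (Λ' : Subalgebra A (W → Qb)) :
    Subalgebra A (V × W → Qb) :=
  Algebra.adjoin A ((fun f => fun z : V × W => f z.1) '' (Λ : Set (V → Qb)) ∪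
    (fun f => fun z : V × W => f z.2) '' (Λ' : Set (W → Qb)))

lemma fst_mem_prodFns {W : Type*} {Λ : Subalgebra A (V → Qb)} {Λ' : Subalgebra A (W → Qb)}
    {f : V → Qb} (hf : f ∈ Λ) : (fun z : V × W => f z.1) ∈ prodFns Λ Λ' :=
  Algebra.subset_adjoin (Or.inl ⟨f, hf, rfl⟩)

lemma snd_mem_prodFns {W : Type*} {Λ : Subalgebra A (V → Qb)} {Λ' : Subalgebra A (W → Qb)}
    {f : W → Qb} (hf : f ∈ Λ') : (fun z : V × W => f z.2) ∈ prodFns Λ Λ' :=
  Algebra.subset_adjoin (Or.inr ⟨f, hf, rfl⟩)

section Group

variable [AddCommGroup V]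

/-- **A model from an algebra of functions.** -/
theorem hasModel_of_adjoin {V : Type} [AddCommGroup V] [Fintype V] {act : GQ → V → V}
    (G : Finset (V → Qb)) (hint : ∀ f ∈ G, ∀ x, f x ∈ A)
    (hequiv : ∀ f ∈ G, f ∈ Submodule.span A {g | g ∈ Algebra.adjoin A (G : Set (V → Qb)) ∧
      ∀ σ ∈ A.decompositionSubgroup ℚ, ∀ x, σ (g x) = g (act σ x)})
    (hsep : ∀ x y : V, x ≠ y → ∃ f ∈ G, f x ≠ f y)
    (hcomul : ∀ f ∈ G, (fun z : V × V => f (z.1 + z.2)) ∈
      prodFns (Algebra.adjoin A (G : Set (V → Qb))) (Algebra.adjoin A (G : Set (V → Qb)))) :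
    HasModel A V act := by
  classical
  set Λ := Algebra.adjoin A (G : Set (V → Qb)) with hΛ
  let E : Set (V → Qb) := {g | g ∈ Λ ∧ ∀ σ ∈ A.decompositionSubgroup ℚ, ∀ x, σ (g x) = g (act σ x)}
  have hEone : (1 : V → Qb) ∈ E := ⟨Λ.one_mem, fun σ _ x => map_one σ⟩
  have hEmul : ∀ a ∈ E, ∀ b ∈ E, a * b ∈ E := fun a ha b hb =>
    ⟨Λ.mul_mem ha.1 hb.1, fun σ hσ x => by simp [ha.2 σ hσ x, hb.2 σ hσ x]⟩
  have hspanmul : ∀ a ∈ Submodule.span A E, ∀ b ∈ Submodule.span A E, a * b ∈ Submodule.span A E := by
    intro a ha b hb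
    induction ha using Submodule.span_induction with
    | mem a ha =>
      induction hb using Submodule.span_induction with
      | mem b hb => exact Submodule.subset_span (hEmul a ha b hb)
      | zero => simp
      | add b c _ _ h1 h2 => rw [mul_add]; exact add_mem h1 h2
      | smul r b _ h1 => rw [mul_smul_comm]; exact Submodule.smul_mem _ r h1
    | zero => simp
    | add a c _ _ h1 h2 => rw [add_mul]; exact add_mem h1 h2
    | smul r a _ h1 => rw [smul_mul_assoc]; exact Submodule.smul_mem _ r h1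
  have hΛspan : Subalgebra.toSubmodule Λ = Submodule.span A E := by
    refine le_antisymm (fun f hf => ?_) (Submodule.span_le.mpr fun g hg => hg.1)
    rw [Subalgebra.mem_toSubmodule, hΛ] at hf
    induction hf using Algebra.adjoin_induction with
    | mem g hg => exact hequiv g hg
    | algebraMap r =>
      rw [Algebra.algebraMap_eq_smul_one]
      exact Submodule.smul_mem _ r (Submodule.subset_span hEone)
    | add a b _ _ h1 h2 => exact add_mem h1 h2
    | mul a b _ _ h1 h2 => exact hspanmul a h1 b h2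
  have hfg : (Subalgebra.toSubmodule Λ).FG :=
    fg_adjoin_of_finite G.finite_toSet fun f hf => isIntegral_of_values (hint f hf)
  rw [hΛspan] at hfg
  obtain ⟨F, hFE, hF⟩ := (Submodule.fg_span_iff_fg_span_finset_subset E).mp hfg
  have hcomb : ∀ f ∈ Λ, ∃ c : F → Qb, (∀ j, A.valuation (c j) ≤ 1) ∧
      ∀ x, f x = ∑ j, c j * j.1 x := by
    intro f hf
    have h : f ∈ Submodule.span A (F : Set (V → Qb)) := by
      rw [← hF, ← hΛspan]; exact hf
    obtain ⟨c, -, hc⟩ := Submodule.mem_span_finset.mp h
    refine ⟨fun j => (c j : Qb), fun j => (A.valuation_le_one_iff _).mpr (c j).2, fun x => ?_⟩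
    rw [← hc, ← Finset.sum_coe_sort, Finset.sum_apply]
    rfl
  have hΛint : ∀ f ∈ Λ, ∀ x, f x ∈ A := by
    intro f hf x
    rw [hΛ] at hf
    induction hf using Algebra.adjoin_induction with
    | mem g hg => exact hint g hg x
    | algebraMap r => exact r.2
    | add a b _ _ h1 h2 => exact A.add_mem _ _ h1 h2
    | mul a b _ _ h1 h2 => exact A.mul_mem _ _ h1 h2
  have hFΛ : ∀ j : F, j.1 ∈ Λ := fun j => (hFE j.2).1
  have hspan : Submodule.span Qb (Set.range fun j : F => j.1) = ⊤ := by
    set S := Submodule.span Qb (Set.range fun j : F => j.1)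
    have hmemΛ : ∀ f ∈ Λ, f ∈ S := fun f hf => by
      obtain ⟨c, -, hc⟩ := hcomb f hf
      rw [show f = ∑ j, c j • j.1 from funext fun x => by rw [hc x, Finset.sum_apply]; rfl]
      exact Submodule.sum_mem _ fun j _ => Submodule.smul_mem _ _ (Submodule.subset_span ⟨j, rfl⟩)
    have hSmul : ∀ a ∈ S, ∀ b ∈ S, a * b ∈ S := by
      intro a ha b hb
      induction ha using Submodule.span_induction with
      | mem a ha =>
        obtain ⟨i, rfl⟩ := ha
        induction hb using Submodule.span_induction with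
        | mem b hb =>
          obtain ⟨j, rfl⟩ := hb
          exact hmemΛ _ (Λ.mul_mem (hFΛ i) (hFΛ j))
        | zero => simp
        | add b c _ _ h1 h2 => rw [mul_add]; exact add_mem h1 h2
        | smul r b _ h1 => rw [mul_smul_comm]; exact Submodule.smul_mem _ r h1
      | zero => simp
      | add a c _ _ h1 h2 => rw [add_mul]; exact add_mem h1 h2
      | smul r a _ h1 => rw [smul_mul_assoc]; exact Submodule.smul_mem _ r h1
    let SA : Subalgebra Qb (V → Qb) :=
      S.toSubalgebra (hmemΛ 1 Λ.one_mem) fun a b ha hb => hSmul a ha b hb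
    refine eq_top_iff.mpr fun φ _ => ?_
    have hδ : ∀ x, (Pi.single x 1 : V → Qb) ∈ SA := fun x => by
      have hex : ∀ y, ∃ q ∈ SA, q x = 1 ∧ (y ≠ x → q y = 0) := fun y => by
        by_cases hy : y = x
        · exact ⟨1, SA.one_mem, rfl, fun h => absurd hy h⟩
        · obtain ⟨f, hfG, hfxy⟩ := hsep x y (Ne.symm hy)
          refine ⟨(f x - f y)⁻¹ • (f - algebraMap Qb (V → Qb) (f y)), SA.smul_mem (SA.sub_mem
            (hmemΛ f (Algebra.subset_adjoin hfG)) (SA.algebraMap_mem _)) _, ?_, fun _ => ?_⟩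
          · simp [inv_mul_cancel₀ (sub_ne_zero.mpr hfxy)]
          · simp
      choose q hq hqx hqy using hex
      rw [show (Pi.single x 1 : V → Qb) = ∏ y, q y from funext fun z => by
        rw [Finset.prod_apply]
        by_cases hz : z = x
        · subst hz; rw [Pi.single_eq_same, Finset.prod_eq_one fun y _ => hqx y]
        · rw [Pi.single_eq_of_ne hz]; exact (Finset.prod_eq_zero (f := fun y => q y z) (Finset.mem_univ z) (hqy z hz)).symm]
      exact prod_mem fun y _ => hq y
    rw [pi_eq_sum_univ' φ]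
    exact Submodule.sum_mem _ fun x _ => Submodule.smul_mem _ _ (hδ x)
  obtain ⟨M, g, hg, -⟩ := exists_model_of_family (v := A.valuation) (fun j : F => j.1) hspan
    (fun j x => (A.valuation_le_one_iff _).mpr (hΛint _ (hFΛ j) x))
    (by
      obtain ⟨c, hc, hc1⟩ := hcomb 1 Λ.one_mem
      exact ⟨c, hc, fun x => (hc1 x)⟩)
    (fun i j => hcomb _ (Λ.mul_mem (hFΛ i) (hFΛ j)))
    (fun i => by
      have hpair : ∀ q ∈ prodFns Λ Λ, ∃ c : F → F → Qb, (∀ j k, A.valuation (c j k) ≤ 1) ∧
          ∀ z : V × V, q z = ∑ j, ∑ k, c j k * j.1 z.1 * k.1 z.2 := by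
        have hprod : ∀ a ∈ Λ, ∀ b ∈ Λ, ∃ c : F → F → Qb, (∀ j k, A.valuation (c j k) ≤ 1) ∧
            ∀ z : V × V, a z.1 * b z.2 = ∑ j, ∑ k, c j k * j.1 z.1 * k.1 z.2 := fun a ha b hb => by
          obtain ⟨c, hc, hca⟩ := hcomb a ha
          obtain ⟨d, hd, hdb⟩ := hcomb b hb
          refine ⟨fun j k => c j * d k, fun j k => by rw [map_mul]; exact mul_le_one' (hc j) (hd k),
            fun z => ?_⟩
          rw [hca, hdb, Finset.sum_mul_sum]
          exact Finset.sum_congr rfl fun j _ => Finset.sum_congr rfl fun k _ => by ring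
        intro q hq
        rw [prodFns] at hq
        induction hq using Algebra.adjoin_induction with
        | mem g hg =>
          rcases hg with ⟨a, ha, rfl⟩ | ⟨b, hb, rfl⟩
          · obtain ⟨c, hc, he⟩ := hprod a ha 1 Λ.one_mem
            exact ⟨c, hc, fun z => by simpa using he z⟩
          · obtain ⟨c, hc, he⟩ := hprod 1 Λ.one_mem b hb
            exact ⟨c, hc, fun z => by simpa using he z⟩
        | algebraMap r =>
          obtain ⟨c, hc, he⟩ := hprod _ (Λ.algebraMap_mem r) 1 Λ.one_mem
          exact ⟨c, hc, fun z => by simpa using he z⟩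
        | add a b _ _ h1 h2 =>
          obtain ⟨c, hc, hca⟩ := h1
          obtain ⟨d, hd, hdb⟩ := h2
          exact ⟨c + d, fun j k => A.valuation.map_add_le (hc j k) (hd j k), fun z => by
            simp only [Pi.add_apply, hca z, hdb z, add_mul, Finset.sum_add_distrib]⟩
        | mul a b _ _ h1 h2 =>
          obtain ⟨c, hc, hca⟩ := h1
          obtain ⟨d, hd, hdb⟩ := h2
          choose e he hee using fun w : (F × F) × (F × F) =>
            hprod _ (Λ.mul_mem (hFΛ w.1.1) (hFΛ w.2.1)) _ (Λ.mul_mem (hFΛ w.1.2) (hFΛ w.2.2))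
          let K : (F × F) × (F × F) → Qb := fun w => c w.1.1 w.1.2 * d w.2.1 w.2.2
          have hK : ∀ w, A.valuation (K w) ≤ 1 := fun w => by
            rw [map_mul]; exact mul_le_one' (hc _ _) (hd _ _)
          refine ⟨fun m n => ∑ w, K w * e w m n,
            fun m n => map_sum_mul_le (fun w _ => hK w) fun w _ => he w m n, fun z => ?_⟩
          have hterm : ∀ w, K w * ((w.1.1.1 * w.2.1.1) z.1 * (w.1.2.1 * w.2.2.1) z.2) =
              ∑ mn : F × F, K w * e w mn.1 mn.2 * (mn.1.1 z.1 * mn.2.1 z.2) := fun w => by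
            rw [hee, Fintype.sum_prod_type, Finset.mul_sum]
            refine Finset.sum_congr rfl fun m _ => ?_
            rw [Finset.mul_sum]
            exact Finset.sum_congr rfl fun n _ => by ring
          calc (a * b) z = ∑ w, K w * ((w.1.1.1 * w.2.1.1) z.1 * (w.1.2.1 * w.2.2.1) z.2) := by
                rw [Pi.mul_apply, hca, hdb, ← Fintype.sum_prod_type', ← Fintype.sum_prod_type',
                  Fintype.sum_mul_sum, ← Fintype.sum_prod_type']
                exact Finset.sum_congr rfl fun w _ => by simp only [K, Pi.mul_apply]; ring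
            _ = ∑ mn : F × F, ∑ w, K w * e w mn.1 mn.2 * (mn.1.1 z.1 * mn.2.1 z.2) := by
                rw [Finset.sum_congr rfl fun w _ => hterm w, Finset.sum_comm]
            _ = _ := by
                rw [Fintype.sum_prod_type]
                refine Finset.sum_congr rfl fun m _ => Finset.sum_congr rfl fun n _ => ?_
                rw [mul_assoc (∑ w, K w * e w m n), Finset.sum_mul]
      have hadd : ∀ q ∈ Λ, (fun z : V × V => q (z.1 + z.2)) ∈ prodFns Λ Λ := by
        intro q hq
        rw [hΛ] at hq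
        induction hq using Algebra.adjoin_induction with
        | mem g hg => exact hcomul g hg
        | algebraMap r => exact (prodFns Λ Λ).algebraMap_mem r
        | add a b _ _ h1 h2 => exact (prodFns Λ Λ).add_mem h1 h2
        | mul a b _ _ h1 h2 => exact (prodFns Λ Λ).mul_mem h1 h2
      obtain ⟨c, hc, he⟩ := hpair _ (hadd _ (hFΛ i))
      exact ⟨c, hc, fun x y => he (x, y)⟩)
  exact ⟨M, fun σ hσ i x => by rw [hg]; exact (hFE (g i).2).2 σ hσ x⟩

end Group

end FA.LocalDef
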