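import Fermat.Agent.LocalDef.Defs
import Fermat.Agent.LocalDef.ModelOps
import Fermat.Agent.LocalDef.Qbar
import Fermat.Agent.TW.Frobenius

/-!
# Models at one place and global models

A model at a place `A` over `p` which is compatible with the decomposition group, for a group on
which the Galois group acts through a finite level, can be replaced by one whose basis functions
are compatible with the whole Galois group: a lattice at one place is spanned by Galois
equivariant functions, by approximation.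
-/

set_option autoImplicit false
set_option linter.unusedSectionVars false

noncomputable section

open FA.Deform FA.Local NumberField
open scoped Pointwise

namespace FA.LocalDef

local notation "Qb" => AlgebraicClosure ℚ
local notation "GQ" => AlgebraicClosure ℚ ≃ₐ[ℚ] AlgebraicClosure ℚ

variable {A : ValuationSubring Qb} {p : ℕ}

/-- Automorphisms preserving the prime of a place are in its decomposition group. -/
lemma mem_decomposition_of_primeAt (hp : p.Prime) (hA : A.LiesOverPrime p) {σ : GQ}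
    (h : ∀ b : ZBar, σ • b ∈ primeAt A ↔ b ∈ primeAt A) : σ ∈ A.decompositionSubgroup ℚ := by
  have h' : ∀ b : ZBar, σ⁻¹ • b ∈ primeAt A ↔ b ∈ primeAt A := fun b => by
    rw [← h, smul_inv_smul]
  show σ • A = A
  ext x
  rw [ValuationSubring.mem_pointwise_smul_iff_inv_smul_mem, AlgEquiv.smul_def]
  refine ⟨fun hx => ?_, fun hx => TW.apply_mem_of_primeAt hp hA σ⁻¹ h' hx⟩
  have := TW.apply_mem_of_primeAt hp hA σ h hx
  rwa [AlgEquiv.aut_inv, AlgEquiv.apply_symm_apply] at this

lemma resHom_surjective (E : IntermediateField ℚ Qb) [FiniteDimensional ℚ E] [IsGalois ℚ E] :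
    Function.Surjective (resHom E) :=
  AlgEquiv.restrictNormalHom_surjective _

/-- If `τ` fixes the centre of `A` on a Galois layer, it is induced by a decomposition element. -/
theorem exists_decomposition_extend (E : IntermediateField ℚ Qb) [FiniteDimensional ℚ E]
    [IsGalois ℚ E] (hp : p.Prime) (hA : A.LiesOverPrime p) (τ : E ≃ₐ[ℚ] E)
    (hτ : ∀ x : 𝓞 E, τ • x ∈ centre (vOn E A) ↔ x ∈ centre (vOn E A)) :
    ∃ δ ∈ A.decompositionSubgroup ℚ, resHom E δ = τ := by
  let 𝒪 := 𝓞 E
  let P : Ideal 𝒪 := centre (vOn E A)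
  have hAP : ∀ x : 𝒪, intIncl E x ∈ primeAt A ↔ x ∈ P := fun x => by
    rw [mem_primeAt, A.mem_nonunits_iff, coe_intIncl]
    exact Iff.rfl
  let _ : Algebra 𝒪 ZBar := (intIncl E).toAlgebra
  let σ₀ : GQ := τ.liftNormal Qb
  have hσ₀ : ∀ y : E, σ₀ (y : Qb) = ((τ y : E) : Qb) := fun y => τ.liftNormal_commutes Qb y
  have hσ₀' : ∀ x : 𝒪, σ₀ • algebraMap 𝒪 ZBar x = algebraMap 𝒪 ZBar (τ • x) := fun x => by
    refine Subtype.ext ?_
    rw [integralClosure.coe_smul]
    show σ₀ ((x : E) : Qb) = (((τ • x : 𝒪) : E) : Qb)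
    exact hσ₀ x
  let H := E.fixingSubgroup
  have hHclosed : IsClosed (H : Set GQ) := E.fixingSubgroup_isClosed
  have : CompactSpace H := isCompact_iff_compactSpace.mp hHclosed.isCompact
  let _ : TopologicalSpace ZBar := ⊥
  have : DiscreteTopology ZBar := ⟨rfl⟩
  have : ContinuousSMul GQ ZBar := by
    rw [continuousSMul_iff_stabilizer_isOpen]
    intro x
    have h := stabilizer_isOpen_of_isIntegral (K := ℚ) (x : Qb)
    convert h using 2
    ext g
    simp only [MulAction.mem_stabilizer_iff, Subtype.ext_iff, integralClosure.coe_smul]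
  have : ContinuousSMul H ZBar :=
    ⟨(continuous_smul (M := GQ) (X := ZBar)).comp (continuous_subtype_val.prodMap continuous_id)⟩
  have hHfix : ∀ (g : H) (x : 𝒪), g • algebraMap 𝒪 ZBar x = algebraMap 𝒪 ZBar x := fun g x => by
    refine Subtype.ext ?_
    show ((g : GQ) • algebraMap 𝒪 ZBar x : ZBar).1 = _
    rw [integralClosure.coe_smul]
    exact g.2 ⟨((x : E) : Qb), (x : E).2⟩
  have : SMulCommClass H 𝒪 ZBar := ⟨fun g x b => by
    rw [Algebra.smul_def, Algebra.smul_def, smul_mul', hHfix]⟩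
  have : Algebra.IsInvariant 𝒪 ZBar H := by
    constructor
    intro b hb
    have hbE : (b : Qb) ∈ E := by
      rw [← InfiniteGalois.fixedField_fixingSubgroup E]
      intro g
      exact congrArg Subtype.val (hb g)
    refine ⟨⟨⟨(b : Qb), hbE⟩, ?_⟩, Subtype.ext rfl⟩
    exact (isIntegral_algebraMap_iff (B := Qb) (algebraMap E Qb).injective).mp b.2
  let Q := primeAt A
  have hunder : ∀ x : 𝒪, algebraMap 𝒪 ZBar x ∈ σ₀⁻¹ • Q ↔ algebraMap 𝒪 ZBar x ∈ Q := fun x => by
    rw [Ideal.mem_inv_pointwise_smul_iff, hσ₀']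
    exact (hAP _).trans ((hτ x).trans (hAP x).symm)
  obtain ⟨g, hg⟩ := Algebra.IsInvariant.exists_smul_of_under_eq_of_profinite (A := 𝒪) (G := H)
    Q (σ₀⁻¹ • Q) (Ideal.ext fun x => (hunder x).symm)
  have hQ : (σ₀ * (g : GQ)) • Q = Q := by
    rw [show (σ₀ * (g : GQ)) • Q = σ₀ • ((g : GQ) • Q) from mul_smul _ _ _,
      show (g : GQ) • Q = σ₀⁻¹ • Q from hg.symm, smul_inv_smul]
  refine ⟨σ₀ * (g : GQ), mem_decomposition_of_primeAt hp hA fun b => ?_, AlgEquiv.ext fun y =>
    Subtype.ext ?_⟩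
  · show (σ₀ * (g : GQ)) • b ∈ Q ↔ b ∈ Q
    conv_lhs => rw [← hQ]
    exact Ideal.smul_mem_pointwise_smul_iff
  · rw [resHom_apply]
    show σ₀ ((g : GQ) (y : Qb)) = _
    rw [show (g : GQ) (y : Qb) = y from g.2 y, hσ₀]

lemma pow_sub_one_le {y : Qb} (hy : A.valuation y ≤ 1) (k : ℕ) :
    A.valuation (1 - y ^ k) ≤ A.valuation (1 - y) := by
  induction k with
  | zero => simp
  | succ k ih =>
    rw [show 1 - y ^ (k + 1) = (1 - y) + y * (1 - y ^ k) by ring]
    refine A.valuation.map_add_le le_rfl ?_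
    rw [map_mul]
    exact (mul_le_of_le_one_left' hy).trans ih

/-- Elements of a Galois layer close to `1` at `A` and close to `0` at its other places. -/
theorem exists_separating (E : IntermediateField ℚ Qb) [FiniteDimensional ℚ E] [IsGalois ℚ E]
    (hp : p.Prime) (hA : A.LiesOverPrime p) {y₀ : Qb} (hy₀ : y₀ ≠ 0) :
    ∃ θ : Qb, θ ∈ E ∧ (∀ δ ∈ A.decompositionSubgroup ℚ, δ θ = θ) ∧
      A.valuation (1 - θ) ≤ A.valuation y₀ ∧
      ∀ σ : GQ, (¬ ∃ δ ∈ A.decompositionSubgroup ℚ, resHom E δ = resHom E σ) →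
        A.valuation (σ θ) ≤ A.valuation y₀ := by
  classical
  set v := vOn E A with hv
  have hvp : v (p : E) < 1 := by
    rw [hv, vOn_apply]; simpa using A.mem_nonunits_iff.mp hA
  let P := centre v
  have hPmax : P.IsMaximal := (centre_isPrime v).isMaximal (centre_ne_bot hp.ne_zero hvp)
  let DE : Subgroup (E ≃ₐ[ℚ] E) := (A.decompositionSubgroup ℚ).map (resHom E)
  have hsep : ∀ τ : E ≃ₐ[ℚ] E, τ ∉ DE → ∃ t : 𝓞 E, τ • t ∈ P ∧ t ∉ P := by
    intro τ hτ
    by_contra hc
    push Not at hc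
    let Pτ : Ideal (𝓞 E) := P.comap (MulSemiringAction.toRingHom (E ≃ₐ[ℚ] E) (𝓞 E) τ)
    have hne : Pτ ≠ ⊤ := fun h => hPmax.ne_top ((Ideal.eq_top_iff_one _).mpr (by
      simpa [Pτ] using (Ideal.eq_top_iff_one _).mp h))
    have hne0 : Pτ ≠ ⊥ := fun h => by
      have hpm : (p : 𝓞 E) ∈ Pτ := by
        show τ • (p : 𝓞 E) ∈ P
        rw [show τ • (p : 𝓞 E) = (p : 𝓞 E) from map_natCast (MulSemiringAction.toRingHom (E ≃ₐ[ℚ] E) (𝓞 E) τ) p]
        show v ((p : 𝓞 E) : E) < 1
        simpa using hvp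
      rw [h, Ideal.mem_bot] at hpm
      exact hp.ne_zero (Nat.cast_eq_zero.mp hpm)
    have hmax : Pτ.IsMaximal :=
      (Ideal.comap_isPrime (MulSemiringAction.toRingHom (E ≃ₐ[ℚ] E) (𝓞 E) τ) P).isMaximal hne0
    have heq : Pτ = P := hmax.eq_of_le hPmax.ne_top hc
    obtain ⟨δ, hδ, hδτ⟩ := exists_decomposition_extend E hp hA τ fun x => by
      show x ∈ Pτ ↔ x ∈ P
      rw [heq]
    exact hτ ⟨δ, hδ, hδτ⟩
  choose t ht htP using hsep
  set T := ∏ τ : {τ : E ≃ₐ[ℚ] E // τ ∉ DE}, t τ.1 τ.2 with hT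
  have hTP : T ∉ P := fun h => by
    obtain ⟨i, -, hi⟩ := (centre_isPrime v).prod_mem_iff.mp h
    exact htP _ _ hi
  obtain ⟨s, i, hi, hsi⟩ := hPmax.exists_inv hTP
  set θ₀ : 𝓞 E := s * T with hθ₀
  have hθ1 : v (1 - (θ₀ : E)) < 1 := by
    have : 1 - θ₀ = i := by rw [hθ₀, ← hsi]; ring
    rw [← this] at hi
    simpa [P, mem_centre, map_sub, map_one] using hi
  have hθ0 : ∀ τ, τ ∉ DE → v (τ (θ₀ : E)) < 1 := fun τ hτ => by
    have h : τ • θ₀ ∈ P := by
      rw [hθ₀, smul_mul', hT, Finset.smul_prod']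
      refine P.mul_mem_left _ ?_
      exact (centre_isPrime v).prod_mem_iff.mpr ⟨⟨τ, hτ⟩, Finset.mem_univ _, ht τ hτ⟩
    exact h
  have hint : ∀ τ : E ≃ₐ[ℚ] E, v (τ (θ₀ : E)) ≤ 1 := fun τ =>
    map_ringOfIntegers_le_one v (τ • θ₀)
  have hDE : ∀ d ∈ DE, ∀ x : E, v (d x) = v x := by
    rintro _ ⟨δ, hδ, rfl⟩ x
    rw [hv, vOn_apply, vOn_apply, resHom_apply]
    exact decomp_map_eq hδ _
  set N : E := ∏ d : DE, (d : E ≃ₐ[ℚ] E) (θ₀ : E) with hN
  have hNle : ∀ τ : E ≃ₐ[ℚ] E, v (τ N) ≤ 1 := fun τ => by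
    rw [hN, map_prod, map_prod]
    exact Finset.prod_le_one (fun _ _ => zero_le) fun d _ => hint (τ * d)
  have hN1 : A.valuation (1 - (N : Qb)) < 1 := by
    have key : ∀ S : Finset DE, v (1 - ∏ d ∈ S, (d : E ≃ₐ[ℚ] E) (θ₀ : E)) < 1 := fun S => by
      induction S using Finset.induction_on with
      | empty => simp
      | @insert d S hd ih =>
        rw [Finset.prod_insert hd, show 1 - (d : E ≃ₐ[ℚ] E) (θ₀ : E) * ∏ e ∈ S, (e : E ≃ₐ[ℚ] E) θ₀ =
          (d : E ≃ₐ[ℚ] E) (1 - θ₀) + (d : E ≃ₐ[ℚ] E) θ₀ * (1 - ∏ e ∈ S, (e : E ≃ₐ[ℚ] E) θ₀) by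
            rw [map_sub, map_one]; ring]
        refine v.map_add_lt ?_ ?_
        · rwa [hDE d d.2]
        · rw [map_mul]
          exact lt_of_le_of_lt (mul_le_of_le_one_left' (hint d)) ih
    exact key Finset.univ
  have hNout : ∀ τ, τ ∉ DE → A.valuation ((τ N : E) : Qb) < 1 := fun τ hτ => by
    rw [← vOn_apply, ← hv, hN, ← Finset.mul_prod_erase Finset.univ _ (Finset.mem_univ (1 : DE)),
      map_mul, map_mul]
    refine lt_of_le_of_lt (mul_le_of_le_one_right' ?_) (by simpa using hθ0 τ hτ)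
    rw [map_prod, map_prod]
    exact Finset.prod_le_one (fun _ _ => zero_le) fun d _ => hint (τ * d)
  have hNfix : ∀ d ∈ DE, d N = N := fun d hd => by
    rw [hN, map_prod]
    exact Fintype.prod_equiv (Equiv.mulLeft (⟨d, hd⟩ : DE)) _ _ fun e => rfl
  -- exponents
  obtain ⟨k₁, hk₁⟩ := arch hp hA _ y₀ hN1 hy₀
  choose kτ hkτ using fun τ : {τ : E ≃ₐ[ℚ] E // τ ∉ DE} => arch hp hA _ y₀ (hNout τ.1 τ.2) hy₀
  set k := k₁ + ∑ τ, kτ τ with hk
  have hN' : A.valuation (N : Qb) ≤ 1 := hNle 1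
  have hNk : A.valuation (1 - (N : Qb) ^ k) ≤ A.valuation (1 - (N : Qb)) := pow_sub_one_le hN' k
  refine ⟨((1 - (1 - N ^ k) ^ k : E) : Qb), SetLike.coe_mem _, fun δ hδ => ?_, ?_, fun σ hσ => ?_⟩
  · rw [← resHom_apply, map_sub, map_one, map_pow, map_sub, map_one, map_pow,
      hNfix _ ⟨δ, hδ, rfl⟩]
  · push_cast
    rw [sub_sub_cancel, map_pow]
    calc A.valuation (1 - (N : Qb) ^ k) ^ k
        ≤ A.valuation (1 - (N : Qb)) ^ k := pow_le_pow_left₀ zero_le hNk _
      _ ≤ A.valuation (1 - (N : Qb)) ^ k₁ :=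
          pow_le_pow_right_of_le_one' hN1.le (Nat.le_add_right _ _)
      _ ≤ _ := hk₁
  · have hτ : resHom E σ ∉ DE := fun ⟨δ, hδ, h⟩ => hσ ⟨δ, hδ, h⟩
    rw [← resHom_apply, map_sub, map_one, map_pow, map_sub, map_one, map_pow]
    push_cast
    set t := ((resHom E σ N : E) : Qb) ^ k with htdef
    have htle : A.valuation t ≤ 1 := by
      rw [htdef, map_pow]; exact pow_le_one₀ zero_le (hNle _)
    have h1 : A.valuation (1 - t) ≤ 1 := A.valuation.map_sub_le (map_one _).le htle
    calc A.valuation (1 - (1 - t) ^ k) ≤ A.valuation (1 - (1 - t)) := pow_sub_one_le h1 k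
      _ = A.valuation ((resHom E σ N : E) : Qb) ^ k := by rw [sub_sub_cancel, htdef, map_pow]
      _ ≤ A.valuation ((resHom E σ N : E) : Qb) ^ kτ ⟨_, hτ⟩ :=
          pow_le_pow_right_of_le_one' (hNle _) (le_add_left
            (Finset.single_le_sum (f := kτ) (fun _ _ => Nat.zero_le _) (Finset.mem_univ _)))
      _ ≤ _ := hkτ ⟨_, hτ⟩

/-- A finite Galois layer containing a given one and given elements. -/
lemma exists_layer_above (F : IntermediateField ℚ Qb) [FiniteDimensional ℚ F] (s : Finset Qb) :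
    ∃ E : IntermediateField ℚ Qb, FiniteDimensional ℚ E ∧ IsGalois ℚ E ∧ F ≤ E ∧ ∀ x ∈ s, x ∈ E := by
  let K : IntermediateField ℚ Qb := IntermediateField.adjoin ℚ (s : Set Qb)
  have : FiniteDimensional ℚ K := IntermediateField.finiteDimensional_adjoin fun x _ =>
    (Algebra.IsAlgebraic.isAlgebraic x).isIntegral
  let G : IntermediateField ℚ Qb := F ⊔ K
  have hn : Normal ℚ (IntermediateField.normalClosure ℚ G Qb) := normalClosure.normal ℚ G Qb
  exact ⟨IntermediateField.normalClosure ℚ G Qb, inferInstance,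
    isGalois_iff.mpr ⟨inferInstance, hn⟩, le_sup_left.trans G.le_normalClosure,
    fun x hx => G.le_normalClosure
      ((le_sup_right : K ≤ G) (IntermediateField.subset_adjoin ℚ _ hx))⟩

variable {V : Type} [AddCommGroup V] [Fintype V]

/-- **Global models**: a model at one place compatible with the decomposition group gives one
compatible with the Galois group. -/
theorem exists_global_model (hp : p.Prime) (hA : A.LiesOverPrime p) {act : GQ → V → V}
    (h1 : ∀ x, act 1 x = x) (hmul : ∀ σ τ x, act (σ * τ) x = act σ (act τ x))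
    (hcont : ∃ F : IntermediateField ℚ Qb, FiniteDimensional ℚ F ∧
      ∀ σ ∈ F.fixingSubgroup, ∀ x, act σ x = x)
    (hM : HasModel A V act) :
    ∃ M : Model A.valuation V, ∀ (σ : GQ) (i x : V), σ (M.a i x) = M.a i (act σ x) := by
  classical
  obtain ⟨M, hM⟩ := hM
  obtain ⟨F, hF, hFfix⟩ := hcont
  obtain ⟨E, hE, hEgal, hFE, hEa⟩ := exists_layer_above F
    ((Finset.univ : Finset (V × V)).image fun ix => M.a ix.1 ix.2)
  have hact : ∀ σ τ : GQ, resHom E σ = resHom E τ → ∀ x, act σ x = act τ x := fun σ τ h x => by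
    have hmem : σ⁻¹ * τ ∈ F.fixingSubgroup := fun y => by
      have h' := congrArg Subtype.val (congrArg (fun f => f ⟨(y : Qb), hFE y.2⟩) h)
      simp only [resHom_apply] at h'
      show σ⁻¹ (τ (y : Qb)) = y
      rw [← h', AlgEquiv.aut_inv, AlgEquiv.symm_apply_apply]
    calc act σ x = act σ (act (σ⁻¹ * τ) x) := by rw [hFfix _ hmem]
      _ = act τ x := by rw [← hmul, mul_inv_cancel_left]
  -- the error bound
  let R : GQ ⧸ (resHom E).ker → Qb → Qb := fun q y => q.out y
  let L : V → V → Qb := fun x i => M.coord (Pi.single x 1) i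
  have hfin : Finite (GQ ⧸ (resHom E).ker) :=
    Finite.of_equiv _ (QuotientGroup.quotientKerEquivOfSurjective _ (resHom_surjective E)).toEquiv.symm
  let _ : Fintype (GQ ⧸ (resHom E).ker) := Fintype.ofFinite _
  set B : Finset Qb := {1} ∪
    (Finset.univ : Finset ((GQ ⧸ (resHom E).ker) × V × V)).image (fun z => R z.1 (M.a z.2.1 z.2.2))
    with hB
  set C : Finset Qb := {1} ∪ (Finset.univ : Finset (V × V)).image (fun z => L z.1 z.2) with hC
  obtain ⟨b, hb, hbmax⟩ := B.exists_max_image (fun y => A.valuation y) ⟨1, by simp [hB]⟩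
  obtain ⟨c, hc, hcmax⟩ := C.exists_max_image (fun y => A.valuation y) ⟨1, by simp [hC]⟩
  have hb1 : 1 ≤ A.valuation b := by simpa using hbmax 1 (by simp [hB])
  have hc1 : 1 ≤ A.valuation c := by simpa using hcmax 1 (by simp [hC])
  have hb0 : A.valuation b ≠ 0 := ne_of_gt (zero_lt_one.trans_le hb1)
  have hc0 : A.valuation c ≠ 0 := ne_of_gt (zero_lt_one.trans_le hc1)
  set y₀ : Qb := (p : Qb) / (b * c) with hy₀def
  have hy₀ : y₀ ≠ 0 := div_ne_zero (Nat.cast_ne_zero.mpr hp.ne_zero)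
    (mul_ne_zero (fun h => hb0 (by simp [h])) fun h => hc0 (by simp [h]))
  have hsmall : A.valuation y₀ * A.valuation b * A.valuation c < 1 := by
    rw [hy₀def, map_div₀, map_mul, mul_assoc, div_mul_cancel₀ _ (mul_ne_zero hb0 hc0)]
    exact valuation_p_lt_one hA
  obtain ⟨θ, hθE, hθfix, hθ1, hθout⟩ := exists_separating E hp hA hy₀
  -- the equivariant functions
  let S : Subgroup GQ := ((A.decompositionSubgroup ℚ).map (resHom E)).comap (resHom E)
  have hSmem : ∀ {σ}, σ ∈ S ↔ ∃ δ ∈ A.decompositionSubgroup ℚ, resHom E δ = resHom E σ :=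
    Iff.rfl
  have hSle : (resHom E).ker ≤ S := fun σ hσ => hSmem.mpr ⟨1, one_mem _, by rw [map_one]; exact hσ.symm⟩
  have hS : ∀ s ∈ S, ∀ i x, s (θ * M.a i x) = θ * M.a i (act s x) := fun s hs i x => by
    obtain ⟨δ, hδ, hδs⟩ := hSmem.mp hs
    have hmem : θ * M.a i x ∈ E :=
      mul_mem hθE (hEa _ (Finset.mem_image.mpr ⟨(i, x), Finset.mem_univ _, rfl⟩))
    calc s (θ * M.a i x) = ((resHom E s ⟨_, hmem⟩ : E) : Qb) := (resHom_apply E s ⟨_, hmem⟩).symm
      _ = δ (θ * M.a i x) := by rw [← hδs, resHom_apply]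
      _ = _ := by rw [map_mul, hθfix δ hδ, hM δ hδ, hact δ s hδs]
  have hSfin : Finite (GQ ⧸ S) :=
    Finite.of_surjective (Quotient.map' id fun a b h => by
      rw [QuotientGroup.leftRel_apply] at h ⊢; exact hSle h : GQ ⧸ (resHom E).ker → GQ ⧸ S)
      fun q => Quotient.inductionOn' q fun a => ⟨QuotientGroup.mk a, rfl⟩
  let _ : Fintype (GQ ⧸ S) := Fintype.ofFinite _
  let Tm : V → V → GQ → Qb := fun i x σ => σ (θ * M.a i (act σ⁻¹ x))
  have hTm : ∀ i x σ τ, σ⁻¹ * τ ∈ S → Tm i x σ = Tm i x τ := fun i x σ τ h => by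
    show σ (θ * M.a i (act σ⁻¹ x)) = τ (θ * M.a i (act τ⁻¹ x))
    conv_rhs => rw [show τ = σ * (σ⁻¹ * τ) by rw [mul_inv_cancel_left], AlgEquiv.mul_apply, hS _ h,
      ← hmul, mul_inv_rev, ← mul_assoc, mul_inv_cancel, one_mul]
  let Tq : V → V → GQ ⧸ S → Qb := fun i x q => Quotient.liftOn' q (Tm i x) fun σ τ h =>
    hTm i x σ τ (QuotientGroup.leftRel_apply.mp h)
  let g : V → V → Qb := fun i x => ∑ q, Tq i x q
  have hg : ∀ σ i x, σ (g i x) = g i (act σ x) := fun σ i x => by
    rw [map_sum]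
    refine Fintype.sum_equiv (MulAction.toPerm σ) _ _ fun q => ?_
    refine Quotient.inductionOn' q fun τ => ?_
    show σ (Tm i x τ) = Tm i (act σ x) (σ * τ)
    show σ (τ (θ * _)) = (σ * τ) (θ * M.a i (act (σ * τ)⁻¹ (act σ x)))
    rw [← hmul, mul_inv_rev, mul_assoc, inv_mul_cancel, mul_one, AlgEquiv.mul_apply]
  -- they are close to the basis
  have herr : ∀ i x, A.valuation (g i x - M.a i x) ≤ A.valuation y₀ * A.valuation b := fun i x => by
    have e : g i x - M.a i x =
        ∑ q ∈ Finset.univ.erase (QuotientGroup.mk (1 : GQ)), Tq i x q + (θ - 1) * M.a i x := by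
      show (∑ q, Tq i x q) - _ = _
      rw [← Finset.sum_erase_add Finset.univ (Tq i x) (Finset.mem_univ (QuotientGroup.mk (1 : GQ))),
        show Tq i x (QuotientGroup.mk (1 : GQ)) = Tm i x 1 from rfl]
      simp only [Tm, inv_one, h1, AlgEquiv.one_apply]
      ring
    rw [e]
    refine A.valuation.map_add_le (A.valuation.map_sum_le fun q hq => ?_) ?_
    · revert hq
      refine Quotient.inductionOn' q fun σ hq => ?_
      have hσ : σ ∉ S := fun h => (Finset.mem_erase.mp hq).1 (QuotientGroup.eq.mpr (by simpa using h))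
      show A.valuation (Tm i x σ) ≤ _
      show A.valuation (σ (θ * _)) ≤ _
      rw [map_mul, map_mul]
      refine mul_le_mul' (hθout σ fun h => hσ (hSmem.mpr h)) ?_
      set σ' : GQ := (QuotientGroup.mk σ : GQ ⧸ (resHom E).ker).out
      have hσ' : resHom E σ' = resHom E σ := by
        have h := QuotientGroup.eq.mp (Quotient.out_eq' (QuotientGroup.mk σ : GQ ⧸ (resHom E).ker))
        rw [MonoidHom.mem_ker, map_mul, map_inv, inv_mul_eq_one] at h
        exact h
      have hmem := hEa _ (Finset.mem_image.mpr ⟨(i, act σ⁻¹ x), Finset.mem_univ _, rfl⟩)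
      rw [show σ (M.a i (act σ⁻¹ x)) = σ' (M.a i (act σ⁻¹ x)) by
        rw [← resHom_apply E σ ⟨_, hmem⟩, ← hσ', resHom_apply]]
      exact hbmax _ (by
        rw [hB, Finset.mem_union]
        exact Or.inr (Finset.mem_image.mpr ⟨(QuotientGroup.mk σ, i, act σ⁻¹ x), Finset.mem_univ _, rfl⟩))
    · rw [map_mul, ← Valuation.map_neg, neg_sub]
      exact (mul_le_of_le_one_right' (M.int i x)).trans (hθ1.trans (le_mul_of_one_le_right' hb1))
  -- the change of basis
  have hΔ : ∀ i j, A.valuation (M.coord (g i - M.a i) j) < 1 := fun i j => by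
    have e : M.coord (g i - M.a i) j = ∑ x, (g i x - M.a i x) * L x j := by
      refine congrFun (M.coord_unique (c := M.coord (g i - M.a i))
        (d := fun j => ∑ x, (g i x - M.a i x) * L x j) ?_) j
      rw [← M.sum_coord]
      simp only [Finset.sum_smul]
      rw [Finset.sum_comm]
      conv_lhs => rw [pi_eq_sum_univ' (g i - M.a i)]
      refine Finset.sum_congr rfl fun x _ => ?_
      simp only [mul_smul, ← Finset.smul_sum]
      rw [show (∑ j, L x j • M.a j) = Pi.single x 1 from (M.sum_coord _).symm, Pi.sub_apply]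
    rw [e]
    refine lt_of_le_of_lt (A.valuation.map_sum_le fun x _ => ?_) hsmall
    rw [map_mul]
    exact mul_le_mul' (herr i x) (hcmax _ (by
      rw [hC, Finset.mem_union]
      exact Or.inr (Finset.mem_image.mpr ⟨(x, j), Finset.mem_univ _, rfl⟩)))
  let U : Matrix V V A := Matrix.of fun i j => (if i = j then 1 else 0) +
    ⟨M.coord (g i - M.a i) j, mem_of_map_le (hΔ i j).le⟩
  have hUdet : IsUnit U.det := by
    have h : U.map (IsLocalRing.residue A) = 1 := by
      ext i j
      have h0 : IsLocalRing.residue A ⟨M.coord (g i - M.a i) j, mem_of_map_le (hΔ i j).le⟩ = 0 := by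
        rw [IsLocalRing.residue_eq_zero_iff, ← A.coe_mem_nonunits_iff, A.mem_nonunits_iff]
        exact hΔ i j
      simp only [U, Matrix.map_apply, Matrix.of_apply, map_add, h0, add_zero, Matrix.one_apply]
      split_ifs <;> simp
    by_contra hc
    have := IsLocalRing.residue_eq_zero_iff U.det |>.mpr hc
    rw [RingHom.map_det, RingHom.mapMatrix_apply, h, Matrix.det_one] at this
    exact one_ne_zero this
  have hUg : ∀ i x, g i x = ∑ j, (U i j : Qb) * M.a j x := fun i x => by
    have hsub : g i x - M.a i x = ∑ j, M.coord (g i - M.a i) j * M.a j x := by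
      rw [← M.apply_eq_sum, Pi.sub_apply]
    rw [eq_add_of_sub_eq hsub]
    have hδ : ∀ j, ((if i = j then 1 else 0 : A) : Qb) = if i = j then 1 else 0 := fun j => by
      split_ifs <;> simp
    simp [U, add_mul, Finset.sum_add_distrib, hδ, ite_mul]
    ring
  have hback : ∀ i x, M.a i x = ∑ j, ((U⁻¹) i j : Qb) * g j x := fun i x => by
    simp only [hUg, Finset.mul_sum]
    rw [Finset.sum_comm]
    simp only [← mul_assoc, ← MulMemClass.coe_mul, ← AddSubmonoidClass.coe_finsetSum, ← Finset.sum_mul,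
      ← Matrix.mul_apply, Matrix.nonsing_inv_mul U hUdet]
    rw [Finset.sum_eq_single i (fun j _ hj => by simp [Matrix.one_apply, Ne.symm hj]) (by simp)]
    simp
  have hAle : ∀ z : A, A.valuation (z : Qb) ≤ 1 := fun z => (A.valuation_le_one_iff _).mpr z.2
  have conv : ∀ d : V → Qb, (∀ i, A.valuation (d i) ≤ 1) → ∃ e : V → Qb,
      (∀ j, A.valuation (e j) ≤ 1) ∧ ∀ x, ∑ i, d i * M.a i x = ∑ j, e j * g j x := fun d hd =>
    ⟨fun j => ∑ i, d i * (U⁻¹) i j, fun j => map_sum_mul_le (fun i _ => hd i) fun i _ => hAle _,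
      fun x => by
        simp only [hback, Finset.mul_sum, Finset.sum_mul, mul_assoc]
        exact Finset.sum_comm⟩
  refine ⟨{ a := g
            full := fun f => ?_
            int := fun i x => by
              rw [hUg]; exact map_sum_mul_le (fun j _ => hAle _) fun j _ => M.int j x
            one := ?_
            mul := fun i j => ?_
            comul := fun i => ?_ }, fun σ i x => hg σ i x⟩
  · refine ⟨fun j => ∑ i, M.coord f i * (U⁻¹) i j, funext fun x => ?_⟩
    rw [M.apply_eq_sum f x]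
    simp only [hback, Finset.sum_apply, Pi.smul_apply, smul_eq_mul, Finset.mul_sum, Finset.sum_mul,
      mul_assoc]
    exact Finset.sum_comm
  · obtain ⟨d, hd, he⟩ := M.one
    obtain ⟨e, he', hee⟩ := conv d hd
    exact ⟨e, he', fun x => (he x).trans (hee x)⟩
  · choose d hd hde using fun k l => M.mul k l
    obtain ⟨e, he, hee⟩ := conv (fun m => ∑ k, ∑ l, (U i k : Qb) * U j l * d k l m) fun m =>
      A.valuation.map_sum_le fun k _ => A.valuation.map_sum_le fun l _ => by
        rw [map_mul, map_mul]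
        exact mul_le_one' (mul_le_one' (hAle _) (hAle _)) (hd k l m)
    refine ⟨e, he, fun x => (Eq.trans ?_ (hee x))⟩
    simp only [Finset.sum_mul]
    rw [hUg, hUg, Finset.sum_mul_sum]
    conv_rhs => rw [Finset.sum_comm]
    refine Finset.sum_congr rfl fun k _ => ?_
    conv_rhs => rw [Finset.sum_comm]
    refine Finset.sum_congr rfl fun l _ => ?_
    rw [mul_mul_mul_comm, hde k l x, Finset.mul_sum]
    exact Finset.sum_congr rfl fun m _ => by ring
  · choose d hd hde using fun k => M.comul k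
    choose e he hee using fun j => conv (fun l => ∑ k, (U i k : Qb) * d k j l) fun l =>
      map_sum_mul_le (fun k _ => hAle _) fun k _ => hd k j l
    choose f hf hfe using fun n => conv (fun j => e j n) fun j => he j n
    refine ⟨fun m n => f n m, fun m n => hf n m, fun x y => ?_⟩
    calc g i (x + y) = ∑ j, M.a j x * ∑ l, (∑ k, (U i k : Qb) * d k j l) * M.a l y := by
          simp only [hUg i, hde, Finset.mul_sum, Finset.sum_mul]
          rw [Finset.sum_comm]
          refine Finset.sum_congr rfl fun j _ => ?_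
          rw [Finset.sum_comm]
          exact Finset.sum_congr rfl fun l _ => Finset.sum_congr rfl fun k _ => by ring
      _ = ∑ j, ∑ n, M.a j x * (e j n * g n y) := by simp only [hee, Finset.mul_sum]
      _ = ∑ n, (∑ j, e j n * M.a j x) * g n y := by
          rw [Finset.sum_comm]
          simp only [Finset.sum_mul]
          exact Finset.sum_congr rfl fun n _ => Finset.sum_congr rfl fun j _ => by ring
      _ = _ := by
          simp only [hfe, Finset.sum_mul]
          exact Finset.sum_comm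

end FA.LocalDef
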