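import Fermat.Agent.LocalDef.Graded
import Mathlib.Algebra.Polynomial.Roots
import Mathlib.Algebra.BigOperators.Group.Finset.Basic

/-!
# Layers over a bigger subgroup: products over the fibres

For layers `Λ.N ≤ Λ'.N` the conjugates of `π` are partitioned by the conjugate of `ϖ` which they
give, and the product of the `v (π - r)` over the fibre of `g ϖ` is `v (ϖ - g ϖ)`.
-/

set_option autoImplicit false
set_option linter.unusedSectionVars false

noncomputable section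

open Polynomial FA.Local
open scoped Pointwise

namespace FA.LocalDef

local notation "Qb" => AlgebraicClosure ℚ
local notation "GQ" => AlgebraicClosure ℚ ≃ₐ[ℚ] AlgebraicClosure ℚ

variable {A : ValuationSubring Qb} {p : ℕ}

/-- An integral polynomial is at most as big as the product over any set of its integral roots. -/
theorem val_eval_le_prod {f : Qb[X]} (hf : ∀ i, f.coeff i ∈ A) {s : Finset Qb}
    (hsA : ∀ r ∈ s, r ∈ A) (hs : ∀ r ∈ s, f.IsRoot r) {x : Qb} (hx : A.valuation x ≤ 1) :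
    A.valuation (f.eval x) ≤ ∏ r ∈ s, A.valuation (x - r) := by
  classical
  by_cases h0 : f = 0
  · rw [h0, eval_zero, map_zero]; exact zero_le
  obtain ⟨f', hf'⟩ := (Polynomial.mem_lifts (f := A.subtype) f).mp
    ((Polynomial.lifts_iff_coeff_lifts f).mpr fun i => ⟨⟨_, hf i⟩, rfl⟩)
  set s' : Finset A := s.attach.image fun r => ⟨r.1, hsA r.1 r.2⟩ with hs'
  have hf0 : f' ≠ 0 := fun h => h0 (by rw [← hf', h, Polynomial.map_zero])
  have hdvd : ∏ r ∈ s', (X - C r) ∣ f' := by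
    refine (Multiset.prod_X_sub_C_dvd_iff_le_roots hf0 s'.val).mpr
      ((Multiset.le_iff_subset s'.nodup).mpr fun r hr => ?_)
    obtain ⟨r₀, -, rfl⟩ := Finset.mem_image.mp (Finset.mem_def.mpr hr)
    refine (mem_roots hf0).mpr ?_
    have h := hs r₀.1 r₀.2
    rw [IsRoot.def, ← hf', eval_map,
      show (r₀.1 : Qb) = A.subtype ⟨r₀.1, hsA r₀.1 r₀.2⟩ from rfl, eval₂_at_apply] at h
    exact (map_eq_zero_iff A.subtype Subtype.coe_injective).mp h
  obtain ⟨q, hq⟩ := hdvd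
  rw [← hf', hq, Polynomial.map_mul, eval_mul, map_mul, Polynomial.map_prod, eval_prod, map_prod]
  refine le_trans (mul_le_of_le_one_right' ?_) (le_of_eq ?_)
  · rw [eval_eq_sum_range]
    refine A.valuation.map_sum_le fun i _ => ?_
    rw [map_mul, map_pow, coeff_map]
    exact mul_le_one' ((A.valuation_le_one_iff _).mpr (q.coeff i).2) (pow_le_one₀ zero_le hx)
  · rw [hs', Finset.prod_image (fun a _ b _ h => Subtype.ext (congrArg (fun t : A => (t : Qb)) h :) :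
        Set.InjOn (fun r : {r // r ∈ s} => (⟨r.1, hsA r.1 r.2⟩ : A)) s.attach),
      ← Finset.prod_attach s fun r => A.valuation (x - r)]
    exact Finset.prod_congr rfl fun r _ => by simp

namespace Layer

variable (Λ Λ' : Layer A p)

local notation "v" => ValuationSubring.valuation A

/-- Setting: `Λ'` lies below `Λ`. -/
structure Below : Prop where
  le : Λ.N ≤ Λ'.N

variable {Λ Λ'} (hB : Below Λ Λ')

/-- The ratio of the degrees. -/
def relDeg (Λ Λ' : Layer A p) : ℕ := Λ.N.relIndex Λ'.N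

include hB in
lemma deg_mul : relDeg Λ Λ' * Λ'.D = Λ.D := by
  have h := Subgroup.relIndex_mul_relIndex _ _ _ hB.le Λ'.le
  rwa [Λ.D_eq, Λ'.D_eq] at h

include hB in
lemma relDeg_pos : 0 < relDeg Λ Λ' :=
  Nat.pos_of_mul_pos_right (show 0 < relDeg Λ Λ' * Λ'.D by rw [deg_mul hB]; exact Λ.D_pos)

include hB in
lemma val_uniformizer : v Λ'.π = v Λ.π ^ relDeg Λ Λ' := by
  refine (pow_left_inj₀ zero_le zero_le Λ'.D_pos.ne').mp ?_
  rw [← pow_mul, deg_mul hB, Λ.val, Λ'.val]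

include hB in
lemma fixed_below : ∀ τ ∈ Λ.N, τ Λ'.π = Λ'.π := fun τ hτ => Λ'.fixed τ (hB.le hτ)

/-- The map from the conjugates of `π` to those of `ϖ`. -/
def key : Qb[X] := (Λ.exists_coords (fixed_below hB)).choose

lemma key_eval {σ : GQ} (hσ : σ ∈ A.inertiaSubgroupIn ℚ) :
    (key hB).eval (σ Λ.π) = σ Λ'.π :=
  (Λ.exists_coords (fixed_below hB)).choose_spec.2.2 σ hσ

lemma key_coeff (i : ℕ) : (key hB).coeff i ∈ kurInt A :=
  Λ.coords_integral (Λ.exists_coords (fixed_below hB)).choose_spec.1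
    (Λ.exists_coords (fixed_below hB)).choose_spec.2.1 (by
      have h : (key hB).eval Λ.π = Λ'.π := by simpa using key_eval hB (one_mem _)
      exact (h ▸ Λ'.π_lt_one.le : v ((key hB).eval Λ.π) ≤ 1)) i

/-- The conjugates of `π` above the conjugate `y` of `ϖ`. -/
def fibre (y : Qb) : Finset Qb :=
  open Classical in Λ.conj.filter fun r => (key hB).eval r = y

lemma mem_fibre {y r : Qb} : r ∈ fibre hB y ↔ r ∈ Λ.conj ∧ (key hB).eval r = y := by
  classical
  exact Finset.mem_filter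

lemma key_mem {r : Qb} (hr : r ∈ Λ.conj) : (key hB).eval r ∈ Λ'.conj := by
  obtain ⟨σ, hσ, rfl⟩ := Λ.mem_conj.mp hr
  rw [key_eval hB hσ]
  exact Λ'.mem_conj.mpr ⟨σ, hσ, rfl⟩

lemma prod_fibres (f : Qb → A.ValueGroup) :
    ∏ r ∈ Λ.conj, f r = ∏ y ∈ Λ'.conj, ∏ r ∈ fibre hB y, f r := by
  classical
  rw [← Finset.prod_fiberwise_of_maps_to (fun r hr => key_mem hB hr) f]
  refine Finset.prod_congr rfl fun y _ => Finset.prod_congr ?_ fun _ _ => rfl
  ext r
  rw [Finset.mem_filter, mem_fibre]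

lemma prod_fibre_shift {σ : GQ} (hσ : σ ∈ A.inertiaSubgroupIn ℚ) (f : Qb → A.ValueGroup) :
    ∏ r ∈ fibre hB (σ Λ'.π), f r = ∏ r ∈ fibre hB Λ'.π, f (σ r) := by
  symm
  have key_shift : ∀ τ ∈ A.inertiaSubgroupIn ℚ, ∀ r ∈ Λ.conj,
      (key hB).eval (τ r) = τ ((key hB).eval r) := fun τ hτ r hr => by
    obtain ⟨g, hg, rfl⟩ := Λ.mem_conj.mp hr
    rw [key_eval hB hg, ← AlgEquiv.mul_apply, key_eval hB (mul_mem hτ hg), AlgEquiv.mul_apply]
  refine Finset.prod_bij (fun r _ => σ r) (fun r hr => ?_) (fun a _ b _ h => σ.injective h)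
    (fun r hr => ?_) (fun r _ => rfl)
  · obtain ⟨hr, hk⟩ := (mem_fibre hB).mp hr
    exact (mem_fibre hB).mpr
      ⟨Λ.mem_conj.mpr (orb_map hσ (Λ.mem_conj.mp hr)), by rw [key_shift σ hσ r hr, hk]⟩
  · obtain ⟨hr, hk⟩ := (mem_fibre hB).mp hr
    refine ⟨σ⁻¹ r, (mem_fibre hB).mpr ⟨Λ.mem_conj.mpr (orb_map (inv_mem hσ) (Λ.mem_conj.mp hr)), ?_⟩,
      by simp [AlgEquiv.aut_inv]⟩
    rw [key_shift _ (inv_mem hσ) r hr, hk]
    simp [AlgEquiv.aut_inv]

include hB in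
lemma card_fibre {y : Qb} (hy : y ∈ Λ'.conj) : (fibre hB y).card = relDeg Λ Λ' := by
  classical
  obtain ⟨σ, hσ, rfl⟩ := Λ'.mem_conj.mp hy
  have hshift : ∀ z ∈ Λ'.conj, (fibre hB z).card = (fibre hB Λ'.π).card := fun z hz => by
    obtain ⟨τ, hτ, rfl⟩ := Λ'.mem_conj.mp hz
    have h1 : fibre hB (τ Λ'.π) = (fibre hB Λ'.π).image τ := by
      ext r
      rw [Finset.mem_image]
      constructor
      · intro hr
        obtain ⟨hr, hk⟩ := (mem_fibre hB).mp hr
        obtain ⟨g, hg, rfl⟩ := Λ.mem_conj.mp hr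
        refine ⟨(τ⁻¹ * g) Λ.π, (mem_fibre hB).mpr
          ⟨Λ.mem_conj.mpr ⟨_, mul_mem (inv_mem hτ) hg, rfl⟩, ?_⟩, by simp [AlgEquiv.aut_inv]⟩
        rw [key_eval hB (mul_mem (inv_mem hτ) hg), AlgEquiv.mul_apply, ← key_eval hB hg, hk]
        simp [AlgEquiv.aut_inv]
      · rintro ⟨r, hr, rfl⟩
        obtain ⟨hr, hk⟩ := (mem_fibre hB).mp hr
        obtain ⟨g, hg, rfl⟩ := Λ.mem_conj.mp hr
        refine (mem_fibre hB).mpr ⟨Λ.mem_conj.mpr ⟨τ * g, mul_mem hτ hg, rfl⟩, ?_⟩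
        rw [← AlgEquiv.mul_apply, key_eval hB (mul_mem hτ hg), AlgEquiv.mul_apply,
          ← key_eval hB hg, hk]
    rw [h1, Finset.card_image_of_injective _ τ.injective]
  have htot : Λ.conj.card = ∑ z ∈ Λ'.conj, (fibre hB z).card := by
    rw [Finset.card_eq_sum_card_fiberwise (fun r hr => key_mem hB hr)]
    refine Finset.sum_congr rfl fun z _ => congrArg Finset.card ?_
    ext r
    rw [Finset.mem_filter, mem_fibre]
  rw [Finset.sum_congr rfl hshift, Finset.sum_const, smul_eq_mul, Λ.card_conj, Λ'.card_conj,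
    ← deg_mul hB, mul_comm Λ'.D] at htot
  rw [hshift _ hy]
  exact (Nat.eq_of_mul_eq_mul_right Λ'.D_pos htot).symm

/-- The product over a fibre is the value of the difference of the conjugates of `ϖ`. -/
theorem prod_fibre {g : GQ} (hg : g ∈ A.inertiaSubgroupIn ℚ) :
    ∏ r ∈ fibre hB (g Λ'.π), v (Λ.π - r) = v (Λ'.π - g Λ'.π) := by
  classical
  have hmemA : ∀ {y r}, r ∈ fibre hB y → r ∈ A := fun hr =>
    mem_of_map_le ((Λ.val_conj ((mem_fibre hB).mp hr).1).le.trans Λ.π_lt_one.le)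
  refine le_antisymm ?_ ?_
  · set Q : Qb[X] := ∏ r ∈ fibre hB Λ'.π, (X - C r)
    have hlift : Q ∈ Polynomial.lifts A.subtype := Subsemiring.prod_mem _ fun r hr =>
      ⟨X - C ⟨r, hmemA hr⟩, by simp⟩
    have hmap : ∀ σ ∈ A.inertiaSubgroupIn ℚ,
        Q.map (σ : Qb →+* Qb) = ∏ r ∈ fibre hB Λ'.π, (X - C (σ r)) := fun σ _ => by
      simp [Q, Polynomial.map_prod]
    have hfix : ∀ i, ∀ τ ∈ Λ'.N, τ (Q.coeff i) = Q.coeff i := fun i τ hτ => by
      have e : Q.map (τ : Qb →+* Qb) = Q := by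
        rw [hmap τ (Λ'.le hτ)]
        have h := Λ'.fixed τ hτ
        refine Finset.prod_bij (fun r _ => τ r) (fun r hr => ?_) (fun a _ b _ h => τ.injective h)
          (fun r hr => ?_) (fun r _ => rfl)
        · obtain ⟨hr, hk⟩ := (mem_fibre hB).mp hr
          obtain ⟨σ, hσ, rfl⟩ := Λ.mem_conj.mp hr
          refine (mem_fibre hB).mpr ⟨Λ.mem_conj.mpr ⟨τ * σ, mul_mem (Λ'.le hτ) hσ, rfl⟩, ?_⟩
          rw [← AlgEquiv.mul_apply, key_eval hB (mul_mem (Λ'.le hτ) hσ), AlgEquiv.mul_apply,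
            ← key_eval hB hσ, hk, h]
        · obtain ⟨hr, hk⟩ := (mem_fibre hB).mp hr
          obtain ⟨σ, hσ, rfl⟩ := Λ.mem_conj.mp hr
          refine ⟨(τ⁻¹ * σ) Λ.π, (mem_fibre hB).mpr
            ⟨Λ.mem_conj.mpr ⟨τ⁻¹ * σ, mul_mem (inv_mem (Λ'.le hτ)) hσ, rfl⟩, ?_⟩,
            by simp [AlgEquiv.aut_inv]⟩
          rw [key_eval hB (mul_mem (inv_mem (Λ'.le hτ)) hσ), AlgEquiv.mul_apply,
            ← key_eval hB hσ, hk]
          exact Λ'.fixed _ (inv_mem hτ)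
      conv_rhs => rw [← e, coeff_map]
      rfl
    have hint : ∀ i, v (Q.coeff i) ≤ 1 := fun i => by
      obtain ⟨c, hc⟩ := (Polynomial.lifts_iff_coeff_lifts _).mp hlift i
      rw [← hc]; exact (A.valuation_le_one_iff _).mpr c.2
    have h0 : Q.eval Λ.π = 0 := by
      rw [eval_prod]
      refine Finset.prod_eq_zero ((mem_fibre hB).mpr ⟨Λ.π_mem_conj, ?_⟩) (by simp)
      simpa using key_eval hB (one_mem _)
    rw [prod_fibre_shift hB hg, ← map_prod,
      show ∏ r ∈ fibre hB Λ'.π, (Λ.π - g r) = (Q.map (g : Qb →+* Qb)).eval Λ.π by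
        rw [hmap g hg, eval_prod]; simp,
      ← sub_zero ((Q.map (g : Qb →+* Qb)).eval Λ.π), ← h0, A.valuation.map_sub_swap (Λ'.π),
      eval_eq_sum_range' (show (Q.map (g : Qb →+* Qb)).natDegree < Q.natDegree + 1 from
        Nat.lt_succ_of_le natDegree_map_le),
      eval_eq_sum_range' (Nat.lt_succ_self Q.natDegree), ← Finset.sum_sub_distrib]
    refine A.valuation.map_sum_le fun i _ => ?_
    rw [← sub_mul, map_mul, map_pow, coeff_map]
    exact le_trans (mul_le_of_le_one_right' (pow_le_one₀ zero_le Λ.π_lt_one.le))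
      (Λ'.disp hg (hfix i) (hint i))
  · have h := val_eval_le_prod (A := A) (f := key hB - C (g Λ'.π)) (fun i => ?_)
      (s := fibre hB (g Λ'.π)) (fun r hr => hmemA hr)
      (fun r hr => by simp [IsRoot.def, ((mem_fibre hB).mp hr).2]) Λ.π_lt_one.le
    · rwa [eval_sub, eval_C, show (key hB).eval Λ.π = Λ'.π by
        simpa using key_eval hB (one_mem _)] at h
    · rw [coeff_sub, coeff_C]
      refine sub_mem (key_coeff hB i).2 ?_
      split_ifs
      · exact mem_of_map_le (by rw [(inert_of_mem_inertiaSubgroupIn A hg).map_eq]; exact Λ'.π_lt_one.le)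
      · exact zero_mem _

include hB in
/-- The Herbrand product of a conjugate nearest to `π` in the fibre of `g ϖ`. -/
theorem phi_le {g : GQ} (hg : g ∈ A.inertiaSubgroupIn ℚ) (hne : g Λ'.π ≠ Λ'.π) :
    ∃ r₀ ∈ Λ.conj, r₀ ≠ Λ.π ∧ Λ.phi r₀ ≤ ∏ y ∈ Λ'.conj,
      max (v (Λ'.π - y)) (v (Λ'.π - g Λ'.π)) := by
  classical
  have hgm : g Λ'.π ∈ Λ'.conj := Λ'.mem_conj.mpr ⟨g, hg, rfl⟩
  obtain ⟨r₀, hr₀, hmin⟩ := Finset.exists_min_image (fibre hB (g Λ'.π)) (fun r => v (Λ.π - r))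
    (Finset.card_pos.mp (by rw [card_fibre hB hgm]; exact relDeg_pos hB))
  obtain ⟨hr₀c, hr₀k⟩ := (mem_fibre hB).mp hr₀
  obtain ⟨g₀, hg₀, rfl⟩ := Λ.mem_conj.mp hr₀c
  refine ⟨_, hr₀c, fun h => hne ?_, ?_⟩
  · rw [← hr₀k, h]; simpa using key_eval hB (one_mem _)
  set lam := v (Λ.π - g₀ Λ.π)
  have hshift : ∀ σ ∈ A.inertiaSubgroupIn ℚ, v (Λ.π - σ Λ.π) ≤ lam →
      ∏ r ∈ fibre hB (σ Λ'.π), max (v (Λ.π - r)) lam =
      ∏ r ∈ fibre hB Λ'.π, max (v (Λ.π - r)) lam := by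
    intro σ hσ hle
    rw [prod_fibre_shift hB hσ]
    refine Finset.prod_congr rfl fun r _ => ?_
    have e : v (σ Λ.π - σ r) = v (Λ.π - r) := by
      rw [← map_sub, (inert_of_mem_inertiaSubgroupIn A hσ).map_eq]
    refine le_antisymm (max_le ?_ (le_max_right _ _)) (max_le ?_ (le_max_right _ _))
    · rw [← sub_add_sub_cancel Λ.π (σ Λ.π) (σ r)]
      refine (A.valuation.map_add _ _).trans (max_le (hle.trans (le_max_right _ _)) ?_)
      rw [e]; exact le_max_left _ _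
    · rw [← e, show σ Λ.π - σ r = (Λ.π - σ r) - (Λ.π - σ Λ.π) by ring]
      exact (A.valuation.map_sub _ _).trans (max_le (le_max_left _ _) (hle.trans (le_max_right _ _)))
  have hgπ : g Λ'.π = g₀ Λ'.π := by rw [← hr₀k, key_eval hB hg₀]
  have hone : ∏ r ∈ fibre hB Λ'.π, max (v (Λ.π - r)) lam = v (Λ'.π - g Λ'.π) := by
    rw [← hshift g₀ hg₀ le_rfl, ← hgπ, ← prod_fibre hB hg]
    exact Finset.prod_congr rfl fun r hr => max_eq_left (hmin r hr)
  rw [phi, prod_fibres hB]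
  refine Finset.prod_le_prod (fun _ _ => zero_le) fun y hy => ?_
  obtain ⟨f, hf, rfl⟩ := Λ'.mem_conj.mp hy
  by_cases hsmall : ∃ r ∈ fibre hB (f Λ'.π), v (Λ.π - r) ≤ lam
  · obtain ⟨r, hr, hrl⟩ := hsmall
    obtain ⟨hrc, hrk⟩ := (mem_fibre hB).mp hr
    obtain ⟨σ, hσ, rfl⟩ := Λ.mem_conj.mp hrc
    rw [← hrk, key_eval hB hσ, hshift σ hσ hrl, hone]
    exact le_max_right _ _
  · push Not at hsmall
    rw [Finset.prod_congr rfl fun r hr => max_eq_left (hsmall r hr).le, prod_fibre hB hf]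
    exact le_max_left _ _

end Layer

end FA.LocalDef
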