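import Fermat.Agent.LocalDef.Characters
import Mathlib.LinearAlgebra.Dimension.Constructions
import Mathlib.LinearAlgebra.FiniteDimensional.Lemmas
import Mathlib.Data.Nat.Choose.Sum
import Mathlib.Data.Nat.Choose.Dvd

/-!
# Integral models of a finite `p`-torsion group and lifting of approximate points

A model of `V` is a lattice of functions on `V` with values in the valuation ring, closed under
products and under the addition map, containing `1`, and of full rank. It is the ring of a finite
flat group scheme with group of geometric points `V`. Two points which are congruent modulo more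
than `p ^ (1 / (p - 1))` are equal, and an approximate point modulo more than
`p ^ (p / (p - 1))` is congruent to a point. This is the key input of Fontaine's ramification
bound.
-/

set_option autoImplicit false
set_option linter.unusedSectionVars false

noncomputable section

namespace FA.LocalDef

variable {L Γ : Type*} [Field L] [CharZero L] [LinearOrderedCommGroupWithZero Γ]
  (v : Valuation L Γ) {p : ℕ} [hp : Fact p.Prime] (V : Type*) [AddCommGroup V]
  [Module (ZMod p) V] [Fintype V]

/-- A lattice of functions which is the ring of a finite flat group scheme with points `V`. -/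
structure Model where
  /-- the basis functions -/
  a : V → V → L
  full : ∀ f : V → L, ∃ d : V → L, f = ∑ i, d i • a i
  int : ∀ i x, v (a i x) ≤ 1
  one : ∃ c : V → L, (∀ i, v (c i) ≤ 1) ∧ ∀ x, 1 = ∑ i, c i * a i x
  mul : ∀ i j, ∃ c : V → L, (∀ k, v (c k) ≤ 1) ∧ ∀ x, a i x * a j x = ∑ k, c k * a k x
  comul : ∀ i, ∃ c : V → V → L, (∀ j k, v (c j k) ≤ 1) ∧
    ∀ x y, a i (x + y) = ∑ j, ∑ k, c j k * a j x * a k y

variable {v V} (M : Model v V)

/-- Membership in the lattice. -/
def Model.InSpan (f : V → L) : Prop := ∃ c : V → L, (∀ i, v (c i) ≤ 1) ∧ f = ∑ i, c i • M.a i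

/-- Two points congruent to within `c`. -/
def Model.Cong (c : Γ) (x y : V) : Prop := ∀ i, v (M.a i x - M.a i y) ≤ c

variable {ζ : L}

/-- A functional of size at most `c` on the lattice. -/
def Model.Bd (ζ : L) (c : Γ) (U : Module.Dual (ZMod p) V → L) : Prop :=
  ∀ i, v (evF ζ U (M.a i)) ≤ c

lemma map_sum_mul_le {ι : Type*} {s : Finset ι} {c g : ι → L} {e : Γ}
    (hc : ∀ i ∈ s, v (c i) ≤ 1) (hg : ∀ i ∈ s, v (g i) ≤ e) : v (∑ i ∈ s, c i * g i) ≤ e :=
  v.map_sum_le fun i hi => by
    rw [map_mul]; exact le_trans (mul_le_of_le_one_left' (hc i hi)) (hg i hi)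

section Bounds

variable {M} (hζ : IsPrimitiveRoot ζ p) {c d : Γ} {U W : Module.Dual (ZMod p) V → L}

lemma Model.Bd.mono (hU : M.Bd ζ c U) (h : c ≤ d) : M.Bd ζ d U := fun i => (hU i).trans h

lemma Model.Bd.add (hU : M.Bd ζ c U) (hW : M.Bd ζ c W) : M.Bd ζ c (U + W) := fun i => by
  rw [evF_add_left]; exact v.map_add_le (hU i) (hW i)

lemma Model.Bd.sub (hU : M.Bd ζ c U) (hW : M.Bd ζ c W) : M.Bd ζ c (U - W) := fun i => by
  rw [evF_sub_left]; exact v.map_sub_le (hU i) (hW i)

lemma Model.bd_zero : M.Bd ζ 0 (0 : Module.Dual (ZMod p) V → L) := fun i => by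
  simp [evF, wt]

lemma Model.Bd.sum {ι : Type*} {s : Finset ι} {F : ι → Module.Dual (ZMod p) V → L}
    (h : ∀ i ∈ s, M.Bd ζ c (F i)) : M.Bd ζ c (∑ i ∈ s, F i) := by
  classical
  induction s using Finset.induction_on with
  | empty => exact Model.bd_zero.mono zero_le
  | @insert i s hi ih =>
    rw [Finset.sum_insert hi]
    exact (h i (Finset.mem_insert_self i s)).add (ih fun j hj => h j (Finset.mem_insert_of_mem hj))

lemma Model.Bd.smul (hU : M.Bd ζ c U) (z : L) : M.Bd ζ (v z * c) (z • U) := fun i => by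
  rw [evF_smul_left, map_mul]; exact mul_le_mul_right (hU i) _

include hζ in
lemma Model.Bd.mul (hU : M.Bd ζ c U) (hW : M.Bd ζ d W) : M.Bd ζ (c * d) (U * W) := fun i => by
  obtain ⟨k, hk, hka⟩ := M.comul i
  rw [evF_mul U W _ hζ k M.a hka]
  refine v.map_sum_le fun j _ => v.map_sum_le fun l _ => ?_
  rw [map_mul, map_mul, mul_assoc]
  exact le_trans (mul_le_of_le_one_left' (hk j l)) (mul_le_mul' (hU j) (hW l))

include hζ in
lemma Model.bd_one : M.Bd ζ 1 (1 : Module.Dual (ZMod p) V → L) := fun i => by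
  rw [evF_one (M.a i) hζ]; exact M.int i 0

include hζ in
lemma Model.Bd.pow (hU : M.Bd ζ c U) (n : ℕ) : M.Bd ζ (c ^ n) (U ^ n) := by
  induction n with
  | zero => simpa using Model.bd_one hζ
  | succ n ih => rw [pow_succ, pow_succ]; exact ih.mul hζ hU

include hζ in
lemma Model.bd_point (x : V) : M.Bd ζ 1 fun φ : Module.Dual (ZMod p) V => chi ζ φ x := fun i => by
  rw [evF_point (M.a i) hζ x]; exact M.int i x

include hζ in
lemma Model.eq_zero_of_evF_a (h : ∀ i, evF ζ U (M.a i) = 0) : U = 0 := by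
  refine eq_zero_of_evF U hζ fun f => ?_
  obtain ⟨d, rfl⟩ := M.full f
  simp [evF_sum_right, evF_smul_right, h]

include hζ in
lemma Model.exists_evF_eq (M : Model v V) (t : V → L) :
    ∃ U : Module.Dual (ZMod p) V → L, ∀ i, evF ζ U (M.a i) = t i := by
  let T : (Module.Dual (ZMod p) V → L) →ₗ[L] (V → L) :=
    { toFun := fun U i => evF ζ U (M.a i)
      map_add' := fun U W => funext fun i => evF_add_left U W _
      map_smul' := fun z U => funext fun i => evF_smul_left U _ z }
  have hinj : Function.Injective T := by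
    rw [← LinearMap.ker_eq_bot, LinearMap.ker_eq_bot']
    exact fun U hU => Model.eq_zero_of_evF_a hζ fun i => congrFun hU i
  obtain ⟨U, hU⟩ := (LinearMap.injective_iff_surjective_of_finrank_eq_finrank
    (by simp [card_dual])).mp hinj t
  exact ⟨U, fun i => congrFun hU i⟩

include hζ in
/-- The characters are in the lattice. -/
lemma Model.chi_inSpan (φ : Module.Dual (ZMod p) V) : M.InSpan (chi ζ φ) := by
  classical
  obtain ⟨d, hd⟩ := M.full (chi ζ φ)
  refine ⟨d, ?_, hd⟩
  obtain ⟨i₀, -, hi₀⟩ := Finset.exists_max_image Finset.univ (fun i => v (d i))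
    Finset.univ_nonempty
  refine fun i => (hi₀ i (Finset.mem_univ i)).trans ?_
  obtain ⟨U, hU⟩ := Model.exists_evF_eq hζ M (fun j => if j = i₀ then 1 else 0)
  have hev : ∀ W : Module.Dual (ZMod p) V → L, W φ = ∑ j, d j * evF ζ W (M.a j) := fun W => by
    rw [← evF_chi W hζ φ, hd, evF_sum_right]
    simp [evF_smul_right]
  have hU1 : U φ = d i₀ := by rw [hev U]; simp [hU]
  have hB : M.Bd ζ 1 U := fun j => by rw [hU]; split_ifs <;> simp
  have h2 : v (U φ) * v (U φ) ≤ v (d i₀) := by
    rw [← map_mul, ← Pi.mul_apply, hev (U * U)]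
    refine v.map_sum_le fun j _ => ?_
    rw [map_mul]
    calc v (d j) * v (evF ζ (U * U) (M.a j)) ≤ v (d i₀) * (1 * 1) :=
          mul_le_mul' (hi₀ j (Finset.mem_univ j)) (hB.mul hζ hB j)
      _ = v (d i₀) := by rw [one_mul, mul_one]
  rw [hU1] at h2
  by_contra hc
  rw [not_le] at hc
  exact absurd h2 (not_le.mpr (lt_mul_left (zero_lt_one.trans hc) hc))

include hζ in
lemma Model.Bd.map_apply_le (hU : M.Bd ζ c U) (φ : Module.Dual (ZMod p) V) : v (U φ) ≤ c := by
  obtain ⟨d, hd, he⟩ := M.chi_inSpan hζ φ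
  rw [← evF_chi U hζ φ, he, evF_sum_right]
  simp only [evF_smul_right]
  exact map_sum_mul_le (fun i _ => hd i) fun i _ => hU i

include hζ in
lemma Model.Bd.of_apply (h : ∀ φ, v (U φ) ≤ c) : M.Bd ζ (c / v (Fintype.card V : L)) U := fun i => by
  refine v.map_sum_le fun x _ => ?_
  rw [map_mul, wt, map_mul, map_inv₀, div_eq_inv_mul, mul_assoc]
  refine mul_le_mul_right ((mul_le_of_le_one_right' (M.int i x)).trans ?_) _
  refine v.map_sum_le fun φ _ => ?_
  rw [map_mul, map_eq_one_of_pow_eq_one v hp.out.ne_zero (chi_pow hζ φ (-x)), mul_one]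
  exact h φ

include hζ in
lemma Model.cong_sub_one {x y : V} (h : M.Cong c x y) :
    M.Bd ζ c ((fun φ : Module.Dual (ZMod p) V => chi ζ φ (x - y)) - 1) := by
  have e : ((fun φ : Module.Dual (ZMod p) V => chi ζ φ (x - y)) - 1) =
      ((fun φ : Module.Dual (ZMod p) V => chi ζ φ x) - fun φ => chi ζ φ y) *
        fun φ => chi ζ φ (-y) := funext fun φ => by
    simp only [Pi.sub_apply, Pi.mul_apply, Pi.one_apply, sub_mul, ← chi_add_right hζ,
      add_neg_cancel, chi_zero_right, ← sub_eq_add_neg]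
  rw [e, ← mul_one c]
  refine Model.Bd.mul hζ (fun i => ?_) (Model.bd_point hζ _)
  rw [evF_sub_left, evF_point _ hζ, evF_point _ hζ]
  exact h i

end Bounds

lemma natCast_map_le_one (n : ℕ) : v (n : L) ≤ 1 := by
  induction n with
  | zero => simp
  | succ n ih => rw [Nat.cast_succ]; exact v.map_add_le ih v.map_one.le

lemma map_choose_le {i : ℕ} (h1 : 1 ≤ i) (h2 : i < p) : v (p.choose i : L) ≤ v (p : L) := by
  obtain ⟨k, hk⟩ := hp.out.dvd_choose_self (by omega : i ≠ 0) h2
  rw [hk, Nat.cast_mul, map_mul]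
  exact mul_le_of_le_one_right' (natCast_map_le_one k)

lemma one_add_pow {R : Type*} [CommSemiring R] (W : R) :
    (1 + W) ^ p = 1 + (p : R) * W + ∑ i ∈ Finset.Ico 2 (p + 1), (p.choose i : R) * W ^ i := by
  have h2 := hp.out.two_le
  rw [add_comm 1 W, add_pow, ← Finset.sum_range_add_sum_Ico _ (show 2 ≤ p + 1 by omega)]
  simp [Finset.sum_range_succ, mul_comm]

section Main

variable (hζ : IsPrimitiveRoot ζ p) (hv : v (p : L) < 1)

include hζ hv in
/-- Congruent points are equal. -/
theorem Model.eq_of_cong {c : Γ} (hc1 : c < 1) (hc : c ^ (p - 1) < v (p : L)) {x y : V}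
    (h : M.Cong c x y) : x = y := by
  classical
  have h2 := hp.out.two_le
  set D : Module.Dual (ZMod p) V → L := (fun φ => chi ζ φ (x - y)) - 1 with hD
  have hBc := Model.cong_sub_one hζ h
  rw [← hD] at hBc
  obtain ⟨i₀, -, hi₀⟩ := Finset.exists_max_image Finset.univ (fun i => v (evF ζ D (M.a i)))
    Finset.univ_nonempty
  set c₀ := v (evF ζ D (M.a i₀))
  have hB : M.Bd ζ c₀ D := fun i => hi₀ i (Finset.mem_univ i)
  have hc₀ : c₀ ≤ c := hBc i₀
  have hDp : (p : L) • D + ∑ i ∈ Finset.Ico 2 (p + 1), (p.choose i : L) • D ^ i = 0 := by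
    have e : (1 + D) ^ p = 1 := funext fun φ => by
      simp [hD, chi_pow hζ]
    rw [one_add_pow (p := p), add_assoc, add_eq_left] at e
    rw [← e]
    refine congrArg₂ (· + ·) (funext fun φ => by simp) (Finset.sum_congr rfl fun i _ => ?_)
    exact funext fun φ => by simp
  have hzero : c₀ = 0 := by
    by_contra h0
    have hpos : 0 < c₀ := zero_lt_iff.mpr h0
    have hlt : c₀ < 1 := hc₀.trans_lt hc1
    have hsum : M.Bd ζ (max (c₀ ^ p) (v (p : L) * c₀ ^ 2))
        (∑ i ∈ Finset.Ico 2 (p + 1), (p.choose i : L) • D ^ i) := by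
      refine Model.Bd.sum fun i hi => ?_
      rw [Finset.mem_Ico] at hi
      refine ((hB.pow hζ i).smul _).mono ?_
      rcases Nat.lt_or_ge i p with hip | hip
      · refine le_max_of_le_right (mul_le_mul' (map_choose_le (by omega) hip) ?_)
        exact pow_le_pow_right_of_le_one' hlt.le hi.1
      · refine le_max_of_le_left ?_
        rw [show i = p by omega, Nat.choose_self, Nat.cast_one, map_one, one_mul]
    have e : v (p : L) * c₀ ≤ max (c₀ ^ p) (v (p : L) * c₀ ^ 2) := by
      have h' := hsum i₀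
      rw [eq_neg_of_add_eq_zero_right hDp, ← neg_one_smul L, evF_smul_left, evF_smul_left, map_mul,
        v.map_neg, map_one, one_mul, map_mul] at h'
      exact h'
    have hp0 : 0 < v (p : L) := v.pos_iff.mpr (Nat.cast_ne_zero.mpr hp.out.ne_zero)
    rcases le_max_iff.mp e with h' | h'
    · rw [show p = p - 1 + 1 by omega, pow_succ, show p - 1 + 1 = p by omega] at h'
      have hpc : v (p : L) ≤ c₀ ^ (p - 1) := le_of_mul_le_mul_right h' hpos
      exact absurd (hpc.trans (pow_le_pow_left₀ zero_le hc₀ _)) (not_le.mpr hc)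
    · rw [sq, ← mul_assoc] at h'
      have : 1 * (v (p : L) * c₀) ≤ c₀ * (v (p : L) * c₀) := by
        rw [one_mul, mul_comm c₀ (v (p : L) * c₀)]; exact h'
      exact absurd (le_of_mul_le_mul_right this (mul_pos hp0 hpos)) (not_le.mpr hlt)
  have hD0 : D = 0 := Model.eq_zero_of_evF_a hζ fun i => by
    have := hB i
    rw [hzero, le_zero_iff, map_eq_zero] at this
    exact this
  refine sub_eq_zero.mp (eq_of_forall_chi hζ fun φ => ?_)
  have h1 := congrFun hD0 φ
  simp only [hD, Pi.sub_apply, Pi.zero_apply, Pi.one_apply, sub_eq_zero] at h1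
  rw [h1, chi_zero_right]

include hζ in
/-- One Newton step towards a `p`-th root of `1`. -/
lemma Model.newton {c : Γ} {U : Module.Dual (ZMod p) V → L} (hU : M.Bd ζ 1 U)
    (hc : c < v (p : L)) (hX : M.Bd ζ c (U ^ p - 1)) :
    ∃ U', M.Bd ζ (c / v (p : L)) (U' - U) ∧ M.Bd ζ 1 U' ∧
      M.Bd ζ (max (c ^ 2 / v (p : L)) ((c / v (p : L)) ^ p)) (U' ^ p - 1) := by
  have hp0 : 0 < v (p : L) := v.pos_iff.mpr (Nat.cast_ne_zero.mpr hp.out.ne_zero)
  have hd : c / v (p : L) < 1 := (div_lt_one₀ hp0).mpr hc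
  set X := U ^ p - 1 with hXdef
  set W : Module.Dual (ZMod p) V → L := (-(p : L)⁻¹) • X with hWdef
  have hW : M.Bd ζ (c / v (p : L)) W := (hX.smul _).mono (le_of_eq (by
    rw [v.map_neg, map_inv₀, div_eq_inv_mul]))
  refine ⟨U + U * W, ?_, hU.add ((hU.mul hζ hW).mono (by rw [one_mul]; exact hd.le)), ?_⟩
  · simpa using hU.mul hζ hW
  set R := ∑ i ∈ Finset.Ico 2 (p + 1),
    ((p.choose i : L)) • W ^ i with hR
  set e := max (c ^ 2 / v (p : L)) ((c / v (p : L)) ^ p)
  have hRb : M.Bd ζ e R := by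
    refine Model.Bd.sum fun i hi => ?_
    rw [Finset.mem_Ico] at hi
    refine ((hW.pow hζ i).smul _).mono ?_
    rcases Nat.lt_or_ge i p with hip | hip
    · refine le_max_of_le_left (le_trans (mul_le_mul' (map_choose_le (by omega) hip)
        (pow_le_pow_right_of_le_one' hd.le hi.1)) (le_of_eq ?_))
      field_simp
    · refine le_max_of_le_right ?_
      rw [show i = p by omega, Nat.choose_self, Nat.cast_one, map_one, one_mul]
  have hexp : (U + U * W) ^ p - 1 = (-1 : L) • X ^ 2 + R + X * R := by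
    have hpW : (p : Module.Dual (ZMod p) V → L) * W = -X := funext fun φ => by
      simp [hWdef, Pi.natCast_apply, ← mul_assoc,
        mul_inv_cancel₀ (Nat.cast_ne_zero.mpr hp.out.ne_zero : (p : L) ≠ 0)]
    have hUp : U ^ p = 1 + X := by rw [hXdef]; abel
    have hR' : ∑ i ∈ Finset.Ico 2 (p + 1), (p.choose i : Module.Dual (ZMod p) V → L) * W ^ i = R :=
      Finset.sum_congr rfl fun i _ => funext fun φ => by simp
    rw [show U + U * W = U * (1 + W) by ring, mul_pow, one_add_pow (p := p), hpW, hR', hUp,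
      neg_one_smul]
    ring
  rw [hexp]
  refine ((((hX.pow hζ 2).smul (-1)).mono ?_).add hRb).add ((hX.mul hζ hRb).mono ?_)
  · rw [v.map_neg, map_one, one_mul]
    refine le_max_of_le_left ?_
    rw [le_div_iff₀ hp0]
    exact mul_le_of_le_one_right' hv'
  · exact mul_le_of_le_one_left' ((hc.le).trans hv')
  where hv' : v (p : L) ≤ 1 := natCast_map_le_one p

end Main

end FA.LocalDef
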