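import Fermat.Agent.LocalDef.NodeChar
import Fermat.Agent.LocalDef.Qbar
import Fermat.Agent.Frob.Semistable

/-!
# The decomposition group and the node at a multiplicative place

The decomposition group preserves the points of nonsingular reduction and permutes the two
branches at the node. Points of nonsingular reduction are killed modulo the kernel of reduction
by some integer, and `p`-torsion among them lies in the kernel of reduction.
-/

set_option autoImplicit false
set_option linter.unusedSectionVars false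

noncomputable section

open WeierstrassCurve FA.Local FA.Frob FA.EC
open scoped Pointwise WeierstrassCurve.Affine

namespace FA.LocalDef

local notation "Qb" => AlgebraicClosure ℚ
local notation "GQ" => AlgebraicClosure ℚ ≃ₐ[ℚ] AlgebraicClosure ℚ

/-- A node of an integral equation at an odd prime `p`. -/
structure NodeAt (W : WeierstrassCurve ℤ) (p : ℕ) (A : ValuationSubring Qb) (r : Qb) : Prop where
  mult : MultAt W p A
  ne_two : p ≠ 2
  root : psi2 ((ratCurve W)⁄Qb) r = 0
  int : A.valuation r ≤ 1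
  node : Node A.valuation (toOrigin ((ratCurve W)⁄Qb) r).toAffine

theorem exists_nodeAt {W : WeierstrassCurve ℤ} {p : ℕ} {A : ValuationSubring Qb}
    (h : MultAt W p A) (hp2 : p ≠ 2) : ∃ r, NodeAt W p A r :=
  let ⟨r, hr, hr1, hN⟩ := h.exists_node
  ⟨r, h, hp2, hr, hr1, hN⟩

namespace NodeAt

variable {W : WeierstrassCurve ℤ} {p : ℕ} {A : ValuationSubring Qb} {r : Qb}
  (N : NodeAt W p A r) [(ratCurve W).IsElliptic]

local notation "EQ" => ((ratCurve W)⁄Qb)
local notation "E'" => (toOrigin ((ratCurve W)⁄Qb) r)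

include N

lemma valuation_two : A.valuation (2 : Qb) = 1 := by
  have h := natCast_eq_one_of_not_dvd (v := A.valuation) N.mult.prime N.mult.map_lt_one (n := 2)
    (fun h => N.ne_two ((Nat.prime_dvd_prime_iff_eq N.mult.prime Nat.prime_two).mp
      (Int.natCast_dvd_natCast.mp h)))
  simpa using h

/-- A decomposition element moves the node only a little. -/
theorem shift_le {σ : GQ} (hσ : σ ∈ A.decompositionSubgroup ℚ) :
    A.valuation (σ r - r) ≤ A.valuation (E').a₄ ∧
      A.valuation (σ (halfY EQ r) - halfY EQ r) ≤ A.valuation (E').a₄ := by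
  have h2 : (2 : Qb) ≠ 0 := two_ne_zero
  set δ := σ r - r
  set a₄ := (E').a₄
  set B := discB EQ r
  have hroot : δ * (4 * δ ^ 2 + B * δ + 4 * a₄) = 0 := by
    have h := psi2_add h2 EQ r δ
    rwa [add_sub_cancel, ← psi2_map, N.root, map_zero, zero_add, eq_comm] at h
  have hδle : A.valuation δ ≤ 1 :=
    A.valuation.map_sub_le (decomp_map_le hσ N.int) N.int
  -- the derivative is equivariant
  have hderiv : A.valuation (12 * δ ^ 2 + 2 * B * δ + 4 * a₄) = A.valuation (4 * a₄) := by
    have e : ∀ x : Qb, 4 * (toOrigin EQ x).a₄ = 12 * x ^ 2 + 2 * (EQ).b₂ * x + 2 * (EQ).b₄ := fun x => by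
      rw [toOrigin_a₄, halfY, WeierstrassCurve.b₂, WeierstrassCurve.b₄]
      field_simp
      ring
    have e' : σ (4 * a₄) = 12 * δ ^ 2 + 2 * B * δ + 4 * a₄ := by
      have hb2 : σ (EQ).b₂ = (EQ).b₂ := by
        simp only [WeierstrassCurve.baseChange, WeierstrassCurve.map_b₂, AlgEquiv.commutes]
      have hb4 : σ (EQ).b₄ = (EQ).b₄ := by
        simp only [WeierstrassCurve.baseChange, WeierstrassCurve.map_b₄, AlgEquiv.commutes]
      rw [show (4 * a₄) = _ from e r]
      simp only [B, discB, δ, map_add, map_mul, map_ofNat, map_pow, hb2, hb4]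
      ring
    rw [← e', decomp_map_eq hσ]
  have hδ1 : A.valuation δ < 1 := by
    refine lt_of_le_of_ne hδle fun h1 => ?_
    have hδ0 : δ ≠ 0 := fun h => by simp [h] at h1
    have hq : 4 * δ ^ 2 + B * δ + 4 * a₄ = 0 := (mul_eq_zero.mp hroot).resolve_left hδ0
    have h4 : A.valuation (4 * a₄) < 1 := map_mul_lt_one le_four N.node.hb
    have hlt : A.valuation (12 * δ ^ 2 + 2 * B * δ + 4 * a₄ - 3 * (4 * δ ^ 2 + B * δ + 4 * a₄)) < 1 :=
      A.valuation.map_sub_lt (by rw [hderiv]; exact h4) (by rw [hq, mul_zero, map_zero]; exact zero_lt_one)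
    rw [show 12 * δ ^ 2 + 2 * B * δ + 4 * a₄ - 3 * (4 * δ ^ 2 + B * δ + 4 * a₄) =
      -(B * δ + 2 * (4 * a₄)) by ring, A.valuation.map_neg] at hlt
    have := A.valuation.map_sub_lt hlt (map_mul_lt_one le_two h4)
    rw [add_sub_cancel_right, map_mul, h1, mul_one,
      show A.valuation B = 1 by rw [show B = _ from (toOrigin_disc).symm]; exact N.node.hdisc] at this
    exact lt_irrefl _ this
  have hδA := (small_root_le (ratCurve W) N.node hroot hδ1).trans (mul_le_of_le_one_left' le_four)
  refine ⟨hδA, ?_⟩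
  rw [map_halfY, show halfY EQ (σ r) - halfY EQ r = -((EQ).a₁ * δ) / 2 by
    simp only [halfY, δ]; ring, map_div₀, N.valuation_two, div_one, A.valuation.map_neg, map_mul]
  exact (mul_le_of_le_one_left' (intCoeff_ratCurve W A).h₁).trans hδA

/-- A decomposition element on coordinates of the normal form. -/
theorem smul_origin {σ : GQ} {x y : Qb} (h : (E').toAffine.Nonsingular x y) :
    ∃ h' : (E').toAffine.Nonsingular (σ x + (σ r - r)) (σ y + (σ (halfY EQ r) - halfY EQ r)),
      σ • originEquiv EQ r (.some x y h) = originEquiv EQ r (.some _ _ h') := by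
  obtain ⟨h₁, e₁⟩ := originEquiv_some h
  obtain ⟨h₂, e₂⟩ := smul_some (σ := σ) (ratCurve W) h₁
  rw [e₁, e₂]
  have hns : (E').toAffine.Nonsingular (σ x + (σ r - r)) (σ y + (σ (halfY EQ r) - halfY EQ r)) := by
    refine Affine.equation_iff_nonsingular.mp
      ((FA.Frob.equation_vc (⟨1, r, 0, halfY EQ r⟩ : VariableChange Qb) rfl _ _).mp ?_)
    have ex : FA.Frob.vcX (⟨1, r, 0, halfY EQ r⟩ : VariableChange Qb) (σ x + (σ r - r)) = σ (x + r) := by
      simp [FA.Frob.vcX]; ring
    have ey : FA.Frob.vcY (⟨1, r, 0, halfY EQ r⟩ : VariableChange Qb) (σ x + (σ r - r))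
        (σ y + (σ (halfY EQ r) - halfY EQ r)) = σ (y + halfY EQ r) := by
      simp [FA.Frob.vcY]; ring
    rw [ex, ey]
    exact h₂.1
  refine ⟨hns, ?_⟩
  obtain ⟨h₃, e₃⟩ := originEquiv_some hns
  rw [e₃, Affine.Point.some.injEq]
  constructor <;> rw [map_add] <;> ring

/-- The points of nonsingular reduction. -/
def e0Group : AddSubgroup (EQ).toAffine.Point where
  carrier := {P | E0 A.valuation (E').toAffine ((originEquiv EQ r).symm P)}
  zero_mem' := by simp
  add_mem' {P Q} hP hQ := by
    show E0 A.valuation (E').toAffine ((originEquiv EQ r).symm (P + Q))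
    rw [map_add]
    exact N.node.e0_add hP hQ
  neg_mem' {P} hP := by
    show E0 A.valuation (E').toAffine ((originEquiv EQ r).symm (-P))
    rw [map_neg]
    exact e0_neg.mpr hP

lemma mem_e0Group {P : (E').toAffine.Point} :
    originEquiv EQ r P ∈ N.e0Group ↔ E0 A.valuation (E').toAffine P := by
  show E0 A.valuation (E').toAffine ((originEquiv EQ r).symm (originEquiv EQ r P)) ↔ _
  rw [AddEquiv.symm_apply_apply]

lemma e1_mem {P : (EQ).toAffine.Point} (hP : E1 A.valuation (EQ).toAffine P) : P ∈ N.e0Group := by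
  obtain ⟨P, rfl⟩ := (originEquiv EQ r).surjective P
  exact N.mem_e0Group.mpr (e1_e0 ((e1_origin N.int P).mp hP))

lemma nsRed_e0Group {x y : Qb} (h : (EQ).toAffine.Nonsingular x y)
    (hG : (Affine.Point.some x y h : (EQ).toAffine.Point) ∈ N.e0Group) (hx : A.valuation x ≤ 1) :
    NsRed A.valuation (EQ).toAffine x y := by
  obtain ⟨P, hP⟩ := (originEquiv EQ r).surjective (.some x y h)
  rw [← hP, N.mem_e0Group, ← nsE0_origin_iff two_ne_zero N.int N.node, hP] at hG
  exact hG x y h rfl hx

lemma smul_e0Group {σ : GQ} (hσ : σ ∈ A.decompositionSubgroup ℚ) {P : (EQ).toAffine.Point}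
    (hP : P ∈ N.e0Group) : σ • P ∈ N.e0Group := by
  obtain ⟨P, rfl⟩ := (originEquiv EQ r).surjective P
  rw [N.mem_e0Group] at hP
  rcases P with _ | ⟨x, y, h⟩
  · rw [← Affine.Point.zero_def, map_zero, gal_smul_zero]; exact zero_mem _
  obtain ⟨h', e⟩ := N.smul_origin (σ := σ) h
  rw [e, N.mem_e0Group, e0_some]
  rw [e0_some] at hP
  have hlt : A.valuation (σ r - r) < A.valuation (σ x) :=
    lt_of_lt_of_le ((N.shift_le hσ).1.trans_lt N.node.hb) (by rw [decomp_map_eq hσ]; exact hP)
  rw [A.valuation.map_add_eq_of_lt_left hlt, decomp_map_eq hσ]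
  exact hP

/-- A decomposition element sends a branch to a branch. -/
theorem smul_br {σ : GQ} (hσ : σ ∈ A.decompositionSubgroup ℚ) {P : (E').toAffine.Point}
    {g : A.ValueGroup} {s : Qb} (hP : Br A.valuation (E').toAffine P g s) :
    ∃ P' : (E').toAffine.Point, σ • originEquiv EQ r P = originEquiv EQ r P' ∧
      Br A.valuation (E').toAffine P' g (σ s) := by
  obtain ⟨x, y, h, rfl⟩ := hP.exists_eq
  rw [br_some] at hP
  obtain ⟨hg, hlow, hhigh, hslope, hs⟩ := hP
  obtain ⟨h', e⟩ := N.smul_origin (σ := σ) h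
  refine ⟨_, e, ?_⟩
  obtain ⟨hδ, hε⟩ := N.shift_le hσ
  set δ := σ r - r
  set ε := σ (halfY EQ r) - halfY EQ r
  have hσx : A.valuation (σ x) = g := by rw [decomp_map_eq hσ, hg]
  have hx' : A.valuation (σ x + δ) = g := by
    rw [A.valuation.map_add_eq_of_lt_left (hσx ▸ hδ.trans_lt hlow), hσx]
  have hx0 : σ x + δ ≠ 0 := fun h0 => (lt_of_le_of_lt zero_le hlow).ne (by rw [← hx', h0, map_zero])
  have hσx0 : σ x ≠ 0 := fun h0 => (lt_of_le_of_lt zero_le hlow).ne (by rw [← hσx, h0, map_zero])
  have hs1 := N.node.root_le_one hs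
  rw [br_some]
  refine ⟨hx', hlow, hhigh, ?_, ?_⟩
  · rw [div_sub' hx0, map_div₀, hx', div_lt_one₀ (lt_of_le_of_lt zero_le hlow)]
    rw [show σ y + ε - (σ x + δ) * σ s = σ x * (σ (y / x - s)) + (ε - δ * σ s) by
      rw [map_sub, map_div₀]; field_simp; ring]
    refine A.valuation.map_add_lt ?_ (lt_of_le_of_lt (A.valuation.map_sub_le hε ?_) hlow)
    · rw [map_mul, hσx, decomp_map_eq hσ]
      exact mul_lt_of_lt_one_right (lt_of_le_of_lt zero_le hlow) hslope
    · rw [map_mul, decomp_map_eq hσ]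
      exact (mul_le_of_le_one_right' hs1).trans hδ
  · have hq : qb (E').toAffine (σ s) = σ (qb (E').toAffine s) + 3 * (σ r - r) := by
      simp only [qb]
      rw [show (E').toAffine.a₁ = (EQ).a₁ from toOrigin_a₁, show (E').toAffine.a₂ = (EQ).a₂ + 3 * r from toOrigin_a₂]
      simp only [map_add, map_sub, map_mul, map_pow, map_ofNat]
      rw [show σ (EQ).a₁ = (EQ).a₁ from σ.commutes _, show σ (EQ).a₂ = (EQ).a₂ from σ.commutes _]
      ring
    rw [hq]
    refine A.valuation.map_add_lt (by rwa [decomp_map_eq hσ]) ?_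
    exact map_mul_lt_one le_three (hδ.trans_lt N.node.hb)

/-- A decomposition element fixes or negates a branch point modulo `E0`. -/
theorem smul_sign {σ : GQ} (hσ : σ ∈ A.decompositionSubgroup ℚ) {P : (E').toAffine.Point}
    {g : A.ValueGroup} {s : Qb} (hP : Br A.valuation (E').toAffine P g s) :
    σ • originEquiv EQ r P - originEquiv EQ r P ∈ N.e0Group ∨
      σ • originEquiv EQ r P + originEquiv EQ r P ∈ N.e0Group := by
  obtain ⟨P', e, hP'⟩ := N.smul_br hσ hP
  have hs : A.valuation (qb (E').toAffine s) < 1 := by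
    obtain ⟨x, y, h, rfl⟩ := hP.exists_eq; exact hP.2.2.2.2
  have hσs : A.valuation (qb (E').toAffine (σ s)) < 1 := by
    obtain ⟨x, y, h, rfl⟩ := hP'.exists_eq; exact hP'.2.2.2.2
  rw [e, ← map_sub, ← map_add, N.mem_e0Group, N.mem_e0Group]
  rcases Node.root_cases hs hσs with h | h
  · exact Or.inl (N.node.sub_e0_of_br (Node.br_congr hP' hs h) hP)
  · exact Or.inr ((N.node.add_opp hP (Node.br_congr hP' (by rwa [Node.qb_other]) h)).1 rfl |> fun h' => by
      rwa [add_comm] at h')

/-- The residues are roots of unity. -/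
lemma exists_pow_congr_one {a : Qb} (ha : A.valuation a = 1) :
    ∃ n : ℕ, 0 < n ∧ A.valuation (a ^ n - 1) < 1 := by
  obtain ⟨F, hF, hres⟩ := exists_frobenius N.mult.prime N.mult.lies
  obtain ⟨m, hm0, hm⟩ : ∃ m : ℕ, 0 < m ∧ (F ^ m) a = a := by
    have hfin : (Set.range fun i : ℕ => (F ^ i) a).Finite := by
      refine Set.Finite.subset ((minpoly ℚ a).rootSet_finite Qb) ?_
      rintro _ ⟨i, rfl⟩
      rw [Polynomial.mem_rootSet]
      refine ⟨minpoly.ne_zero (Algebra.IsAlgebraic.isAlgebraic a).isIntegral, ?_⟩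
      show Polynomial.aeval ((F ^ i : GQ) a) (minpoly ℚ a) = 0
      rw [← AlgEquiv.coe_toAlgHom, Polynomial.aeval_algHom_apply, minpoly.aeval, map_zero]
    obtain ⟨i, j, hij, h⟩ : ∃ i j : ℕ, i < j ∧ (F ^ i) a = (F ^ j) a := by
      by_contra hc
      refine Set.infinite_range_of_injective (fun i j h => ?_) hfin
      rcases lt_trichotomy i j with h' | h' | h'
      · exact absurd ⟨i, j, h', h⟩ hc
      · exact h'
      · exact absurd ⟨j, i, h', h.symm⟩ hc
    refine ⟨j - i, by omega, (F ^ i).injective ?_⟩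
    rw [← AlgEquiv.mul_apply, ← pow_add, show i + (j - i) = j by omega]
    exact h.symm
  have hpow : ∀ i : ℕ, A.valuation ((F ^ i) a) = 1 ∧ res A ((F ^ i) a) = res A a ^ p ^ i := by
    intro i
    induction i with
    | zero => simp [ha]
    | succ i ih =>
      rw [pow_succ', AlgEquiv.mul_apply]
      refine ⟨by rw [decomp_map_eq hF]; exact ih.1, ?_⟩
      rw [hres _ ih.1.le, ih.2, ← pow_mul, ← pow_succ]
  have h := (hpow m).2
  rw [hm] at h
  have hne : res A a ≠ 0 := fun h0 => (lt_irrefl (1 : A.ValueGroup)) (by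
    conv_lhs => rw [← ha]
    exact (res_eq_zero_iff ha.le).mp h0)
  have h2 : 1 < p ^ m := Nat.one_lt_pow hm0.ne' N.mult.prime.one_lt
  refine ⟨p ^ m - 1, by omega, ?_⟩
  have e : res A (a ^ (p ^ m - 1)) = 1 := by
    rw [res_pow ha.le]
    refine mul_left_cancel₀ hne ?_
    rw [← pow_succ', show p ^ m - 1 + 1 = p ^ m by omega, mul_one]
    exact h.symm
  have hle : A.valuation (a ^ (p ^ m - 1) - 1) ≤ 1 :=
    A.valuation.map_sub_le (map_pow_le_one ha.le _) (map_one _).le
  rw [← res_eq_zero_iff hle]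
  have := res_add (A := A) hle (map_one A.valuation).le
  rw [sub_add_cancel, e, res_one, right_eq_add] at this
  exact this

lemma exists_branch : ∃ s : Qb, A.valuation (qb (E').toAffine s) < 1 := by
  obtain ⟨t, ht⟩ := IsAlgClosed.exists_root (Polynomial.C 1 * Polynomial.X ^ 2
    + Polynomial.C (E').a₁ * Polynomial.X + Polynomial.C (-(E').a₂)) (by
      rw [Polynomial.degree_quadratic one_ne_zero]; exact two_ne_zero)
  simp only [Polynomial.IsRoot.def, Polynomial.eval_add, Polynomial.eval_mul, Polynomial.eval_C,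
    Polynomial.eval_pow, Polynomial.eval_X, one_mul] at ht
  refine ⟨t, ?_⟩
  rw [show qb (E').toAffine t = 0 by simp only [qb]; linear_combination ht, map_zero]
  exact zero_lt_one

/-- Some multiple of a point of nonsingular reduction is in the kernel of reduction. -/
theorem exists_kill {P : (EQ).toAffine.Point} (hP : P ∈ N.e0Group) :
    ∃ n : ℕ, 0 < n ∧ E1 A.valuation (EQ).toAffine (n • P) := by
  obtain ⟨P, rfl⟩ := (originEquiv EQ r).surjective P
  rw [N.mem_e0Group] at hP
  obtain ⟨s, hs⟩ := N.exists_branch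
  obtain ⟨n, hn, hlt⟩ := N.exists_pow_congr_one (nodeChar_unit N.node hs hP)
  refine ⟨n, hn, ?_⟩
  rw [← map_nsmul, e1_origin N.int]
  exact e1_nsmul_of_pow N.node hs hP hlt

/-- `p`-torsion of nonsingular reduction is in the kernel of reduction. -/
theorem e1_of_torsion {P : (EQ).toAffine.Point} (hP : P ∈ N.e0Group) (hpP : p • P = 0) :
    E1 A.valuation (EQ).toAffine P := by
  obtain ⟨P, rfl⟩ := (originEquiv EQ r).surjective P
  rw [N.mem_e0Group] at hP
  rw [e1_origin N.int]
  have hpP' : p • P = 0 := (originEquiv EQ r).injective (by rw [map_nsmul, hpP, map_zero])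
  obtain ⟨s, hs⟩ := N.exists_branch
  set c := nodeChar A.valuation (E').toAffine s P
  have hc : A.valuation c = 1 := nodeChar_unit N.node hs hP
  have h : A.valuation (c ^ p - 1) < 1 := by
    have h := nodeChar_nsmul N.node hs hP p
    rw [hpP', nodeChar_e1 e1_zero, A.valuation.map_sub_swap] at h
    exact h
  have := Fact.mk N.mult.prime
  have := res_charP N.mult.prime N.mult.lies
  have hle : A.valuation (c - 1) ≤ 1 := A.valuation.map_sub_le hc.le (map_one _).le
  refine e1_of_nodeChar N.node hs hP ((res_eq_zero_iff hle).mp ?_)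
  have hres1 : res A c ^ p = 1 := by
    rw [← res_pow hc.le, res_congr (y := (1 : Qb)) (map_one _).le h, res_one]
  have hc1 : res A c = 1 := by
    refine sub_eq_zero.mp ((pow_eq_zero_iff N.mult.prime.ne_zero).mp ?_)
    rw [sub_pow_char, hres1, one_pow, sub_self]
  have := res_add (A := A) hle (map_one A.valuation).le
  rw [sub_add_cancel, hc1, res_one, right_eq_add] at this
  exact this

/-- There is torsion of prime order in the group of points of nonsingular reduction. -/
theorem exists_torsion {ℓ : ℕ} (hℓ : ℓ.Prime) (h5 : 5 ≤ ℓ) :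
    ∃ R ∈ N.e0Group, ℓ • R = 0 ∧ R ≠ 0 := by
  classical
  by_contra hc
  push Not at hc
  have hodd : Odd ℓ := hℓ.odd_of_ne_two (by omega)
  have := finite_torsion (ratCurve W) hℓ.ne_zero
  let T := {x : Submodule.torsionBy ℤ (EQ).Point (ℓ : ℤ) // x ≠ 0}
  have hT : ∀ x : T, ℓ • ((originEquiv EQ r).symm x.1.1) = 0 ∧
      ∃ g s, Br A.valuation (E').toAffine ((originEquiv EQ r).symm x.1.1) g s := fun x => by
    have hx : ℓ • (x.1.1 : (EQ).toAffine.Point) = 0 := by
      rw [← natCast_zsmul]; exact (Submodule.mem_torsionBy_iff _ _).mp x.1.2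
    have h0 : ℓ • (originEquiv EQ r).symm x.1.1 = 0 := by rw [← map_nsmul, hx, map_zero]
    refine ⟨h0, (N.node.e0_or_br hodd h0).resolve_left fun he => ?_⟩
    exact x.2 (Subtype.ext (hc x.1.1 he hx))
  choose h0 g s hbr using hT
  choose i hi using fun x => N.node.pow_eq_of_torsion_even hℓ (hbr x) (h0 x)
  have hA0 : 0 < A.valuation (E').toAffine.a₄ := A.valuation.pos_iff.mpr N.node.hb₀
  have hilt : ∀ x, i x < ℓ := fun x => by
    by_contra hge
    obtain ⟨a, b, hab, e⟩ := (hbr x).exists_eq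
    have hlow : A.valuation (E').toAffine.a₄ < g x := by
      have := hbr x; rw [e, br_some] at this; exact this.2.1
    have h1 := pow_lt_pow_left₀ hlow zero_le hℓ.ne_zero
    rw [hi x] at h1
    exact absurd h1 (not_lt.mpr (pow_le_pow_right_of_le_one' N.node.hb.le (by omega)))
  have hcard : Fintype.card (Fin ℓ × Bool) < Nat.card T := by
    rw [Fintype.card_prod, Fintype.card_fin, Fintype.card_bool]
    have h1 := natCard_torsion (ratCurve W) hℓ.ne_zero
    let _ : Fintype (Submodule.torsionBy ℤ (EQ).Point (ℓ : ℤ)) := Fintype.ofFinite _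
    rw [Nat.card_eq_fintype_card] at h1 ⊢
    rw [Fintype.card_subtype_compl, Fintype.card_subtype_eq, h1]
    have : 5 * ℓ ≤ ℓ ^ 2 := by rw [sq]; exact Nat.mul_le_mul_right ℓ h5
    omega
  obtain ⟨s₀, hs₀⟩ := N.exists_branch
  let f : T → Fin ℓ × Bool := fun x =>
    (⟨i x, hilt x⟩, decide (A.valuation (s x - s₀) < 1))
  let _ : Fintype T := Fintype.ofFinite _
  rw [Nat.card_eq_fintype_card] at hcard
  obtain ⟨x, y, hxy, hf⟩ := Fintype.exists_ne_map_eq_of_card_lt f hcard
  simp only [f, Prod.mk.injEq, Fin.mk.injEq, decide_eq_decide] at hf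
  have hsx : A.valuation (qb (E').toAffine (s x)) < 1 := by
    obtain ⟨a, b, hab, e⟩ := (hbr x).exists_eq
    have := hbr x; rw [e, br_some] at this; exact this.2.2.2.2
  have hsy : A.valuation (qb (E').toAffine (s y)) < 1 := by
    obtain ⟨a, b, hab, e⟩ := (hbr y).exists_eq
    have := hbr y; rw [e, br_some] at this; exact this.2.2.2.2
  have hsxy : A.valuation (s y - s x) < 1 := by
    rcases Node.root_cases hs₀ hsx with a | a <;>
      rcases Node.root_cases hs₀ hsy with b | b
    · rw [show s y - s x = (s y - s₀) - (s x - s₀) by ring]; exact A.valuation.map_sub_lt b a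
    · have := hf.2.mp a
      rw [show s y - s x = (s y - s₀) - (s x - s₀) by ring]; exact A.valuation.map_sub_lt this a
    · have := hf.2.mpr b
      rw [show s y - s x = (s y - s₀) - (s x - s₀) by ring]; exact A.valuation.map_sub_lt b this
    · rw [show s y - s x = (s y - (-(E').toAffine.a₁ - s₀)) - (s x - (-(E').toAffine.a₁ - s₀)) by ring]
      exact A.valuation.map_sub_lt b a
  have hgxy : g y = g x :=
    (pow_left_inj₀ zero_le zero_le hℓ.ne_zero).mp (by rw [hi, hi, hf.1])
  have he0 := N.node.sub_e0_of_br (hbr x) (Node.br_congr (hgxy ▸ hbr y) hsx hsxy)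
  rw [← map_sub] at he0
  refine hxy (Subtype.ext (Subtype.ext (sub_eq_zero.mp (hc _ he0 ?_))))
  rw [nsmul_sub, ← natCast_zsmul, ← natCast_zsmul, (Submodule.mem_torsionBy_iff _ _).mp x.1.2,
    (Submodule.mem_torsionBy_iff _ _).mp y.1.2, sub_zero]

end NodeAt

end FA.LocalDef
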