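import Mathlib.NumberTheory.RamificationInertia.Galois
import Mathlib.NumberTheory.NumberField.Basic
import Mathlib.RingTheory.DedekindDomain.Ideal.Lemmas
import Mathlib.RingTheory.DedekindDomain.Factorization
import Mathlib.RingTheory.RamificationInertia.Ramification
import Mathlib.RingTheory.Ideal.Norm.AbsNorm
import Mathlib.LinearAlgebra.FreeModule.IdealQuotient
import Mathlib.RingTheory.Valuation.Integral
import Mathlib.Tactic.LinearCombination

/-!
# Valuations on number fields: uniformizers and the order of inertia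
-/

set_option autoImplicit false

noncomputable section

open NumberField

namespace FA.LocalDef

section Unif

variable {L Γ : Type*} [Field L] [LinearOrderedCommGroupWithZero Γ]

/-- `ϖ` generates the value group of `v`. -/
structure Unif (v : Valuation L Γ) (ϖ : L) : Prop where
  ne_zero : ϖ ≠ 0
  lt_one : v ϖ < 1
  exists_zpow : ∀ z : L, z ≠ 0 → ∃ k : ℤ, v z = v ϖ ^ k

variable {v : Valuation L Γ} {a b ϖ : L}

lemma Unif.pos (h : Unif v ϖ) : 0 < v ϖ := v.pos_iff.mpr h.ne_zero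

lemma Unif.le_of_lt_one (h : Unif v ϖ) {z : L} (hz : v z < 1) : v z ≤ v ϖ := by
  by_cases h0 : z = 0
  · simp [h0]
  obtain ⟨k, hk⟩ := h.exists_zpow z h0
  rw [hk] at hz ⊢
  have hk1 : 1 ≤ k := by
    by_contra hc
    exact not_lt.mpr (one_le_zpow_of_nonpos₀ h.pos h.lt_one.le (by omega)) hz
  calc v ϖ ^ k ≤ v ϖ ^ (1 : ℤ) := zpow_le_zpow_right_of_le_one₀ h.pos h.lt_one.le hk1
    _ = v ϖ := zpow_one _

lemma Unif.map_eq (ha : Unif v a) (hb : Unif v b) : v a = v b :=
  le_antisymm (hb.le_of_lt_one ha.lt_one) (ha.le_of_lt_one hb.lt_one)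

end Unif

variable {L Γ : Type*} [Field L] [NumberField L] [LinearOrderedCommGroupWithZero Γ]
  (v : Valuation L Γ)

lemma map_int_le_one (n : ℤ) : v (n : L) ≤ 1 := by
  have h : ∀ m : ℕ, v (m : L) ≤ 1 := fun m => by
    induction m with
    | zero => simp
    | succ m ih => rw [Nat.cast_succ]; exact v.map_add_le ih v.map_one.le
  rcases n with n | n
  · simpa using h n
  · rw [Int.cast_negSucc, v.map_neg]; exact h (n + 1)

lemma map_ringOfIntegers_le_one (x : 𝓞 L) : v (x : L) ≤ 1 := by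
  let S := v.integer
  have hS : v.Integers S := Valuation.integer.integers v
  obtain ⟨P, hP, hPx⟩ := RingOfIntegers.isIntegral_coe x
  let f : ℤ →+* S := Int.castRingHom S
  have hint : IsIntegral S (x : L) := ⟨P.map f, hP.map f, by
    rw [Polynomial.eval₂_map, RingHom.ext_int ((algebraMap S L).comp f) (algebraMap ℤ L)]
    exact hPx⟩
  exact hS.mem_of_integral hint

/-- The centre of `v` on the ring of integers. -/
def centre : Ideal (𝓞 L) where
  carrier := {x | v (x : L) < 1}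
  zero_mem' := by simp
  add_mem' {a b} ha hb := by
    show v ((a + b : 𝓞 L) : L) < 1
    rw [RingOfIntegers.coe_eq_algebraMap, map_add]
    exact v.map_add_lt ha hb
  smul_mem' c x hx := by
    show v ((c * x : 𝓞 L) : L) < 1
    rw [RingOfIntegers.coe_eq_algebraMap, map_mul, map_mul]
    exact lt_of_le_of_lt (mul_le_of_le_one_left' (map_ringOfIntegers_le_one v c)) hx

lemma mem_centre {x : 𝓞 L} : x ∈ centre v ↔ v (x : L) < 1 := Iff.rfl

lemma map_eq_one_of_notMem {x : 𝓞 L} (hx : x ∉ centre v) : v (x : L) = 1 :=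
  le_antisymm (map_ringOfIntegers_le_one v x) (not_lt.mp hx)

instance centre_isPrime : (centre v).IsPrime where
  ne_top' h := by
    have h1 : (1 : 𝓞 L) ∈ centre v := h ▸ Submodule.mem_top
    rw [mem_centre, RingOfIntegers.coe_eq_algebraMap, map_one, map_one] at h1
    exact lt_irrefl _ h1
  mem_or_mem' {a b} hab := by
    by_contra hc
    rw [not_or] at hc
    rw [mem_centre, RingOfIntegers.coe_eq_algebraMap, map_mul, map_mul, ← RingOfIntegers.coe_eq_algebraMap,
      ← RingOfIntegers.coe_eq_algebraMap, map_eq_one_of_notMem v hc.1, map_eq_one_of_notMem v hc.2,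
      mul_one] at hab
    exact lt_irrefl _ hab

variable {v} {q : ℕ} (hq : q ≠ 0) (hv : v (q : L) < 1)

include hq hv in
lemma centre_ne_bot : centre v ≠ ⊥ := fun h => by
  have : (q : 𝓞 L) ∈ centre v := by
    rw [mem_centre, RingOfIntegers.coe_eq_algebraMap, map_natCast]; exact hv
  rw [h, Ideal.mem_bot] at this
  exact hq (Nat.cast_eq_zero.mp this)

/-- Valuations are read off from the exponent of the centre. -/
theorem map_eq_pow_of_span_eq {ϖ : 𝓞 L} (hP0 : centre v ≠ ⊥) {C' : Ideal (𝓞 L)}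
    (hC' : ¬ centre v ∣ C') (hϖ : Ideal.span {ϖ} = centre v * C') {z : 𝓞 L} {k : ℕ}
    {C : Ideal (𝓞 L)} (hC : ¬ centre v ∣ C) (hz : Ideal.span {z} = centre v ^ k * C) :
    v (z : L) = v (ϖ : L) ^ k := by
  obtain ⟨s, hsC, hsP⟩ : ∃ s, s ∈ C' ∧ s ∉ centre v := by
    by_contra hc
    push Not at hc
    exact hC' (Ideal.dvd_iff_le.mpr hc)
  have hmem : z * s ^ k ∈ Ideal.span {ϖ ^ k} := by
    rw [← Ideal.span_singleton_pow, hϖ, mul_pow]
    refine Ideal.mul_mem_mul ?_ (Ideal.pow_mem_pow hsC k)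
    have hz' : z ∈ centre v ^ k * C := by rw [← hz]; exact Ideal.mem_span_singleton_self z
    exact Ideal.mul_le_left (J := C) hz'
  obtain ⟨t, ht⟩ := Ideal.mem_span_singleton'.mp hmem
  have hP : Prime (centre v) := Ideal.prime_of_isPrime hP0 inferInstance
  have hs : ¬ centre v ∣ Ideal.span {s} := fun hd =>
    hsP (Ideal.dvd_iff_le.mp hd (Ideal.mem_span_singleton_self s))
  have htP : t ∉ centre v := fun ht' => by
    have e : centre v ^ k * (C * Ideal.span {s} ^ k) =
        centre v ^ k * (C' ^ k * Ideal.span {t}) := by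
      rw [← mul_assoc, ← hz, ← mul_assoc, ← mul_pow, ← hϖ, Ideal.span_singleton_pow,
        Ideal.span_singleton_pow, Ideal.span_singleton_mul_span_singleton,
        Ideal.span_singleton_mul_span_singleton, mul_comm _ t, ht]
    have h2 : centre v ∣ C * Ideal.span {s} ^ k := by
      rw [mul_left_cancel₀ (pow_ne_zero _ hP.ne_zero) e]
      exact Dvd.dvd.mul_left (Ideal.dvd_iff_le.mpr ((Ideal.span_singleton_le_iff_mem _).mpr ht')) _
    rcases hP.dvd_or_dvd h2 with h | h
    · exact hC h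
    · exact hs (hP.dvd_of_dvd_pow h)
  have e := congrArg (fun y : 𝓞 L => v (y : L)) ht
  simp only [RingOfIntegers.coe_eq_algebraMap, map_mul, map_pow] at e
  simp only [← RingOfIntegers.coe_eq_algebraMap, map_eq_one_of_notMem v htP, map_eq_one_of_notMem v hsP, one_mul,
    one_pow, mul_one] at e
  exact e.symm

include hq hv in
theorem exists_centre_generator : ∃ ϖ : 𝓞 L, ∃ C' : Ideal (𝓞 L),
    ¬ centre v ∣ C' ∧ Ideal.span {ϖ} = centre v * C' := by
  have hP0 := centre_ne_bot hq hv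
  have hP : Prime (centre v) := Ideal.prime_of_isPrime hP0 inferInstance
  obtain ⟨ϖ, h1, h2⟩ : ∃ ϖ, ϖ ∈ centre v ∧ ϖ ∉ centre v ^ 2 := by
    by_contra hc
    push Not at hc
    have : centre v ^ 1 = centre v ^ 2 := le_antisymm (by rwa [pow_one]) (Ideal.pow_le_pow_right one_le_two)
    exact absurd (Ideal.pow_right_strictAnti _ hP0 (Ideal.IsPrime.ne_top') |>.injective this)
      (by omega)
  obtain ⟨C', hC'⟩ := Ideal.dvd_iff_le.mpr ((Ideal.span_singleton_le_iff_mem _).mpr h1)
  refine ⟨ϖ, C', fun hd => h2 ?_, hC'⟩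
  have : centre v ^ 2 ∣ Ideal.span {ϖ} := by rw [sq, hC']; exact mul_dvd_mul_left _ hd
  exact Ideal.dvd_iff_le.mp this (Ideal.mem_span_singleton_self ϖ)

include hq hv in
theorem unif_of_generator {ϖ : 𝓞 L} {C' : Ideal (𝓞 L)} (hC' : ¬ centre v ∣ C')
    (hϖ : Ideal.span {ϖ} = centre v * C') : Unif v (ϖ : L) := by
  have hP0 := centre_ne_bot hq hv
  have hP : Prime (centre v) := Ideal.prime_of_isPrime hP0 inferInstance
  have hϖmem : ϖ ∈ centre v := by
    refine Ideal.mul_le_left (J := C') ?_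
    rw [← hϖ]; exact Ideal.mem_span_singleton_self ϖ
  have hϖ0 : ϖ ≠ 0 := fun h0 => by
    rw [h0, Ideal.span_singleton_eq_bot.mpr rfl] at hϖ
    rcases mul_eq_zero.mp hϖ.symm with h | h
    · exact hP0 h
    · exact hC' (h ▸ dvd_zero _)
  have hint : ∀ z : 𝓞 L, z ≠ 0 → ∃ k : ℕ, v (z : L) = v (ϖ : L) ^ k := fun z hz => by
    obtain ⟨k, C, hC, hzC⟩ := WfDvdMonoid.max_power_factor
      (a₀ := Ideal.span {z}) (by simpa using hz) hP.irreducible
    exact ⟨k, map_eq_pow_of_span_eq hP0 hC' hϖ hC hzC⟩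
  refine ⟨fun h => hϖ0 (RingOfIntegers.ext (by simpa using h)), hϖmem, fun z hz => ?_⟩
  obtain ⟨a, b, hb, rfl⟩ := IsFractionRing.div_surjective (A := 𝓞 L) z
  have hb0 : b ≠ 0 := nonZeroDivisors.ne_zero hb
  have ha0 : a ≠ 0 := by rintro rfl; simp at hz
  obtain ⟨i, hi⟩ := hint a ha0
  obtain ⟨j, hj⟩ := hint b hb0
  refine ⟨(i : ℤ) - j, ?_⟩
  rw [map_div₀, hi, hj, zpow_sub₀ (v.ne_zero_iff.mpr fun h => hϖ0 (RingOfIntegers.ext (by simpa using h))),
    zpow_natCast, zpow_natCast]

variable {K : Type*} [Field K] [NumberField K] [Algebra K L] [IsGalois K L]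

include hq hv in
/-- Uniformizers in a Galois extension differ by the order of inertia. -/
theorem exists_unif_pair : ∃ (a : K) (b : L),
    Unif (v.comap (algebraMap K L)) a ∧ Unif v b ∧
    v (algebraMap K L a) = v b ^ Nat.card ((centre v).inertia (L ≃ₐ[K] L)) := by
  set w := v.comap (algebraMap K L)
  have hw : w (q : K) < 1 := by
    show v (algebraMap K L q) < 1
    rw [map_natCast]; exact hv
  obtain ⟨a, Ca, hCa, ha⟩ := exists_centre_generator hq hw
  obtain ⟨b, Cb, hCb, hb⟩ := exists_centre_generator hq hv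
  refine ⟨a, b, unif_of_generator hq hw hCa ha, unif_of_generator hq hv hCb hb, ?_⟩
  have hcomm : ∀ x : 𝓞 K, ((algebraMap (𝓞 K) (𝓞 L) x : 𝓞 L) : L) = algebraMap K L (x : K) :=
    fun x => by
      rw [RingOfIntegers.coe_eq_algebraMap, RingOfIntegers.coe_eq_algebraMap,
        ← IsScalarTower.algebraMap_apply (𝓞 K) (𝓞 L) L, IsScalarTower.algebraMap_apply (𝓞 K) K L]
  have hover : (centre v).LiesOver (centre w) := ⟨Ideal.ext fun x => by
    show v (algebraMap K L (x : K)) < 1 ↔ v ((algebraMap (𝓞 K) (𝓞 L) x : 𝓞 L) : L) < 1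
    rw [hcomm]⟩
  have hP0 := centre_ne_bot hq hv
  have hp0 := centre_ne_bot hq hw
  have hP : Prime (centre v) := Ideal.prime_of_isPrime hP0 inferInstance
  set I := (centre w).map (algebraMap (𝓞 K) (𝓞 L))
  have hI : I ≠ ⊥ := Ideal.map_ne_bot_of_ne_bot hp0
  have : (centre w).IsMaximal := (centre_isPrime w).isMaximal hp0
  have : Finite (𝓞 K ⧸ centre w) := Ideal.finiteQuotientOfFreeOfNeBot _ hp0
  have hcard := Ideal.card_inertia_eq_ramificationIdxIn (G := L ≃ₐ[K] L) (centre w) (centre v)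
  rw [Ideal.ramificationIdxIn_eq_ramificationIdx (centre w) (centre v) (L ≃ₐ[K] L),
    Ideal.IsDedekindDomain.ramificationIdx_eq_multiplicity (centre w) (centre v) hI] at hcard
  obtain ⟨k, C, hC, hIC⟩ := WfDvdMonoid.max_power_factor hI hP.irreducible
  have hk : k = Nat.card ((centre v).inertia (L ≃ₐ[K] L)) := by
    rw [hcard]
    refine (multiplicity_eq_of_dvd_of_not_dvd ⟨C, hIC⟩ fun ⟨D, hD⟩ => hC ?_).symm
    rw [hIC, pow_succ, mul_assoc] at hD
    rw [mul_left_cancel₀ (pow_ne_zero _ hP0) hD]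
    exact dvd_mul_right _ D
  rw [← hk, ← hcomm]
  refine map_eq_pow_of_span_eq hP0 hCb hb (C := C * Ca.map (algebraMap (𝓞 K) (𝓞 L))) ?_ ?_
  · intro hd
    refine (hP.dvd_or_dvd hd).elim hC fun h => hCa (Ideal.dvd_iff_le.mpr ?_)
    exact (Ideal.map_le_iff_le_comap.mp (Ideal.dvd_iff_le.mp h)).trans
      ((centre v).over_def (centre w)).ge
  · rw [← mul_assoc, ← hIC, ← Ideal.map_mul, ← ha, Ideal.map_span, Set.image_singleton]

end FA.LocalDef
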