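import Fermat.Agent.LocalDef.Transfer
import Fermat.Agent.Deform.MatrixRep
import Fermat.Prelude.Def_GaloisRep_Flat
import Fermat.Prelude.Def_GaloisRep_LocalConditions
import Mathlib.RingTheory.Filtration
import Mathlib.RingTheory.Ideal.Quotient.Index

/-!
# The ordinary line from connected parts of all levels

If the residual representation is ordinary and every level has a connected part, the line of a
moved vector is stable under the decomposition group and contains all displacements by inertia: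
by induction the other coordinate of the connected part would give trivial inertia on a connected
model.
-/

set_option autoImplicit false
set_option linter.unusedSectionVars false
set_option linter.style.haveILetI false
set_option maxHeartbeats 1000000

noncomputable section

open IsLocalRing

namespace FA.LocalDef

local notation "Qb" => AlgebraicClosure ℚ
local notation "GQ" => AlgebraicClosure ℚ ≃ₐ[ℚ] AlgebraicClosure ℚ

variable {A : ValuationSubring Qb} {p : ℕ} {R : Type} [CommRing R] [IsLocalRing R]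

section Level

variable (ρ : GaloisRepAdic R) (b : Module.Basis (Fin 2) R ρ.V) (t : ℕ)

/-- A coordinate modulo a lower power. -/
def coordMod (j : Fin 2) {i : ℕ} (hi : i ≤ t) :
    (ρ.V ⧸ (maximalIdeal R ^ t • (⊤ : Submodule R ρ.V))) →ₗ[R] R ⧸ maximalIdeal R ^ i :=
  Submodule.liftQ _ ((Submodule.mkQ _).comp (b.coord j)) (by
    refine fun v hv => Submodule.smul_induction_on hv (fun a ha w _ => ?_) fun x y hx hy => ?_
    · rw [LinearMap.mem_ker, LinearMap.comp_apply, map_smul, Submodule.mkQ_apply,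
        Submodule.Quotient.mk_eq_zero, smul_eq_mul]
      exact Ideal.mul_mem_right _ _ (Ideal.pow_le_pow_right hi ha)
    · exact add_mem hx hy)

theorem coordMod_mk (j : Fin 2) {i : ℕ} (hi : i ≤ t) (v : ρ.V) :
    coordMod ρ b t j hi (Submodule.Quotient.mk v) = 0 ↔ b.repr v j ∈ maximalIdeal R ^ i := by
  rw [coordMod, Submodule.liftQ_apply, LinearMap.comp_apply, Submodule.mkQ_apply,
    Submodule.Quotient.mk_eq_zero, Module.Basis.coord_apply]

/-- The coordinate of the connected part vanishes at the level. -/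
theorem repr_mem_of_part {E : Set GQ} [hp : Fact p.Prime] (hA : A.LiesOverPrime p) (hp2 : p ≠ 2)
    (hpR : (p : R) ∈ maximalIdeal R) [Finite (R ⧸ maximalIdeal R ^ t)]
    [Fintype (ρ.V ⧸ (maximalIdeal R ^ t • (⊤ : Submodule R ρ.V)))]
    (hres : ∀ σ ∈ A.inertiaSubgroupIn ℚ, ∀ v, b.repr (ρ.ρ σ v - v) 1 ∈ maximalIdeal R)
    (hb0 : ∃ s ∈ A.inertiaSubgroupIn ℚ, ∃ v, ρ.ρ s v - v = b 0)
    (hIE : ∀ σ ∈ A.inertiaSubgroupIn ℚ, σ ∈ E)
    (h : HasPart E A (ρ.V ⧸ (maximalIdeal R ^ t • (⊤ : Submodule R ρ.V)))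
      fun σ x => ρ.levelAction (maximalIdeal R ^ t) σ x) :
    (∀ δ ∈ A.decompositionSubgroup ℚ, b.repr (ρ.ρ δ (b 0)) 1 ∈ maximalIdeal R ^ t) ∧
      ∀ σ ∈ E, ∀ v, b.repr (ρ.ρ σ v - v) 1 ∈ maximalIdeal R ^ t := by
  classical
  obtain ⟨W, hWf, actW, hD, hI, hact, hconn⟩ := h
  set q := (maximalIdeal R ^ t • (⊤ : Submodule R ρ.V)).mkQ
  let act := fun σ x => ρ.levelAction (maximalIdeal R ^ t) σ x
  have hq : ∀ σ v, act σ (q v) = q (ρ.ρ σ v) := fun σ v => rfl
  have hsmul : ∀ σ (a : R) x, act σ (a • x) = a • act σ x := fun σ a x => map_smul _ _ _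
  have hadd : ∀ σ x y, act σ (x + y) = act σ x + act σ y := fun σ x y => map_add _ _ _
  -- the span of the connected part
  set W0 := Submodule.span R (W : Set (ρ.V ⧸ (maximalIdeal R ^ t • (⊤ : Submodule R ρ.V))))
  have hD0 : ∀ δ ∈ A.decompositionSubgroup ℚ, ∀ x ∈ W0, act δ x ∈ W0 := by
    intro δ hδ x hx
    induction hx using Submodule.span_induction with
    | mem x hx => exact Submodule.subset_span (hD δ hδ x hx)
    | zero =>
      show ρ.levelAction (maximalIdeal R ^ t) δ 0 ∈ W0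
      rw [map_zero]; exact zero_mem _
    | add x y _ _ hx hy => rw [hadd]; exact add_mem hx hy
    | smul a x _ hx => rw [hsmul]; exact Submodule.smul_mem _ _ hx
  let actW0 : GQ → W0.toAddSubgroup → W0.toAddSubgroup := fun σ x =>
    if hm : act σ x ∈ W0 then ⟨_, hm⟩ else 0
  have hact0 : ∀ σ ∈ A.inertiaSubgroupIn ℚ, ∀ x : W0.toAddSubgroup,
      (actW0 σ x : ρ.V ⧸ _) = act σ x := fun σ hσ x => by
    simp only [actW0, dif_pos (hD0 σ (inertia_le_decomposition hσ) x.1 x.2)]
  letI : Fintype (R ⧸ maximalIdeal R ^ t) := Fintype.ofFinite _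
  letI : Fintype W0.toAddSubgroup := Fintype.ofFinite _
  choose sec hsec using Ideal.Quotient.mk_surjective (I := maximalIdeal R ^ t)
  have hkill : ∀ (a a' : R), Ideal.Quotient.mk (maximalIdeal R ^ t) a = Ideal.Quotient.mk _ a' →
      ∀ x : ρ.V ⧸ (maximalIdeal R ^ t • (⊤ : Submodule R ρ.V)), a • x = a' • x := fun a a' he x => by
    obtain ⟨v, rfl⟩ := Submodule.Quotient.mk_surjective _ x
    rw [← Submodule.Quotient.mk_smul, ← Submodule.Quotient.mk_smul, Submodule.Quotient.eq, ← sub_smul]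
    exact Submodule.smul_mem_smul (Ideal.Quotient.eq.1 he) Submodule.mem_top
  let Φ : ((R ⧸ maximalIdeal R ^ t) → W) →+ W0.toAddSubgroup := AddMonoidHom.mk'
    (fun f => ⟨∑ r, sec r • (f r : ρ.V ⧸ _),
      Submodule.sum_mem _ fun r _ => Submodule.smul_mem _ _ (Submodule.subset_span (f r).2)⟩)
    fun f g => Subtype.ext (by simp [smul_add, Finset.sum_add_distrib])
  have hΦ : Function.Surjective Φ := by
    rintro ⟨x, hx⟩
    change x ∈ W0 at hx
    induction hx using Submodule.span_induction with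
    | mem x hx =>
      refine ⟨Pi.single (1 : R ⧸ maximalIdeal R ^ t) ⟨x, hx⟩, Subtype.ext ?_⟩
      show ∑ r, sec r • (((Pi.single (1 : R ⧸ maximalIdeal R ^ t) (⟨x, hx⟩ : W) :
          (R ⧸ maximalIdeal R ^ t) → W) r : W) : ρ.V ⧸ _) = x
      rw [Finset.sum_eq_single (1 : R ⧸ maximalIdeal R ^ t) (fun r _ hr => by simp [hr]) (by simp),
        Pi.single_eq_same, hkill (sec 1) 1 (by rw [hsec, map_one]), one_smul]
    | zero => exact ⟨0, map_zero _⟩
    | add x y hxm hym hx hy =>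
      obtain ⟨f, hf⟩ := hx
      obtain ⟨g, hg⟩ := hy
      exact ⟨f + g, by rw [map_add, hf, hg]; rfl⟩
    | smul a x hxm hx =>
      obtain ⟨f, hf⟩ := hx
      let e : (R ⧸ maximalIdeal R ^ t) → (R ⧸ maximalIdeal R ^ t) :=
        fun r => Ideal.Quotient.mk _ a * r
      refine ⟨fun s => ∑ r ∈ Finset.univ.filter (fun r => e r = s), f r, Subtype.ext ?_⟩
      have hfx : ∑ r, sec r • (f r : ρ.V ⧸ _) = x := congrArg Subtype.val hf
      show ∑ s, sec s • ((∑ r ∈ Finset.univ.filter (fun r => e r = s), f r : W) : ρ.V ⧸ _) = a • x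
      rw [← hfx, Finset.smul_sum,
        ← Finset.sum_fiberwise Finset.univ e fun r => a • sec r • (f r).1]
      refine Finset.sum_congr rfl fun s _ => ?_
      rw [AddSubmonoidClass.coe_finsetSum, Finset.smul_sum]
      refine Finset.sum_congr rfl fun r hr => ?_
      rw [smul_smul]
      exact hkill _ _ (by rw [hsec, map_mul, hsec, ← (Finset.mem_filter.1 hr).2]) _
  have hconn0 : HasConnModel A W0.toAddSubgroup actW0 := by
    refine (hconn.pi _).of_surjective Φ hΦ fun σ hσ f => Subtype.ext ?_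
    rw [hact0 σ hσ]
    show ∑ r, sec r • (actW σ (f r) : ρ.V ⧸ _) = act σ (∑ r, sec r • (f r : ρ.V ⧸ _))
    simp only [hact σ hσ]
    exact ((map_sum (ρ.levelAction _ σ) _ _).trans
      (Finset.sum_congr rfl fun r _ => map_smul _ _ _)).symm
  have hIW : ∀ σ ∈ E, ∀ v, q (ρ.ρ σ v - v) ∈ W0 := fun σ hσ v => by
    rw [map_sub, ← hq]; exact Submodule.subset_span (hI σ hσ _)
  have hb0W : q (b 0) ∈ W0 := by
    obtain ⟨s, hs, v, hv⟩ := hb0
    exact hv ▸ hIW s (hIE s hs) v
  -- induction on the power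
  suffices key : ∀ i ≤ t, ∀ v, q v ∈ W0 → b.repr v 1 ∈ maximalIdeal R ^ i by
    refine ⟨fun δ hδ => key t le_rfl _ ?_, fun σ hσ v => key t le_rfl _ (hIW σ hσ v)⟩
    rw [← hq]
    exact hD0 δ hδ _ hb0W
  intro i
  induction i with
  | zero => intro _ v _; rw [pow_zero, Ideal.one_eq_top]; trivial
  | succ i ih =>
    intro hi v hv
    have ih' := ih (Nat.le_of_succ_le hi)
    set J : Ideal R := maximalIdeal R ^ min i 1 with hJ
    have hm : min i 1 ≤ t := by omega
    let π0 := coordMod ρ b t 0 hm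
    let π1 := coordMod ρ b t 1 hi
    -- displacements of vectors with small coordinates are small
    have hdisp : ∀ σ ∈ A.inertiaSubgroupIn ℚ, ∀ w, q w ∈ W0 → b.repr w 0 ∈ J →
        b.repr (ρ.ρ σ w - w) 0 ∈ J ∧ b.repr (ρ.ρ σ w - w) 1 ∈ maximalIdeal R ^ (i + 1) := by
      intro σ hσ w hw hw0
      have hw1 := ih' w hw
      have e : ρ.ρ σ w - w = b.repr w 0 • (ρ.ρ σ (b 0) - b 0) +
          b.repr w 1 • (ρ.ρ σ (b 1) - b 1) := by
        conv_lhs => rw [← b.sum_repr w, Fin.sum_univ_two]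
        rw [map_add, map_smul, map_smul, smul_sub, smul_sub]
        abel
      rw [e]
      simp only [map_add, map_smul, Finsupp.add_apply, Finsupp.smul_apply, smul_eq_mul]
      refine ⟨add_mem (Ideal.mul_mem_right _ _ hw0) (Ideal.mul_mem_right _ _
        (Ideal.pow_le_pow_right (min_le_left _ _) hw1)), add_mem ?_ ?_⟩
      · rcases Nat.eq_zero_or_pos i with rfl | hpos
        · rw [zero_add, pow_one]
          exact Ideal.mul_mem_left _ _ (hres σ hσ _)
        · rw [hJ, min_eq_right hpos, pow_one] at hw0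
          rw [pow_succ']
          exact Ideal.mul_mem_mul hw0 (ih' _ (hIW σ (hIE σ hσ) _))
      · rw [pow_succ]
        exact Ideal.mul_mem_mul hw1 (hres σ hσ _)
    -- the subgroup with small coordinate
    let U : AddSubgroup W0.toAddSubgroup :=
      ((LinearMap.ker π0).toAddSubgroup).comap W0.toAddSubgroup.subtype
    letI : Fintype U := Fintype.ofFinite _
    let ψ : U →+ R ⧸ maximalIdeal R ^ (i + 1) :=
      π1.toAddMonoidHom.comp (W0.toAddSubgroup.subtype.comp U.subtype)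
    letI : Fintype ψ.range := Fintype.ofFinite _
    have hlift : ∀ x : U, ∃ w, q w = (x : W0.toAddSubgroup).1 ∧ q w ∈ W0 ∧ b.repr w 0 ∈ J := by
      intro x
      obtain ⟨w, hw⟩ := Submodule.Quotient.mk_surjective _ (x : W0.toAddSubgroup).1
      refine ⟨w, hw, by rw [show q w = _ from hw]; exact x.1.2,
        (coordMod_mk ρ b t 0 hm w).1 ?_⟩
      rw [hw]; exact x.2
    have hU : ∀ σ ∈ A.inertiaSubgroupIn ℚ, ∀ x : U, actW0 σ x ∈ U ∧
        π1 (act σ (x : W0.toAddSubgroup).1) = π1 (x : W0.toAddSubgroup).1 := by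
      intro σ hσ x
      obtain ⟨w, hw, hwW, hw0⟩ := hlift x
      obtain ⟨e0, e1⟩ := hdisp σ hσ w hwW hw0
      refine ⟨?_, ?_⟩
      · show π0 (actW0 σ x : ρ.V ⧸ _) = 0
        rw [hact0 σ hσ, ← hw, hq]
        refine (coordMod_mk ρ b t 0 hm _).2 ?_
        have := add_mem e0 hw0
        rwa [map_sub, Finsupp.sub_apply, sub_add_cancel] at this
      · rw [← hw, hq, ← sub_eq_zero, ← map_sub, ← map_sub]
        exact (coordMod_mk ρ b t 1 hi _).2 e1
    let actU : GQ → U → U := fun σ x => if hm : actW0 σ x ∈ U then ⟨_, hm⟩ else 0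
    have hconnU : HasConnModel A U actU := hconn0.of_injective U.subtype Subtype.val_injective
      fun σ hσ x => by
        show (actU σ x : W0.toAddSubgroup) = actW0 σ x
        simp only [actU, dif_pos (hU σ hσ x).1]
    have hrange : HasConnModel A ψ.range fun _ y => y :=
      hconnU.of_surjective ψ.rangeRestrict ψ.rangeRestrict_surjective fun σ hσ x => Subtype.ext (by
        show π1 ((actU σ x : W0.toAddSubgroup) : ρ.V ⧸ _) = π1 (x : W0.toAddSubgroup).1
        simp only [actU, dif_pos (hU σ hσ x).1]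
        rw [hact0 σ hσ, (hU σ hσ x).2])
    have hzero : ∀ x : U, ψ x = 0 := by
      intro x
      refine congrArg Subtype.val (hrange.eq_zero_of_trivial hA hp2 (fun y => ?_)
        (fun _ _ _ => rfl) (ψ.rangeRestrict x) : ψ.rangeRestrict x = 0)
      obtain ⟨x', rfl⟩ := ψ.rangeRestrict_surjective y
      obtain ⟨w, hw, hwW, -⟩ := hlift x'
      refine Subtype.ext ?_
      show p • π1 (x' : W0.toAddSubgroup).1 = 0
      rw [← hw, ← map_nsmul, ← map_nsmul]
      refine (coordMod_mk ρ b t 1 hi _).2 ?_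
      rw [← Nat.cast_smul_eq_nsmul R, map_smul, Finsupp.smul_apply, smul_eq_mul, pow_succ']
      exact Ideal.mul_mem_mul hpR (ih' w hwW)
    -- conclusion
    set w := v - b.repr v 0 • b 0 with hwdef
    have hwW : q w ∈ W0 := by
      rw [hwdef, map_sub, map_smul]; exact sub_mem hv (Submodule.smul_mem _ _ hb0W)
    have h0 : b.repr w 0 = 0 := by simp [hwdef]
    have h1 : b.repr w 1 = b.repr v 1 := by simp [hwdef]
    have hmem : (⟨q w, hwW⟩ : W0.toAddSubgroup) ∈ U :=
      (coordMod_mk ρ b t 0 hm w).2 (by rw [h0]; exact zero_mem _)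
    rw [← h1]
    exact (coordMod_mk ρ b t 1 hi w).1 (hzero ⟨_, hmem⟩)

end Level

/-- **The ordinary line.** -/
theorem exists_line_of_part {E : Set GQ} [IsNoetherianRing R] [hp : Fact p.Prime] (hA : A.LiesOverPrime p)
    (hp2 : p ≠ 2) (hpR : (p : R) ∈ maximalIdeal R) [Finite (ResidueField R)]
    (ρ : GaloisRepAdic R) (b : Module.Basis (Fin 2) R ρ.V)
    (hres : ∀ σ ∈ A.inertiaSubgroupIn ℚ, ∀ v, b.repr (ρ.ρ σ v - v) 1 ∈ maximalIdeal R)
    (hb0 : ∃ s ∈ A.inertiaSubgroupIn ℚ, ∃ v, ρ.ρ s v - v = b 0)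
    (hIE : ∀ σ ∈ A.inertiaSubgroupIn ℚ, σ ∈ E) (h : ∀ (t : ℕ) [Fintype (ρ.V ⧸ (maximalIdeal R ^ t • (⊤ : Submodule R ρ.V)))],
      HasPart E A (ρ.V ⧸ (maximalIdeal R ^ t • (⊤ : Submodule R ρ.V)))
        fun σ x => ρ.levelAction (maximalIdeal R ^ t) σ x) :
    (∀ δ ∈ A.decompositionSubgroup ℚ, ∀ v ∈ R ∙ b 0, ρ.ρ δ v ∈ R ∙ b 0) ∧
      ∀ σ ∈ E, ∀ v, ρ.ρ σ v - v ∈ R ∙ b 0 := by
  have hfin : ∀ t, Finite (R ⧸ maximalIdeal R ^ t) := fun t => by
    haveI : Finite (R ⧸ maximalIdeal R) := ‹Finite (ResidueField R)›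
    exact Ideal.finite_quotient_pow (IsNoetherian.noetherian _) t
  have hlev : ∀ t, (∀ δ ∈ A.decompositionSubgroup ℚ,
      b.repr (ρ.ρ δ (b 0)) 1 ∈ maximalIdeal R ^ t) ∧
      ∀ σ ∈ E, ∀ v, b.repr (ρ.ρ σ v - v) 1 ∈ maximalIdeal R ^ t := fun t => by
    classical
    haveI := hfin t
    haveI : Finite (ρ.V ⧸ (maximalIdeal R ^ t • (⊤ : Submodule R ρ.V))) := by
      refine Finite.of_surjective (α := Fin 2 → R ⧸ maximalIdeal R ^ t)
        (fun c => Submodule.Quotient.mk (∑ j, (Ideal.Quotient.mk_surjective (c j)).choose • b j))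
        fun x => ?_
      obtain ⟨v, rfl⟩ := Submodule.Quotient.mk_surjective _ x
      refine ⟨fun j => Ideal.Quotient.mk _ (b.repr v j), (Submodule.Quotient.eq _).2 ?_⟩
      conv => congr; rfl; arg 2; rw [← b.sum_repr v]
      rw [← Finset.sum_sub_distrib]
      refine Submodule.sum_mem _ fun j _ => ?_
      rw [← sub_smul]
      exact Submodule.smul_mem_smul (Ideal.Quotient.eq.1
        (Ideal.Quotient.mk_surjective (Ideal.Quotient.mk _ (b.repr v j))).choose_spec)
        Submodule.mem_top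
    letI := Fintype.ofFinite (ρ.V ⧸ (maximalIdeal R ^ t • (⊤ : Submodule R ρ.V)))
    exact repr_mem_of_part ρ b t hA hp2 hpR hres hb0 hIE (h t)
  have hzero : ∀ a : R, (∀ t, a ∈ maximalIdeal R ^ t) → a = 0 := fun a ha => by
    have h1 : a ∈ ⨅ t, maximalIdeal R ^ t := Submodule.mem_iInf _ |>.2 ha
    rwa [Ideal.iInf_pow_eq_bot_of_isLocalRing _ (maximalIdeal.isMaximal R).ne_top,
      Submodule.mem_bot] at h1
  have hline : ∀ w, b.repr w 1 = 0 → w ∈ R ∙ b 0 := fun w hw => by
    refine Submodule.mem_span_singleton.2 ⟨b.repr w 0, ?_⟩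
    conv_rhs => rw [← b.sum_repr w, Fin.sum_univ_two, hw, zero_smul, add_zero]
  refine ⟨fun δ hδ v hv => ?_, fun σ hσ v => hline _ (hzero _ fun t => (hlev t).2 σ hσ v)⟩
  obtain ⟨a, rfl⟩ := Submodule.mem_span_singleton.1 hv
  rw [map_smul]
  exact Submodule.smul_mem _ _ (hline _ (hzero _ fun t => (hlev t).1 δ hδ))

end FA.LocalDef
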