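import Fermat.Agent.LocalDef.OrdinaryLine
import Fermat.Agent.LocalDef.Connected
import Fermat.Agent.ModField.Semistable.Chebotarev
import Mathlib.LinearAlgebra.Determinant
import Mathlib.LinearAlgebra.Basis.SMul

/-!
# Ordinary representations from connected parts

A representation with residually ordinary restriction and residual determinant the cyclotomic
character is ordinary as soon as all its levels have connected parts.
-/

set_option autoImplicit false
set_option linter.unusedSectionVars false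
set_option linter.style.haveILetI false
set_option maxHeartbeats 1000000

noncomputable section

open IsLocalRing
open scoped TensorProduct

namespace FA.LocalDef

local notation "Qb" => AlgebraicClosure ℚ
local notation "GQ" => AlgebraicClosure ℚ ≃ₐ[ℚ] AlgebraicClosure ℚ

variable {p : ℕ} [hp : Fact p.Prime] {R : Type} [CommRing R] [IsLocalRing R] (ρ : GaloisRepAdic R)

theorem residual_det (σ : GQ) :
    LinearMap.det (ρ.residual.ρ σ) = residue R (LinearMap.det (ρ.ρ σ)) :=
  LinearMap.det_baseChange (ρ.ρ σ)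

/-- If the determinant is `ℓ` at almost all Frobenius elements, inertia at `p` does not have
residual determinant one. -/
theorem exists_inertia_det_ne_one (hpR : (p : R) ∈ maximalIdeal R) (hp2 : p ≠ 2)
    (bad : Finset ℕ)
    (hdet : ∀ ℓ : ℕ, ℓ.Prime → ℓ ∉ bad → ∀ B : ValuationSubring Qb, B.LiesOverPrime ℓ →
      ∀ τ : GQ, B.IsFrobeniusAt τ ℓ → LinearMap.det (ρ.ρ τ) = (ℓ : R))
    {A : ValuationSubring Qb} (hA : A.LiesOverPrime p) :
    ∃ s ∈ A.inertiaSubgroupIn ℚ, residue R (LinearMap.det (ρ.ρ s)) ≠ 1 := by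
  classical
  haveI : NeZero p := ⟨hp.out.ne_zero⟩
  haveI : CharP (ResidueField R) p := (CharP.charP_iff_prime_eq_zero hp.out).2 (by
    rw [← map_natCast (residue R), residue_eq_zero_iff]; exact hpR)
  haveI : CharP (ResidueField R) (p ^ 1) := by rw [pow_one]; infer_instance
  let d : GQ →* ResidueField R := LinearMap.det.comp ρ.residual.ρ
  let c : GQ →* ResidueField R :=
    ((ZMod.castHom dvd_rfl (ResidueField R) : ZMod (p ^ 1) →+* ResidueField R).toMonoidHom).comp
      ((Units.coeHom _).comp (FA.ModField.cycMod p 1))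
  let K := (ρ.residual.ρ.prod (FA.ModField.cycMod p 1)).ker
  obtain ⟨L₁, hL₁, h₁⟩ := ρ.residual.factorsThroughFiniteLevel
  obtain ⟨L₂, hL₂, h₂⟩ := FA.JTorsion.exists_field_cycP p 1
  have hK : IsOpen (K : Set GQ) :=
    Subgroup.isOpen_mono (H₁ := (L₁ ⊔ L₂).fixingSubgroup) (fun τ hτ => by
      have hfix := (IntermediateField.mem_fixingSubgroup_iff _ _).1 hτ
      exact MonoidHom.mem_ker.2 (Prod.ext
        (h₁ τ fun a ha => hfix a ((le_sup_left : L₁ ≤ L₁ ⊔ L₂) ha))
        (Units.ext (h₂ τ fun a ha => hfix a ((le_sup_right : L₂ ≤ L₁ ⊔ L₂) ha)))))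
      (IntermediateField.fixingSubgroup_isOpen _)
  have hdc : ∀ τ, d τ = c τ := by
    refine fun τ => FA.Density.forall_of_frobenius_pow K hK (fun τ => d τ = c τ) ?_
      (bad ∪ {p}) ?_ τ
    · intro τ η hη h
      obtain ⟨e1, e2⟩ := Prod.ext_iff.1 (MonoidHom.mem_ker.1 hη)
      change ρ.residual.ρ η = 1 at e1
      change FA.ModField.cycMod p 1 η = 1 at e2
      rw [map_mul, map_mul c, h, show d η = 1 from (congrArg LinearMap.det e1).trans (map_one _),
        show c η = 1 by simp [c, e2]]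
    · intro ℓ hℓ hℓb B hB τ hτ e
      rw [Finset.mem_union, not_or, Finset.mem_singleton] at hℓb
      rw [map_pow, map_pow]
      refine congrArg (· ^ e) ?_
      show LinearMap.det (ρ.residual.ρ τ) =
        ZMod.castHom dvd_rfl (ResidueField R) ((FA.ModField.cycMod p 1 τ : ZMod (p ^ 1)))
      rw [residual_det, hdet ℓ hℓ hℓb.1 B hB τ hτ,
        FA.ModField.cycMod_frobenius p 1 hℓ hℓb.2 hB hτ, map_natCast, map_natCast]
  obtain ⟨ζ, hζ⟩ : ∃ ζ : Qb, IsPrimitiveRoot ζ p := HasEnoughRootsOfUnity.exists_primitiveRoot Qb p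
  obtain ⟨s, hs, hsζ⟩ := exists_inertia_zeta hp.out hA hζ
    (m := 2) (fun h => hp2 ((Nat.prime_dvd_prime_iff_eq hp.out Nat.prime_two).1 h))
  refine ⟨s, hs, fun h => ?_⟩
  rw [← residual_det] at h
  have h1 : (FA.ModField.cycMod p 1 s : ZMod (p ^ 1)) = 1 :=
    ZMod.castHom_injective (ResidueField R) (((hdc s).symm.trans h).trans (map_one _).symm)
  rw [FA.ModField.coe_cycMod, FA.JTorsion.cycP_toZModPow] at h1
  have h2 := modularCyclotomicCharacter.spec Qb
    (HasEnoughRootsOfUnity.natCard_rootsOfUnity Qb (p ^ 1)) (s : Qb ≃+* Qb)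
    (t := (hζ.isUnit hp.out.ne_zero).unit) (by
      rw [mem_rootsOfUnity, pow_one]
      exact Units.ext (by rw [Units.val_pow_eq_pow_val]; exact hζ.pow_eq_one))
  haveI : Fact (1 < p ^ 1) := ⟨by rw [pow_one]; exact hp.out.one_lt⟩
  change s ζ = _ at h2
  rw [h1, ZMod.val_one, pow_one, hsζ, sq] at h2
  exact hζ.ne_one hp.out.one_lt (mul_right_cancel₀ (hζ.ne_zero hp.out.ne_zero) (h2.trans (one_mul _).symm))

/-- The image of a vector in the residual representation. -/
def toResidual : ρ.V →ₗ[R] (ResidueField R ⊗[R] ρ.V) :=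
  (TensorProduct.mk R (ResidueField R) ρ.V) 1

theorem toResidual_surjective : Function.Surjective (toResidual ρ) := by
  intro x
  induction x using TensorProduct.induction_on with
  | zero => exact ⟨0, map_zero _⟩
  | tmul c v =>
    obtain ⟨a, rfl⟩ := residue_surjective c
    exact ⟨a • v, by
      show (1 : ResidueField R) ⊗ₜ[R] (a • v) = residue R a ⊗ₜ v
      rw [← TensorProduct.smul_tmul, ← Algebra.algebraMap_eq_smul_one]; rfl⟩
  | add x y hx hy =>
    obtain ⟨v, rfl⟩ := hx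
    obtain ⟨w, rfl⟩ := hy
    exact ⟨v + w, map_add _ _ _⟩

theorem toResidual_apply (σ : GQ) (v : ρ.V) :
    toResidual ρ (ρ.ρ σ v) = ρ.residual.ρ σ (toResidual ρ v) :=
  (LinearMap.baseChange_tmul _ _ _).symm

/-- Vectors reducing to a basis form a basis. -/
theorem exists_basis_of_residual (bk : Module.Basis (Fin 2) (ResidueField R)
    (ResidueField R ⊗[R] ρ.V)) (w : Fin 2 → ρ.V) (hw : ∀ i, toResidual ρ (w i) = bk i) :
    ∃ b : Module.Basis (Fin 2) R ρ.V, ∀ i, b i = w i := by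
  classical
  let b₀ := Module.finBasisOfFinrankEq R ρ.V ρ.finrank_eq
  let bT := Algebra.TensorProduct.basis (ResidueField R) b₀
  have hT : (residue R).mapMatrix (b₀.toMatrix w) = bT.toMatrix bk := by
    ext i j
    rw [RingHom.mapMatrix_apply, Matrix.map_apply, Module.Basis.toMatrix_apply,
      Module.Basis.toMatrix_apply, ← hw j]
    show _ = bT.repr ((1 : ResidueField R) ⊗ₜ[R] w j) i
    rw [Algebra.TensorProduct.basis_repr_tmul]
    simp
  have hu : IsUnit (b₀.det w) := by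
    rw [← isUnit_map_iff (residue R), Module.Basis.det_apply, RingHom.map_det, hT]
    haveI := bT.invertibleToMatrix bk
    exact (Matrix.isUnit_iff_isUnit_det _).1 (isUnit_of_invertible _)
  obtain ⟨hli, hsp⟩ := (b₀.is_basis_iff_det (v := w)).2 hu
  exact ⟨Module.Basis.mk hli hsp.ge, fun i => Module.Basis.mk_apply hli hsp.ge i⟩

/-- The residue of a coordinate. -/
theorem residual_repr (b : Module.Basis (Fin 2) R ρ.V)
    (bk : Module.Basis (Fin 2) (ResidueField R) (ResidueField R ⊗[R] ρ.V))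
    (hb : ∀ i, bk i = toResidual ρ (b i)) (v : ρ.V) (i : Fin 2) :
    bk.repr (toResidual ρ v) i = residue R (b.repr v i) := by
  classical
  conv_lhs => rw [← b.sum_repr v]
  simp only [map_sum, map_smul, ← hb, Finsupp.coe_finsetSum, Finset.sum_apply]
  rw [Finset.sum_eq_single i]
  · rw [← algebraMap_smul (ResidueField R), map_smul, Finsupp.smul_apply, bk.repr_self,
      Finsupp.single_eq_same, smul_eq_mul, mul_one]
    rfl
  · intro j _ hj
    rw [← algebraMap_smul (ResidueField R), map_smul, Finsupp.smul_apply, bk.repr_self,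
      Finsupp.single_eq_of_ne (Ne.symm hj), smul_zero]
  · simp

/-- **The line of a residually ordinary representation with parts at all levels.** -/
theorem exists_ordLine [IsNoetherianRing R] [Finite (ResidueField R)] (hp2 : p ≠ 2)
    (hpR : (p : R) ∈ maximalIdeal R)
    (hord : (GaloisRepAdic.ofResidualGaloisRep ρ.residual).IsOrdinaryAt p) (bad : Finset ℕ)
    (hdet : ∀ ℓ : ℕ, ℓ.Prime → ℓ ∉ bad → ∀ B : ValuationSubring Qb, B.LiesOverPrime ℓ →
      ∀ τ : GQ, B.IsFrobeniusAt τ ℓ → LinearMap.det (ρ.ρ τ) = (ℓ : R))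
    {A : ValuationSubring Qb} (hA : A.LiesOverPrime p) {E : Set GQ}
    (hIE : ∀ σ ∈ A.inertiaSubgroupIn ℚ, σ ∈ E)
    (h : ∀ (t : ℕ) [Fintype (ρ.V ⧸ (maximalIdeal R ^ t • (⊤ : Submodule R ρ.V)))],
        HasPart E A (ρ.V ⧸ (maximalIdeal R ^ t • (⊤ : Submodule R ρ.V)))
          fun σ x => ρ.levelAction (maximalIdeal R ^ t) σ x) :
    ∃ b : Module.Basis (Fin 2) R ρ.V,
      (∀ δ ∈ A.decompositionSubgroup ℚ, ∀ v ∈ R ∙ b 0, ρ.ρ δ v ∈ R ∙ b 0) ∧
      ∀ σ ∈ E, ∀ v, ρ.ρ σ v - v ∈ R ∙ b 0 := by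
  classical
  obtain ⟨Lk, ⟨bk, hLk⟩, hstab, hin⟩ := hord A hA
  let bk' : Module.Basis (Fin 2) (ResidueField R) (ResidueField R ⊗[R] ρ.V) := bk
  obtain ⟨s, hs, hsdet⟩ := exists_inertia_det_ne_one ρ hpR hp2 bad hdet hA
  let f : Module.End (ResidueField R) (ResidueField R ⊗[R] ρ.V) := ρ.residual.ρ s
  have hf0 : f (bk' 0) ∈ Submodule.span (ResidueField R) {bk' 0} :=
    hLk ▸ hstab s (inertia_le_decomposition hs) _ (hLk ▸ Submodule.mem_span_singleton_self _)
  have hf1 : f (bk' 1) - bk' 1 ∈ Submodule.span (ResidueField R) {bk' 0} := hLk ▸ hin s hs (bk' 1)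
  obtain ⟨a, ha⟩ := Submodule.mem_span_singleton.1 hf0
  obtain ⟨x, hx⟩ := Submodule.mem_span_singleton.1 hf1
  have hadet : LinearMap.det f = a := by
    rw [← LinearMap.det_toMatrix bk', Matrix.det_fin_two]
    simp [LinearMap.toMatrix_apply, ← ha, eq_add_of_sub_eq hx.symm]
  have ha1 : a - 1 ≠ 0 := fun h1 =>
    hsdet ((residual_det ρ s).symm.trans (hadet.trans (sub_eq_zero.1 h1)))
  obtain ⟨v0, hv0⟩ := toResidual_surjective ρ (bk' 0)
  obtain ⟨v1, hv1⟩ := toResidual_surjective ρ (bk' 1)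
  let bk2 := bk'.unitsSMul ![Units.mk0 (a - 1) ha1, 1]
  let w : Fin 2 → ρ.V := ![ρ.ρ s v0 - v0, v1]
  have hw : ∀ i, toResidual ρ (w i) = bk2 i := fun i => by
    fin_cases i
    · show toResidual ρ (ρ.ρ s v0 - v0) = _
      rw [map_sub, toResidual_apply, hv0, show ρ.residual.ρ s (bk' 0) = a • bk' 0 from ha.symm]
      simp [bk2, Module.Basis.unitsSMul_apply, Units.smul_def, sub_smul]
    · simp [bk2, w, Module.Basis.unitsSMul_apply, hv1]
  obtain ⟨b, hb⟩ := exists_basis_of_residual ρ bk2 w hw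
  have hb' : ∀ i, bk2 i = toResidual ρ (b i) := fun i => by rw [hb, hw]
  have hL2 : ∀ y ∈ Submodule.span (ResidueField R) {bk' 0}, bk2.repr y 1 = 0 := fun y hy => by
    obtain ⟨c, rfl⟩ := Submodule.mem_span_singleton.1 hy
    simp [bk2, Module.Basis.repr_unitsSMul]
  obtain ⟨h1, h2⟩ := exists_line_of_part hA hp2 hpR ρ b
    (fun σ hσ v => (residue_eq_zero_iff _).1 (by
      rw [← residual_repr ρ b bk2 hb', map_sub, toResidual_apply]
      exact hL2 _ (hLk ▸ hin σ hσ _)))
    ⟨s, hs, v0, (hb 0).symm⟩ hIE (fun t _ => h t)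
  exact ⟨b, h1, h2⟩

/-- **Ordinarity from connected parts.** -/
theorem isOrdinaryAt_of_connPart [IsNoetherianRing R] [Finite (ResidueField R)] (hp2 : p ≠ 2)
    (hpR : (p : R) ∈ maximalIdeal R)
    (hord : (GaloisRepAdic.ofResidualGaloisRep ρ.residual).IsOrdinaryAt p) (bad : Finset ℕ)
    (hdet : ∀ ℓ : ℕ, ℓ.Prime → ℓ ∉ bad → ∀ B : ValuationSubring Qb, B.LiesOverPrime ℓ →
      ∀ τ : GQ, B.IsFrobeniusAt τ ℓ → LinearMap.det (ρ.ρ τ) = (ℓ : R))
    (h : ∀ A : ValuationSubring Qb, A.LiesOverPrime p →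
      ∀ (t : ℕ) [Fintype (ρ.V ⧸ (maximalIdeal R ^ t • (⊤ : Submodule R ρ.V)))],
        HasConnPart A (ρ.V ⧸ (maximalIdeal R ^ t • (⊤ : Submodule R ρ.V)))
          fun σ x => ρ.levelAction (maximalIdeal R ^ t) σ x) :
    ρ.IsOrdinaryAt p := by
  classical
  intro A hA
  obtain ⟨b, h1, h2⟩ := exists_ordLine ρ hp2 hpR hord bad hdet hA (fun _ h => h) (h A hA)
  exact ⟨R ∙ b 0, ⟨b, rfl⟩, h1, h2⟩

end FA.LocalDef
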