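import Mathlib.Algebra.Polynomial.AlgebraMap
import Mathlib.Algebra.Polynomial.Roots
import Mathlib.FieldTheory.Minpoly.Field
import Mathlib.FieldTheory.Finiteness
import Mathlib.LinearAlgebra.Dimension.Finite
import Mathlib.LinearAlgebra.FreeModule.Finite.Basic
import Mathlib.LinearAlgebra.Quotient.Card
import Mathlib.RingTheory.Polynomial.DegreeLT

/-!
# Semilinear operators embedded in a field

If a finite space embeds in a field so that an operator becomes `x ↦ c x ^ q`, then its
eigen-functionals of a given eigenvalue are determined by one value.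
-/

set_option autoImplicit false
set_option linter.unusedSectionVars false

noncomputable section

open Polynomial

namespace FA.LocalDef

variable {K W Ω Θ : Type*} [Field K] [Fintype K] [AddCommGroup W] [Module K W] [Finite W]
  [Field Ω] [Algebra K Ω] [Field Θ] [Algebra K Θ]

/-- Iterates of a semilinear operator. -/
lemma exists_iterate_semilinear (φ : W →ₗ[K] W) (a : W →ₗ[K] Ω) {c : Ω} (hc : c ≠ 0)
    (hφ : ∀ x, a (φ x) = c * a x ^ Fintype.card K) :
    ∀ i : ℕ, ∃ C : Ω, C ≠ 0 ∧ ∀ x, a ((φ ^ i) x) = C * a x ^ Fintype.card K ^ i := by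
  intro i
  induction i with
  | zero => exact ⟨1, one_ne_zero, fun x => by simp⟩
  | succ i ih =>
    obtain ⟨C, hC, h⟩ := ih
    refine ⟨c * C ^ Fintype.card K, mul_ne_zero hc (pow_ne_zero _ hC), fun x => ?_⟩
    rw [pow_succ', Module.End.mul_apply, hφ, h, mul_pow, ← pow_mul, ← pow_succ, mul_assoc]

/-- An eigen-functional of a semilinear operator is determined by one value. -/
theorem exists_determining_point (φ : W →ₗ[K] W) (a : W →ₗ[K] Ω) (ha : Function.Injective a)
    {c : Ω} (hc : c ≠ 0) (hφ : ∀ x, a (φ x) = c * a x ^ Fintype.card K) {γ : Θ}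
    (hγ : IsIntegral K γ) :
    ∃ x₀ : W, ∀ h : W →ₗ[K] Θ, (∀ x, h (φ x) = γ * h x) → h x₀ = 0 → h = 0 := by
  classical
  set f := minpoly K γ
  set m := f.natDegree
  set F : Module.End K W := aeval φ f with hF
  have heval : ∀ h : W →ₗ[K] Θ, (∀ x, h (φ x) = γ * h x) → ∀ (g : K[X]) (x : W),
      h (aeval φ g x) = aeval γ g * h x := by
    intro h hh g
    induction g using Polynomial.induction_on with
    | C r => intro x; simp [Algebra.smul_def]
    | add g g' hg hg' => intro x; simp [hg x, hg' x, add_mul]
    | monomial n r hn =>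
      intro x
      rw [pow_succ, ← mul_assoc, map_mul (aeval φ), map_mul (aeval γ), aeval_X, aeval_X,
        Module.End.mul_apply, hn, hh]
      ring
  have hF0 : ∀ h : W →ₗ[K] Θ, (∀ x, h (φ x) = γ * h x) → ∀ y, h (F y) = 0 := fun h hh y => by
    rw [hF, heval h hh, minpoly.aeval, zero_mul]
  by_cases hsurj : LinearMap.range F = ⊤
  · refine ⟨0, fun h hh _ => LinearMap.ext fun x => ?_⟩
    obtain ⟨y, rfl⟩ := LinearMap.range_eq_top.mp hsurj x
    exact hF0 h hh y
  obtain ⟨x₀, hx₀⟩ : ∃ x₀, x₀ ∉ LinearMap.range F := by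
    by_contra hall
    push Not at hall
    exact hsurj (Submodule.eq_top_iff'.mpr hall)
  -- the kernel is small
  choose C hC hCe using exists_iterate_semilinear φ a hc hφ
  have hq : 1 < Fintype.card K := Fintype.one_lt_card
  set R : Ω[X] := ∑ i ∈ Finset.range (m + 1),
    monomial (Fintype.card K ^ i) (algebraMap K Ω (f.coeff i) * C i) with hR
  have hRm : R.coeff (Fintype.card K ^ m) = C m := by
    rw [hR, finsetSum_coeff]
    rw [Finset.sum_eq_single m (fun i _ hi => by
      rw [coeff_monomial, if_neg fun h => hi (Nat.pow_right_injective hq h)])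
      fun h => absurd (Finset.self_mem_range_succ m) h, coeff_monomial, if_pos rfl,
      show f.coeff m = 1 from minpoly.monic hγ, map_one, one_mul]
  have hR0 : R ≠ 0 := fun h => hC m (by rw [← hRm, h, coeff_zero])
  have hRdeg : R.natDegree ≤ Fintype.card K ^ m := by
    refine natDegree_sum_le_of_forall_le _ _ fun i hi => (natDegree_monomial_le _).trans ?_
    exact Nat.pow_le_pow_right (by omega) (Nat.lt_succ_iff.mp (Finset.mem_range.mp hi))
  have hroot : ∀ x ∈ LinearMap.ker F, a x ∈ R.roots.toFinset := by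
    intro x hx
    rw [Multiset.mem_toFinset, mem_roots hR0, IsRoot.def]
    have h0 : a (F x) = 0 := by rw [LinearMap.mem_ker.mp hx, map_zero]
    rw [hF, aeval_eq_sum_range, LinearMap.sum_apply, map_sum] at h0
    rw [← h0, hR, eval_finsetSum]
    refine Finset.sum_congr rfl fun i _ => ?_
    rw [eval_monomial, LinearMap.smul_apply, map_smul, hCe, Algebra.smul_def, mul_assoc]
  have hker : Nat.card (LinearMap.ker F) ≤ Fintype.card K ^ m := by
    calc Nat.card (LinearMap.ker F) ≤ Nat.card R.roots.toFinset :=
          Nat.card_le_card_of_injective (fun x => ⟨a x.1, hroot x.1 x.2⟩) fun x y hxy =>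
            Subtype.ext (ha (congrArg Subtype.val hxy))
      _ ≤ _ := by
          rw [Nat.card_eq_fintype_card, Fintype.card_coe]
          exact (Multiset.toFinset_card_le _).trans ((card_roots' R).trans hRdeg)
  have hquot : Nat.card (W ⧸ LinearMap.range F) ≤ Fintype.card K ^ m := by
    refine le_trans (le_of_eq ?_) hker
    have h1 := (LinearMap.range F).card_eq_card_quotient_mul_card
    have h2 := (LinearMap.ker F).card_eq_card_quotient_mul_card
    rw [Nat.card_congr F.quotKerEquivRange.toEquiv, h1, mul_comm] at h2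
    exact Nat.eq_of_mul_eq_mul_right Nat.card_pos h2
  -- the orbit of `x₀` fills the cokernel
  let g : Polynomial.degreeLT K m →ₗ[K] W ⧸ LinearMap.range F :=
    { toFun := fun P => Submodule.Quotient.mk (aeval φ (P : K[X]) x₀)
      map_add' := fun P Q => by simp
      map_smul' := fun r P => by simp }
  have hg : Function.Injective g := by
    rw [← LinearMap.ker_eq_bot, LinearMap.ker_eq_bot']
    intro P hP
    by_contra hP0
    have hPne : (P : K[X]) ≠ 0 := fun h => hP0 (Subtype.ext h)
    have hco : IsCoprime f (P : K[X]) := by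
      refine ((minpoly.irreducible hγ).coprime_iff_not_dvd).mpr fun hdvd => ?_
      have hd := Polynomial.mem_degreeLT.mp P.2
      rw [← natDegree_lt_iff_degree_lt hPne] at hd
      exact absurd (natDegree_le_of_dvd hdvd hPne) (not_le.mpr hd)
    obtain ⟨s, u, hsu⟩ := hco
    refine hx₀ ?_
    have hx : x₀ = F (aeval φ s x₀) + aeval φ u (aeval φ (P : K[X]) x₀) := by
      rw [hF, ← Module.End.mul_apply, ← Module.End.mul_apply, ← map_mul, ← map_mul,
        ← LinearMap.add_apply, ← map_add, mul_comm f, hsu, map_one, Module.End.one_apply]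
    obtain ⟨w, hw⟩ := (Submodule.Quotient.mk_eq_zero _).mp hP
    rw [hx, ← hw]
    refine add_mem ⟨_, rfl⟩ ⟨aeval φ u w, ?_⟩
    rw [hF, ← Module.End.mul_apply, ← map_mul, mul_comm, map_mul, Module.End.mul_apply]
  have hcard : Nat.card (Polynomial.degreeLT K m) = Fintype.card K ^ m := by
    rw [Nat.card_congr (Polynomial.degreeLTEquiv K m).toEquiv, Nat.card_eq_fintype_card,
      Fintype.card_fun, Fintype.card_fin]
  have : Finite (W ⧸ LinearMap.range F) := Finite.of_surjective _ (Submodule.mkQ_surjective _)
  have hbij := hg.bijective_of_nat_card_le (hquot.trans hcard.ge)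
  refine ⟨x₀, fun h hh h0 => LinearMap.ext fun x => ?_⟩
  obtain ⟨P, hP⟩ := hbij.2 (Submodule.Quotient.mk x)
  obtain ⟨y, hy⟩ := (Submodule.Quotient.eq _).mp hP
  have e : x = aeval φ (P : K[X]) x₀ - F y := by rw [hy, sub_sub_cancel]
  rw [e, map_sub, heval h hh, h0, mul_zero, hF0 h hh y, sub_zero, LinearMap.zero_apply]

end FA.LocalDef
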