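import Fermat.Agent.LocalDef.OrdinaryOfConn
import Fermat.Agent.FlatModel.Inertia
import Fermat.Prelude.Def_GaloisRep_StrictOrdinary

/-!
# Strict ordinarity from parts containing the displacements of squares

If moreover squares of the decomposition group move nothing outside the connected parts, the
character on the quotient has square one, so the representation is strictly ordinary when its
determinant is cyclotomic.
-/

set_option autoImplicit false
set_option linter.unusedSectionVars false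
set_option linter.style.haveILetI false
set_option maxHeartbeats 1000000

noncomputable section

open IsLocalRing

namespace FA.LocalDef

local notation "Qb" => AlgebraicClosure ℚ
local notation "GQ" => AlgebraicClosure ℚ ≃ₐ[ℚ] AlgebraicClosure ℚ

/-- Inertia and the squares of the decomposition group. -/
def strictSet (A : ValuationSubring Qb) : Set GQ :=
  (A.inertiaSubgroupIn ℚ : Set GQ) ∪ (fun δ => δ * δ) '' (A.decompositionSubgroup ℚ : Set GQ)

theorem strictSet_subset {A : ValuationSubring Qb} :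
    ∀ σ ∈ strictSet A, σ ∈ A.decompositionSubgroup ℚ := by
  rintro σ (hσ | ⟨δ, hδ, rfl⟩)
  · exact inertia_le_decomposition hσ
  · exact mul_mem hδ hδ

variable {p : ℕ} [hp : Fact p.Prime] {R : Type} [CommRing R] [IsLocalRing R] (ρ : GaloisRepAdic R)

/-- A determinant which is `ℓ` at almost all Frobenius elements is cyclotomic. -/
theorem detIsCyclotomic_of_frobenius (hpR : (p : R) ∈ maximalIdeal R)
    (hfin : ∀ n : ℕ, Finite (R ⧸ Ideal.span {((p ^ n : ℕ) : R)})) (bad : Finset ℕ)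
    (hdet : ∀ ℓ : ℕ, ℓ.Prime → ℓ ∉ bad → ∀ B : ValuationSubring Qb, B.LiesOverPrime ℓ →
      ∀ τ : GQ, B.IsFrobeniusAt τ ℓ → LinearMap.det (ρ.ρ τ) = (ℓ : R)) :
    ρ.DetIsCyclotomic p := by
  classical
  refine ⟨hpR, fun n σ a ha => ?_⟩
  haveI : NeZero p := ⟨hp.out.ne_zero⟩
  haveI : NeZero (p ^ n) := ⟨pow_ne_zero _ hp.out.ne_zero⟩
  set I : Ideal R := Ideal.span {((p ^ n : ℕ) : R)}
  rcases eq_or_ne I ⊤ with hI | hI
  · rw [hI]; exact Submodule.mem_top
  haveI : Finite (R ⧸ I) := hfin n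
  obtain ⟨j, hj⟩ := FA.FlatModel.exists_pow_maximalIdeal_le I
  let d : GQ →* R ⧸ I := (Ideal.Quotient.mk I).toMonoidHom.comp (LinearMap.det.comp ρ.ρ)
  have hz : ((p ^ n : ℕ) : R ⧸ I) = 0 := by
    rw [← map_natCast (Ideal.Quotient.mk I)]
    exact Ideal.Quotient.eq_zero_iff_mem.2 (Ideal.mem_span_singleton_self _)
  have hmod : ∀ x : ℕ, ((x % p ^ n : ℕ) : R ⧸ I) = (x : R ⧸ I) := fun x => by
    conv_rhs => rw [← Nat.mod_add_div x (p ^ n), Nat.cast_add, Nat.cast_mul, hz, zero_mul, add_zero]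
  let c : GQ →* R ⧸ I :=
    { toFun := fun τ => ((((FA.ModField.cycMod p n τ : (ZMod (p ^ n))ˣ) : ZMod (p ^ n))).val : R ⧸ I)
      map_one' := by
        rw [map_one, Units.val_one, ← Nat.cast_one (R := ZMod (p ^ n)), ZMod.val_natCast, hmod,
          Nat.cast_one]
      map_mul' := fun x y => by rw [map_mul, Units.val_mul, ZMod.val_mul, hmod, Nat.cast_mul] }
  let K := (d.toHomUnits.prod (FA.ModField.cycMod p n)).ker
  obtain ⟨L₁, hL₁, h₁⟩ := ρ.isAdicContinuous j
  obtain ⟨L₂, hL₂, h₂⟩ := FA.JTorsion.exists_field_cycP p n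
  let b := Module.finBasisOfFinrankEq R ρ.V ρ.finrank_eq
  have hK : IsOpen (K : Set GQ) :=
    Subgroup.isOpen_mono (H₁ := (L₁ ⊔ L₂).fixingSubgroup) (fun τ hτ => by
      have hfix := (IntermediateField.mem_fixingSubgroup_iff _ _).1 hτ
      refine MonoidHom.mem_ker.2 (Prod.ext (Units.ext ?_)
        (Units.ext (h₂ τ fun a ha => hfix a ((le_sup_right : L₂ ≤ L₁ ⊔ L₂) ha))))
      show Ideal.Quotient.mk I (LinearMap.det (ρ.ρ τ)) = 1
      rw [← LinearMap.det_toMatrix b, RingHom.map_det,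
        show (Ideal.Quotient.mk I).mapMatrix (LinearMap.toMatrix b b (ρ.ρ τ)) = 1 from ?_,
        Matrix.det_one]
      rw [← map_one (Ideal.Quotient.mk I).mapMatrix]
      ext i l
      refine Ideal.Quotient.eq.2 (hj ?_)
      have hv := h₁ τ (fun a ha => hfix a ((le_sup_left : L₁ ≤ L₁ ⊔ L₂) ha)) (b l)
      have hcoord : b.repr (ρ.ρ τ (b l) - b l) i ∈ maximalIdeal R ^ j := by
        refine Submodule.smul_induction_on hv (fun x hx w _ => ?_) fun x y hx hy => ?_
        · rw [map_smul, Finsupp.smul_apply, smul_eq_mul]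
          exact Ideal.mul_mem_right _ _ hx
        · rw [map_add, Finsupp.add_apply]; exact add_mem hx hy
      simpa [LinearMap.toMatrix_apply, Matrix.one_apply, Finsupp.single_apply, eq_comm] using hcoord)
      (IntermediateField.fixingSubgroup_isOpen _)
  have hdc : ∀ τ, d τ = c τ := by
    refine fun τ => FA.Density.forall_of_frobenius_pow K hK (fun τ => d τ = c τ) ?_
      (bad ∪ {p}) ?_ τ
    · intro τ η hη h
      obtain ⟨e1, e2⟩ := Prod.ext_iff.1 (MonoidHom.mem_ker.1 hη)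
      change d.toHomUnits η = 1 at e1
      change FA.ModField.cycMod p n η = 1 at e2
      have e1' : d η = 1 := congrArg Units.val e1
      rw [map_mul, map_mul c, h, e1',
        show c η = 1 from (congrArg
          (fun u : (ZMod (p ^ n))ˣ => ((u : ZMod (p ^ n)).val : R ⧸ I))
          (e2.trans (map_one (FA.ModField.cycMod p n)).symm)).trans (map_one c)]
    · intro ℓ hℓ hℓb B hB τ hτ e
      rw [Finset.mem_union, not_or, Finset.mem_singleton] at hℓb
      rw [map_pow, map_pow]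
      refine congrArg (· ^ e) ?_
      show Ideal.Quotient.mk I (LinearMap.det (ρ.ρ τ)) =
        ((((FA.ModField.cycMod p n τ : (ZMod (p ^ n))ˣ) : ZMod (p ^ n))).val : R ⧸ I)
      rw [hdet ℓ hℓ hℓb.1 B hB τ hτ, FA.ModField.cycMod_frobenius p n hℓ hℓb.2 hB hτ,
        ZMod.val_natCast, hmod, map_natCast]
  have hca : ((FA.ModField.cycMod p n σ : (ZMod (p ^ n))ˣ) : ZMod (p ^ n)) = (a : ZMod (p ^ n)) := by
    rw [FA.ModField.coe_cycMod, FA.JTorsion.cycP_toZModPow]
    symm
    refine modularCyclotomicCharacter.unique Qb _ _ fun t ht => ?_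
    have ht' : (t : Qb) ^ p ^ n = 1 := by
      rw [← Units.val_pow_eq_pow_val, (mem_rootsOfUnity _ t).mp ht, Units.val_one]
    show σ (t : Qb) = _
    rw [ha _ ht', ZMod.val_natCast]
    exact pow_eq_pow_mod a ht'
  refine Ideal.Quotient.eq.1 ?_
  rw [map_natCast, ← hmod, ← ZMod.val_natCast (p ^ n) a, ← hca]
  exact hdc σ

/-- **Strict ordinarity from parts.** -/
theorem isStrictOrdinaryAt_of_part [IsNoetherianRing R] [Finite (ResidueField R)] (hp2 : p ≠ 2)
    (hpR : (p : R) ∈ maximalIdeal R)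
    (hord : (GaloisRepAdic.ofResidualGaloisRep ρ.residual).IsOrdinaryAt p) (bad : Finset ℕ)
    (hdet : ∀ ℓ : ℕ, ℓ.Prime → ℓ ∉ bad → ∀ B : ValuationSubring Qb, B.LiesOverPrime ℓ →
      ∀ τ : GQ, B.IsFrobeniusAt τ ℓ → LinearMap.det (ρ.ρ τ) = (ℓ : R))
    (hcyc : ρ.DetIsCyclotomic p)
    (h : ∀ A : ValuationSubring Qb, A.LiesOverPrime p →
      ∀ (t : ℕ) [Fintype (ρ.V ⧸ (maximalIdeal R ^ t • (⊤ : Submodule R ρ.V)))],
        HasPart (strictSet A) A (ρ.V ⧸ (maximalIdeal R ^ t • (⊤ : Submodule R ρ.V)))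
          fun σ x => ρ.levelAction (maximalIdeal R ^ t) σ x) :
    ρ.IsStrictOrdinaryAt p := by
  classical
  refine ⟨hpR, fun A hA => ?_⟩
  obtain ⟨b, hD, hE⟩ := exists_ordLine ρ hp2 hpR hord bad hdet hA (E := strictSet A)
    (fun _ h => Or.inl h) (h A hA)
  refine ⟨R ∙ b 0, ⟨b, rfl⟩, hD, fun σ hσ v => hE σ (Or.inl hσ) v, fun δ hδ => ?_⟩
  have hline : ∀ w ∈ R ∙ b 0, b.repr w 1 = 0 := fun w hw => by
    obtain ⟨c, rfl⟩ := Submodule.mem_span_singleton.1 hw
    simp
  have hmem : ∀ w, b.repr w 1 = 0 → w ∈ R ∙ b 0 := fun w hw => by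
    refine Submodule.mem_span_singleton.2 ⟨b.repr w 0, ?_⟩
    conv_rhs => rw [← b.sum_repr w, Fin.sum_univ_two, hw, zero_smul, add_zero]
  set z := b.repr (ρ.ρ δ (b 1)) 1 with hz
  set x := b.repr (ρ.ρ δ (b 0)) 0 with hx
  have h00 : b.repr (ρ.ρ δ (b 0)) 1 = 0 :=
    hline _ (hD δ hδ _ (Submodule.mem_span_singleton_self _))
  have hact : ∀ v, b.repr (ρ.ρ δ v) 1 = z * b.repr v 1 := fun v => by
    conv_lhs => rw [← b.sum_repr v, Fin.sum_univ_two]
    simp [map_add, map_smul, h00, hz, mul_comm]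
  have hz2 : z * z = 1 := by
    have h1 := hline _ (hE (δ * δ) (Or.inr ⟨δ, hδ, rfl⟩) (b 1))
    rw [map_mul, Module.End.mul_apply, map_sub, Finsupp.sub_apply, hact, hact, b.repr_self,
      Finsupp.single_eq_same, mul_one] at h1
    exact sub_eq_zero.1 h1
  have hdetδ : LinearMap.det (ρ.ρ δ) = x * z := by
    rw [← LinearMap.det_toMatrix b, Matrix.det_fin_two]
    simp [LinearMap.toMatrix_apply, h00, hz, hx]
  refine ⟨x, z, fun w hw => ?_, fun v => hmem _ ?_, fun n a ha => ?_⟩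
  · obtain ⟨c, rfl⟩ := Submodule.mem_span_singleton.1 hw
    rw [map_smul, smul_comm]
    congr 1
    conv_lhs => rw [← b.sum_repr (ρ.ρ δ (b 0)), Fin.sum_univ_two, h00, zero_smul, add_zero]
  · rw [map_sub, Finsupp.sub_apply, hact, map_smul, Finsupp.smul_apply, smul_eq_mul, sub_self]
  · have h1 := hcyc.2 n δ a ha
    rw [hdetδ] at h1
    have h2 := Ideal.mul_mem_right z _ h1
    have e : x - (a : R) * z = (x * z - (a : R)) * z := by linear_combination (-x) * hz2
    rw [e]
    exact h2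

end FA.LocalDef
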