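import Fermat.Agent.LocalDef.Defs
import Fermat.Agent.LocalDef.ModelOps
import Fermat.Agent.LocalDef.Qbar
import Mathlib.RingTheory.RootsOfUnity.EnoughRootsOfUnity
import Mathlib.RingTheory.RootsOfUnity.AlgebraicallyClosed

/-!
# A finite group with an action of the decomposition group and an equivariant model
-/

set_option autoImplicit false
set_option linter.unusedSectionVars false

noncomputable section

open FA.Local
open scoped Pointwise

namespace FA.LocalDef

local notation "Qb" => AlgebraicClosure ℚ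
local notation "GQ" => AlgebraicClosure ℚ ≃ₐ[ℚ] AlgebraicClosure ℚ

variable {A : ValuationSubring Qb} {p : ℕ}

/-- An additive action of the decomposition group with an equivariant model. -/
structure Sys (A : ValuationSubring Qb) (V : Type) [AddCommGroup V] [Fintype V] where
  /-- the model -/
  M : Model A.valuation V
  /-- the action -/
  act : GQ → V → V
  act_add : ∀ σ ∈ A.decompositionSubgroup ℚ, ∀ x y, act σ (x + y) = act σ x + act σ y
  equiv : ∀ σ ∈ A.decompositionSubgroup ℚ, ∀ i x, σ (M.a i x) = M.a i (act σ x)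

/-- A primitive `p`-th root of unity in `ℚ̄`. -/
lemma exists_zeta (hp : p.Prime) : ∃ ζ : Qb, IsPrimitiveRoot ζ p := by
  have : NeZero p := ⟨hp.ne_zero⟩
  have : NeZero (p : Qb) := ⟨Nat.cast_ne_zero.mpr hp.ne_zero⟩
  exact HasEnoughRootsOfUnity.exists_primitiveRoot Qb p

namespace Sys

variable {V : Type} [AddCommGroup V] [Fintype V] (S : Sys A V)

lemma ext {x y : V} (h : ∀ i, S.M.a i x = S.M.a i y) : x = y := by
  classical
  by_contra hne
  obtain ⟨d, hd⟩ := S.M.full fun z => if z = x then (1 : Qb) else 0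
  have h1 := congrFun hd x
  have h2 := congrFun hd y
  simp only [Finset.sum_apply, Pi.smul_apply, smul_eq_mul, if_true] at h1
  simp only [Finset.sum_apply, Pi.smul_apply, smul_eq_mul, if_neg (Ne.symm hne), ← h] at h2
  rw [← h2] at h1
  exact one_ne_zero h1

lemma act_eq_of_fixed {σ : GQ} (hσ : σ ∈ A.decompositionSubgroup ℚ) {x : V}
    (h : ∀ i, σ (S.M.a i x) = S.M.a i x) : S.act σ x = x :=
  S.ext fun i => (S.equiv σ hσ i x).symm.trans (h i)

lemma act_one (x : V) : S.act 1 x = x := S.act_eq_of_fixed (one_mem _) fun _ => rfl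

lemma act_mul {σ τ : GQ} (hσ : σ ∈ A.decompositionSubgroup ℚ)
    (hτ : τ ∈ A.decompositionSubgroup ℚ) (x : V) :
    S.act (σ * τ) x = S.act σ (S.act τ x) :=
  S.ext fun i => by
    rw [← S.equiv _ (mul_mem hσ hτ), ← S.equiv σ hσ, ← S.equiv τ hτ, AlgEquiv.mul_apply]

lemma act_inv_act {σ : GQ} (hσ : σ ∈ A.decompositionSubgroup ℚ) (x : V) :
    S.act σ⁻¹ (S.act σ x) = x := by
  rw [← S.act_mul (inv_mem hσ) hσ, inv_mul_cancel, S.act_one]

lemma act_act_inv {σ : GQ} (hσ : σ ∈ A.decompositionSubgroup ℚ) (x : V) :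
    S.act σ (S.act σ⁻¹ x) = x := by
  rw [← S.act_mul hσ (inv_mem hσ), mul_inv_cancel, S.act_one]

/-- The action as an automorphism. -/
def actHom {σ : GQ} (hσ : σ ∈ A.decompositionSubgroup ℚ) : V ≃+ V where
  toFun := S.act σ
  invFun := S.act σ⁻¹
  left_inv := S.act_inv_act hσ
  right_inv := S.act_act_inv hσ
  map_add' := S.act_add σ hσ

lemma act_zero {σ : GQ} (hσ : σ ∈ A.decompositionSubgroup ℚ) : S.act σ 0 = 0 :=
  (S.actHom hσ).map_zero

lemma act_sub {σ : GQ} (hσ : σ ∈ A.decompositionSubgroup ℚ) (x y : V) :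
    S.act σ (x - y) = S.act σ x - S.act σ y := (S.actHom hσ).map_sub x y

lemma act_nsmul {σ : GQ} (hσ : σ ∈ A.decompositionSubgroup ℚ) (n : ℕ) (x : V) :
    S.act σ (n • x) = n • S.act σ x := (S.actHom hσ).toAddMonoidHom.map_nsmul n x

lemma act_surjective {σ : GQ} (hσ : σ ∈ A.decompositionSubgroup ℚ) :
    Function.Surjective (S.act σ) := (S.actHom hσ).surjective

/-- The elements of inertia acting trivially. -/
def ker : Subgroup GQ where
  carrier := {σ | σ ∈ A.inertiaSubgroupIn ℚ ∧ ∀ x, S.act σ x = x}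
  mul_mem' := fun ⟨h1, h2⟩ ⟨h3, h4⟩ => ⟨mul_mem h1 h3, fun x => by
    rw [S.act_mul (inertia_le_decomposition h1) (inertia_le_decomposition h3), h4, h2]⟩
  one_mem' := ⟨one_mem _, S.act_one⟩
  inv_mem' := fun {σ} ⟨h1, h2⟩ => ⟨inv_mem h1, fun x => by
    conv_lhs => rw [← h2 x]
    rw [S.act_inv_act (inertia_le_decomposition h1)]⟩

lemma mem_ker {σ : GQ} : σ ∈ S.ker ↔ σ ∈ A.inertiaSubgroupIn ℚ ∧ ∀ x, S.act σ x = x := Iff.rfl

lemma ker_normal (hp : p.Prime) (hA : A.LiesOverPrime p) {σ τ : GQ}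
    (hσ : σ ∈ A.decompositionSubgroup ℚ) (hτ : τ ∈ S.ker) : σ⁻¹ * τ * σ ∈ S.ker :=
  ⟨conj_inv_mem_inertia hp hA hσ hτ.1, fun x => by
    have hτd := inertia_le_decomposition hτ.1
    rw [S.act_mul (mul_mem (inv_mem hσ) hτd) hσ, S.act_mul (inv_mem hσ) hτd, hτ.2,
      S.act_inv_act hσ]⟩

/-- The field of values of the model. -/
def field : IntermediateField ℚ Qb :=
  IntermediateField.adjoin ℚ (Set.range fun q : V × V => S.M.a q.1 q.2)

instance field_finite : FiniteDimensional ℚ S.field := by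
  have : Finite (Set.range fun q : V × V => S.M.a q.1 q.2) := Set.finite_range _
  exact IntermediateField.finiteDimensional_adjoin fun x _ =>
    (Algebra.IsAlgebraic.isAlgebraic x).isIntegral

lemma act_eq_of_mem_fixingSubgroup {σ : GQ} (hσ : σ ∈ A.decompositionSubgroup ℚ)
    (hσ' : σ ∈ S.field.fixingSubgroup) (x : V) : S.act σ x = x :=
  S.act_eq_of_fixed hσ fun i =>
    hσ' ⟨S.M.a i x, IntermediateField.subset_adjoin ℚ _ ⟨(i, x), rfl⟩⟩

lemma inf_fixingSubgroup_le_ker :
    A.inertiaSubgroupIn ℚ ⊓ S.field.fixingSubgroup ≤ S.ker := fun σ hσ =>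
  ⟨hσ.1, S.act_eq_of_mem_fixingSubgroup (inertia_le_decomposition hσ.1) hσ.2⟩

lemma a_fixed {τ : GQ} (hτ : τ ∈ S.ker) (i x : V) : τ (S.M.a i x) = S.M.a i x := by
  rw [S.equiv τ (inertia_le_decomposition hτ.1), hτ.2]

/-- Coordinates transform with the Galois action. -/
lemma coord_map {σ : GQ} (hσ : σ ∈ A.decompositionSubgroup ℚ) {f g : V → Qb}
    (hfg : ∀ x, σ (f x) = g (S.act σ x)) (i : V) : σ (S.M.coord f i) = S.M.coord g i :=
  S.M.coord_map σ (S.act σ) (S.equiv σ hσ) (S.act_surjective hσ) hfg i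

end Sys

/-- A system from `HasModel`. -/
theorem exists_sys {V : Type} [AddCommGroup V] [Fintype V] {act : GQ → V → V}
    (h : HasModel A V act)
    (hadd : ∀ σ ∈ A.decompositionSubgroup ℚ, ∀ x y, act σ (x + y) = act σ x + act σ y) :
    ∃ S : Sys A V, S.act = act := by
  obtain ⟨M, hM⟩ := h
  exact ⟨⟨M, act, hadd, hM⟩, rfl⟩

end FA.LocalDef
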