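import Fermat.Agent.LocalDef.FlatBasics
import Mathlib.LinearAlgebra.Dimension.Finite

/-!
# Generalities for the tangent bounds: cocycles, finite families of flat classes
-/

set_option autoImplicit false
set_option linter.unusedSectionVars false

noncomputable section

open Matrix FA.Local
open scoped Pointwise

namespace FA.LocalDef

local notation "Qb" => AlgebraicClosure ℚ
local notation "GQ" => AlgebraicClosure ℚ ≃ₐ[ℚ] AlgebraicClosure ℚ
local notation "M2" k => Matrix (Fin 2) (Fin 2) k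

variable {A : ValuationSubring Qb} {p : ℕ}

section Span

variable {k V : Type*} [Field k] [AddCommGroup V] [Module k V]

/-- A span is at most `n`-dimensional if independent families in the set have at most `n`
elements. -/
theorem finrank_span_le_of_indep (S : Set V) (n : ℕ)
    (h : ∀ (m : ℕ) (c : Fin m → V), (∀ i, c i ∈ S) → LinearIndependent k c → m ≤ n) :
    FiniteDimensional k (Submodule.span k S) ∧ Module.finrank k (Submodule.span k S) ≤ n := by
  classical
  obtain ⟨b, hbS, hspan, hli⟩ := exists_linearIndependent k S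
  have hsmall : ∀ t : Finset V, (↑t : Set V) ⊆ b → t.card ≤ n := fun t ht =>
    h t.card (fun i => (t.equivFin.symm i : V)) (fun i => hbS (ht (t.equivFin.symm i).2))
      ((hli.comp (fun i => (⟨(t.equivFin.symm i : V), ht (t.equivFin.symm i).2⟩ : b))
        fun i j hij => t.equivFin.symm.injective (Subtype.ext (by simpa using congrArg Subtype.val hij))) :)
  have hfin : b.Finite := by
    by_contra hinf
    obtain ⟨t, ht, htc⟩ := Set.Infinite.exists_subset_card_eq hinf (n + 1)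
    have := hsmall t ht
    omega
  rw [← hspan]
  refine ⟨FiniteDimensional.span_of_finite k hfin, ?_⟩
  have := hfin.fintype
  rw [finrank_span_set_eq_card hli]
  exact hsmall _ (by simp)

end Span

section Bounded

variable {K : Type*} [Field K] {m n : ℕ}

/-- An injective system of functionals bounds the length of a family. -/
lemma le_of_functionals (f : (Fin m → K) →ₗ[K] (Fin n → K)) (hf : ∀ l, f l = 0 → l = 0) :
    m ≤ n := by
  have h := LinearMap.finrank_le_finrank_of_injective (f := f)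
    (by rw [← LinearMap.ker_eq_bot, LinearMap.ker_eq_bot']; exact hf)
  rwa [Module.finrank_fin_fun, Module.finrank_fin_fun] at h

end Bounded

section Descend

variable [hp : Fact p.Prime] {M : Type*} [AddCommGroup M] [Module (ZMod p) M] (G : Subgroup GQ)
  (H : GQ → M) (hH : ∀ σ ∈ G, ∀ τ ∈ G, H (σ * τ) = H σ + H τ)

/-- The image of a group under an additive map. -/
def imageModule : Submodule (ZMod p) M :=
  AddSubgroup.toZModSubmodule p
    { carrier := {w | ∃ σ ∈ G, H σ = w}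
      zero_mem' := ⟨1, one_mem _, by
        have h := hH 1 (one_mem _) 1 (one_mem _)
        rw [one_mul, left_eq_add] at h
        exact h⟩
      add_mem' := fun ⟨σ, hσ, h1⟩ ⟨τ, hτ, h2⟩ =>
        ⟨σ * τ, mul_mem hσ hτ, by rw [hH σ hσ τ hτ, h1, h2]⟩
      neg_mem' := fun {w} ⟨σ, hσ, h1⟩ => ⟨σ⁻¹, inv_mem hσ, by
        have h0 := hH 1 (one_mem _) 1 (one_mem _)
        rw [one_mul, left_eq_add] at h0
        have h := hH σ hσ σ⁻¹ (inv_mem hσ)
        rw [mul_inv_cancel, h0, h1] at h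
        exact (neg_eq_of_add_eq_zero_right h.symm).symm⟩ }

lemma mem_imageModule {σ : GQ} (hσ : σ ∈ G) : H σ ∈ imageModule G H hH (p := p) := ⟨σ, hσ, rfl⟩

/-- An additive map killing the kernel descends to the image. -/
theorem exists_descend {M' : Type*} [AddCommGroup M'] [Module (ZMod p) M'] (f : GQ → M')
    (hf : ∀ σ ∈ G, ∀ τ ∈ G, f (σ * τ) = f σ + f τ) (hker : ∀ σ ∈ G, H σ = 0 → f σ = 0) :
    ∃ g : imageModule G H hH (p := p) →ₗ[ZMod p] M',
      ∀ σ, ∀ hσ : σ ∈ G, g ⟨H σ, mem_imageModule G H hH hσ⟩ = f σ := by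
  classical
  have hwd : ∀ σ ∈ G, ∀ τ ∈ G, H σ = H τ → f σ = f τ := fun σ hσ τ hτ he => by
    have h1 : H (σ * τ⁻¹) = 0 := by
      have h := hH _ (mul_mem hσ (inv_mem hτ)) τ hτ
      rw [inv_mul_cancel_right, he, right_eq_add] at h
      exact h
    have h := hf _ (mul_mem hσ (inv_mem hτ)) τ hτ
    rw [inv_mul_cancel_right, hker _ (mul_mem hσ (inv_mem hτ)) h1, zero_add] at h
    exact h
  have hsel : ∀ w : imageModule G H hH (p := p), ∃ σ ∈ G, H σ = w.1 := fun w => w.2
  choose sel hsel1 hsel2 using hsel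
  let g : imageModule G H hH (p := p) →+ M' := AddMonoidHom.mk' (fun w => f (sel w)) fun w w' =>
    (hwd _ (hsel1 _) _ (mul_mem (hsel1 w) (hsel1 w')) (by
      rw [hsel2, hH _ (hsel1 w) _ (hsel1 w'), hsel2, hsel2]; rfl)).trans (hf _ (hsel1 w) _ (hsel1 w'))
  exact ⟨g.toZModLinearMap p, fun σ hσ => hwd _ (hsel1 _) _ hσ (hsel2 _)⟩

end Descend

section Cocycle

variable {k : Type} [Field k] {r : GQ →* M2 k} {c : GQ → M2 k}

lemma IsLocalCocycle.map_one (h : IsLocalCocycle A r c) : c 1 = 0 := by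
  have e := h.2 1 (one_mem _) 1 (one_mem _)
  rw [one_mul, _root_.map_one, one_mul, inv_one, _root_.map_one, mul_one, left_eq_add] at e
  exact e

lemma IsLocalCocycle.map_inv (h : IsLocalCocycle A r c) {σ : GQ}
    (hσ : σ ∈ A.decompositionSubgroup ℚ) : c σ⁻¹ = -(r σ⁻¹ * c σ * r σ) := by
  have e := h.2 σ⁻¹ (inv_mem hσ) σ hσ
  rw [inv_mul_cancel, h.map_one, inv_inv] at e
  exact eq_neg_of_add_eq_zero_left e.symm

/-- The cocycle on a conjugate. -/
lemma IsLocalCocycle.map_conj (h : IsLocalCocycle A r c) {F σ : GQ}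
    (hF : F ∈ A.decompositionSubgroup ℚ) (hσ : σ ∈ A.decompositionSubgroup ℚ) :
    c (F * σ * F⁻¹) = c F + r F * c σ * r F⁻¹ -
      r (F * σ * F⁻¹) * c F * r (F * σ⁻¹ * F⁻¹) := by
  rw [h.2 _ (mul_mem hF hσ) _ (inv_mem hF), h.2 F hF σ hσ, h.map_inv hF, sub_eq_add_neg]
  congr 1
  simp only [mul_neg, neg_mul, _root_.map_mul, _root_.mul_inv_rev, mul_assoc]

lemma IsLocalCocycle.add_cob (h : IsLocalCocycle A r c) (X : M2 k) :
    IsLocalCocycle A r fun σ => c σ + (r σ * X * r σ⁻¹ - X) := by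
  refine ⟨fun σ hσ => ?_, fun σ hσ τ hτ => ?_⟩
  · rw [trace_add, trace_sub, h.1 σ hσ, Matrix.trace_mul_comm, ← mul_assoc, ← _root_.map_mul,
      inv_mul_cancel, _root_.map_one, one_mul, sub_self, add_zero]
  · simp only [h.2 σ hσ τ hτ, _root_.map_mul, _root_.mul_inv_rev, mul_add, add_mul, mul_sub, sub_mul,
      mul_assoc]
    abel

lemma IsLocalCocycle.sum_smul {ι : Type*} (s : Finset ι) (l : ι → k) {cs : ι → GQ → M2 k}
    (h : ∀ i, IsLocalCocycle A r (cs i)) :
    IsLocalCocycle A r fun σ => ∑ i ∈ s, l i • cs i σ := by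
  refine ⟨fun σ hσ => ?_, fun σ hσ τ hτ => ?_⟩
  · rw [trace_sum]
    exact Finset.sum_eq_zero fun i _ => by rw [trace_smul, (h i).1 σ hσ, smul_zero]
  · simp only [(h _).2 σ hσ τ hτ, smul_add, Finset.sum_add_distrib, Matrix.mul_sum, Finset.sum_mul,
      mul_smul_comm, smul_mul_assoc]

/-- A cocycle vanishing on inertia, at a Frobenius element and near `1` vanishes. -/
theorem IsLocalCocycle.eq_zero [Fact p.Prime] (hA : A.LiesOverPrime p) (h : IsLocalCocycle A r c)
    {F : GQ} (hF : A.IsFrobeniusAt F p) (hI : ∀ σ ∈ A.inertiaSubgroupIn ℚ, c σ = 0) (hcF : c F = 0)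
    (E : IntermediateField ℚ Qb) [FiniteDimensional ℚ E]
    (hE : ∀ σ ∈ A.decompositionSubgroup ℚ, σ ∈ E.fixingSubgroup → c σ = 0) :
    ∀ σ ∈ A.decompositionSubgroup ℚ, c σ = 0 := fun σ hσ => by
  let H : Subgroup GQ :=
    { carrier := {g | g ∈ A.decompositionSubgroup ℚ ∧ c g = 0}
      one_mem' := ⟨one_mem _, h.map_one⟩
      mul_mem' := fun {a b} ha hb => ⟨mul_mem ha.1 hb.1, by
        rw [h.2 a ha.1 b hb.1, ha.2, hb.2, mul_zero, zero_mul, add_zero]⟩
      inv_mem' := fun {a} ha => ⟨inv_mem ha.1, by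
        rw [h.map_inv ha.1, ha.2, mul_zero, zero_mul, neg_zero]⟩ }
  exact (decomp_le_of hA hF H (fun g hg => ⟨inertia_le_decomposition hg, hI g hg⟩)
    ⟨hF.mem_decompositionSubgroup, hcF⟩ E (fun g hg => ⟨hg.1, hE g hg.1 hg.2⟩) hσ).2

end Cocycle

section Family

variable [hp : Fact p.Prime] {k : Type} [Field k] [Fintype k] [Algebra (ZMod p) k] {r : GQ →* M2 k}

include hp in
/-- A finite family of flat classes: the layer of the common kernel, with Fontaine's bound, and a
number field outside which nothing happens. -/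
theorem exists_family_layer (hA : A.LiesOverPrime p) {m : ℕ} (hm : 0 < m) {cs : Fin m → GQ → M2 k}
    (hfl : ∀ i, IsFlatClass A r (cs i)) :
    ∃ Λ : Layer A p, Λ.Bounded ∧
      (∀ τ, τ ∈ Λ.N ↔ τ ∈ A.inertiaSubgroupIn ℚ ∧ r τ = 1 ∧ ∀ i, cs i τ = 0) ∧
      (∀ g ∈ A.decompositionSubgroup ℚ, Λ.Normalizes g) ∧
      ∃ (E : IntermediateField ℚ Qb), FiniteDimensional ℚ E ∧
        ∀ σ ∈ A.decompositionSubgroup ℚ, σ ∈ E.fixingSubgroup → ∀ i, cs i σ = 0 := by
  classical
  obtain ⟨S, hS⟩ := exists_sys (HasModel.pi (ι := Fin m) hfl) (fun σ _ x y => funext fun i => by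
    simp only [act2, Pi.add_apply, Prod.fst_add, Prod.snd_add, mulVec_add, Prod.mk_add_mk]
    rw [add_add_add_comm])
  have hact : ∀ σ x i, S.act σ x i = act2 r (cs i) σ (x i) := fun σ x i => by rw [hS]
  have hvan : ∀ σ, (∀ x, S.act σ x = x) ↔ r σ = 1 ∧ ∀ i, cs i σ = 0 := fun σ => by
    constructor
    · intro h
      have hr : r σ = 1 := Matrix.ext_of_mulVec_single fun j => by
        have := congrArg Prod.fst (congrFun (h fun _ => (Pi.single j 1, 0)) ⟨0, hm⟩)
        rw [hact] at this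
        rw [one_mulVec]
        exact this
      refine ⟨hr, fun i => Matrix.ext_of_mulVec_single fun j => ?_⟩
      have := congrArg Prod.snd (congrFun (h fun _ => (Pi.single j 1, 0)) i)
      rw [hact] at this
      simp only [act2, hr, one_mulVec, zero_add] at this
      rw [this, zero_mulVec]
    · rintro ⟨hr, hc⟩ x
      funext i
      rw [hact, act2, hr, hc, one_mulVec, one_mulVec, zero_mulVec, add_zero]
  obtain ⟨Λ, hΛ, hbd⟩ := S.exists_kerLayer hA
  refine ⟨Λ, hbd, fun τ => by rw [hΛ, S.mem_ker, hvan], fun g hg => S.normalizes_ker hA Λ hΛ hg,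
    S.field, inferInstance, fun σ hσ hσ' i => ?_⟩
  exact ((hvan σ).mp (S.act_eq_of_mem_fixingSubgroup hσ hσ')).2 i

end Family

section Transport

variable {k : Type} [Field k] [Fintype k]

/-- Transport of the tangent bound along a change of basis. -/
theorem TangentBound.of_conj {r r' : GQ →* M2 k} {P Q : M2 k} (hPQ : P * Q = 1)
    (hr : ∀ σ, r' σ = Q * r σ * P) {C C' : (GQ → M2 k) → Prop}
    (hC : ∀ c, IsLocalCocycle A r c → C c → C' fun σ => Q * c σ * P)
    (h : TangentBound A r' C') : TangentBound A r C := by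
  obtain ⟨Z, hfin, hrank, hcob, hZ⟩ := h
  let T : (A.decompositionSubgroup ℚ → M2 k) →ₗ[k] (A.decompositionSubgroup ℚ → M2 k) :=
    { toFun := fun f σ => P * f σ * Q
      map_add' := fun f g => funext fun σ => by simp [mul_add, add_mul]
      map_smul' := fun a f => funext fun σ => by simp }
  have hPQ' : ∀ X : M2 k, P * (Q * X * P) * Q = X := fun X => by
    rw [← mul_assoc P, ← mul_assoc P, hPQ, one_mul, mul_assoc, hPQ, mul_one]
  refine ⟨Z.map T, inferInstance, (Submodule.finrank_map_le T Z).trans hrank, fun X hX => ?_,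
    fun c hc hP => ?_⟩
  · refine ⟨_, hcob (Q * X * P) ?_, funext fun σ => ?_⟩
    · rw [Matrix.trace_mul_comm, ← mul_assoc, hPQ, one_mul, hX]
    · show P * (r' σ * (Q * X * P) * r' σ.1⁻¹ - Q * X * P) * Q = _
      rw [mul_sub, sub_mul, hPQ', hr, hr]
      congr 1
      simp only [← mul_assoc]
      rw [hPQ, one_mul, mul_assoc (r σ.1) P Q, hPQ, mul_one, mul_assoc (r σ.1 * X) P Q, hPQ, mul_one,
        mul_assoc (r σ.1 * X * r σ.1⁻¹) P Q, hPQ, mul_one]
  · refine ⟨_, hZ (fun σ => Q * c σ * P) ⟨fun σ hσ => ?_, fun σ hσ τ hτ => ?_⟩ (hC c hc hP),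
      funext fun σ => hPQ' _⟩
    · rw [Matrix.trace_mul_comm, ← mul_assoc, hPQ, one_mul, hc.1 σ hσ]
    · show Q * c (σ * τ) * P = Q * c σ * P + r' σ * (Q * c τ * P) * r' σ⁻¹
      rw [hc.2 σ hσ τ hτ, hr, hr, mul_add, add_mul]
      congr 1
      simp only [mul_assoc]
      rw [← mul_assoc P Q, hPQ, one_mul, ← mul_assoc P Q, hPQ, one_mul]

/-- Flatness of a class in another basis. -/
theorem IsFlatClass.conj {r r' : GQ →* M2 k} {P Q : M2 k} (hPQ : P * Q = 1) (hQP : Q * P = 1)
    (hr : ∀ σ, r' σ = Q * r σ * P) {c : GQ → M2 k} (h : IsFlatClass A r c) :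
    IsFlatClass A r' fun σ => Q * c σ * P := by
  refine HasModel.of_injective h
    { toFun := fun x => (P *ᵥ x.1, P *ᵥ x.2)
      map_zero' := by simp
      map_add' := fun x y => by simp [mulVec_add] } (fun x y hxy => ?_) fun σ _ x => ?_
  · have h1 := congrArg (fun z : (Fin 2 → k) × (Fin 2 → k) => (Q *ᵥ z.1, Q *ᵥ z.2)) hxy
    simp only [AddMonoidHom.coe_mk, ZeroHom.coe_mk, mulVec_mulVec, hQP, one_mulVec] at h1
    exact h1
  · refine Prod.ext ?_ ?_
    · show P *ᵥ (r' σ *ᵥ x.1) = r σ *ᵥ (P *ᵥ x.1)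
      rw [mulVec_mulVec, mulVec_mulVec, hr, ← mul_assoc, ← mul_assoc, hPQ, one_mul]
    · show P *ᵥ (r' σ *ᵥ x.2 + (Q * c σ * P) *ᵥ (r' σ *ᵥ x.1)) =
        r σ *ᵥ (P *ᵥ x.2) + c σ *ᵥ (r σ *ᵥ (P *ᵥ x.1))
      rw [mulVec_add, mulVec_mulVec, mulVec_mulVec, mulVec_mulVec, mulVec_mulVec, mulVec_mulVec,
        mulVec_mulVec, hr]
      simp only [← mul_assoc, hPQ, one_mul]
      rw [mul_assoc (c σ) P Q, hPQ, mul_one]

/-- Flatness of the representation in another basis. -/
theorem IsFlatRes.conj {r r' : GQ →* M2 k} {P Q : M2 k} (hPQ : P * Q = 1) (hQP : Q * P = 1)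
    (hr : ∀ σ, r' σ = Q * r σ * P) (h : IsFlatRes A r) : IsFlatRes A r' := by
  refine HasModel.of_injective h
    { toFun := fun x => P *ᵥ x
      map_zero' := by simp
      map_add' := fun x y => mulVec_add _ _ _ } (fun x y hxy => ?_) fun σ _ x => ?_
  · have h1 := congrArg (Q *ᵥ ·) hxy
    simp only [AddMonoidHom.coe_mk, ZeroHom.coe_mk, mulVec_mulVec, hQP, one_mulVec] at h1
    exact h1
  · show P *ᵥ (r' σ *ᵥ x) = r σ *ᵥ (P *ᵥ x)
    rw [mulVec_mulVec, mulVec_mulVec, hr, ← mul_assoc, ← mul_assoc, hPQ, one_mul]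

end Transport

end FA.LocalDef
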