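import Fermat.Agent.LocalDef.Residual
import Fermat.Agent.LocalDef.TangentBasics
import Fermat.Agent.LocalDef.Semilinear

/-!
# The flat tangent bound in the ordinary case
-/

set_option autoImplicit false
set_option linter.unusedSectionVars false

noncomputable section

open Matrix FA.Local
open scoped Pointwise

namespace FA.LocalDef

local notation "Qb" => AlgebraicClosure ℚ
local notation "GQ" => AlgebraicClosure ℚ ≃ₐ[ℚ] AlgebraicClosure ℚ
local notation "M2" k => Matrix (Fin 2) (Fin 2) k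

variable {A : ValuationSubring Qb} {p : ℕ} [hp : Fact p.Prime] {k : Type} [Field k] [Fintype k]
  [CharP k p] {r : GQ →* M2 k}

/-- Adapted coordinates of an ordinary representation. -/
structure OrdCoords (A : ValuationSubring Qb) (r : GQ →* M2 k) : Prop where
  lower : ∀ σ ∈ A.decompositionSubgroup ℚ, r σ 1 0 = 0
  unram : ∀ σ ∈ A.inertiaSubgroupIn ℚ, r σ 1 1 = 1

namespace OrdCoords

variable (hc : OrdCoords A r)

include hc

lemma diag_mul {σ : GQ} (hσ : σ ∈ A.decompositionSubgroup ℚ) :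
    r σ 0 0 * r σ⁻¹ 0 0 = 1 ∧ r σ 1 1 * r σ⁻¹ 1 1 = 1 := by
  have h := congrFun (congrFun (r_mul_inv (r := r) σ) 0) 0
  have h' := congrFun (congrFun (r_mul_inv (r := r) σ) 1) 1
  simp only [Matrix.mul_apply, Fin.sum_univ_two, hc.lower σ hσ, hc.lower σ⁻¹ (inv_mem hσ),
    mul_zero, zero_mul, add_zero, zero_add, Matrix.one_apply_eq] at h h'
  exact ⟨h, h'⟩

lemma conj_10 {σ : GQ} (hσ : σ ∈ A.decompositionSubgroup ℚ) (X : M2 k) :
    (r σ * X * r σ⁻¹) 1 0 = r σ 1 1 * X 1 0 * r σ⁻¹ 0 0 := by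
  simp [Matrix.mul_apply, Fin.sum_univ_two, hc.lower σ hσ, hc.lower σ⁻¹ (inv_mem hσ)]

lemma conj_upper {σ : GQ} (hσ : σ ∈ A.decompositionSubgroup ℚ) {X : M2 k} (hX : X 1 0 = 0) :
    (r σ * X * r σ⁻¹) 1 0 = 0 ∧ (r σ * X * r σ⁻¹) 0 0 = X 0 0 := by
  obtain ⟨h, -⟩ := hc.diag_mul hσ
  refine ⟨by rw [hc.conj_10 hσ, hX, mul_zero, zero_mul], ?_⟩
  simp only [Matrix.mul_apply, Fin.sum_univ_two, hc.lower σ⁻¹ (inv_mem hσ), hX, mul_zero, add_zero]
  linear_combination X 0 0 * h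

lemma conj_diag0 {σ : GQ} (hσ : σ ∈ A.decompositionSubgroup ℚ) {X : M2 k} (h10 : X 1 0 = 0)
    (h00 : X 0 0 = 0) (h11 : X 1 1 = 0) :
    (r σ * X * r σ⁻¹) 0 1 = r σ 0 0 * X 0 1 * r σ⁻¹ 1 1 := by
  simp [Matrix.mul_apply, Fin.sum_univ_two, h10, h00, h11]

lemma inertia_00 (hdet : DetOmega A p r) {ζ : Qb} (hζ : IsPrimitiveRoot ζ p) {σ : GQ}
    (hσ : σ ∈ A.inertiaSubgroupIn ℚ) {m : ℕ} (hm : σ ζ = ζ ^ m) : r σ 0 0 = (m : k) := by
  have h := det_eq_natCast hζ hdet (inertia_le_decomposition hσ) hm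
  rwa [det_fin_two, hc.lower σ (inertia_le_decomposition hσ), hc.unram σ hσ, mul_one, mul_zero,
    sub_zero] at h

/-- The connected part of a flat deformation is a line over the dual numbers lifting the stable
line. -/
lemma conn_line (hA : A.LiesOverPrime p) (hp2 : p ≠ 2) (hdet : DetOmega A p r) {ζ : Qb}
    (hζ : IsPrimitiveRoot ζ p) {σ₀ : GQ} (hσ₀ : σ₀ ∈ A.inertiaSubgroupIn ℚ)
    (hζ₀ : σ₀ ζ = ζ ^ 2) {c : GQ → M2 k} (hfl : IsFlatClass A r c) :
    (∀ σ ∈ A.decompositionSubgroup ℚ, c σ 1 0 * r σ 0 0 =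
        2 * c σ₀ 1 0 * (r σ 0 0 - r σ 1 1)) ∧
      ∀ σ ∈ A.inertiaSubgroupIn ℚ, c σ 1 0 * r σ 0 1 + c σ 1 1 = 2 * c σ₀ 1 0 * r σ 0 1 := by
  classical
  let _ : Algebra (ZMod p) k := ZMod.algebra k p
  obtain ⟨S, hS⟩ := exists_sys hfl fun σ _ x y => by
    refine Prod.ext ?_ ?_
    · simp [act2, mulVec_add]
    · simp only [act2, Prod.fst_add, Prod.snd_add, mulVec_add]; abel
  have hact : ∀ σ z, S.act σ z = act2 r c σ z := fun σ z => by rw [hS]
  have hsmul : ∀ (a : k) z, z ∈ S.conn (p := p) → a • z ∈ S.conn (p := p) := fun a z hz =>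
    S.map_mem_conn hA hp2 (DistribSMul.toAddMonoidHom _ a) (fun σ _ y => by
      show a • S.act σ y = S.act σ (a • y)
      rw [hact, hact]
      refine Prod.ext ?_ ?_ <;>
        simp only [act2, Prod.smul_fst, Prod.smul_snd, mulVec_smul, smul_add]) hz
  have heps : ∀ z, z ∈ S.conn (p := p) →
      ((0 : Fin 2 → k), z.1) ∈ S.conn (p := p) := fun z hz =>
    S.map_mem_conn hA hp2 ((AddMonoidHom.inr (Fin 2 → k) (Fin 2 → k)).comp
        (AddMonoidHom.fst (Fin 2 → k) (Fin 2 → k))) (fun σ _ y => by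
      show ((0 : Fin 2 → k), (S.act σ y).1) = S.act σ (0, y.1)
      rw [hact, hact]
      simp [act2]) hz
  have hr00 : r σ₀ 0 0 = 2 := by
    rw [hc.inertia_00 hdet hζ hσ₀ hζ₀, Nat.cast_ofNat]
  set e0 : Fin 2 → k := ![1, 0] with he0
  set y : Fin 2 → k := ![2 * c σ₀ 0 0, 2 * c σ₀ 1 0] with hy
  have hey : (e0, y) ∈ S.conn (p := p) := by
    have h := S.sub_mem_conn (p := p) hσ₀ (e0, 0)
    rw [hact] at h
    convert h using 1
    refine Prod.ext (funext fun i => ?_) (funext fun i => ?_) <;>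
      fin_cases i <;>
      simp [act2, he0, hy, mulVec, dotProduct, Fin.sum_univ_two, hr00,
        hc.lower σ₀ (inertia_le_decomposition hσ₀)] <;> ring
  set x := 2 * c σ₀ 1 0
  have h0e : ((0 : Fin 2 → k), e0) ∈ S.conn (p := p) := heps _ hey
  have hfst : ∀ z ∈ S.conn (p := p), z.1 1 = 0 := fun z hz => by
    have h := S.conn_le_span hA hp2 hz
    clear hz
    induction h using Submodule.span_induction with
    | mem w hw =>
      obtain ⟨σ, hσ, u, -, rfl⟩ := hw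
      rw [hact]
      simp [act2, mulVec, dotProduct, Fin.sum_univ_two, hc.lower σ (inertia_le_decomposition hσ),
        hc.unram σ hσ]
    | zero => rfl
    | add a b _ _ ha hb => simp [ha, hb]
    | smul a b _ hb => rw [Prod.smul_fst, Pi.smul_apply, hb, smul_zero]
  have hsnd : ∀ w, ((0 : Fin 2 → k), w) ∈ S.conn (p := p) → w 1 = 0 := by
    intro w hw
    by_contra hw1
    let X : Submodule (ZMod p) ((Fin 2 → k) × (Fin 2 → k)) :=
      LinearMap.ker (LinearMap.fst (ZMod p) (Fin 2 → k) (Fin 2 → k))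
    have hX : X ≤ S.conn (p := p) := by
      rintro ⟨u, u'⟩ (hu : u = 0)
      subst hu
      have h1 : ((0 : Fin 2 → k), u') = u' 0 • ((0 : Fin 2 → k), e0) +
          (u' 1 * (w 1)⁻¹) • (((0 : Fin 2 → k), w) - w 0 • ((0 : Fin 2 → k), e0)) := by
        refine Prod.ext (by simp) (funext (Fin.forall_fin_two.mpr ⟨?_, ?_⟩))
        · show u' 0 = u' 0 * 1 + u' 1 * (w 1)⁻¹ * (w 0 - w 0 * 1)
          ring
        · show u' 1 = u' 0 * 0 + u' 1 * (w 1)⁻¹ * (w 1 - w 0 * 0)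
          rw [mul_zero, zero_add, mul_zero, sub_zero, inv_mul_cancel_right₀ hw1]
      rw [h1]
      exact add_mem (hsmul _ _ h0e) (hsmul _ _ (sub_mem hw (hsmul _ _ h0e)))
    obtain ⟨φ, hφ⟩ : ∃ φ : Module.Dual (ZMod p) k, φ 1 ≠ 0 := by
      by_contra hcon
      push Not at hcon
      exact one_ne_zero ((Module.forall_dual_apply_eq_zero_iff (ZMod p) (1 : k)).mp hcon)
    let ξ : Module.Dual (ZMod p) X := φ.comp ((LinearMap.proj (1 : Fin 2)).comp
      ((LinearMap.snd (ZMod p) (Fin 2 → k) (Fin 2 → k)).comp X.subtype))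
    have hξ := S.functional_eq_zero hA hp2 X hX (fun σ _ z hz => by
      show (S.act σ z).1 = 0
      rw [hact]
      simp [act2, show z.1 = 0 from hz]) ξ fun σ hσ z => by
        show φ ((S.act σ z.1).2 1) = φ (z.1.2 1)
        rw [hact]
        have hz : z.1.1 = 0 := z.2
        simp [act2, hz, mulVec, dotProduct, Fin.sum_univ_two,
          hc.lower σ (inertia_le_decomposition hσ), hc.unram σ hσ]
    exact hφ (LinearMap.congr_fun hξ ⟨(0, ![0, 1]), rfl⟩)
  have hline : ∀ z ∈ S.conn (p := p), z.2 1 = x * z.1 0 := fun z hz => by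
    have h1 : z - z.1 0 • ((e0, y) : (Fin 2 → k) × (Fin 2 → k)) = (0, z.2 - z.1 0 • y) := by
      refine Prod.ext (funext fun i => ?_) rfl
      fin_cases i <;> simp [he0, hfst z hz]
    have h2 := hsnd _ (h1 ▸ sub_mem hz (hsmul _ _ hey))
    rw [Pi.sub_apply, Pi.smul_apply, smul_eq_mul, sub_eq_zero] at h2
    rw [h2, hy]
    simp [x, mul_comm]
  refine ⟨fun σ hσ => ?_, fun σ hσ => ?_⟩
  · have h := hline _ (S.act_mem_conn (p := p) hσ hey)
    rw [hact] at h
    simp [act2, he0, hy, mulVec, dotProduct, Fin.sum_univ_two, hc.lower σ hσ] at h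
    linear_combination h
  · have h := hline _ (S.sub_mem_conn (p := p) hσ (![0, 1], 0))
    rw [hact] at h
    simp [act2, mulVec, dotProduct, Fin.sum_univ_two, hc.unram σ hσ] at h
    linear_combination h

/-- A flat class becomes upper triangular after subtracting a coboundary. -/
lemma normalize (hA : A.LiesOverPrime p) (hp2 : p ≠ 2) (hdet : DetOmega A p r) {ζ : Qb}
    (hζ : IsPrimitiveRoot ζ p) {c : GQ → M2 k} (hco : IsLocalCocycle A r c)
    (hfl : IsFlatClass A r c) :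
    ∃ c' : GQ → M2 k, ∃ x : k, (∀ σ, c' σ = c σ + (r σ * !![0, 0; x, 0] * r σ⁻¹ - !![0, 0; x, 0])) ∧
      IsLocalCocycle A r c' ∧ IsFlatClass A r c' ∧
      (∀ σ ∈ A.decompositionSubgroup ℚ, c' σ 1 0 = 0) ∧
      ∀ σ ∈ A.inertiaSubgroupIn ℚ, c' σ 0 0 = 0 := by
  obtain ⟨σ₀, hσ₀, hζ₀⟩ := exists_inertia_zeta hp.out hA hζ (m := 2)
    (fun h => by have := Nat.le_of_dvd two_pos h; have := hp.out.two_le; omega)
  set X : M2 k := !![0, 0; 2 * c σ₀ 1 0, 0] with hX
  set c' : GQ → M2 k := fun σ => c σ + (r σ * X * r σ⁻¹ - X) with hc'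
  have hfl' : IsFlatClass A r c' := hfl.add_cob (-X) fun σ _ => by
    simp only [hc', mul_neg, neg_mul]; abel
  obtain ⟨h1, -⟩ := hc.conn_line hA hp2 hdet hζ hσ₀ hζ₀ hfl
  have h10 : ∀ σ ∈ A.decompositionSubgroup ℚ, c' σ 1 0 = 0 := fun σ hσ => by
    show (c σ + (r σ * X * r σ⁻¹ - X)) 1 0 = 0
    rw [Matrix.add_apply, Matrix.sub_apply, hc.conj_10 hσ, show X 1 0 = 2 * c σ₀ 1 0 by simp [hX]]
    linear_combination r σ⁻¹ 0 0 * (h1 σ hσ) +
      (2 * c σ₀ 1 0 - c σ 1 0) * (hc.diag_mul hσ).1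
  obtain ⟨-, h2⟩ := hc.conn_line hA hp2 hdet hζ hσ₀ hζ₀ hfl'
  have hco' := hco.add_cob X
  refine ⟨c', _, fun σ => rfl, hco', hfl', h10, fun σ hσ => ?_⟩
  have h := h2 σ hσ
  rw [h10 σ (inertia_le_decomposition hσ), h10 σ₀ (inertia_le_decomposition hσ₀)] at h
  have ht := hco'.1 σ (inertia_le_decomposition hσ)
  rw [trace_fin_two] at ht
  linear_combination ht - h

/-- Three coordinates determine a family of independent normalised flat classes. -/
lemma family_functionals (hA : A.LiesOverPrime p) (hdet : DetOmega A p r) {ζ : Qb}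
    (hζ : IsPrimitiveRoot ζ p) (hp2 : p ≠ 2) {m : ℕ}
    (cs : Fin m → GQ → M2 k) (hco : ∀ i, IsLocalCocycle A r (cs i))
    (hfl : ∀ i, IsFlatClass A r (cs i))
    (h10 : ∀ i, ∀ σ ∈ A.decompositionSubgroup ℚ, cs i σ 1 0 = 0)
    (h00 : ∀ i, ∀ σ ∈ A.inertiaSubgroupIn ℚ, cs i σ 0 0 = 0)
    (hli : LinearIndependent k fun i => fun σ : A.decompositionSubgroup ℚ => cs i σ) :
    ∃ F ∈ A.decompositionSubgroup ℚ, ∃ (g₀ : GQ) (x : Fin m → k), ∀ l : Fin m → k,
      ∑ i, l i * cs i F 0 0 = 0 → ∑ i, l i * x i = 0 → ∑ i, l i * cs i g₀ 0 1 = 0 → l = 0 := by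
  classical
  rcases Nat.eq_zero_or_pos m with rfl | hm
  · exact ⟨1, one_mem _, 1, 0, fun l _ _ _ => funext fun i => i.elim0⟩
  let _ : Algebra (ZMod p) k := ZMod.algebra k p
  have := res_charP hp.out hA
  let _ : Algebra (ZMod p) (Res A) := ZMod.algebra (Res A) p
  obtain ⟨Λ, hbd, hN, hnorm, E, hEfin, hE⟩ := exists_family_layer (p := p) hA hm hfl
  obtain ⟨Λc, hNc, hπc, hDc⟩ := exists_cyclo_layer hp.out hA hζ
  obtain ⟨g₀, hg₀, hg₀ζ⟩ := exists_inertia_zeta hp.out hA hζ (m := 2)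
    (fun h => by have := Nat.le_of_dvd two_pos h; have := hp.out.two_le; omega)
  obtain ⟨F, hF⟩ := FA.Deform.exists_isFrobeniusAt hp.out hA
  have hFd := hF.mem_decompositionSubgroup
  have hG : ∀ σ, σ ∈ Λc.N ↔ σ ∈ A.inertiaSubgroupIn ℚ ∧ σ ζ = ζ := fun σ => by rw [hNc]; rfl
  have hG00 : ∀ σ ∈ Λc.N, r σ 0 0 = 1 := fun σ hσ => by
    obtain ⟨hI, hz⟩ := (hG σ).mp hσ
    rw [hc.inertia_00 hdet hζ hI (m := 1) (by rw [pow_one, hz]), Nat.cast_one]
  have hc11 : ∀ i, ∀ σ ∈ A.inertiaSubgroupIn ℚ, cs i σ 1 1 = 0 := fun i σ hσ => by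
    have h := (hco i).1 σ (inertia_le_decomposition hσ)
    rwa [trace_fin_two, h00 i σ hσ, zero_add] at h
  -- the coordinates on `G`
  let H : GQ → k × (Fin m → k) := fun σ => (r σ 0 1, fun i => cs i σ 0 1)
  have hH : ∀ σ ∈ Λc.N, ∀ τ ∈ Λc.N, H (σ * τ) = H σ + H τ := fun σ hσ τ hτ => by
    have hσd := inertia_le_decomposition (Λc.le hσ)
    have hτd := inertia_le_decomposition (Λc.le hτ)
    refine Prod.ext ?_ (funext fun i => ?_)
    · show r (σ * τ) 0 1 = r σ 0 1 + r τ 0 1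
      rw [map_mul, Matrix.mul_apply, Fin.sum_univ_two, hG00 σ hσ, hc.unram τ (Λc.le hτ), one_mul,
        mul_one, add_comm]
    · show cs i (σ * τ) 0 1 = cs i σ 0 1 + cs i τ 0 1
      rw [(hco i).2 σ hσd τ hτd, Matrix.add_apply, hc.conj_diag0 hσd (h10 i τ hτd)
        (h00 i τ (Λc.le hτ)) (hc11 i τ (Λc.le hτ)), hG00 σ hσ,
        hc.unram σ⁻¹ (inv_mem (Λc.le hσ)), one_mul, mul_one]
  have hH1 : H 1 = 0 := by
    have h := hH 1 (one_mem _) 1 (one_mem _)
    rw [one_mul, left_eq_add] at h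
    exact h
  have hHinv : ∀ σ ∈ Λc.N, H σ⁻¹ = -H σ := fun σ hσ => by
    have h := hH σ hσ σ⁻¹ (inv_mem hσ)
    rw [mul_inv_cancel, hH1] at h
    exact (neg_eq_of_add_eq_zero_right h.symm).symm
  have hHN : ∀ σ, σ ∈ Λ.N → σ ∈ Λc.N ∧ H σ = 0 := fun σ hσ => by
    obtain ⟨hI, hr, hcs⟩ := (hN σ).mp hσ
    refine ⟨(hG σ).mpr ⟨hI, ?_⟩, Prod.ext (by simp [H, hr]) (funext fun i => by simp [H, hcs i])⟩
    obtain ⟨j, -, hj⟩ := exists_zeta_pow hζ σ
    have h := det_eq_natCast hζ hdet (inertia_le_decomposition hI) hj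
    rw [hr, det_one, ← Nat.cast_one] at h
    rw [hj, pow_eq_pow_mod _ hζ.pow_eq_one, ((CharP.natCast_eq_natCast k p).mp h).symm,
      Nat.mod_eq_of_lt hp.out.one_lt, pow_one]
  have hNH : ∀ σ ∈ Λc.N, H σ = 0 → σ ∈ Λ.N := fun σ hσ h0 => by
    have hI := Λc.le hσ
    refine (hN σ).mpr ⟨hI, ?_, fun i => ?_⟩
    · ext a b
      fin_cases a <;> fin_cases b
      · simpa using hG00 σ hσ
      · simpa using congrArg Prod.fst h0
      · simpa using hc.lower σ (inertia_le_decomposition hI)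
      · simpa using hc.unram σ hI
    · ext a b
      fin_cases a <;> fin_cases b
      · simpa using h00 i σ hI
      · simpa using congrFun (congrArg Prod.snd h0) i
      · simpa using h10 i σ (inertia_le_decomposition hI)
      · simpa using hc11 i σ hI
  have hHpow : ∀ σ ∈ Λc.N, ∀ j : ℕ, H (σ ^ j) = j • H σ := fun σ hσ j => by
    induction j with
    | zero => rw [pow_zero, zero_smul, hH1]
    | succ j ih => rw [pow_succ, hH _ (pow_mem hσ j) σ hσ, ih, succ_nsmul]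
  let W : Layer.Wild Λ :=
    { G := Λc.N
      le_G := fun σ hσ => (hHN σ hσ).1
      G_le := Λc.le
      normal := fun g hg σ hσ => Λc.N_conj hg hσ
      not_dvd := by
        rw [Λc.D_eq, hDc]
        have := hp.out.two_le
        exact fun h => absurd (Nat.le_of_dvd (by omega) h) (by omega)
      exp := fun σ hσ => hNH _ (pow_mem hσ p) (by
        rw [hHpow σ hσ, ← Nat.cast_smul_eq_nsmul (ZMod p), ZMod.natCast_self, zero_smul])
      comm := fun σ hσ τ hτ => hNH _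
        (mul_mem (mul_mem (mul_mem (inv_mem hσ) (inv_mem hτ)) hσ) hτ) (by
          rw [hH _ (mul_mem (mul_mem (inv_mem hσ) (inv_mem hτ)) hσ) _ hτ,
            hH _ (mul_mem (inv_mem hσ) (inv_mem hτ)) _ hσ, hH _ (inv_mem hσ) _ (inv_mem hτ),
            hHinv σ hσ, hHinv τ hτ]
          abel) }
  have hfil : ∀ {σ}, σ ∈ Λc.N → σ ∈ Λ.fil 1 := fun {σ} hσ => W.G_eq_fil_one ▸ (hσ : σ ∈ W.G)
  have hkill : ∀ σ ∈ Λc.N, Λ.gr 1 σ = 0 → H σ = 0 := fun σ hσ h0 => by
    by_contra hne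
    have hσN : σ ∉ Λ.N := fun h => hne (hHN σ h).2
    obtain ⟨-, hbr⟩ := W.single_break hbd (t₀ := 1) (fun t ht htp _ _ _ _ _ => by
      have he : W.e = p - 1 := Λc.D_eq.trans hDc
      rw [he] at htp
      by_contra ht1
      have := Nat.mul_le_mul_left (p - 1) (show 2 ≤ t by omega)
      have := hp.out.two_le
      omega) (fun hle => hσN (hle hσ))
    exact hbr σ hσ hσN ((Λ.gr_eq_zero_iff (hfil hσ)).mp h0)
  let Wsp := imageModule (p := p) Λc.N H hH
  obtain ⟨a, ha⟩ := exists_descend (p := p) Λc.N H hH (Λ.gr 1)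
    (fun σ hσ τ hτ => Λ.gr_mul le_rfl (hfil hσ) (hfil hτ))
    (fun σ hσ h0 => Layer.gr_eq_zero_of_mem_N 1 (hNH σ hσ h0))
  have hainj : Function.Injective a := by
    rw [← LinearMap.ker_eq_bot, LinearMap.ker_eq_bot']
    rintro ⟨_, σ, hσ, rfl⟩ h0
    exact Subtype.ext (hkill σ hσ ((ha σ hσ).symm.trans h0))
  have hFG : ∀ σ ∈ Λc.N, F * σ * F⁻¹ ∈ Λc.N := fun σ hσ => by
    obtain ⟨hI, hz⟩ := (hG σ).mp hσ
    refine (hG _).mpr ⟨conj_mem_inertia hp.out hA hFd hI, ?_⟩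
    obtain ⟨j, -, hj⟩ := exists_zeta_pow hζ F⁻¹
    rw [AlgEquiv.mul_apply, AlgEquiv.mul_apply, hj, map_pow σ, hz, ← hj, ← AlgEquiv.mul_apply,
      mul_inv_cancel, AlgEquiv.one_apply]
  obtain ⟨φ, hφ⟩ := exists_descend (p := p) Λc.N H hH
    (fun σ => if hσ : σ ∈ Λc.N then (⟨H (F * σ * F⁻¹), mem_imageModule _ H hH (hFG σ hσ)⟩ : Wsp)
      else 0)
    (fun σ hσ τ hτ => by
      rw [dif_pos hσ, dif_pos hτ, dif_pos (mul_mem hσ hτ)]
      refine Subtype.ext ?_
      show H _ = H _ + H _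
      rw [← hH _ (hFG σ hσ) _ (hFG τ hτ)]
      congr 1
      group)
    (fun σ hσ h0 => by
      rw [dif_pos hσ]
      exact Subtype.ext (hHN _ (hnorm F hFd σ (hNH σ hσ h0))).2)
  have hφa : ∀ w, a (φ w) = Λ.chi0 F * a w ^ Fintype.card (ZMod p) := by
    rintro ⟨_, σ, hσ, rfl⟩
    rw [hφ σ hσ, dif_pos hσ, ha _ (hFG σ hσ), ha σ hσ,
      Λ.gr_conj hFd (hnorm F hFd) (hfil hσ), pow_one, hF.smul_residue_eq, ZMod.card]
  set γ : k := r F 0 0 * r F⁻¹ 1 1 with hγ
  obtain ⟨x₀, hx₀⟩ := exists_determining_point (Θ := k) φ a hainj (Λ.chi0_ne_zero hFd) hφa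
    (γ := γ) (IsIntegral.of_finite _ γ)
  refine ⟨F, hFd, g₀, fun i => x₀.1.2 i, fun l hlF hlx hlg => ?_⟩
  set C : GQ → M2 k := fun σ => ∑ i, l i • cs i σ with hC
  have hCco : IsLocalCocycle A r C := IsLocalCocycle.sum_smul Finset.univ l hco
  have hCap : ∀ σ a b, C σ a b = ∑ i, l i * cs i σ a b := fun σ a b => by
    simp [hC, Matrix.sum_apply, smul_eq_mul]
  have hC10 : ∀ σ ∈ A.decompositionSubgroup ℚ, C σ 1 0 = 0 := fun σ hσ => by
    rw [hCap]; exact Finset.sum_eq_zero fun i _ => by rw [h10 i σ hσ, mul_zero]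
  have hC00I : ∀ σ ∈ A.inertiaSubgroupIn ℚ, C σ 0 0 = 0 := fun σ hσ => by
    rw [hCap]; exact Finset.sum_eq_zero fun i _ => by rw [h00 i σ hσ, mul_zero]
  have hC00 : ∀ σ ∈ A.decompositionSubgroup ℚ, C σ 0 0 = 0 := fun σ hσ => by
    have hadd : ∀ a ∈ A.decompositionSubgroup ℚ, ∀ b ∈ A.decompositionSubgroup ℚ,
        C (a * b) 0 0 = C a 0 0 + C b 0 0 := fun a ha b hb => by
      rw [hCco.2 a ha b hb, Matrix.add_apply, (hc.conj_upper ha (hC10 b hb)).2]
    let K : Subgroup GQ :=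
      { carrier := {g | g ∈ A.decompositionSubgroup ℚ ∧ C g 0 0 = 0}
        one_mem' := ⟨one_mem _, by rw [hCco.map_one]; rfl⟩
        mul_mem' := fun {a b} ha hb => ⟨mul_mem ha.1 hb.1, by
          rw [hadd a ha.1 b hb.1, ha.2, hb.2, add_zero]⟩
        inv_mem' := fun {a} ha => ⟨inv_mem ha.1, by
          have h := hadd a ha.1 a⁻¹ (inv_mem ha.1)
          rw [mul_inv_cancel, hCco.map_one, ha.2, zero_add] at h
          exact h.symm⟩ }
    refine (decomp_le_of hA hF K (fun g hg => ⟨inertia_le_decomposition hg, hC00I g hg⟩)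
      ⟨hFd, by rw [hCap]; exact hlF⟩ E (fun g hg => ⟨hg.1, ?_⟩) hσ).2
    rw [hCap]
    exact Finset.sum_eq_zero fun i _ => by rw [hE g hg.1 hg.2 i]; simp
  have hC11 : ∀ σ ∈ A.decompositionSubgroup ℚ, C σ 1 1 = 0 := fun σ hσ => by
    have h := hCco.1 σ hσ
    rwa [trace_fin_two, hC00 σ hσ, zero_add] at h
  have hCeq : ∀ σ ∈ A.decompositionSubgroup ℚ, C σ 0 1 = 0 → C σ = 0 := fun σ hσ h => by
    ext a b
    fin_cases a <;> fin_cases b
    · exact hC00 σ hσ
    · exact h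
    · exact hC10 σ hσ
    · exact hC11 σ hσ
  -- the functional on `G`
  let h : Wsp →ₗ[ZMod p] k := (AddMonoidHom.mk' (fun w : Wsp => ∑ i, l i * w.1.2 i) fun w w' => by
    simp [mul_add, Finset.sum_add_distrib]).toZModLinearMap p
  have hh : h = 0 := hx₀ h (by
    rintro ⟨_, σ, hσ, rfl⟩
    rw [hφ σ hσ, dif_pos hσ]
    show ∑ i, l i * cs i (F * σ * F⁻¹) 0 1 = γ * ∑ i, l i * cs i σ 0 1
    rw [← hCap, ← hCap]
    have hσd := inertia_le_decomposition (Λc.le hσ)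
    have hσ'd := mul_mem (mul_mem hFd hσd) (inv_mem hFd)
    rw [hCco.map_conj hFd hσd, Matrix.sub_apply, Matrix.add_apply,
      hc.conj_diag0 hFd (hC10 σ hσd) (hC00 σ hσd) (hC11 σ hσd),
      show F * σ⁻¹ * F⁻¹ = (F * σ * F⁻¹)⁻¹ by group,
      hc.conj_diag0 hσ'd (hC10 F hFd) (hC00 F hFd) (hC11 F hFd), hG00 _ (hFG σ hσ),
      hc.unram _ (inv_mem (Λc.le (hFG σ hσ))), one_mul, mul_one]
    ring) hlx
  have hCG : ∀ σ ∈ Λc.N, C σ = 0 := fun σ hσ => hCeq σ (inertia_le_decomposition (Λc.le hσ)) (by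
    rw [hCap]
    exact LinearMap.congr_fun hh ⟨H σ, mem_imageModule _ H hH hσ⟩)
  have hg₀d := inertia_le_decomposition hg₀
  have hg00 : r g₀ 0 0 = 2 := by rw [hc.inertia_00 hdet hζ hg₀ hg₀ζ, Nat.cast_ofNat]
  have hCg : C g₀ = 0 := hCeq g₀ hg₀d (by rw [hCap]; exact hlg)
  have hCI : ∀ σ ∈ A.inertiaSubgroupIn ℚ, C σ = 0 := fun σ hσ => by
    have hσd := inertia_le_decomposition hσ
    obtain ⟨j, -, hj⟩ := exists_zeta_pow hζ σ
    have hcomm : (σ * g₀)⁻¹ * (g₀ * σ) ∈ Λc.N := by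
      refine (hG _).mpr ⟨mul_mem (inv_mem (mul_mem hσ hg₀)) (mul_mem hg₀ hσ), ?_⟩
      rw [AlgEquiv.mul_apply, show (g₀ * σ) ζ = (σ * g₀) ζ by
        rw [AlgEquiv.mul_apply, AlgEquiv.mul_apply, hj, hg₀ζ, map_pow, map_pow, hj, hg₀ζ, ← pow_mul,
          ← pow_mul, mul_comm], ← AlgEquiv.mul_apply, inv_mul_cancel, AlgEquiv.one_apply]
    refine hCeq σ hσd ?_
    have h1 := hCco.2 g₀ hg₀d σ hσd
    have h2 : C (g₀ * σ) = C σ := by
      rw [show g₀ * σ = σ * g₀ * ((σ * g₀)⁻¹ * (g₀ * σ)) by rw [mul_inv_cancel_left],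
        hCco.2 _ (mul_mem hσd hg₀d) _ (inertia_le_decomposition (Λc.le hcomm)), hCG _ hcomm,
        mul_zero, zero_mul, add_zero, hCco.2 σ hσd g₀ hg₀d, hCg, mul_zero, zero_mul, add_zero]
    rw [h2, hCg, zero_add] at h1
    have h3 := congrFun (congrFun h1 0) 1
    rw [hc.conj_diag0 hg₀d (hC10 σ hσd) (hC00 σ hσd) (hC11 σ hσd), hg00,
      hc.unram _ (inv_mem hg₀), mul_one] at h3
    linear_combination -h3
  have hCF : C F = 0 := hCeq F hFd (by
    have hσ' := conj_mem_inertia hp.out hA hFd hg₀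
    have h1 := hCco.map_conj hFd hg₀d
    rw [hCI _ hσ', hCg, mul_zero, zero_mul, add_zero, show F * g₀⁻¹ * F⁻¹ = (F * g₀ * F⁻¹)⁻¹ by
      group] at h1
    have hdet' : r (F * g₀ * F⁻¹) 0 0 = 2 := by
      have hd : (r (F * g₀ * F⁻¹)).det = (r g₀).det := by
        rw [map_mul, map_mul, det_mul, det_mul, mul_comm, ← mul_assoc, ← det_mul, r_inv_mul, det_one,
          one_mul]
      rw [det_fin_two, det_fin_two, hc.lower _ (inertia_le_decomposition hσ'),
        hc.lower _ hg₀d, hc.unram _ hσ', hc.unram _ hg₀, hg00] at hd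
      linear_combination hd
    have h2 := congrFun (congrFun h1 0) 1
    rw [Matrix.sub_apply, hc.conj_diag0 (inertia_le_decomposition hσ') (hC10 F hFd) (hC00 F hFd)
      (hC11 F hFd), hdet', hc.unram _ (inv_mem hσ'), mul_one, Matrix.zero_apply] at h2
    linear_combination h2)
  have hzero := hCco.eq_zero hA hF hCI hCF E fun σ hσ hσ' => by
    simp only [hC]
    exact Finset.sum_eq_zero fun i _ => by rw [hE σ hσ hσ' i, smul_zero]
  exact funext (Fintype.linearIndependent_iff.mp hli l (funext fun σ => by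
    rw [Finset.sum_apply]
    exact hzero σ σ.2))

/-- At most three independent normalised flat classes. -/
lemma family_le (hA : A.LiesOverPrime p) (hdet : DetOmega A p r) {ζ : Qb}
    (hζ : IsPrimitiveRoot ζ p) (hp2 : p ≠ 2) {m : ℕ}
    (cs : Fin m → GQ → M2 k) (hco : ∀ i, IsLocalCocycle A r (cs i))
    (hfl : ∀ i, IsFlatClass A r (cs i))
    (h10 : ∀ i, ∀ σ ∈ A.decompositionSubgroup ℚ, cs i σ 1 0 = 0)
    (h00 : ∀ i, ∀ σ ∈ A.inertiaSubgroupIn ℚ, cs i σ 0 0 = 0)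
    (hli : LinearIndependent k fun i => fun σ : A.decompositionSubgroup ℚ => cs i σ) : m ≤ 3 := by
  obtain ⟨F, -, g₀, x, h⟩ := hc.family_functionals hA hdet hζ hp2 cs hco hfl h10 h00 hli
  refine le_of_functionals (n := 3) (K := k)
    (LinearMap.pi fun j => Fintype.linearCombination k
      (fun i => (![cs i F 0 0, x i, cs i g₀ 0 1] : Fin 3 → k) j)) fun l hl => ?_
  have hl' : ∀ j, ∑ i, l i * (![cs i F 0 0, x i, cs i g₀ 0 1] : Fin 3 → k) j = 0 := fun j => by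
    simpa [Fintype.linearCombination_apply] using congrFun hl j
  exact h l (hl' 0) (hl' 1) (hl' 2)

/-- At most two independent normalised flat classes without diagonal. -/
lemma family_le_two (hA : A.LiesOverPrime p) (hdet : DetOmega A p r) {ζ : Qb}
    (hζ : IsPrimitiveRoot ζ p) (hp2 : p ≠ 2) {m : ℕ}
    (cs : Fin m → GQ → M2 k) (hco : ∀ i, IsLocalCocycle A r (cs i))
    (hfl : ∀ i, IsFlatClass A r (cs i))
    (h10 : ∀ i, ∀ σ ∈ A.decompositionSubgroup ℚ, cs i σ 1 0 = 0)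
    (h00 : ∀ i, ∀ σ ∈ A.decompositionSubgroup ℚ, cs i σ 0 0 = 0)
    (hli : LinearIndependent k fun i => fun σ : A.decompositionSubgroup ℚ => cs i σ) : m ≤ 2 := by
  obtain ⟨F, hF, g₀, x, h⟩ := hc.family_functionals hA hdet hζ hp2 cs hco hfl h10
    (fun i σ hσ => h00 i σ (inertia_le_decomposition hσ)) hli
  refine le_of_functionals (n := 2) (K := k)
    (LinearMap.pi fun j => Fintype.linearCombination k
      (fun i => (![x i, cs i g₀ 0 1] : Fin 2 → k) j)) fun l hl => ?_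
  have hl' : ∀ j, ∑ i, l i * (![x i, cs i g₀ 0 1] : Fin 2 → k) j = 0 := fun j => by
    simpa [Fintype.linearCombination_apply] using congrFun hl j
  exact h l (Finset.sum_eq_zero fun i _ => by rw [h00 i F hF, mul_zero]) (hl' 0) (hl' 1)

end OrdCoords

/-- **The flat tangent bound, ordinary case, in adapted coordinates.** -/
theorem tangentBound_flat_coords (hA : A.LiesOverPrime p) (hp2 : p ≠ 2) (hdet : DetOmega A p r)
    (hflat : IsFlatRes A r) (hc : OrdCoords A r) : TangentBound A r (IsFlatClass A r) := by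
  classical
  obtain ⟨ζ, hζ⟩ := exists_zeta hp.out
  let res' : (GQ → M2 k) → (A.decompositionSubgroup ℚ → M2 k) := fun c σ => c σ
  let S : Set (A.decompositionSubgroup ℚ → M2 k) := res' '' {c | IsLocalCocycle A r c ∧
    IsFlatClass A r c ∧ (∀ σ ∈ A.decompositionSubgroup ℚ, c σ 1 0 = 0) ∧
    ∀ σ ∈ A.inertiaSubgroupIn ℚ, c σ 0 0 = 0}
  let e10 : A.decompositionSubgroup ℚ → M2 k := fun σ =>
    r σ * !![0, 0; 1, 0] * r σ.1⁻¹ - !![0, 0; 1, 0]
  have hS := finrank_span_le_of_indep (k := k) S 3 fun m c hcS hli => by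
    choose cs hcs hcse using hcS
    exact hc.family_le hA hdet hζ hp2 cs (fun i => (hcs i).1) (fun i => (hcs i).2.1)
      (fun i => (hcs i).2.2.1) (fun i => (hcs i).2.2.2) (by
        rwa [show (fun i => fun σ : A.decompositionSubgroup ℚ => cs i σ) = c from funext hcse])
  have := hS.1
  have he10 : ∀ x : k, (fun σ : A.decompositionSubgroup ℚ =>
      r σ * !![0, 0; x, 0] * r σ.1⁻¹ - !![0, 0; x, 0]) = x • e10 := fun x => funext fun σ => by
    rw [Pi.smul_apply, smul_sub, ← smul_mul_assoc, ← mul_smul_comm]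
    congr <;> ext a b <;> fin_cases a <;> fin_cases b <;> simp
  refine ⟨Submodule.span k S ⊔ Submodule.span k {e10}, inferInstance, ?_, fun X hX => ?_,
    fun c hco hfl => ?_⟩
  · have h1 : Module.finrank k (Submodule.span k {e10}) ≤ 1 :=
      (finrank_span_le_card {e10}).trans (by simp)
    exact ((Submodule.finrank_add_le_finrank_add_finrank _ _).trans (Nat.add_le_add hS.2 h1))
  · have e : X = (X - !![0, 0; X 1 0, 0]) + !![0, 0; X 1 0, 0] := (sub_add_cancel _ _).symm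
    set Y := X - !![0, 0; X 1 0, 0] with hY
    have hY10 : Y 1 0 = 0 := by simp [hY]
    have e' : (fun σ : A.decompositionSubgroup ℚ => r σ * X * r σ.1⁻¹ - X) =
        res' (fun σ => r σ * Y * r σ⁻¹ - Y) + X 1 0 • e10 := by
      rw [← he10]
      funext σ
      show r σ * X * r σ.1⁻¹ - X = (r σ * Y * r σ.1⁻¹ - Y) + _
      conv_lhs => rw [e]
      simp only [mul_add, add_mul]
      abel
    rw [e']
    refine Submodule.add_mem_sup (Submodule.subset_span ⟨_, ⟨?_, isFlatClass_cob hflat Y,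
      fun σ hσ => ?_, fun σ hσ => ?_⟩, rfl⟩) (Submodule.smul_mem _ _ (Submodule.mem_span_singleton_self _))
    · have h0 : IsLocalCocycle A r (0 : GQ → M2 k) :=
        ⟨fun σ _ => by simp, fun σ _ τ _ => by simp⟩
      simpa using h0.add_cob Y
    · show (r σ * Y * r σ⁻¹ - Y) 1 0 = 0
      rw [Matrix.sub_apply, (hc.conj_upper hσ hY10).1, hY10, sub_zero]
    · show (r σ * Y * r σ⁻¹ - Y) 0 0 = 0
      rw [Matrix.sub_apply, (hc.conj_upper (inertia_le_decomposition hσ) hY10).2, sub_self]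
  · obtain ⟨c', x, hc', hco', hfl', h10, h00⟩ := hc.normalize hA hp2 hdet hζ hco hfl
    have e : (fun σ : A.decompositionSubgroup ℚ => c σ) = res' c' - x • e10 := by
      rw [← he10]
      funext σ
      simp only [Pi.sub_apply, res', hc', add_sub_cancel_right]
    rw [e, sub_eq_add_neg, ← neg_smul]
    exact Submodule.add_mem_sup (Submodule.subset_span ⟨c', ⟨hco', hfl', h10, h00⟩, rfl⟩)
      (Submodule.smul_mem _ _ (Submodule.mem_span_singleton_self _))

/-- Adapted coordinates exist. -/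
theorem exists_ordCoords (h : IsOrdType A r) : ∃ (P Q : M2 k) (r' : GQ →* M2 k),
    P * Q = 1 ∧ Q * P = 1 ∧ (∀ σ, r' σ = Q * r σ * P) ∧ OrdCoords A r' := by
  classical
  obtain ⟨l, hl, hD, hI⟩ := h
  obtain ⟨P, hP0, hP⟩ : ∃ P : M2 k, (fun i => P i 0) = l ∧ IsUnit P.det := by
    by_cases h0 : l 0 = 0
    · refine ⟨!![l 0, 1; l 1, 0], by funext i; fin_cases i <;> simp, ?_⟩
      have h1 : l 1 ≠ 0 := fun h1 => hl (by funext i; fin_cases i <;> assumption)
      simp [det_fin_two, h1]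
    · exact ⟨!![l 0, 0; l 1, 1], by funext i; fin_cases i <;> simp, by simp [det_fin_two, h0]⟩
  have hQP := Matrix.nonsing_inv_mul P hP
  have hPQ := Matrix.mul_nonsing_inv P hP
  let r' : GQ →* M2 k :=
    { toFun := fun σ => P⁻¹ * r σ * P
      map_one' := by rw [_root_.map_one, mul_one, hQP]
      map_mul' := fun σ τ => by
        rw [_root_.map_mul, mul_assoc (P⁻¹ * r σ), ← mul_assoc P (P⁻¹ * r τ), ← mul_assoc P P⁻¹,
          hPQ, one_mul, ← mul_assoc, ← mul_assoc] }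
  have hcol : P *ᵥ Pi.single 0 1 = l := by rw [mulVec_single_one]; exact hP0
  refine ⟨P, P⁻¹, r', hPQ, hQP, fun σ => rfl, fun σ hσ => ?_, fun σ hσ => ?_⟩
  · obtain ⟨x, hx⟩ := hD σ hσ
    have h : r' σ *ᵥ Pi.single 0 1 = x • Pi.single 0 1 := by
      show (P⁻¹ * r σ * P) *ᵥ _ = _
      rw [← mulVec_mulVec, hcol, ← mulVec_mulVec, hx, mulVec_smul, ← hcol, mulVec_mulVec, hQP,
        one_mulVec]
    simpa [mulVec_single_one] using congrFun h 1
  · obtain ⟨s, hs⟩ := hI σ hσ (P *ᵥ Pi.single 1 1)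
    have h : r' σ *ᵥ Pi.single 1 1 = Pi.single 1 1 + s • Pi.single 0 1 := by
      show (P⁻¹ * r σ * P) *ᵥ _ = _
      rw [← mulVec_mulVec, ← mulVec_mulVec, eq_add_of_sub_eq hs, mulVec_add, mulVec_smul, ← hcol,
        mulVec_mulVec, mulVec_mulVec, hQP, one_mulVec, one_mulVec, add_comm]
    simpa [mulVec_single_one] using congrFun h 1

/-- **The flat tangent bound, ordinary case.** -/
theorem tangentBound_flat_ord (hA : A.LiesOverPrime p) (hp2 : p ≠ 2) (hdet : DetOmega A p r)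
    (hflat : IsFlatRes A r) (hord : IsOrdType A r) : TangentBound A r (IsFlatClass A r) := by
  obtain ⟨P, Q, r', hPQ, hQP, hr, hc⟩ := exists_ordCoords hord
  refine TangentBound.of_conj hPQ hr (fun c _ h => h.conj hPQ hQP hr)
    (tangentBound_flat_coords hA hp2 (fun σ hσ a ha => ?_) (hflat.conj hPQ hQP hr) hc)
  rw [hr, det_mul, det_mul, mul_comm, ← mul_assoc, ← det_mul, hPQ, det_one, one_mul]
  exact hdet σ hσ a ha

end FA.LocalDef
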