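import Fermat.Agent.LocalDef.TangentStrict
import Fermat.Agent.LocalDef.TangentOrd

/-!
# The tangent bound for flat and strictly ordinary classes

Classes which are both flat and strictly ordinary lie in a space of dimension at most three
containing the coboundaries: after normalisation they are upper nilpotent flat classes, which two
functionals detect.
-/

set_option autoImplicit false
set_option linter.unusedSectionVars false

noncomputable section

open Matrix FA.Local
open scoped Pointwise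

namespace FA.LocalDef

local notation "Qb" => AlgebraicClosure ℚ
local notation "GQ" => AlgebraicClosure ℚ ≃ₐ[ℚ] AlgebraicClosure ℚ
local notation "M2" k => Matrix (Fin 2) (Fin 2) k

variable {A : ValuationSubring Qb} {p : ℕ} [hp : Fact p.Prime] {k : Type} [Field k] [Fintype k]
  [CharP k p] {r : GQ →* M2 k}

/-- The classes satisfying `P` lie in a subspace of dimension at most `n` containing the
coboundaries. -/
def TangentBoundBy {k : Type} [Field k] (A : ValuationSubring Qb) (r : GQ →* M2 k) (n : ℕ)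
    (P : (GQ → M2 k) → Prop) : Prop :=
  ∃ Z : Submodule k (A.decompositionSubgroup ℚ → M2 k),
    FiniteDimensional k Z ∧ Module.finrank k Z ≤ n ∧
    (∀ X : M2 k, X.trace = 0 →
      (fun σ : A.decompositionSubgroup ℚ => r σ * X * r σ.1⁻¹ - X) ∈ Z) ∧
    ∀ c : GQ → M2 k, IsLocalCocycle A r c → P c →
      (fun σ : A.decompositionSubgroup ℚ => c σ) ∈ Z

/-- Transport along a change of basis. -/
theorem TangentBoundBy.of_conj {n : ℕ} {r r' : GQ →* M2 k} {P Q : M2 k} (hPQ : P * Q = 1)
    (hr : ∀ σ, r' σ = Q * r σ * P) {C C' : (GQ → M2 k) → Prop}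
    (hC : ∀ c, IsLocalCocycle A r c → C c → C' fun σ => Q * c σ * P)
    (h : TangentBoundBy A r' n C') : TangentBoundBy A r n C := by
  obtain ⟨Z, hfin, hrank, hcob, hZ⟩ := h
  let T : (A.decompositionSubgroup ℚ → M2 k) →ₗ[k] (A.decompositionSubgroup ℚ → M2 k) :=
    { toFun := fun f σ => P * f σ * Q
      map_add' := fun f g => funext fun σ => by simp [mul_add, add_mul]
      map_smul' := fun a f => funext fun σ => by simp }
  have hPQ' : ∀ X : M2 k, P * (Q * X * P) * Q = X := fun X => by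
    rw [← mul_assoc P, ← mul_assoc P, hPQ, one_mul, mul_assoc, hPQ, mul_one]
  refine ⟨Z.map T, inferInstance, (Submodule.finrank_map_le T Z).trans hrank, fun X hX => ?_,
    fun c hc hP => ?_⟩
  · refine ⟨_, hcob (Q * X * P) ?_, funext fun σ => ?_⟩
    · rw [Matrix.trace_mul_comm, ← mul_assoc, hPQ, one_mul, hX]
    · show P * (r' σ * (Q * X * P) * r' σ.1⁻¹ - Q * X * P) * Q = _
      rw [mul_sub, sub_mul, hPQ', hr, hr]
      congr 1
      simp only [← mul_assoc]
      rw [hPQ, one_mul, mul_assoc (r σ.1) P Q, hPQ, mul_one, mul_assoc (r σ.1 * X) P Q, hPQ, mul_one,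
        mul_assoc (r σ.1 * X * r σ.1⁻¹) P Q, hPQ, mul_one]
  · refine ⟨_, hZ (fun σ => Q * c σ * P) ⟨fun σ hσ => ?_, fun σ hσ τ hτ => ?_⟩ (hC c hc hP),
      funext fun σ => hPQ' _⟩
    · rw [Matrix.trace_mul_comm, ← mul_assoc, hPQ, one_mul, hc.1 σ hσ]
    · show Q * c (σ * τ) * P = Q * c σ * P + r' σ * (Q * c τ * P) * r' σ⁻¹
      rw [hc.2 σ hσ τ hτ, hr, hr, mul_add, add_mul]
      congr 1
      simp only [mul_assoc]
      rw [← mul_assoc P Q, hPQ, one_mul, ← mul_assoc P Q, hPQ, one_mul]

/-- **The bound in adapted coordinates.** -/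
theorem tangentBoundBy_inter_coords (hA : A.LiesOverPrime p) (hp2 : p ≠ 2) (hdet : DetOmega A p r)
    (hflat : IsFlatRes A r) (hc : OrdCoords A r) :
    TangentBoundBy A r 3 fun c => IsFlatClass A r c ∧ IsStrictOrdClass A p r c := by
  classical
  obtain ⟨ζ, hζ⟩ := exists_zeta hp.out
  let res' : (GQ → M2 k) → (A.decompositionSubgroup ℚ → M2 k) := fun c σ => c σ
  let S : Set (A.decompositionSubgroup ℚ → M2 k) := res' '' {c | IsLocalCocycle A r c ∧
    IsFlatClass A r c ∧ (∀ σ ∈ A.decompositionSubgroup ℚ, c σ 1 0 = 0) ∧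
    ∀ σ ∈ A.decompositionSubgroup ℚ, c σ 0 0 = 0}
  let e10 : A.decompositionSubgroup ℚ → M2 k := fun σ =>
    r σ * !![0, 0; 1, 0] * r σ.1⁻¹ - !![0, 0; 1, 0]
  have hS := finrank_span_le_of_indep (k := k) S 2 fun m c hcS hli => by
    choose cs hcs hcse using hcS
    exact hc.family_le_two hA hdet hζ hp2 cs (fun i => (hcs i).1) (fun i => (hcs i).2.1)
      (fun i => (hcs i).2.2.1) (fun i => (hcs i).2.2.2) (by
        rwa [show (fun i => fun σ : A.decompositionSubgroup ℚ => cs i σ) = c from funext hcse])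
  have := hS.1
  have he10 : ∀ x : k, (fun σ : A.decompositionSubgroup ℚ =>
      r σ * !![0, 0; x, 0] * r σ.1⁻¹ - !![0, 0; x, 0]) = x • e10 := fun x => funext fun σ => by
    rw [Pi.smul_apply, smul_sub, ← smul_mul_assoc, ← mul_smul_comm]
    congr <;> ext a b <;> fin_cases a <;> fin_cases b <;> simp
  refine ⟨Submodule.span k S ⊔ Submodule.span k {e10}, inferInstance, ?_, fun X _ => ?_,
    fun c hco hP => ?_⟩
  · have h1 : Module.finrank k (Submodule.span k {e10}) ≤ 1 :=
      (finrank_span_le_card {e10}).trans (by simp)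
    exact ((Submodule.finrank_add_le_finrank_add_finrank _ _).trans (Nat.add_le_add hS.2 h1))
  · set Y := X - !![0, 0; X 1 0, 0] with hY
    have hY10 : Y 1 0 = 0 := by simp [hY]
    have e' : (fun σ : A.decompositionSubgroup ℚ => r σ * X * r σ.1⁻¹ - X) =
        res' (fun σ => r σ * Y * r σ⁻¹ - Y) + X 1 0 • e10 := by
      rw [← he10]
      funext σ
      show _ = (r σ * Y * r σ.1⁻¹ - Y) + _
      rw [hY]
      simp only [mul_sub, sub_mul]
      abel
    rw [e']
    refine Submodule.add_mem_sup (Submodule.subset_span ⟨_, ⟨?_, isFlatClass_cob hflat Y,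
      fun σ hσ => ?_, fun σ hσ => ?_⟩, rfl⟩)
      (Submodule.smul_mem _ _ (Submodule.mem_span_singleton_self _))
    · have h0 : IsLocalCocycle A r (0 : GQ → M2 k) :=
        ⟨fun σ _ => by simp, fun σ _ τ _ => by simp⟩
      simpa using h0.add_cob Y
    · show (r σ * Y * r σ⁻¹ - Y) 1 0 = 0
      rw [Matrix.sub_apply, (hc.conj_upper hσ hY10).1, hY10, sub_zero]
    · show (r σ * Y * r σ⁻¹ - Y) 0 0 = 0
      rw [Matrix.sub_apply, (hc.conj_upper hσ hY10).2, sub_self]
  · obtain ⟨hfl, hcl⟩ := hP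
    obtain ⟨x, hx⟩ := hc.normalize_strict hA hp2 hdet hζ hco hcl
    set X : M2 k := !![0, 0; x, 0]
    have hfl' : IsFlatClass A r fun σ => c σ + (r σ * X * r σ⁻¹ - X) :=
      hfl.add_cob (-X) fun σ _ => by simp only [mul_neg, neg_mul]; abel
    have e : (fun σ : A.decompositionSubgroup ℚ => c σ) =
        res' (fun σ => c σ + (r σ * X * r σ⁻¹ - X)) + (-x) • e10 := by
      rw [neg_smul, ← he10]
      funext σ
      simp only [Pi.add_apply, Pi.neg_apply, res', X, add_neg_cancel_right]
    rw [e]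
    exact Submodule.add_mem_sup
      (Submodule.subset_span ⟨_, ⟨hco.add_cob X, hfl', fun σ hσ => (hx σ hσ).1,
        fun σ hσ => (hx σ hσ).2⟩, rfl⟩)
      (Submodule.smul_mem _ _ (Submodule.mem_span_singleton_self _))

/-- **The tangent bound for classes both flat and strictly ordinary.** -/
theorem tangentBoundBy_flat_strict (hp2 : p ≠ 2) (hA : A.LiesOverPrime p) (r : GQ →* M2 k)
    (hdet : DetOmega A p r) (hflat : IsFlatRes A r) (hord : IsOrdType A r) :
    TangentBoundBy A r 3 fun c => IsFlatClass A r c ∧ IsStrictOrdClass A p r c := by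
  obtain ⟨P, Q, r', hPQ, hQP, hr, hc⟩ := exists_ordCoords hord
  refine TangentBoundBy.of_conj hPQ hr (fun c _ h => ⟨h.1.conj hPQ hQP hr, h.2.conj hPQ hQP hr⟩)
    (tangentBoundBy_inter_coords hA hp2 (fun σ hσ a ha => ?_) (hflat.conj hPQ hQP hr) hc)
  rw [hr, det_mul, det_mul, mul_comm, ← mul_assoc, ← det_mul, hPQ, det_one, one_mul]
  exact hdet σ hσ a ha

end FA.LocalDef
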