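import Fermat.Agent.LocalDef.TwoBreak
import Fermat.Agent.LocalDef.TangentBasics

/-!
# The flat tangent bound at two

For a level two flat representation at `2` which is rational over `F₂`, the flat classes with
trace zero on inertia span at most five dimensions, coboundaries of all matrices included.

The scalar part of a class on the kernel of inertia would be a ramified quadratic twist, which
would move a point less than the distance of the `2`-torsion from the origin; the rest has a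
single break `1`, so its image has at most four elements.
-/

set_option autoImplicit false
set_option linter.unusedSectionVars false

noncomputable section

open Matrix FA.Local
open scoped Pointwise

namespace FA.LocalDef

local notation "Qb" => AlgebraicClosure ℚ
local notation "GQ" => AlgebraicClosure ℚ ≃ₐ[ℚ] AlgebraicClosure ℚ
local notation "M2" k => Matrix (Fin 2) (Fin 2) k

variable {A : ValuationSubring Qb}

section Cocycle

variable {k : Type} [Field k] {r : GQ →* M2 k}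

/-- A cocycle on the decomposition group. -/
def IsDecompCocycle (A : ValuationSubring Qb) (r : GQ →* M2 k) (c : GQ → M2 k) : Prop :=
  ∀ σ ∈ A.decompositionSubgroup ℚ, ∀ τ ∈ A.decompositionSubgroup ℚ,
    c (σ * τ) = c σ + r σ * c τ * r σ⁻¹

variable {c : GQ → M2 k} (h : IsDecompCocycle A r c)

include h

lemma IsDecompCocycle.map_one : c 1 = 0 := by
  have e := h 1 (one_mem _) 1 (one_mem _)
  rw [one_mul, _root_.map_one, one_mul, inv_one, _root_.map_one, mul_one, left_eq_add] at e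
  exact e

lemma IsDecompCocycle.map_inv {σ : GQ} (hσ : σ ∈ A.decompositionSubgroup ℚ) :
    c σ⁻¹ = -(r σ⁻¹ * c σ * r σ) := by
  have e := h σ⁻¹ (inv_mem hσ) σ hσ
  rw [inv_mul_cancel, h.map_one, inv_inv] at e
  exact eq_neg_of_add_eq_zero_left e.symm

lemma IsDecompCocycle.map_conj {x σ : GQ} (hx : x ∈ A.decompositionSubgroup ℚ)
    (hσ : σ ∈ A.decompositionSubgroup ℚ) :
    c (x * σ * x⁻¹) = c x + r x * c σ * r x⁻¹ -
      r (x * σ * x⁻¹) * c x * r (x * σ⁻¹ * x⁻¹) := by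
  rw [h _ (mul_mem hx hσ) _ (inv_mem hx), h x hx σ hσ, h.map_inv hx, sub_eq_add_neg]
  congr 1
  simp only [mul_neg, neg_mul, _root_.map_mul, _root_.mul_inv_rev, mul_assoc]

end Cocycle

/-- A deformation class at two with trace zero on inertia. -/
def IsFlatTwo {k : Type} [Field k] [Fintype k] (A : ValuationSubring Qb) (r : GQ →* M2 k)
    (c : GQ → M2 k) : Prop :=
  IsDecompCocycle A r c ∧ (∀ σ ∈ A.inertiaSubgroupIn ℚ, (c σ).trace = 0) ∧ IsFlatClass A r c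

section Algebra

variable {k : Type} [Field k] [CharP k 2] {r0 : GQ →* M2 (ZMod 2)}

/-- The functional on trace zero matrices invariant under the level two group. -/
def scalarPart (X : M2 k) : k := X 0 0 + X 0 1 + X 1 0

lemma eq_of_trace_zero {X : M2 k} (h : X.trace = 0) : X 1 1 = X 0 0 := by
  rw [trace_fin_two] at h
  rw [eq_neg_of_add_eq_zero_right h, CharTwo.neg_eq]

lemma repTwo_of_eq {σ : GQ} {a b c d : ZMod 2} (h : r0 σ = !![a, b; c, d]) :
    repTwo k r0 σ = !![ZMod.castHom (dvd_refl 2) k a, ZMod.castHom (dvd_refl 2) k b;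
      ZMod.castHom (dvd_refl 2) k c, ZMod.castHom (dvd_refl 2) k d] := by
  rw [repTwo_apply, h]
  ext i j
  fin_cases i <;> fin_cases j <;> rfl

lemma frob_facts : (!![0, 1; 1, 0] : M2 (ZMod 2)) * !![0, 1; 1, 0] = 1 ∧
    (!![0, 1; 1, 0] : M2 (ZMod 2)) * !![0, 1; 1, 1] * !![0, 1; 1, 0] = !![0, 1; 1, 1] ^ 2 := by
  decide

variable (TD : TwoData A r0)

lemma TwoData.rep_g : repTwo k r0 TD.g = !![0, 1; 1, 1] ∧ repTwo k r0 TD.g⁻¹ = !![1, 1; 1, 0] := by
  refine ⟨by simp [repTwo_of_eq TD.hgT], ?_⟩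
  have h : r0 TD.g⁻¹ = !![1, 1; 1, 0] := by
    have h1 : r0 TD.g⁻¹ * r0 TD.g = 1 := by rw [← map_mul, inv_mul_cancel, map_one]
    calc r0 TD.g⁻¹ = r0 TD.g⁻¹ * (!![0, 1; 1, 1] * !![1, 1; 1, 0]) := by rw [tau_facts.1, mul_one]
      _ = _ := by rw [← mul_assoc, ← TD.hgT, h1, one_mul]
  simp [repTwo_of_eq h]

lemma TwoData.rep_F : repTwo k r0 TD.F = !![0, 1; 1, 0] ∧ repTwo k r0 TD.F⁻¹ = !![0, 1; 1, 0] := by
  refine ⟨by simp [repTwo_of_eq TD.hFJ], ?_⟩
  have h : r0 TD.F⁻¹ = !![0, 1; 1, 0] := by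
    have h1 : r0 TD.F⁻¹ * r0 TD.F = 1 := by rw [← map_mul, inv_mul_cancel, map_one]
    have h2 : (!![0, 1; 1, 0] : M2 (ZMod 2)) * !![0, 1; 1, 0] = 1 := by decide
    calc r0 TD.F⁻¹ = r0 TD.F⁻¹ * (!![0, 1; 1, 0] * !![0, 1; 1, 0]) := by rw [h2, mul_one]
      _ = _ := by rw [← mul_assoc, ← TD.hFJ, h1, one_mul]
  simp [repTwo_of_eq h]

/-- Conjugation by the generator. -/
def conjG (X : M2 k) : M2 k :=
  !![X 1 0 + X 1 1, X 1 0; X 0 0 + X 1 0 + X 0 1 + X 1 1, X 0 0 + X 1 0]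

lemma TwoData.conj_g (X : M2 k) :
    repTwo k r0 TD.g * X * repTwo k r0 TD.g⁻¹ = conjG X := by
  conv_lhs => rw [TD.rep_g.1, TD.rep_g.2, Matrix.eta_fin_two X, Matrix.mul_fin_two, Matrix.mul_fin_two]
  ext i j
  fin_cases i <;> fin_cases j <;> simp [conjG] <;> ring

lemma TwoData.conj_F (X : M2 k) :
    repTwo k r0 TD.F * X * repTwo k r0 TD.F⁻¹ = !![X 1 1, X 1 0; X 0 1, X 0 0] := by
  conv_lhs => rw [TD.rep_F.1, TD.rep_F.2, Matrix.eta_fin_two X, Matrix.mul_fin_two, Matrix.mul_fin_two]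
  ext i j
  fin_cases i <;> fin_cases j <;> simp

lemma scalarPart_conjG {X : M2 k} (h : X.trace = 0) : scalarPart (conjG X) = scalarPart X := by
  simp [scalarPart, conjG, eq_of_trace_zero h]
  linear_combination (X 1 0 + X 0 0) * CharP.cast_eq_zero k 2

lemma conjG_sum {X : M2 k} (h : X.trace = 0) :
    X + conjG X + conjG (conjG X) = scalarPart X • 1 := by
  ext i j
  fin_cases i <;> fin_cases j <;> simp [scalarPart, conjG, eq_of_trace_zero h]
  · linear_combination (2 * X 0 0 + X 1 0) * CharP.cast_eq_zero k 2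
  · linear_combination (X 0 0 + X 0 1 + X 1 0) * CharP.cast_eq_zero k 2
  · linear_combination (3 * X 0 0 + X 0 1 + 3 * X 1 0) * CharP.cast_eq_zero k 2
  · linear_combination (2 * X 0 0 + X 1 0) * CharP.cast_eq_zero k 2

/-- In characteristic two a trace zero matrix without off diagonal is scalar. -/
lemma eq_smul_one {X : M2 k} (h : X.trace = 0) (h01 : X 0 1 = 0) (h10 : X 1 0 = 0) :
    X = X 0 0 • 1 := by
  ext i j
  fin_cases i <;> fin_cases j <;> simp [h01, h10, eq_of_trace_zero h]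

lemma eq_zero_of_parts {X : M2 k} (h : X.trace = 0) (hs : scalarPart X = 0) (h01 : X 0 1 = 0)
    (h10 : X 1 0 = 0) : X = 0 := by
  have h00 : X 0 0 = 0 := by simpa [scalarPart, h01, h10] using hs
  rw [eq_smul_one h h01 h10, h00, zero_smul]

lemma conjG_fixed {X : M2 k} (h : conjG X = X) : X 0 1 = X 1 0 ∧ X 1 1 = X 0 0 + X 1 0 :=
  ⟨(congrFun (congrFun h 0) 1).symm.trans (by simp [conjG]),
    (congrFun (congrFun h 1) 1).symm.trans (by simp [conjG])⟩

end Algebra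

section Family

variable {k : Type} [Field k] [Fintype k] [CharP k 2] {r0 : GQ →* M2 (ZMod 2)}

local notation "v" => ValuationSubring.valuation A

/-- A scalar class on the kernel of inertia moves a point by more than the distance of the points
of the representation from the origin. -/
theorem not_scalar (TD : TwoData A r0) (hA : A.LiesOverPrime 2) {c : GQ → M2 k}
    (hfl : IsFlatClass A (repTwo k r0) c) {Λ : Layer A 2}
    (hN : ∀ τ ∈ Λ.N, r0 τ = 1 ∧ c τ = 0) {a : GQ} (ha : a ∈ TD.Λr.N) {α : k}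
    (hα : c a = α • 1) (hα0 : α ≠ 0) (hlt : v (a Λ.π - Λ.π) < v TD.Λr.π) : False := by
  have : Fact (Nat.Prime 2) := ⟨Nat.prime_two⟩
  let _ : Algebra (ZMod 2) k := ZMod.algebra k 2
  obtain ⟨S, hS⟩ := exists_sys hfl fun σ _ x y => by
    simp only [act2, Prod.fst_add, Prod.snd_add, mulVec_add, Prod.mk_add_mk]
    rw [add_add_add_comm]
  have hact : ∀ σ x, S.act σ x = act2 (repTwo k r0) c σ x := fun σ x => by rw [hS]
  have hr1 : ∀ τ, r0 τ = 1 → repTwo k r0 τ = 1 := fun τ h => (repTwo_eq_one_iff r0 τ).mpr h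
  have hzero : ∀ (σ : GQ) (w : Fin 2 → k), S.act σ ((0 : Fin 2 → k), w) =
      ((0 : Fin 2 → k), repTwo k r0 σ *ᵥ w) := fun σ w => by
    rw [hact]; simp [act2]
  set y : (Fin 2 → k) × (Fin 2 → k) := (0, ![α, 0])
  have hgy : S.act TD.g y = (0, ![0, α]) := by
    rw [hzero, TD.rep_g.1]
    refine Prod.ext rfl (funext (Fin.forall_fin_two.mpr ⟨?_, ?_⟩)) <;> simp
  have hggy : S.act TD.g (S.act TD.g y) = (0, ![α, α]) := by
    rw [hgy, hzero, TD.rep_g.1]
    refine Prod.ext rfl (funext (Fin.forall_fin_two.mpr ⟨?_, ?_⟩)) <;> simp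
  obtain ⟨i, hi⟩ := S.exists_far hA TD.hD TD.hg TD.hgen (y := y)
    (fun τ hτ => by rw [hzero, hr1 τ ((TD.hN τ).mp hτ).2, one_mulVec])
    (fun h => hα0 (congrFun (congrArg Prod.snd h) 0))
    (fun h => hα0 (by rw [hgy] at h; exact (congrFun (congrArg Prod.snd h) 0).symm))
    (by
      rw [hggy, hgy]
      refine Prod.ext (by simp [y]) (funext (Fin.forall_fin_two.mpr ⟨?_, ?_⟩)) <;>
        simp [y, CharTwo.add_self_eq_zero])
  set x : (Fin 2 → k) × (Fin 2 → k) := (![1, 0], 0)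
  have hax : S.act a x - x = y := by
    rw [hact, act2, hα, hr1 a ((TD.hN a).mp ha).2, one_mulVec, one_mulVec]
    refine Prod.ext (sub_self _) (funext (Fin.forall_fin_two.mpr ⟨?_, ?_⟩)) <;> simp [x, y]
  obtain ⟨j, hj⟩ := S.exists_far_sub (C := v TD.Λr.π) TD.Λr.π_pos.ne' (x := x) (x' := S.act a x)
    ⟨i, by rw [hax]; exact hi⟩
  have haI : a ∈ A.inertiaSubgroupIn ℚ := TD.Λr.le ha
  rw [← S.equiv a (inertia_le_decomposition haI)] at hj
  refine absurd (hj.trans (Λ.disp haI (fun τ hτ => ?_) (S.M.int j x))) (not_le.mpr hlt)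
  obtain ⟨hτr, hτc⟩ := hN τ hτ
  rw [S.equiv τ (inertia_le_decomposition (Λ.le hτ)), hact, act2, hr1 τ hτr, hτc, one_mulVec,
    one_mulVec, zero_mulVec, add_zero]

/-- On the kernel of inertia a family of flat classes at two has no scalar part and its image is
the orbit of one value fixed by Frobenius. -/
theorem two_kernel_data (hA : A.LiesOverPrime 2) (TD : TwoData A r0) {m : ℕ} (hm : 0 < m)
    (cs : Fin m → GQ → M2 k) (hcs : ∀ i, IsFlatTwo A (repTwo k r0) (cs i)) :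
    (∀ i, ∀ σ ∈ TD.Λr.N, scalarPart (cs i σ) = 0) ∧
    (∃ σ₀ ∈ TD.Λr.N, (∀ i, cs i (TD.F * σ₀ * TD.F⁻¹) = cs i σ₀) ∧
      ∀ σ ∈ TD.Λr.N, (∀ i, cs i σ = 0) ∨
        ∃ j : ℕ, ∀ i, cs i σ = cs i (TD.g ^ j * σ₀ * (TD.g ^ j)⁻¹)) ∧
    ∃ E : IntermediateField ℚ Qb, FiniteDimensional ℚ E ∧
      ∀ σ ∈ A.decompositionSubgroup ℚ, σ ∈ E.fixingSubgroup →
        repTwo k r0 σ = 1 ∧ ∀ i, cs i σ = 0 := by
  classical
  have : Fact (Nat.Prime 2) := ⟨Nat.prime_two⟩
  let _ : Algebra (ZMod 2) k := ZMod.algebra k 2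
  have := res_charP Nat.prime_two hA
  set r := repTwo k r0
  set G := TD.Λr.N
  set g := TD.g
  set F := TD.F
  have hr1 : ∀ σ ∈ G, r σ = 1 := fun σ hσ => (repTwo_eq_one_iff r0 σ).mpr ((TD.hN σ).mp hσ).2
  have hGd : ∀ σ ∈ G, σ ∈ A.decompositionSubgroup ℚ := fun σ hσ =>
    inertia_le_decomposition (TD.Λr.le hσ)
  have hgd := TD.g_mem
  have hFd := TD.hF.mem_decompositionSubgroup
  obtain ⟨Λ, hbd, hN, hnorm, E, hEfin, hE⟩ :=
    exists_family_layer hA hm fun i => (hcs i).2.2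
  obtain ⟨S, hS⟩ := exists_sys ((hcs ⟨0, hm⟩).2.2) fun σ _ x y => by
    simp only [act2, Prod.fst_add, Prod.snd_add, mulVec_add, Prod.mk_add_mk]
    rw [add_add_add_comm]
  -- the classes on the kernel of inertia
  have htr : ∀ i, ∀ σ ∈ G, (cs i σ).trace = 0 := fun i σ hσ => (hcs i).2.1 σ (TD.Λr.le hσ)
  have hadd : ∀ i, ∀ σ ∈ G, ∀ τ ∈ G, cs i (σ * τ) = cs i σ + cs i τ := fun i σ hσ τ hτ => by
    rw [(hcs i).1 σ (hGd σ hσ) τ (hGd τ hτ), hr1 σ hσ, hr1 _ (inv_mem hσ), one_mul, mul_one]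
  have hinv : ∀ i, ∀ σ ∈ G, cs i σ⁻¹ = -cs i σ := fun i σ hσ => by
    rw [(hcs i).1.map_inv (hGd σ hσ), hr1 _ (inv_mem hσ), hr1 σ hσ, one_mul, mul_one]
  have hconj : ∀ i, ∀ x ∈ A.decompositionSubgroup ℚ, ∀ σ ∈ G,
      cs i (x * σ * x⁻¹) = r x * cs i σ * r x⁻¹ := fun i x hx σ hσ => by
    rw [(hcs i).1.map_conj hx (hGd σ hσ), hr1 _ (TD.conj_mem hx hσ),
      hr1 _ (TD.conj_mem hx (inv_mem hσ)), one_mul, mul_one, add_sub_cancel_left]
  have hconjg : ∀ i, ∀ σ ∈ G, cs i (g * σ * g⁻¹) = conjG (cs i σ) := fun i σ hσ => by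
    rw [hconj i g hgd σ hσ, TD.conj_g]
  have hconjF : ∀ i, ∀ σ ∈ G, cs i (F * σ * F⁻¹) =
      !![cs i σ 1 1, cs i σ 1 0; cs i σ 0 1, cs i σ 0 0] := fun i σ hσ => by
    rw [hconj i F hFd σ hσ, TD.conj_F]
  have hNG : Λ.N ≤ G := fun τ hτ => (TD.hN τ).mpr
    ⟨((hN τ).mp hτ).1, (repTwo_eq_one_iff r0 τ).mp ((hN τ).mp hτ).2.1⟩
  have hmem : ∀ σ ∈ G, σ ∈ Λ.N ↔ ∀ i, cs i σ = 0 := fun σ hσ =>
    ⟨fun h => ((hN σ).mp h).2.2, fun h => (hN σ).mpr ⟨TD.Λr.le hσ, hr1 σ hσ, h⟩⟩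
  let W : Layer.Wild Λ := TD.wild hNG
    (fun σ hσ => (hmem _ (mul_mem hσ hσ)).mpr fun i => by
      rw [hadd i σ hσ σ hσ]
      exact Matrix.ext fun a b => CharTwo.add_self_eq_zero _)
    (fun σ hσ τ hτ => (hmem _ (mul_mem (mul_mem (mul_mem (inv_mem hσ) (inv_mem hτ)) hσ) hτ)).mpr
      fun i => by
        rw [hadd i _ (mul_mem (mul_mem (inv_mem hσ) (inv_mem hτ)) hσ) τ hτ,
          hadd i _ (mul_mem (inv_mem hσ) (inv_mem hτ)) σ hσ, hadd i _ (inv_mem hσ) _ (inv_mem hτ),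
          hinv i σ hσ, hinv i τ hτ]
        abel)
  have hnormG : ∀ σ ∈ G, orbitProd g σ ∈ G ∧ ∀ i, cs i (orbitProd g σ) =
      scalarPart (cs i σ) • 1 := fun σ hσ => by
    have h1 := TD.conj_mem hgd hσ
    have h2 := TD.conj_mem hgd h1
    refine ⟨mul_mem (mul_mem hσ h1) h2, fun i => ?_⟩
    rw [orbitProd, hadd i _ (mul_mem hσ h1) _ h2, hadd i σ hσ _ h1, hconjg i _ h1, hconjg i σ hσ,
      conjG_sum (htr i σ hσ)]
  -- the two subgroups
  let Hc : Subgroup GQ :=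
    { carrier := {σ | σ ∈ G ∧ ∀ i, cs i σ 0 1 = 0 ∧ cs i σ 1 0 = 0}
      one_mem' := ⟨one_mem _, fun i => by simp [(hcs i).1.map_one]⟩
      mul_mem' := fun {σ τ} h h' => ⟨mul_mem h.1 h'.1, fun i => by
        simp [hadd i σ h.1 τ h'.1, h.2 i, h'.2 i]⟩
      inv_mem' := fun {σ} h => ⟨inv_mem h.1, fun i => by simp [hinv i σ h.1, h.2 i]⟩ }
  let Hs : Subgroup GQ :=
    { carrier := {σ | σ ∈ G ∧ ∀ i, scalarPart (cs i σ) = 0}
      one_mem' := ⟨one_mem _, fun i => by simp [scalarPart, (hcs i).1.map_one]⟩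
      mul_mem' := fun {σ τ} h h' => ⟨mul_mem h.1 h'.1, fun i => by
        have e1 := h.2 i
        have e2 := h'.2 i
        simp only [scalarPart] at e1 e2
        simp only [scalarPart, hadd i σ h.1 τ h'.1, Matrix.add_apply]
        linear_combination e1 + e2⟩
      inv_mem' := fun {σ} h => ⟨inv_mem h.1, fun i => by
        have e1 := h.2 i
        simp only [scalarPart] at e1
        simp only [scalarPart, hinv i σ h.1, Matrix.neg_apply]
        linear_combination -e1⟩ }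
  have hNHc : Λ.N ≤ Hc := fun σ hσ => ⟨hNG hσ, fun i => by
    simp [(hmem σ (hNG hσ)).mp hσ i]⟩
  have hNHs : Λ.N ≤ Hs := fun σ hσ => ⟨hNG hσ, fun i => by
    simp [scalarPart, (hmem σ (hNG hσ)).mp hσ i]⟩
  have hinter : ∀ σ ∈ Hc, σ ∈ Hs → σ ∈ Λ.N := fun σ hc hs => (hmem σ hc.1).mpr fun i =>
    eq_zero_of_parts (htr i σ hc.1) (hs.2 i) (hc.2 i).1 (hc.2 i).2
  have hpow : ∀ (j : ℕ), ∀ σ ∈ G, g ^ j * σ * (g ^ j)⁻¹ ∈ G ∧ ∀ i,
      scalarPart (cs i (g ^ j * σ * (g ^ j)⁻¹)) = scalarPart (cs i σ) := fun j σ hσ => by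
    induction j with
    | zero => simpa using hσ
    | succ j ih =>
      rw [show g ^ (j + 1) * σ * (g ^ (j + 1))⁻¹ = g * (g ^ j * σ * (g ^ j)⁻¹) * g⁻¹ by
        rw [pow_succ']; group]
      exact ⟨TD.conj_mem hgd ih.1, fun i => by
        rw [hconjg i _ ih.1, scalarPart_conjG (htr i _ ih.1), ih.2 i]⟩
  -- the scalar part vanishes
  have hclaim : ∀ a ∈ Hc, a ∈ Λ.N := by
    by_contra hcon
    push Not at hcon
    obtain ⟨a, ha, haN⟩ := hcon
    obtain ⟨Λs, hΛs⟩ := Λ.exists_above Hs hNHs (fun σ hσ => TD.Λr.le hσ.1) fun x hx τ hτ => by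
      obtain ⟨j, hj⟩ := TD.hgen x hx
      have hn := TD.conj_mem (hGd _ hj) hτ.1
      have he : x * τ * x⁻¹ = g ^ j * ((g ^ j)⁻¹ * x * τ * ((g ^ j)⁻¹ * x)⁻¹) * (g ^ j)⁻¹ := by
        group
      refine ⟨TD.conj_mem (inertia_le_decomposition hx) hτ.1, fun i => ?_⟩
      rw [he, (hpow j _ hn).2 i, hconj i _ (hGd _ hj) τ hτ.1, hr1 _ hj, hr1 _ (inv_mem hj),
        one_mul, mul_one]
      exact hτ.2 i
    have hBs : Layer.Below Λ Λs := ⟨hΛs ▸ hNHs⟩
    have hsG : Λs.N ≤ W.G := hΛs ▸ fun σ hσ => hσ.1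
    have haHs : a ∉ Λs.N := fun h => haN (hinter a ha (hΛs ▸ h))
    have hne : ¬ W.G ≤ Λs.N := fun h => haHs (h ha.1)
    have hsc : ∀ x ∈ A.decompositionSubgroup ℚ, (∀ i, ∀ σ ∈ G,
        scalarPart (cs i (x * σ * x⁻¹)) = scalarPart (cs i σ)) →
        ∀ σ ∈ W.G, x * σ * x⁻¹ * σ⁻¹ ∈ Λs.N := fun x hx hinvar σ hσ => by
      rw [hΛs]
      refine ⟨mul_mem (TD.conj_mem hx hσ) (inv_mem hσ), fun i => ?_⟩
      have e := hinvar i σ hσ
      simp only [scalarPart] at e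
      simp only [scalarPart, hadd i _ (TD.conj_mem hx hσ) _ (inv_mem hσ), hinv i σ hσ,
        Matrix.add_apply, Matrix.neg_apply]
      linear_combination e
    have hsg := hsc g hgd fun i σ hσ => by
      rw [hconjg i σ hσ, scalarPart_conjG (htr i σ hσ)]
    have hsF := hsc F hFd fun i σ hσ => by
      rw [hconjF i σ hσ]
      simp [scalarPart, eq_of_trace_zero (htr i σ hσ)]
      ring
    obtain ⟨hfs, hsharp⟩ := TD.break_three W rfl hbd hBs hsG hne hsg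
    have hav := Λs.exact_of_fil (hfs ha.1) (hsharp a ha.1 haHs)
    have hidx : Hs.relIndex G ≤ 2 := by
      have := TD.scalar_index W rfl hbd hBs hsG hne (fun τ hτ => by
        rw [hΛs] at hτ ⊢
        exact ⟨TD.conj_mem hFd hτ.1, fun i => by
          rw [hconjF i τ hτ.1, ← hτ.2 i]
          simp [scalarPart, eq_of_trace_zero (htr i τ hτ.1)]
          ring⟩) hsg hsF
      rwa [hΛs] at this
    obtain ⟨Λc, hΛc⟩ := Λ.exists_above Hc hNHc (fun σ hσ => TD.Λr.le hσ.1) fun x hx τ hτ =>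
      ⟨TD.conj_mem (inertia_le_decomposition hx) hτ.1, fun i => by
        rw [hconj i x (inertia_le_decomposition hx) τ hτ.1,
          eq_smul_one (htr i τ hτ.1) (hτ.2 i).1 (hτ.2 i).2, mul_smul_comm, mul_one, smul_mul_assoc,
          r_mul_inv]
        simp⟩
    have hBc : Layer.Below Λ Λc := ⟨hΛc ▸ hNHc⟩
    have hcG : Λc.N ≤ W.G := hΛc ▸ fun σ hσ => hσ.1
    have hWfil : W.G ≤ Λ.fil 1 := W.G_eq_fil_one.le
    have hexact : ∀ τ ∈ G, τ ∉ Hc → v (τ Λ.π - Λ.π) = v Λ.π ^ 2 := fun τ hτ hτc => by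
      obtain ⟨hfc, hsh⟩ := TD.break_one W rfl hbd hBc hcG (fun h => hτc (hΛc ▸ h hτ))
        fun σ hσ => by
          rw [hΛc]
          refine ⟨(hnormG σ hσ).1, fun i => ?_⟩
          rw [(hnormG σ hσ).2 i]
          simp
      exact Layer.exact_lift hBc hcG hWfil hτ
        (Λc.exact_of_fil (hfc hτ) (hsh τ hτ (hΛc ▸ hτc)))
    have haI : a ∈ A.inertiaSubgroupIn ℚ := TD.Λr.le ha.1
    obtain ⟨u, hu⟩ := Λ.exists_break haI haN
    have hamem : a Λ.π ∈ Layer.fibre hBs (a Λs.π) :=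
      (Layer.mem_fibre hBs).mpr ⟨Λ.mem_conj.mpr ⟨a, haI, rfl⟩, Layer.key_eval hBs haI⟩
    have hfib : ∀ x ∈ Layer.fibre hBs (a Λs.π),
        v (Λ.π - x) = v Λ.π ^ (if x = a Λ.π then u + 1 else 2) := by
      intro x hx
      split_ifs with hxa
      · rw [hxa, A.valuation.map_sub_swap, hu]
      · obtain ⟨hxc, hxk⟩ := (Layer.mem_fibre hBs).mp hx
        obtain ⟨f, hf, rfl⟩ := Λ.mem_conj.mp hxc
        rw [Layer.key_eval hBs hf] at hxk
        have h1 : a⁻¹ * f ∈ Hs := hΛs ▸ (Λs.mem_N_iff (mul_mem (inv_mem haI) hf)).mpr (by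
          rw [AlgEquiv.mul_apply, hxk, AlgEquiv.aut_inv, AlgEquiv.symm_apply_apply])
        have hfG : f ∈ G := by simpa using mul_mem ha.1 h1.1
        rw [A.valuation.map_sub_swap]
        refine hexact f hfG fun hfc => hxa ?_
        conv_lhs => rw [show f = a * (a⁻¹ * f) by group, AlgEquiv.mul_apply,
          Λ.fixed _ (hinter _ (mul_mem (inv_mem ha) hfc) h1)]
    have hprod := Finset.prod_congr rfl hfib
    rw [Layer.prod_fibre hBs haI, A.valuation.map_sub_swap Λs.π, hav, Layer.val_uniformizer hBs,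
      ← pow_mul, Finset.prod_pow_eq_pow_sum, ← Finset.add_sum_erase _ _ hamem, if_pos rfl,
      Finset.sum_congr rfl fun x hx => if_neg (Finset.ne_of_mem_erase hx), Finset.sum_const,
      Finset.card_erase_of_mem hamem, Layer.card_fibre hBs (Λs.mem_conj.mpr ⟨a, haI, rfl⟩),
      smul_eq_mul] at hprod
    have h1 := Λ.pow_le_iff.mp hprod.le
    have h2 := Λ.pow_le_iff.mp hprod.ge
    have hk := Layer.relDeg_pos hBs
    have hBr : Layer.Below Λ TD.Λr := ⟨hNG⟩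
    have hd : Layer.relDeg Λ TD.Λr ≤ Layer.relDeg Λ Λs * 2 := by
      have h3 := Subgroup.relIndex_mul_relIndex _ _ _ hBs.le
        (show Λs.N ≤ TD.Λr.N from hsG)
      rw [Layer.relDeg, ← h3]
      exact Nat.mul_le_mul_left _ (hΛs.symm ▸ hidx)
    obtain ⟨i, hi⟩ : ∃ i, cs i a ≠ 0 := not_forall.mp fun h => haN ((hmem a ha.1).mpr h)
    have hsm := eq_smul_one (htr i a ha.1) (ha.2 i).1 (ha.2 i).2
    refine not_scalar TD hA (hcs i).2.2
      (fun τ hτ => ⟨((TD.hN τ).mp (hNG hτ)).2, (hmem τ (hNG hτ)).mp hτ i⟩) ha.1 hsm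
      (fun h0 => hi (by rw [hsm, h0, zero_smul])) ?_
    rw [hu, Layer.val_uniformizer hBr, Λ.pow_lt_iff]
    omega
  have hsp : ∀ i, ∀ σ ∈ G, scalarPart (cs i σ) = 0 := fun i σ hσ => by
    obtain ⟨h1, h2⟩ := hnormG σ hσ
    have h3 := (hmem _ h1).mp (hclaim _ ⟨h1, fun j => by rw [h2 j]; simp⟩) i
    rw [h2 i] at h3
    simpa using congrFun (congrFun h3 0) 0
  -- the image has at most four elements
  refine ⟨hsp, ?_, E ⊔ S.field, inferInstance, fun σ hσ hσ' => ⟨?_, fun i => hE σ hσ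
    (IntermediateField.fixingSubgroup_le le_sup_left hσ') i⟩⟩
  swap
  · refine Matrix.ext_of_mulVec_single fun j => ?_
    have h1 := congrArg Prod.fst (S.act_eq_of_mem_fixingSubgroup hσ
      (IntermediateField.fixingSubgroup_le le_sup_right hσ') ((Pi.single j 1, 0) : _ × _))
    rw [hS] at h1
    rw [one_mulVec]
    exact h1
  obtain ⟨σ₀, hσ₀, hJ, himg⟩ : ∃ σ₀ ∈ G, (∀ i, cs i (F * σ₀ * F⁻¹) = cs i σ₀) ∧
      ∀ σ ∈ G, (∀ i, cs i σ = 0) ∨ ∃ j : ℕ, ∀ i, cs i σ = cs i (g ^ j * σ₀ * (g ^ j)⁻¹) := by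
    by_cases hle : W.G ≤ Λ.N
    · exact ⟨1, one_mem _, fun i => by simp,
        fun σ hσ => Or.inl ((hmem σ hσ).mp (hle hσ))⟩
    obtain ⟨hf1, hsh⟩ := TD.break_one W rfl hbd (⟨le_rfl⟩ : Layer.Below Λ Λ) W.le_G hle fun σ hσ =>
      (hmem _ (hnormG σ hσ).1).mpr fun i => by rw [(hnormG σ hσ).2 i, hsp i σ hσ, zero_smul]
    obtain ⟨hc3, hord, hsum⟩ := TD.chi_facts W rfl
    set χ := Λ.chi0 g
    set cF := Λ.chi0 F
    have hz : ∀ σ ∈ G, Λ.gr 1 σ = 0 ↔ ∀ i, cs i σ = 0 := fun σ hσ => by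
      rw [← hmem σ hσ, Λ.gr_eq_zero_iff (hf1 hσ)]
      exact ⟨fun h => by_contra fun hn => hsh σ hσ hn h, fun h => Λ.N_le_fil _ h⟩
    have heq : ∀ σ ∈ G, ∀ τ ∈ G, Λ.gr 1 σ = Λ.gr 1 τ ↔ ∀ i, cs i σ = cs i τ := fun σ hσ τ hτ => by
      have hm := mul_mem hσ (inv_mem hτ)
      have e : Λ.gr 1 σ = Λ.gr 1 (σ * τ⁻¹) + Λ.gr 1 τ := by
        rw [← Λ.gr_mul le_rfl (hf1 hm) (hf1 hτ), inv_mul_cancel_right]
      rw [e, add_eq_right, hz _ hm]
      exact forall_congr' fun i => by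
        rw [hadd i σ hσ _ (inv_mem hτ), hinv i τ hτ, add_neg_eq_zero]
    have hgrg : ∀ (j : ℕ), ∀ σ ∈ G, Λ.gr 1 (g ^ j * σ * (g ^ j)⁻¹) = χ ^ j * Λ.gr 1 σ :=
      fun j σ hσ => by
        rw [Λ.gr_conj_inertia (pow_mem TD.hg j) (hf1 hσ), pow_one, Λ.chi0_pow TD.hg]
    have hgrF : ∀ σ ∈ G, Λ.gr 1 (F * σ * F⁻¹) = cF * Λ.gr 1 σ ^ 2 := fun σ hσ => by
      rw [Λ.gr_conj hFd (hnorm F hFd) (hf1 hσ), pow_one, TD.hF.smul_residue_eq]
    have hcF : cF ≠ 0 := Λ.chi0_ne_zero hFd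
    have hcube : ∀ σ ∈ G, Λ.gr 1 σ ≠ 0 → (cF * Λ.gr 1 σ) ^ 3 = 1 := fun σ hσ hy => by
      have h1 := TD.conj_mem hFd hσ
      have h2 : Λ.gr 1 (F * (F * σ * F⁻¹) * F⁻¹) = Λ.gr 1 σ :=
        (heq _ (TD.conj_mem hFd h1) σ hσ).mpr fun i => by
          rw [hconjF i _ h1, hconjF i σ hσ]
          ext a b
          fin_cases a <;> fin_cases b <;> simp
      rw [hgrF _ h1, hgrF σ hσ] at h2
      refine mul_right_cancel₀ hy ?_
      linear_combination h2
    have hroot : ∀ x : Res A, x ^ 3 = 1 → ∃ j : ℕ, x = χ ^ j := fun x hx => by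
      have hc2 : (2 : Res A) = 0 := CharP.cast_eq_zero (Res A) 2
      have e : (x - 1) * (x - χ) * (x - χ ^ 2) = 0 := by
        linear_combination hx - hc3 + (x * χ - x ^ 2) * hsum
      rcases mul_eq_zero.mp e with h | h
      · rcases mul_eq_zero.mp h with h | h
        · exact ⟨0, by rw [pow_zero]; exact sub_eq_zero.mp h⟩
        · exact ⟨1, by rw [pow_one]; exact sub_eq_zero.mp h⟩
      · exact ⟨2, sub_eq_zero.mp h⟩
    obtain ⟨σ₁, hσ₁, hσ₁N⟩ := SetLike.not_le_iff_exists.mp hle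
    have hy₁ : Λ.gr 1 σ₁ ≠ 0 := fun h => hσ₁N ((hmem σ₁ hσ₁).mpr ((hz σ₁ hσ₁).mp h))
    obtain ⟨j₁, hj₁⟩ := hroot _ (hcube σ₁ hσ₁ hy₁)
    set σ₀ := g ^ (2 * j₁) * σ₁ * (g ^ (2 * j₁))⁻¹
    have hσ₀ : σ₀ ∈ G := (hpow _ σ₁ hσ₁).1
    have hy₀ : cF * Λ.gr 1 σ₀ = 1 := by
      rw [hgrg _ σ₁ hσ₁, mul_left_comm, hj₁, ← pow_add, show 2 * j₁ + j₁ = 3 * j₁ by ring, pow_mul,
        hc3, one_pow]
    refine ⟨σ₀, hσ₀, (heq _ (TD.conj_mem hFd hσ₀) σ₀ hσ₀).mp ?_, fun σ hσ => ?_⟩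
    · rw [hgrF σ₀ hσ₀, pow_two, ← mul_assoc, hy₀, one_mul]
    · by_cases hy : Λ.gr 1 σ = 0
      · exact Or.inl ((hz σ hσ).mp hy)
      obtain ⟨j, hj⟩ := hroot _ (hcube σ hσ hy)
      refine Or.inr ⟨j, (heq σ hσ _ (hpow j σ₀ hσ₀).1).mp ?_⟩
      rw [hgrg j σ₀ hσ₀]
      refine mul_left_cancel₀ hcF ?_
      rw [mul_left_comm, hy₀, mul_one]
      exact hj
  exact ⟨σ₀, hσ₀, hJ, himg⟩

/-- At most five independent flat classes at two. -/
theorem two_family_le (hA : A.LiesOverPrime 2) (TD : TwoData A r0) {m : ℕ}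
    (cs : Fin m → GQ → M2 k) (hcs : ∀ i, IsFlatTwo A (repTwo k r0) (cs i))
    (hli : LinearIndependent k fun i => fun σ : A.decompositionSubgroup ℚ => cs i σ) : m ≤ 5 := by
  classical
  rcases Nat.eq_zero_or_pos m with rfl | hm
  · omega
  have : Fact (Nat.Prime 2) := ⟨Nat.prime_two⟩
  set r := repTwo k r0
  set G := TD.Λr.N
  set g := TD.g
  set F := TD.F
  have hr1 : ∀ σ ∈ G, r σ = 1 := fun σ hσ => (repTwo_eq_one_iff r0 σ).mpr ((TD.hN σ).mp hσ).2
  have hGd : ∀ σ ∈ G, σ ∈ A.decompositionSubgroup ℚ := fun σ hσ =>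
    inertia_le_decomposition (TD.Λr.le hσ)
  have hgd := TD.g_mem
  have hFd := TD.hF.mem_decompositionSubgroup
  obtain ⟨hsp, ⟨σ₀, hσ₀, hJ, himg⟩, E, hEfin, hE'⟩ := two_kernel_data hA TD hm cs hcs
  have hE := fun σ hσ hσ' => (hE' σ hσ hσ').2
  have hconj : ∀ i, ∀ x ∈ A.decompositionSubgroup ℚ, ∀ σ ∈ G,
      cs i (x * σ * x⁻¹) = r x * cs i σ * r x⁻¹ := fun i x hx σ hσ => by
    rw [(hcs i).1.map_conj hx (hGd σ hσ), hr1 _ (TD.conj_mem hx hσ),
      hr1 _ (TD.conj_mem hx (inv_mem hσ)), one_mul, mul_one, add_sub_cancel_left]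
  have hconjF : ∀ i, ∀ σ ∈ G, cs i (F * σ * F⁻¹) =
      !![cs i σ 1 1, cs i σ 1 0; cs i σ 0 1, cs i σ 0 0] := fun i σ hσ => by
    rw [hconj i F hFd σ hσ, TD.conj_F]
  -- five functionals
  refine le_of_functionals (n := 5) (K := k)
    (LinearMap.pi fun j => Fintype.linearCombination k
      (fun i => (![cs i g 0 1, cs i g 1 0, cs i σ₀ 0 1, cs i F 0 0, cs i F 1 0] : Fin 5 → k) j))
    fun l hl => ?_
  have hl' : ∀ j, ∑ i, l i *
      (![cs i g 0 1, cs i g 1 0, cs i σ₀ 0 1, cs i F 0 0, cs i F 1 0] : Fin 5 → k) j = 0 :=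
    fun j => by simpa [Fintype.linearCombination_apply] using congrFun hl j
  set C : GQ → M2 k := fun σ => ∑ i, l i • cs i σ with hC
  have hCap : ∀ σ a b, C σ a b = ∑ i, l i * cs i σ a b := fun σ a b => by
    simp [hC, Matrix.sum_apply]
  have hCco : IsDecompCocycle A r C := fun σ hσ τ hτ => by
    simp only [hC, (hcs _).1 σ hσ τ hτ, smul_add, Finset.sum_add_distrib, Matrix.mul_sum,
      Finset.sum_mul, mul_smul_comm, smul_mul_assoc]
  have hCtr : ∀ σ ∈ A.inertiaSubgroupIn ℚ, (C σ).trace = 0 := fun σ hσ => by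
    simp only [hC, trace_sum, trace_smul, (hcs _).2.1 σ hσ, smul_zero, Finset.sum_const_zero]
  have hC0 : C σ₀ = 0 := by
    have h01 : C σ₀ 0 1 = 0 := (hCap _ _ _).trans (hl' 2)
    have h10 : C σ₀ 1 0 = 0 := by
      rw [← h01, hCap, hCap]
      refine Finset.sum_congr rfl fun i _ => ?_
      have h := congrFun (congrFun (hJ i) 0) 1
      rw [hconjF i σ₀ hσ₀] at h
      simp at h
      rw [h]
    refine eq_zero_of_parts (hCtr _ (TD.Λr.le hσ₀)) ?_ h01 h10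
    simp only [scalarPart, hCap, ← Finset.sum_add_distrib, ← mul_add]
    exact Finset.sum_eq_zero fun i _ => by
      rw [show cs i σ₀ 0 0 + cs i σ₀ 0 1 + cs i σ₀ 1 0 = 0 from hsp i σ₀ hσ₀, mul_zero]
  have hCG : ∀ σ ∈ G, C σ = 0 := fun σ hσ => by
    rcases himg σ hσ with h | ⟨j, h⟩
    · simp [hC, h]
    · have e : C σ = r (g ^ j) * C σ₀ * r (g ^ j)⁻¹ := by
        simp only [hC, Matrix.mul_sum, Finset.sum_mul, mul_smul_comm, smul_mul_assoc]
        exact Finset.sum_congr rfl fun i _ => by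
          rw [h i, hconj i _ (pow_mem hgd j) σ₀ hσ₀]
      rw [e, hC0, mul_zero, zero_mul]
  have hCg : C g = 0 := by
    refine eq_zero_of_parts (hCtr g TD.hg) ?_ ((hCap _ _ _).trans (hl' 0))
      ((hCap _ _ _).trans (hl' 1))
    have e : C (g ^ 3) = C g + conjG (C g) + conjG (conjG (C g)) := by
      rw [show g ^ 3 = g * (g * g) by rw [pow_succ', pow_two], hCco g hgd _ (mul_mem hgd hgd),
        hCco g hgd g hgd, mul_add, add_mul, TD.conj_g, TD.conj_g, add_assoc]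
    rw [hCG _ TD.cube_mem, conjG_sum (hCtr g TD.hg)] at e
    simpa using (congrFun (congrFun e 0) 0).symm
  have hCI : ∀ σ ∈ A.inertiaSubgroupIn ℚ, C σ = 0 := fun σ hσ => by
    obtain ⟨j, hj⟩ := TD.hgen σ hσ
    have hgj : C (g ^ j) = 0 := by
      clear hj
      induction j with
      | zero => rw [pow_zero, hCco.map_one]
      | succ j ih =>
        rw [pow_succ, hCco _ (pow_mem hgd j) g hgd, ih, hCg, mul_zero, zero_mul, add_zero]
    rw [show σ = g ^ j * ((g ^ j)⁻¹ * σ) by rw [mul_inv_cancel_left],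
      hCco _ (pow_mem hgd j) _ (hGd _ hj), hgj, hCG _ hj, mul_zero, zero_mul, add_zero]
  have hCF : C F = 0 := by
    have hconjI := conj_mem_inertia Nat.prime_two hA hFd TD.hg
    have h := hCco.map_conj hFd hgd
    rw [hCI _ hconjI, hCg, mul_zero, zero_mul, add_zero] at h
    have hpg : r (F * g * F⁻¹) = r g⁻¹ := by
      refine (repTwo_eq_iff r0 _ _).mpr ?_
      have hginv : r0 g⁻¹ = r0 g ^ 2 := by
        have e3 : r0 g ^ 3 = 1 := by rw [TD.hgT]; exact tau_facts.2.2.2.1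
        calc r0 g⁻¹ = r0 g⁻¹ * r0 g ^ 3 := by rw [e3, mul_one]
          _ = _ := by rw [pow_succ' (r0 g) 2, ← mul_assoc, ← map_mul, inv_mul_cancel, map_one,
              one_mul]
      rw [hginv, map_mul, map_mul, TD.hgT, TD.hFJ, show r0 F⁻¹ = !![0, 1; 1, 0] from ?_]
      · exact frob_facts.2
      have h1 : r0 F⁻¹ * r0 F = 1 := by rw [← map_mul, inv_mul_cancel, map_one]
      have h2 := frob_facts.1
      calc r0 F⁻¹ = r0 F⁻¹ * (!![0, 1; 1, 0] * !![0, 1; 1, 0]) := by rw [h2, mul_one]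
        _ = _ := by rw [← mul_assoc, ← TD.hFJ, h1, one_mul]
    have hpg' : r (F * g⁻¹ * F⁻¹) = r g := by
      have e : r (F * g⁻¹ * F⁻¹) * r (F * g * F⁻¹) = 1 := by
        rw [← map_mul, show F * g⁻¹ * F⁻¹ * (F * g * F⁻¹) = 1 by group, map_one]
      rw [hpg] at e
      calc r (F * g⁻¹ * F⁻¹) = r (F * g⁻¹ * F⁻¹) * (r g⁻¹ * r g) := by rw [r_inv_mul, mul_one]
        _ = _ := by rw [← mul_assoc, e, one_mul]
    rw [hpg, hpg', eq_comm, sub_eq_zero] at h
    have hfix : conjG (C F) = C F := by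
      calc conjG (C F) = r g * (r g⁻¹ * C F * r g) * r g⁻¹ := by rw [← h, TD.conj_g]
        _ = _ := by
          simp only [← mul_assoc]
          rw [r_mul_inv, one_mul, mul_assoc, r_mul_inv, mul_one]
    obtain ⟨h01, h11⟩ := conjG_fixed hfix
    have h00 : C F 0 0 = 0 := (hCap _ _ _).trans (hl' 3)
    have h10 : C F 1 0 = 0 := (hCap _ _ _).trans (hl' 4)
    ext a b
    fin_cases a <;> fin_cases b
    · exact h00
    · exact h01.trans h10
    · exact h10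
    · exact h11.trans (by rw [h00, h10, add_zero]; rfl)
  have hzero : ∀ σ ∈ A.decompositionSubgroup ℚ, C σ = 0 := fun σ hσ => by
    let H : Subgroup GQ :=
      { carrier := {x | x ∈ A.decompositionSubgroup ℚ ∧ C x = 0}
        one_mem' := ⟨one_mem _, hCco.map_one⟩
        mul_mem' := fun {a b} ha hb => ⟨mul_mem ha.1 hb.1, by
          rw [hCco a ha.1 b hb.1, ha.2, hb.2, mul_zero, zero_mul, add_zero]⟩
        inv_mem' := fun {a} ha => ⟨inv_mem ha.1, by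
          rw [hCco.map_inv ha.1, ha.2, mul_zero, zero_mul, neg_zero]⟩ }
    exact (decomp_le_of hA TD.hF H (fun x hx => ⟨inertia_le_decomposition hx, hCI x hx⟩)
      ⟨hFd, hCF⟩ E (fun x hx => ⟨hx.1, by simp [hC, hE x hx.1 hx.2]⟩) hσ).2
  refine funext fun i => Fintype.linearIndependent_iff.mp hli l (funext fun σ => ?_) i
  have h := hzero σ σ.2
  simp only [hC] at h
  simpa using h

/-- **The flat tangent bound at two.** -/
theorem tangentBound_flat_two (hA : A.LiesOverPrime 2) (r0 : GQ →* M2 (ZMod 2))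
    (hss : ∃ g ∈ A.inertiaSubgroupIn ℚ, (r0 g).trace = 1) (hflat : IsFlatRes A (repTwo k r0)) :
    ∃ Z : Submodule k (A.decompositionSubgroup ℚ → M2 k),
      FiniteDimensional k Z ∧ Module.finrank k Z ≤ 5 ∧
      (∀ X : M2 k, (fun σ : A.decompositionSubgroup ℚ =>
        repTwo k r0 σ * X * repTwo k r0 σ.1⁻¹ - X) ∈ Z) ∧
      ∀ c : GQ → M2 k, IsFlatTwo A (repTwo k r0) c →
        (fun σ : A.decompositionSubgroup ℚ => c σ) ∈ Z := by
  classical
  obtain ⟨TD⟩ := exists_twoData hA hss hflat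
  let res' : (GQ → M2 k) → (A.decompositionSubgroup ℚ → M2 k) := fun c σ => c σ
  let S : Set (A.decompositionSubgroup ℚ → M2 k) :=
    res' '' {c | IsFlatTwo A (repTwo k r0) c}
  have hS := finrank_span_le_of_indep (k := k) S 5 fun m c hcS hli => by
    choose cs hcs hcse using hcS
    exact two_family_le hA TD cs hcs (by
      rwa [show (fun i => fun σ : A.decompositionSubgroup ℚ => cs i σ) = c from funext hcse])
  refine ⟨Submodule.span k S, hS.1, hS.2, fun X => Submodule.subset_span ?_,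
    fun c hc => Submodule.subset_span ⟨c, hc, rfl⟩⟩
  refine ⟨fun σ => repTwo k r0 σ * X * repTwo k r0 σ⁻¹ - X, ⟨fun σ _ τ _ => ?_, fun σ _ => ?_,
    isFlatClass_cob hflat X⟩, rfl⟩
  · simp only [map_mul, _root_.mul_inv_rev, mul_sub, sub_mul, mul_assoc]
    abel
  · rw [trace_sub, Matrix.trace_mul_comm, ← mul_assoc, r_inv_mul, one_mul, sub_self]

end Family

end FA.LocalDef
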