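import Fermat.Agent.LocalDef.TangentTwo

/-!
# The flat classes at two, part by part

The adjoint of the level two representation is the sum of the scalars, a line carrying the trace
and the plane of trace zero matrices without scalar part. A flat class has no scalar part on
inertia, and two flat classes are dependent in the plane modulo coboundaries.
-/

set_option autoImplicit false
set_option linter.unusedSectionVars false

noncomputable section

open Matrix FA.Local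
open scoped Pointwise

namespace FA.LocalDef

local notation "Qb" => AlgebraicClosure ℚ
local notation "GQ" => AlgebraicClosure ℚ ≃ₐ[ℚ] AlgebraicClosure ℚ
local notation "M2" k => Matrix (Fin 2) (Fin 2) k

variable {A : ValuationSubring Qb} {k : Type} [Field k] [CharP k 2] {r0 : GQ →* M2 (ZMod 2)}

/-- The projection onto the plane along the scalars and `!![0, 1; 1, 1]`. -/
def vPart (Y : M2 k) : M2 k := Y - scalarPart Y • 1 - Y.trace • !![0, 1; 1, 1]

lemma vPart_add (Y Z : M2 k) : vPart (Y + Z) = vPart Y + vPart Z := by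
  ext i j
  fin_cases i <;> fin_cases j <;> simp [vPart, scalarPart, trace_fin_two] <;> ring

lemma scalarPart_add (Y Z : M2 k) : scalarPart (Y + Z) = scalarPart Y + scalarPart Z := by
  simp [scalarPart]
  ring

lemma trace_vPart (Y : M2 k) : (vPart Y).trace = 0 := by
  simp [vPart, scalarPart, trace_fin_two]
  exact Or.inr (CharP.cast_eq_zero k 2)

lemma scalarPart_vPart (Y : M2 k) : scalarPart (vPart Y) = 0 := by
  simp [vPart, scalarPart, trace_fin_two]
  linear_combination -(Y 0 0 + Y 1 1) * CharP.cast_eq_zero k 2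

lemma vPart_conjG (Y : M2 k) : vPart (conjG Y) = conjG (vPart Y) := by
  have h2 : (2 : k) = 0 := CharP.cast_eq_zero k 2
  have h3 : (3 : k) = 1 := by linear_combination h2
  have h4 : (4 : k) = 0 := by linear_combination (2 : k) * h2
  have h6 : (6 : k) = 0 := by linear_combination (3 : k) * h2
  ext i j
  fin_cases i <;> fin_cases j <;> simp [vPart, conjG, scalarPart, trace_fin_two, CharTwo.sub_eq_add] <;> ring_nf <;>
    simp [h2, h3, h4, h6]

lemma vPart_swap (Y : M2 k) :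
    vPart !![Y 1 1, Y 1 0; Y 0 1, Y 0 0] =
      !![vPart Y 1 1, vPart Y 1 0; vPart Y 0 1, vPart Y 0 0] := by
  have h2 : (2 : k) = 0 := CharP.cast_eq_zero k 2
  ext i j
  fin_cases i <;> fin_cases j <;> simp [vPart, scalarPart, trace_fin_two] <;> ring_nf <;>
    simp [h2]

lemma two_gl_cases : ∀ a b c d : ZMod 2, a * d - b * c ≠ 0 →
    !![a, b; c, d] = 1 ∨ !![a, b; c, d] = !![0, 1; 1, 1] ∨
      !![a, b; c, d] = !![0, 1; 1, 1] * !![0, 1; 1, 1] ∨ !![a, b; c, d] = !![0, 1; 1, 0] ∨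
      !![a, b; c, d] = !![0, 1; 1, 0] * !![0, 1; 1, 1] ∨
      !![a, b; c, d] = !![0, 1; 1, 0] * (!![0, 1; 1, 1] * !![0, 1; 1, 1]) := by decide

/-- The projection commutes with the representation. -/
theorem vPart_conj (TD : TwoData A r0) (x : GQ) (Y : M2 k) :
    vPart (repTwo k r0 x * Y * repTwo k r0 x⁻¹) =
      repTwo k r0 x * vPart Y * repTwo k r0 x⁻¹ := by
  let P : GQ → Prop := fun y => ∀ Z : M2 k,
    vPart (repTwo k r0 y * Z * repTwo k r0 y⁻¹) = repTwo k r0 y * vPart Z * repTwo k r0 y⁻¹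
  have h1 : P 1 := fun Z => by simp
  have hg : P TD.g := fun Z => by rw [TD.conj_g, TD.conj_g, vPart_conjG]
  have hF : P TD.F := fun Z => by rw [TD.conj_F, TD.conj_F, vPart_swap]
  have hmul : ∀ y z, P y → P z → P (y * z) := fun y z hy hz Z => by
    simp only [map_mul, _root_.mul_inv_rev]
    have e : ∀ W : M2 k, repTwo k r0 y * repTwo k r0 z * W * (repTwo k r0 z⁻¹ * repTwo k r0 y⁻¹) =
        repTwo k r0 y * (repTwo k r0 z * W * repTwo k r0 z⁻¹) * repTwo k r0 y⁻¹ := fun W => by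
      simp only [mul_assoc]
    rw [e, e, hy, hz]
  suffices h : ∃ y, P y ∧ r0 x = r0 y by
    obtain ⟨y, hy, hxy⟩ := h
    have hinv : r0 x⁻¹ = r0 y⁻¹ := by
      calc r0 x⁻¹ = r0 x⁻¹ * (r0 y * r0 y⁻¹) := by rw [← map_mul r0 y, mul_inv_cancel, map_one, mul_one]
        _ = _ := by rw [← hxy, ← mul_assoc, ← map_mul, inv_mul_cancel, map_one, one_mul]
    rw [(repTwo_eq_iff r0 x y).mpr hxy, (repTwo_eq_iff r0 x⁻¹ y⁻¹).mpr hinv]
    exact hy Y
  have hdet : (r0 x).det ≠ 0 := fun h0 => by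
    have h := congrArg Matrix.det (show r0 x * r0 x⁻¹ = 1 by rw [← map_mul, mul_inv_cancel, map_one])
    rw [det_mul, h0, zero_mul, det_one] at h
    exact zero_ne_one h
  rw [det_fin_two] at hdet
  have e := Matrix.eta_fin_two (r0 x)
  have hc := two_gl_cases (r0 x 0 0) (r0 x 0 1) (r0 x 1 0) (r0 x 1 1) hdet
  rw [← e] at hc
  rcases hc with h | h | h | h | h | h
  · exact ⟨1, h1, by rw [h, map_one]⟩
  · exact ⟨_, hg, by rw [h, TD.hgT]⟩
  · exact ⟨_, hmul _ _ hg hg, by rw [h, map_mul, TD.hgT]⟩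
  · exact ⟨_, hF, by rw [h, TD.hFJ]⟩
  · exact ⟨_, hmul _ _ hF hg, by rw [h, map_mul, TD.hgT, TD.hFJ]⟩
  · exact ⟨_, hmul _ _ hF (hmul _ _ hg hg), by rw [h, map_mul, map_mul, TD.hgT, TD.hFJ]⟩

variable [Fintype k]

/-- **A flat class at two has no scalar part on inertia.** -/
theorem flat_two_scalar (hA : A.LiesOverPrime 2) (TD : TwoData A r0) (c : GQ → M2 k)
    (hc : IsFlatTwo A (repTwo k r0) c) :
    ∀ σ ∈ A.inertiaSubgroupIn ℚ, scalarPart (c σ) = 0 := by
  obtain ⟨hsp, -, -⟩ := two_kernel_data hA TD one_pos (fun _ : Fin 1 => c) fun _ => hc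
  have hgd := TD.g_mem
  have hg : scalarPart (c TD.g) = 0 := by
    have e : c (TD.g ^ 3) = c TD.g + conjG (c TD.g) + conjG (conjG (c TD.g)) := by
      rw [show TD.g ^ 3 = TD.g * (TD.g * TD.g) by rw [pow_succ', pow_two],
        hc.1 _ hgd _ (mul_mem hgd hgd), hc.1 _ hgd _ hgd, mul_add, add_mul, TD.conj_g, TD.conj_g,
        add_assoc]
    rw [conjG_sum (hc.2.1 _ TD.hg)] at e
    have h := hsp 0 _ TD.cube_mem
    rw [e] at h
    simpa [scalarPart] using h
  intro σ hσ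
  obtain ⟨j, hj⟩ := TD.hgen σ hσ
  rw [show σ = TD.g ^ j * ((TD.g ^ j)⁻¹ * σ) by rw [mul_inv_cancel_left]]
  generalize (TD.g ^ j)⁻¹ * σ = τ at hj ⊢
  induction j with
  | zero => rw [pow_zero, one_mul]; exact hsp 0 τ hj
  | succ j ih =>
    rw [pow_succ', mul_assoc, hc.1 _ hgd _ (mul_mem (pow_mem hgd j)
      (inertia_le_decomposition (TD.Λr.le hj))), scalarPart_add, TD.conj_g,
      scalarPart_conjG (hc.2.1 _ (mul_mem (pow_mem TD.hg j) (TD.Λr.le hj))), hg, ih, add_zero]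

/-- **Two flat classes at two are dependent in the plane.** -/
theorem flat_two_line (hA : A.LiesOverPrime 2) (TD : TwoData A r0) (c₁ c₂ : GQ → M2 k)
    (h₁ : IsFlatTwo A (repTwo k r0) c₁) (h₂ : IsFlatTwo A (repTwo k r0) c₂) :
    ∃ a b : k, (a, b) ≠ 0 ∧ ∃ X : M2 k, X.trace = 0 ∧ scalarPart X = 0 ∧
      ∀ σ ∈ A.decompositionSubgroup ℚ,
        vPart (a • c₁ σ + b • c₂ σ) = repTwo k r0 σ * X * repTwo k r0 σ⁻¹ - X := by
  classical
  set r := repTwo k r0
  set g := TD.g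
  have hgd := TD.g_mem
  have hFd := TD.hF.mem_decompositionSubgroup
  have h2 : (2 : k) = 0 := CharP.cast_eq_zero k 2
  let cs : Fin 2 → GQ → M2 k := ![c₁, c₂]
  have hcs : ∀ i, IsFlatTwo A r (cs i) := Fin.forall_fin_two.mpr ⟨h₁, h₂⟩
  obtain ⟨hsp, ⟨σ₀, hσ₀, hJ, himg⟩, E, hEfin, hE⟩ := two_kernel_data hA TD two_pos cs hcs
  obtain ⟨a, b, hab, hkill⟩ : ∃ a b : k, (a, b) ≠ 0 ∧ a * c₁ σ₀ 0 1 + b * c₂ σ₀ 0 1 = 0 := by
    by_cases h : c₁ σ₀ 0 1 = 0 ∧ c₂ σ₀ 0 1 = 0
    · exact ⟨1, 0, by simp, by rw [h.1, h.2]; simp⟩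
    · refine ⟨c₂ σ₀ 0 1, c₁ σ₀ 0 1, fun he => h ⟨congrArg Prod.snd he, congrArg Prod.fst he⟩, ?_⟩
      linear_combination (c₁ σ₀ 0 1 * c₂ σ₀ 0 1) * h2
  set C : GQ → M2 k := fun σ => a • c₁ σ + b • c₂ σ with hC
  have hr1 : ∀ σ ∈ TD.Λr.N, r σ = 1 := fun σ hσ =>
    (repTwo_eq_one_iff r0 σ).mpr ((TD.hN σ).mp hσ).2
  have hconj : ∀ i, ∀ x ∈ A.decompositionSubgroup ℚ, ∀ σ ∈ TD.Λr.N,
      cs i (x * σ * x⁻¹) = r x * cs i σ * r x⁻¹ := fun i x hx σ hσ => by
    rw [(hcs i).1.map_conj hx (inertia_le_decomposition (TD.Λr.le hσ)),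
      hr1 _ (TD.conj_mem hx hσ), hr1 _ (TD.conj_mem hx (inv_mem hσ)), one_mul, mul_one,
      add_sub_cancel_left]
  have hCtr : ∀ σ ∈ A.inertiaSubgroupIn ℚ, (C σ).trace = 0 := fun σ hσ => by
    simp [hC, h₁.2.1 σ hσ, h₂.2.1 σ hσ]
  -- the combination vanishes on the kernel of inertia
  have hC0 : C σ₀ = 0 := by
    have h01 : C σ₀ 0 1 = 0 := by simpa [hC] using hkill
    have h10 : C σ₀ 1 0 = 0 := by
      have e : ∀ i, cs i σ₀ 1 0 = cs i σ₀ 0 1 := fun i => by
        have h := congrFun (congrFun (hJ i) 0) 1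
        rw [hconj i _ hFd σ₀ hσ₀, TD.conj_F] at h
        simpa using h
      have e0 := e 0
      have e1 := e 1
      simp [cs] at e0 e1
      simpa [hC, e0, e1] using hkill
    refine eq_zero_of_parts (hCtr _ (TD.Λr.le hσ₀)) ?_ h01 h10
    have s0 := hsp 0 σ₀ hσ₀
    have s1 := hsp 1 σ₀ hσ₀
    simp [cs, scalarPart] at s0 s1
    simp [hC, scalarPart]
    linear_combination a * s0 + b * s1
  have hCG : ∀ σ ∈ TD.Λr.N, C σ = 0 := fun σ hσ => by
    rcases himg σ hσ with h | ⟨j, h⟩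
    · have e0 := h 0
      have e1 := h 1
      simp [cs] at e0 e1
      simp [hC, e0, e1]
    · have e : C σ = r (g ^ j) * C σ₀ * r (g ^ j)⁻¹ := by
        have e0 := (h 0).trans (hconj 0 _ (pow_mem hgd j) σ₀ hσ₀)
        have e1 := (h 1).trans (hconj 1 _ (pow_mem hgd j) σ₀ hσ₀)
        simp only [cs, Matrix.cons_val_zero, Matrix.cons_val_one, Matrix.cons_val_fin_one] at e0 e1
        simp only [hC, e0, e1, mul_add, add_mul, mul_smul_comm, smul_mul_assoc]
        rfl
      rw [e, hC0, mul_zero, zero_mul]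
  -- subtract the coboundary
  set Z := vPart (C g) with hZ
  set X : M2 k := !![Z 0 1, Z 1 0; Z 0 1 + Z 1 0, Z 0 1] with hX
  refine ⟨a, b, hab, X, ?_, ?_, ?_⟩
  · rw [hX, trace_fin_two]
    simp
    linear_combination Z 0 1 * h2
  · simp [hX, scalarPart]
    linear_combination (Z 0 1 + Z 1 0) * h2
  set c : GQ → M2 k := fun σ => vPart (C σ) - (r σ * X * r σ⁻¹ - X) with hc
  have hCco : IsDecompCocycle A r C := fun σ hσ τ hτ => by
    simp only [hC, h₁.1 σ hσ τ hτ, h₂.1 σ hσ τ hτ, smul_add, mul_add, add_mul, mul_smul_comm,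
      smul_mul_assoc]
    abel
  have hcco : IsDecompCocycle A r c := fun σ hσ τ hτ => by
    simp only [hc, hCco σ hσ τ hτ, vPart_add]
    rw [vPart_conj TD σ]
    simp only [map_mul, _root_.mul_inv_rev, mul_sub, sub_mul, mul_assoc]
    abel
  have hctr : ∀ σ, (c σ).trace = 0 := fun σ => by
    rw [hc, trace_sub, trace_vPart, trace_sub, Matrix.trace_mul_comm, ← mul_assoc, r_inv_mul,
      one_mul, sub_self, sub_zero]
  have hXtr : X.trace = 0 := by
    rw [hX, trace_fin_two]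
    simp
    linear_combination Z 0 1 * h2
  have hcsp : ∀ σ, scalarPart (c σ) = 0 := fun σ => by
    have e : ∀ Y W : M2 k, scalarPart (Y - W) = scalarPart Y - scalarPart W := fun Y W => by
      simp [scalarPart]; ring
    have hinv : scalarPart (r σ * X * r σ⁻¹) = scalarPart X := by
      have hXv : vPart X = X := by
        have hs : scalarPart X = 0 := by
          simp [hX, scalarPart]
          linear_combination (Z 0 1 + Z 1 0) * h2
        simp [vPart, hs, hXtr]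
      conv_lhs => rw [← hXv, ← vPart_conj TD σ X, scalarPart_vPart]
      rw [← hXv, scalarPart_vPart]
    rw [hc, e, e, scalarPart_vPart, hinv, sub_self, sub_zero]
  have hcG : ∀ σ ∈ TD.Λr.N, c σ = 0 := fun σ hσ => by
    rw [hc]
    simp only [hCG σ hσ, hr1 σ hσ, hr1 _ (inv_mem hσ), one_mul, mul_one, sub_self, sub_zero]
    simp [vPart, scalarPart]
  have hcg : c g = 0 := by
    refine eq_zero_of_parts (hctr g) (hcsp g) ?_ ?_
    · simp [hc, TD.conj_g, conjG, ← hZ, hX, r, g]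
    · simp [hc, TD.conj_g, conjG, ← hZ, hX, r, g]
      linear_combination -(Z 0 1) * h2
  have hcI : ∀ σ ∈ A.inertiaSubgroupIn ℚ, c σ = 0 := fun σ hσ => by
    obtain ⟨j, hj⟩ := TD.hgen σ hσ
    have hgj : c (g ^ j) = 0 := by
      clear hj
      induction j with
      | zero => rw [pow_zero, hcco.map_one]
      | succ j ih =>
        rw [pow_succ, hcco _ (pow_mem hgd j) g hgd, ih, hcg, mul_zero, zero_mul, add_zero]
    rw [show σ = g ^ j * ((g ^ j)⁻¹ * σ) by rw [mul_inv_cancel_left],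
      hcco _ (pow_mem hgd j) _ (inertia_le_decomposition (TD.Λr.le hj)), hgj, hcG _ hj, mul_zero,
      zero_mul, add_zero]
  have hcF : c TD.F = 0 := by
    have h := hcco.map_conj hFd hgd
    rw [hcI _ (conj_mem_inertia Nat.prime_two hA hFd TD.hg), hcg, mul_zero, zero_mul,
      add_zero] at h
    have hinvrel : ∀ x y : GQ, r0 x = r0 y → r x = r y := fun x y h => (repTwo_eq_iff r0 x y).mpr h
    have hpg : r (TD.F * g * TD.F⁻¹) = r g⁻¹ := by
      refine hinvrel _ _ ?_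
      have hginv : r0 g⁻¹ = r0 g ^ 2 := by
        have e3 : r0 g ^ 3 = 1 := by rw [TD.hgT]; exact tau_facts.2.2.2.1
        calc r0 g⁻¹ = r0 g⁻¹ * r0 g ^ 3 := by rw [e3, mul_one]
          _ = _ := by rw [pow_succ' (r0 g) 2, ← mul_assoc, ← map_mul, inv_mul_cancel, map_one,
              one_mul]
      rw [hginv, map_mul, map_mul, TD.hgT, TD.hFJ, show r0 TD.F⁻¹ = !![0, 1; 1, 0] from ?_]
      · exact frob_facts.2
      calc r0 TD.F⁻¹ = r0 TD.F⁻¹ * (!![0, 1; 1, 0] * !![0, 1; 1, 0]) := by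
            rw [frob_facts.1, mul_one]
        _ = _ := by rw [← mul_assoc, ← TD.hFJ, ← map_mul, inv_mul_cancel, map_one, one_mul, TD.hFJ]
    have hpg' : r (TD.F * g⁻¹ * TD.F⁻¹) = r g := by
      have e : r (TD.F * g⁻¹ * TD.F⁻¹) * r (TD.F * g * TD.F⁻¹) = 1 := by
        rw [← map_mul, show TD.F * g⁻¹ * TD.F⁻¹ * (TD.F * g * TD.F⁻¹) = 1 by group, map_one]
      rw [hpg] at e
      calc r (TD.F * g⁻¹ * TD.F⁻¹) = r (TD.F * g⁻¹ * TD.F⁻¹) * (r g⁻¹ * r g) := by
            rw [r_inv_mul, mul_one]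
        _ = _ := by rw [← mul_assoc, e, one_mul]
    rw [hpg, hpg', eq_comm, sub_eq_zero] at h
    have hfix : conjG (c TD.F) = c TD.F := by
      calc conjG (c TD.F) = r g * (r g⁻¹ * c TD.F * r g) * r g⁻¹ := by rw [← h, TD.conj_g]
        _ = _ := by
          simp only [← mul_assoc]
          rw [r_mul_inv, one_mul, mul_assoc, r_mul_inv, mul_one]
    obtain ⟨h01, h11⟩ := conjG_fixed hfix
    have h10 : c TD.F 1 0 = 0 := by
      rw [eq_of_trace_zero (hctr _)] at h11
      linear_combination -h11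
    exact eq_zero_of_parts (hctr _) (hcsp _) (h01.trans h10) h10
  intro σ hσ
  have hz : c σ = 0 := by
    let H : Subgroup GQ :=
      { carrier := {x | x ∈ A.decompositionSubgroup ℚ ∧ c x = 0}
        one_mem' := ⟨one_mem _, hcco.map_one⟩
        mul_mem' := fun {a b} ha hb => ⟨mul_mem ha.1 hb.1, by
          rw [hcco a ha.1 b hb.1, ha.2, hb.2, mul_zero, zero_mul, add_zero]⟩
        inv_mem' := fun {a} ha => ⟨inv_mem ha.1, by
          rw [hcco.map_inv ha.1, ha.2, mul_zero, zero_mul, neg_zero]⟩ }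
    refine (decomp_le_of hA TD.hF H (fun x hx => ⟨inertia_le_decomposition hx, hcI x hx⟩)
      ⟨hFd, hcF⟩ E (fun x hx => ⟨hx.1, ?_⟩) hσ).2
    obtain ⟨hrx, hcx⟩ := hE x hx.1 hx.2
    have hrx' : r x⁻¹ = 1 := by
      have := r_inv_mul (r := r) x
      rwa [hrx, mul_one] at this
    have e0 := hcx 0
    have e1 := hcx 1
    simp [cs] at e0 e1
    simp only [hc, hC, e0, e1, smul_zero, add_zero]
    rw [hrx, hrx', one_mul, mul_one, sub_self, sub_zero]
    simp [vPart, scalarPart]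
  exact sub_eq_zero.mp hz

end FA.LocalDef
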