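import Fermat.Agent.LocalDef.Qbar
import Mathlib.LinearAlgebra.Lagrange
import Mathlib.RingTheory.Polynomial.Basic
import Mathlib.Algebra.Polynomial.Roots
import Mathlib.GroupTheory.GroupAction.Quotient
import Mathlib.RingTheory.Polynomial.Vieta

/-!
# Totally ramified layers of the inertia group

A layer is a normal subgroup `N` of finite index `D` of inertia with an element `π` fixed by `N`
and of value `(v p) ^ (1 / D)`. Everything fixed by `N` is a polynomial in `π` with coefficients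
fixed by inertia.
-/

set_option autoImplicit false
set_option linter.unusedSectionVars false

noncomputable section

open Polynomial FA.Local
open scoped Pointwise

namespace FA.LocalDef

local notation "Qb" => AlgebraicClosure ℚ
local notation "GQ" => AlgebraicClosure ℚ ≃ₐ[ℚ] AlgebraicClosure ℚ

variable {A : ValuationSubring Qb} {p : ℕ}

/-- The integral elements fixed by inertia. -/
def kurInt (A : ValuationSubring Qb) : Subring Qb := (kur A).toSubring ⊓ A.toSubring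

lemma mem_kurInt {x : Qb} : x ∈ kurInt A ↔ x ∈ kur A ∧ A.valuation x ≤ 1 :=
  ⟨fun h => ⟨h.1, (A.valuation_le_one_iff x).mpr h.2⟩,
    fun h => ⟨h.1, (A.valuation_le_one_iff x).mp h.2⟩⟩

/-- A totally ramified layer of inertia. -/
structure Layer (A : ValuationSubring Qb) (p : ℕ) where
  /-- the subgroup -/
  N : Subgroup GQ
  /-- a uniformizer -/
  π : Qb
  /-- the degree -/
  D : ℕ
  prime : p.Prime
  lies : A.LiesOverPrime p
  le : N ≤ A.inertiaSubgroupIn ℚ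
  normal : ∀ σ ∈ A.inertiaSubgroupIn ℚ, ∀ τ ∈ N, σ⁻¹ * τ * σ ∈ N
  D_eq : N.relIndex (A.inertiaSubgroupIn ℚ) = D
  D_pos : 0 < D
  fixed : ∀ τ ∈ N, τ π = π
  val : A.valuation π ^ D = A.valuation (p : Qb)

/-- Every open normal subgroup of inertia gives a layer. -/
theorem exists_layer (hp : p.Prime) (hA : A.LiesOverPrime p) (N : Subgroup GQ)
    (hN : N ≤ A.inertiaSubgroupIn ℚ)
    (hn : ∀ σ ∈ A.inertiaSubgroupIn ℚ, ∀ τ ∈ N, σ⁻¹ * τ * σ ∈ N)
    (E : IntermediateField ℚ Qb) [FiniteDimensional ℚ E]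
    (hE : A.inertiaSubgroupIn ℚ ⊓ E.fixingSubgroup ≤ N) : ∃ Λ : Layer A p, Λ.N = N := by
  obtain ⟨h0, θ, hθ, hv⟩ := exists_uniformizer hp hA N hN E hE
  exact ⟨⟨N, θ, _, hp, hA, hN, hn, rfl, Nat.pos_of_ne_zero h0, hθ, hv⟩, rfl⟩

namespace Layer

variable (Λ : Layer A p)

local notation "v" => ValuationSubring.valuation A

lemma vp_lt_one (Λ : Layer A p) : v (p : Qb) < 1 := valuation_p_lt_one Λ.lies

lemma π_lt_one : v Λ.π < 1 := by
  by_contra h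
  rw [not_lt] at h
  exact absurd Λ.vp_lt_one (not_lt.mpr (Λ.val ▸ one_le_pow_of_one_le' h _))

lemma π_pos : 0 < v Λ.π := by
  refine zero_lt_iff.mpr fun h => ?_
  have := Λ.val
  rw [h, zero_pow Λ.D_pos.ne'] at this
  exact (valuation_p_pos (A := A) Λ.prime).ne' this.symm

lemma π_ne_zero : Λ.π ≠ 0 := A.valuation.pos_iff.mp Λ.π_pos

lemma zpow_inj {a b : ℤ} (h : v Λ.π ^ a = v Λ.π ^ b) : a = b :=
  (zpow_right_strictAnti₀ Λ.π_pos Λ.π_lt_one).injective h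

lemma zpow_lt_iff {a b : ℤ} : v Λ.π ^ a < v Λ.π ^ b ↔ b < a :=
  (zpow_right_strictAnti₀ Λ.π_pos Λ.π_lt_one).lt_iff_gt

lemma zpow_le_iff {a b : ℤ} : v Λ.π ^ a ≤ v Λ.π ^ b ↔ b ≤ a :=
  (zpow_right_strictAnti₀ Λ.π_pos Λ.π_lt_one).le_iff_ge

lemma pow_lt_iff {a b : ℕ} : v Λ.π ^ a < v Λ.π ^ b ↔ b < a := by
  rw [← zpow_natCast, ← zpow_natCast, zpow_lt_iff]; exact Nat.cast_lt

lemma pow_le_iff {a b : ℕ} : v Λ.π ^ a ≤ v Λ.π ^ b ↔ b ≤ a := by
  rw [← zpow_natCast, ← zpow_natCast, zpow_le_iff]; exact Nat.cast_le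

/-- The value of `c β ^ i` for `c` fixed by inertia and `β` of the value of `π`. -/
lemma exists_term_val {c β : Qb} (hβ : v β = v Λ.π) (hc : c ∈ kur A) (hc0 : c ≠ 0) (i : ℕ) :
    ∃ k : ℤ, v (c * β ^ i) = v Λ.π ^ ((Λ.D : ℤ) * k + i) := by
  obtain ⟨k, hk⟩ := exists_zpow_of_mem_kur Λ.prime Λ.lies hc hc0
  exact ⟨k, by rw [map_mul, map_pow, hβ, hk, ← Λ.val, ← zpow_natCast, ← zpow_mul,
    zpow_add₀ Λ.π_pos.ne', zpow_natCast (v Λ.π) i]⟩

/-- In a sum `∑ c i β ^ i` with `i < D` the largest term dominates. -/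
theorem val_sum {β : Qb} (hβ : v β = v Λ.π) {c : ℕ → Qb} (hc : ∀ i, c i ∈ kur A)
    (hne : ∃ i < Λ.D, c i ≠ 0) : ∃ j < Λ.D, c j ≠ 0 ∧
      v (∑ i ∈ Finset.range Λ.D, c i * β ^ i) = v (c j * β ^ j) ∧
      ∀ i < Λ.D, v (c i * β ^ i) ≤ v (c j * β ^ j) := by
  classical
  obtain ⟨i₀, hi₀, hci₀⟩ := hne
  have hs : ((Finset.range Λ.D).filter fun i => c i ≠ 0).Nonempty :=
    ⟨i₀, by simp [hi₀, hci₀]⟩
  obtain ⟨j, hj, hmax⟩ := Finset.exists_max_image _ (fun i => v (c i * β ^ i)) hs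
  simp only [Finset.mem_filter, Finset.mem_range] at hj hmax
  obtain ⟨kj, hkj⟩ := Λ.exists_term_val hβ (hc j) hj.2 j
  have hjpos : 0 < v (c j * β ^ j) := hkj ▸ zpow_pos Λ.π_pos _
  have hle : ∀ i < Λ.D, v (c i * β ^ i) ≤ v (c j * β ^ j) := fun i hi => by
    by_cases h0 : c i = 0
    · rw [h0, zero_mul, map_zero]; exact zero_le
    · exact hmax i ⟨hi, h0⟩
  refine ⟨j, hj.1, hj.2, A.valuation.map_sum_eq_of_lt (Finset.mem_range.mpr hj.1) fun i hi => ?_, hle⟩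
  simp only [Finset.mem_sdiff, Finset.mem_range, Finset.mem_singleton] at hi
  by_cases h0 : c i = 0
  · rw [h0, zero_mul, map_zero]; exact hjpos
  refine lt_of_le_of_ne (hle i hi.1) fun he => hi.2 ?_
  obtain ⟨ki, hki⟩ := Λ.exists_term_val hβ (hc i) h0 i
  rw [hki, hkj] at he
  have e := Λ.zpow_inj he
  have h1 := congrArg (fun t : ℤ => t % (Λ.D : ℤ)) e
  simp only [Int.add_mul_emod_self_left, add_comm ((Λ.D : ℤ) * _)] at h1
  rw [Int.emod_eq_of_lt (by positivity) (by exact_mod_cast hi.1),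
    Int.emod_eq_of_lt (by positivity) (by exact_mod_cast hj.1)] at h1
  exact_mod_cast h1

lemma eq_zero_of_sum {β : Qb} (hβ : v β = v Λ.π) {c : ℕ → Qb} (hc : ∀ i, c i ∈ kur A)
    (h : ∑ i ∈ Finset.range Λ.D, c i * β ^ i = 0) : ∀ i < Λ.D, c i = 0 := by
  intro i hi
  by_contra hne
  obtain ⟨j, hj, hcj, hv, -⟩ := Λ.val_sum hβ hc ⟨i, hi, hne⟩
  rw [h, map_zero] at hv
  obtain ⟨k, hk⟩ := Λ.exists_term_val hβ (hc j) hcj j
  exact (zpow_pos Λ.π_pos (((Λ.D : ℕ) : ℤ) * k + j)).ne' (hk ▸ hv.symm)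

/-- A monic polynomial with coefficients fixed by inertia and a root of the value of `π` has
degree at least `D`. -/
lemma le_natDegree {β : Qb} (hβ : v β = v Λ.π) {R : Qb[X]} (hc : ∀ i, R.coeff i ∈ kur A)
    (hR : R ≠ 0) (hroot : R.IsRoot β) : Λ.D ≤ R.natDegree := by
  by_contra h
  rw [not_le] at h
  have he := Λ.eq_zero_of_sum hβ (c := R.coeff) hc (by
    rw [← eval_eq_sum_range' h]; exact hroot)
  exact hR (Polynomial.ext fun i => by
    rcases lt_or_ge i Λ.D with hi | hi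
    · rw [he i hi, coeff_zero]
    · rw [coeff_eq_zero_of_natDegree_lt (h.trans_le hi), coeff_zero])

/-- The conjugates of `z` under inertia. -/
def orb (z : Qb) : Set Qb := {y | ∃ σ ∈ A.inertiaSubgroupIn ℚ, σ z = y}

lemma orb_finite (z : Qb) : (orb (A := A) z).Finite := by
  refine Set.Finite.subset ((minpoly ℚ z).rootSet_finite Qb) ?_
  rintro _ ⟨σ, -, rfl⟩
  rw [mem_rootSet]
  refine ⟨minpoly.ne_zero (Algebra.IsAlgebraic.isAlgebraic z).isIntegral, ?_⟩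
  rw [← AlgEquiv.coe_toAlgHom, aeval_algHom_apply, minpoly.aeval, map_zero]

/-- The inertia elements fixing `z`. -/
def stab (A : ValuationSubring Qb) (z : Qb) : Subgroup GQ where
  carrier := {σ | σ ∈ A.inertiaSubgroupIn ℚ ∧ σ z = z}
  mul_mem' := fun ⟨h1, h2⟩ ⟨h3, h4⟩ => ⟨mul_mem h1 h3, by rw [AlgEquiv.mul_apply, h4, h2]⟩
  one_mem' := ⟨one_mem _, rfl⟩
  inv_mem' := fun {σ} ⟨h1, h2⟩ => ⟨inv_mem h1, by
    conv_lhs => rw [← h2]
    rw [AlgEquiv.aut_inv, AlgEquiv.symm_apply_apply]⟩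

lemma ncard_orb (z : Qb) :
    (orb (A := A) z).ncard = (stab A z).relIndex (A.inertiaSubgroupIn ℚ) := by
  let H : Subgroup GQ := A.inertiaSubgroupIn ℚ
  have h1 : orb (A := A) z = MulAction.orbit H z := Set.ext fun y =>
    ⟨fun ⟨σ, hσ, he⟩ => ⟨⟨σ, hσ⟩, he⟩, fun ⟨σ, he⟩ => ⟨σ.1, σ.2, he⟩⟩
  have h2 : (stab A z).subgroupOf H = MulAction.stabilizer H z := Subgroup.ext fun σ =>
    ⟨fun h => h.2, fun h => ⟨σ.2, h⟩⟩
  rw [h1, Subgroup.relIndex, h2, MulAction.index_stabilizer]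

/-- The monic polynomial with roots the conjugates of `π`. -/
def poly : Qb[X] := ∏ r ∈ (orb_finite (A := A) Λ.π).toFinset, (X - C r)

lemma orb_map {σ : GQ} (hσ : σ ∈ A.inertiaSubgroupIn ℚ) {z y : Qb} (hy : y ∈ orb (A := A) z) :
    σ y ∈ orb (A := A) z := by
  obtain ⟨τ, hτ, rfl⟩ := hy
  exact ⟨σ * τ, mul_mem hσ hτ, rfl⟩

lemma poly_coeff (i : ℕ) : Λ.poly.coeff i ∈ kurInt A := by
  rw [mem_kurInt]
  refine ⟨mem_kur.mpr fun σ hσ => ?_, ?_⟩
  · have e : Λ.poly.map (σ : Qb →+* Qb) = Λ.poly := by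
      rw [poly, Polynomial.map_prod]
      simp only [Polynomial.map_sub, map_X, map_C]
      refine Finset.prod_bij (fun r _ => σ r) (fun r hr => ?_) (fun a _ b _ h => σ.injective h)
        (fun r hr => ?_) (fun r _ => rfl)
      · rw [Set.Finite.mem_toFinset] at hr ⊢; exact orb_map hσ hr
      · rw [Set.Finite.mem_toFinset] at hr
        refine ⟨σ⁻¹ r, ?_, by simp [AlgEquiv.aut_inv]⟩
        rw [Set.Finite.mem_toFinset]; exact orb_map (inv_mem hσ) hr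
    conv_rhs => rw [← e, coeff_map]
    rfl
  · have hlifts : Λ.poly ∈ Polynomial.lifts A.subtype := Subsemiring.prod_mem _ fun r hr => by
      rw [Set.Finite.mem_toFinset] at hr
      obtain ⟨σ, hσ, rfl⟩ := hr
      refine ⟨X - C ⟨σ Λ.π, mem_of_map_le ?_⟩, by simp⟩
      rw [(inert_of_mem_inertiaSubgroupIn A hσ).map_eq]; exact Λ.π_lt_one.le
    obtain ⟨c, hc⟩ := (Polynomial.lifts_iff_coeff_lifts _).mp hlifts i
    rw [← hc]
    exact (A.valuation_le_one_iff _).mpr c.2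

lemma poly_monic : Λ.poly.Monic := monic_prod_of_monic _ _ fun r _ => monic_X_sub_C r

lemma poly_natDegree : Λ.poly.natDegree = (orb (A := A) Λ.π).ncard := by
  rw [poly, natDegree_prod_of_monic _ _ fun r _ => monic_X_sub_C r]
  simp [Set.ncard_eq_toFinset_card _ (orb_finite (A := A) Λ.π)]

lemma poly_root {r : Qb} (hr : r ∈ orb (A := A) Λ.π) : Λ.poly.IsRoot r := by
  rw [IsRoot.def, poly, eval_prod]
  exact Finset.prod_eq_zero ((Set.Finite.mem_toFinset _).mpr hr) (by simp)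

lemma N_le_stab : Λ.N ≤ stab A Λ.π := fun τ hτ => ⟨Λ.le hτ, Λ.fixed τ hτ⟩

lemma ncard_orb_π : (orb (A := A) Λ.π).ncard = Λ.D := by
  refine le_antisymm ?_ ?_
  · rw [ncard_orb, ← Λ.D_eq]
    exact Nat.le_of_dvd (Λ.D_eq ▸ Λ.D_pos) (Subgroup.relIndex_dvd_of_le_left _ Λ.N_le_stab)
  · rw [← Λ.poly_natDegree]
    exact Λ.le_natDegree rfl (fun i => (mem_kurInt.mp (Λ.poly_coeff i)).1) Λ.poly_monic.ne_zero
      (Λ.poly_root ⟨1, one_mem _, rfl⟩)

/-- A subgroup containing `N` with at least its index is `N`. -/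
lemma eq_of_relIndex {S : Subgroup GQ} (hNS : Λ.N ≤ S) (hSI : S ≤ A.inertiaSubgroupIn ℚ)
    (h : Λ.D ≤ S.relIndex (A.inertiaSubgroupIn ℚ)) : S = Λ.N := by
  have e := Subgroup.relIndex_mul_relIndex _ _ _ hNS hSI
  rw [Λ.D_eq] at e
  have hD := Λ.D_pos
  refine le_antisymm (Subgroup.relIndex_eq_one.mp ?_) hNS
  rcases Nat.lt_or_ge (Λ.N.relIndex S) 2 with h2 | h2
  · rcases Nat.eq_zero_or_pos (Λ.N.relIndex S) with h0 | h0
    · rw [h0, zero_mul] at e; omega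
    · omega
  · exfalso; nlinarith

lemma stab_π : stab A Λ.π = Λ.N :=
  Λ.eq_of_relIndex Λ.N_le_stab (fun _ h => h.1) (by rw [← ncard_orb, Λ.ncard_orb_π])

lemma mem_N_iff {σ : GQ} (hσ : σ ∈ A.inertiaSubgroupIn ℚ) : σ ∈ Λ.N ↔ σ Λ.π = Λ.π :=
  ⟨Λ.fixed σ, fun h => Λ.stab_π ▸ (⟨hσ, h⟩ : σ ∈ stab A Λ.π)⟩

lemma fixed_apply {σ : GQ} (hσ : σ ∈ A.inertiaSubgroupIn ℚ) {z : Qb}
    (hz : ∀ τ ∈ Λ.N, τ z = z) : ∀ τ ∈ Λ.N, τ (σ z) = σ z := fun τ hτ => by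
  have h := hz _ (Λ.normal σ hσ τ hτ)
  rw [AlgEquiv.mul_apply, AlgEquiv.mul_apply, AlgEquiv.aut_inv, σ.symm_apply_eq] at h
  exact h

lemma natDegree_poly : Λ.poly.natDegree = Λ.D := by rw [poly_natDegree, ncard_orb_π]

/-- Elements fixed by `N` are polynomials of degree `< D` in `π`. -/
theorem exists_coords {z : Qb} (hz : ∀ τ ∈ Λ.N, τ z = z) :
    ∃ R : Qb[X], (∀ i, R.coeff i ∈ kur A) ∧ R.natDegree < Λ.D ∧
      ∀ σ ∈ A.inertiaSubgroupIn ℚ, R.eval (σ Λ.π) = σ z := by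
  classical
  set s := (orb_finite (A := A) Λ.π).toFinset
  have hwd : ∀ r ∈ s, ∃ y, ∀ σ ∈ A.inertiaSubgroupIn ℚ, σ Λ.π = r → σ z = y := fun r hr => by
    rw [Set.Finite.mem_toFinset] at hr
    obtain ⟨τ, hτ, rfl⟩ := hr
    refine ⟨τ z, fun σ hσ he => ?_⟩
    have hm : τ⁻¹ * σ ∈ Λ.N := by
      refine (Λ.mem_N_iff (mul_mem (inv_mem hτ) hσ)).mpr ?_
      rw [AlgEquiv.mul_apply, he, AlgEquiv.aut_inv, AlgEquiv.symm_apply_apply]
    have h := hz _ hm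
    rw [AlgEquiv.mul_apply, AlgEquiv.aut_inv, τ.symm_apply_eq] at h
    exact h
  choose! f hf using hwd
  have hvs : Set.InjOn (id : Qb → Qb) s := Function.injective_id.injOn
  set R := Lagrange.interpolate s id f with hR
  have hcard : s.card = Λ.D := by
    rw [← Λ.ncard_orb_π, Set.ncard_eq_toFinset_card _ (orb_finite (A := A) Λ.π)]
  have hdeg : R.degree < Λ.D := hcard ▸ Lagrange.degree_interpolate_lt _ hvs
  have hev : ∀ σ ∈ A.inertiaSubgroupIn ℚ, R.eval (σ Λ.π) = σ z := fun σ hσ => by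
    have hmem : σ Λ.π ∈ s := (Set.Finite.mem_toFinset _).mpr ⟨σ, hσ, rfl⟩
    exact (Lagrange.eval_interpolate_at_node _ hvs hmem).trans (hf _ hmem σ hσ rfl).symm
  refine ⟨R, fun i => mem_kur.mpr fun σ hσ => ?_, ?_, hev⟩
  · have e : R.map (σ : Qb →+* Qb) = R := by
      refine Lagrange.eq_interpolate_of_eval_eq _ hvs ?_ fun r hr => ?_
      · exact lt_of_le_of_lt Polynomial.degree_map_le (hcard.symm ▸ hdeg)
      obtain ⟨τ, hτ, rfl⟩ := (Set.Finite.mem_toFinset _).mp hr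
      have h1 : (id (τ Λ.π) : Qb) = (σ : Qb →+* Qb) ((σ⁻¹ * τ) Λ.π) := by
        simp [AlgEquiv.aut_inv]
      rw [h1, eval_map, eval₂_at_apply, hev _ (mul_mem (inv_mem hσ) hτ)]
      rw [← hf _ hr τ hτ rfl]
      simp [AlgEquiv.aut_inv]
    conv_rhs => rw [← e, coeff_map]
    rfl
  · by_cases h0 : R = 0
    · rw [h0, natDegree_zero]; exact Λ.D_pos
    · exact (natDegree_lt_iff_degree_lt h0).mpr hdeg

lemma coords_integral {R : Qb[X]} (hR : ∀ i, R.coeff i ∈ kur A) (hd : R.natDegree < Λ.D)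
    (hz : v (R.eval Λ.π) ≤ 1) (i : ℕ) : R.coeff i ∈ kurInt A := by
  refine mem_kurInt.mpr ⟨hR i, ?_⟩
  by_cases h0 : R.coeff i = 0
  · rw [h0, map_zero]; exact zero_le
  have hi : i < Λ.D := lt_of_le_of_lt (le_natDegree_of_ne_zero h0) hd
  obtain ⟨j, hj, -, hv, hmax⟩ := Λ.val_sum (β := Λ.π) rfl hR ⟨i, hi, h0⟩
  rw [← eval_eq_sum_range' hd] at hv
  have h := (hmax i hi).trans (hv ▸ hz)
  obtain ⟨k, hk⟩ := exists_zpow_of_mem_kur Λ.prime Λ.lies (hR i) h0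
  rw [map_mul, map_pow, hk, ← Λ.val, ← zpow_natCast, ← zpow_mul,
    ← zpow_natCast (v Λ.π) i, ← zpow_add₀ Λ.π_pos.ne', ← zpow_zero (v Λ.π), zpow_le_iff] at h
  rw [hk]
  have hk0 : 0 ≤ k := by
    by_contra hc
    have : (Λ.D : ℤ) * k ≤ -(Λ.D : ℤ) := by nlinarith
    omega
  obtain ⟨n, rfl⟩ := Int.eq_ofNat_of_zero_le hk0
  rw [zpow_natCast]
  exact pow_le_one₀ zero_le Λ.vp_lt_one.le

/-- Values of nonzero elements fixed by `N` are powers of `v π`. -/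
theorem exists_zpow {z : Qb} (hz : ∀ τ ∈ Λ.N, τ z = z) (h0 : z ≠ 0) :
    ∃ k : ℤ, v z = v Λ.π ^ k := by
  obtain ⟨R, hR, hd, hev⟩ := Λ.exists_coords hz
  have hne : ∃ i < Λ.D, R.coeff i ≠ 0 := by
    by_contra hc
    push Not at hc
    have h1 := hev 1 (one_mem _)
    rw [AlgEquiv.one_apply, AlgEquiv.one_apply, eval_eq_sum_range' hd,
      Finset.sum_eq_zero fun i hi => by rw [hc i (Finset.mem_range.mp hi), zero_mul]] at h1
    exact h0 h1.symm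
  obtain ⟨j, hj, hcj, hv, -⟩ := Λ.val_sum (β := Λ.π) rfl hR hne
  obtain ⟨k, hk⟩ := Λ.exists_term_val rfl (hR j) hcj j
  exact ⟨_, by rw [← hk, ← hv, ← eval_eq_sum_range' hd]; exact congrArg _ (hev 1 (one_mem _)).symm⟩

/-- An element fixed by `N` of value `< 1` has value at most `v π`. -/
lemma le_of_lt_one {z : Qb} (hz : ∀ τ ∈ Λ.N, τ z = z) (h : v z < 1) : v z ≤ v Λ.π := by
  by_cases h0 : z = 0
  · simp [h0]
  obtain ⟨k, hk⟩ := Λ.exists_zpow hz h0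
  rw [hk] at h ⊢
  rw [← zpow_zero (v Λ.π), zpow_lt_iff] at h
  calc v Λ.π ^ k ≤ v Λ.π ^ (1 : ℤ) := Λ.zpow_le_iff.mpr h
    _ = v Λ.π := zpow_one _

end Layer

end FA.LocalDef
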