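import Fermat.Agent.LocalDef.Graded
import Fermat.Agent.LocalDef.Herbrand
import Fermat.Agent.LocalDef.Compl
import Mathlib.GroupTheory.PGroup
import Mathlib.RingTheory.IntegralDomain
import Mathlib.GroupTheory.SpecificGroups.Cyclic
import Mathlib.Algebra.CharP.Lemmas

/-!
# Elementary abelian wild inertia with a bounded break

`G / N` is an elementary abelian `p`-section of a layer `N` of inertia, of index prime to `p` in
inertia, and Fontaine's bound holds for the Herbrand products of the layer. Then the characters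
by which inertia acts on the breaks `t` of `G` in quotient layers satisfy `(p - 1) t ≤ e`, and if
there is only one admissible break then `G / N` has a single break.
-/

set_option autoImplicit false
set_option linter.unusedSectionVars false

noncomputable section

open Polynomial FA.Local
open scoped Pointwise

namespace FA.LocalDef

local notation "Qb" => AlgebraicClosure ℚ
local notation "GQ" => AlgebraicClosure ℚ ≃ₐ[ℚ] AlgebraicClosure ℚ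

variable {A : ValuationSubring Qb} {p : ℕ}

namespace Layer

variable {Λ Λ' : Layer A p}

local notation "v" => ValuationSubring.valuation A

lemma N_conj (Λ : Layer A p) {g : GQ} (hg : g ∈ A.inertiaSubgroupIn ℚ) {τ : GQ} (hτ : τ ∈ Λ.N) :
    g * τ * g⁻¹ ∈ Λ.N := by simpa using Λ.normal g⁻¹ (inv_mem hg) τ hτ

lemma gr_eq_zero_of_mem_N (t : ℕ) {σ : GQ} (hσ : σ ∈ Λ.N) : Λ.gr t σ = 0 := by
  rw [gr, Λ.fixed σ hσ, sub_self, zero_div, res_zero]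

lemma chi0_eq_one_of_mem_N {σ : GQ} (hσ : σ ∈ Λ.N) : Λ.chi0 σ = 1 := by
  rw [chi0, Λ.fixed σ hσ, div_self Λ.π_ne_zero, res_one]

/-- The character of a lower layer. -/
lemma chi0_below (hB : Below Λ Λ') {σ : GQ} (hσ : σ ∈ A.inertiaSubgroupIn ℚ) :
    Λ'.chi0 σ = Λ.chi0 σ ^ relDeg Λ Λ' := by
  set h := relDeg Λ Λ'
  set u := Λ'.π / Λ.π ^ h with hu
  have hu1 : v u = 1 := by
    rw [hu, map_div₀, map_pow, val_uniformizer hB, div_self (pow_pos Λ.π_pos _).ne']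
  have hu0 : u ≠ 0 := fun h0 => by simp [h0] at hu1
  have hsu : v (σ u / u) = 1 := by
    rw [map_div₀, (inert_of_mem_inertiaSubgroupIn A hσ).map_eq, hu1, div_one]
  have e : σ Λ'.π / Λ'.π = σ u / u * (σ Λ.π / Λ.π) ^ h := by
    rw [hu, map_div₀, map_pow, div_pow]
    field_simp [Λ.π_ne_zero, Λ'.π_ne_zero, (map_ne_zero σ).mpr Λ.π_ne_zero]
  have h1 : res A (σ u / u) = 1 := by
    refine (res_congr (y := 1) (by simp) ?_).trans res_one
    rw [show σ u / u - 1 = (σ u - u) / u by rw [sub_div, div_self hu0], map_div₀, hu1, div_one]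
    exact (inert_of_mem_inertiaSubgroupIn A hσ).sub_lt u hu1.le
  have hq := Λ.map_div_π (inertia_le_decomposition hσ)
  rw [chi0, e, res_mul hsu.le (by rw [map_pow, hq, one_pow]), h1, one_mul, res_pow hq.le]
  rfl

/-- The filtration ends in `N`. -/
lemma exists_fil_le (Λ : Layer A p) : ∃ T : ℕ, Λ.fil T ≤ Λ.N := by
  classical
  have h : ∀ r ∈ Λ.conj, ∃ n : ℕ, r ≠ Λ.π → v (r - Λ.π) = v Λ.π ^ n := fun r hr => by
    by_cases hne : r = Λ.π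
    · exact ⟨0, fun h => absurd hne h⟩
    obtain ⟨n, hn⟩ := Λ.exists_pow (z := r - Λ.π)
      (fun τ hτ => by rw [map_sub, Λ.conj_fixed hr τ hτ, Λ.fixed τ hτ]) (sub_ne_zero.mpr hne)
      (A.valuation.map_sub_le ((Λ.val_conj hr).le.trans Λ.π_lt_one.le) Λ.π_lt_one.le)
    exact ⟨n, fun _ => hn⟩
  choose! n hn using h
  refine ⟨Λ.conj.sup n, fun σ hσ => (Λ.mem_N_iff hσ.1).mpr ?_⟩
  by_contra hne
  have hr : σ Λ.π ∈ Λ.conj := Λ.mem_conj.mpr ⟨σ, hσ.1, rfl⟩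
  have h1 := hσ.2
  rw [hn _ hr hne, Λ.pow_le_iff] at h1
  have h2 : n (σ Λ.π) ≤ Λ.conj.sup n := Finset.le_sup hr
  omega

/-- An elementary abelian `p`-section of index prime to `p`. -/
structure Wild (Λ : Layer A p) where
  /-- the subgroup -/
  G : Subgroup GQ
  le_G : Λ.N ≤ G
  G_le : G ≤ A.inertiaSubgroupIn ℚ
  normal : ∀ g ∈ A.inertiaSubgroupIn ℚ, ∀ σ ∈ G, g * σ * g⁻¹ ∈ G
  not_dvd : ¬ p ∣ G.relIndex (A.inertiaSubgroupIn ℚ)
  exp : ∀ σ ∈ G, σ ^ p ∈ Λ.N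
  comm : ∀ σ ∈ G, ∀ τ ∈ G, σ⁻¹ * τ⁻¹ * σ * τ ∈ Λ.N

/-- Fontaine's bound for a layer. -/
def Bounded (Λ : Layer A p) : Prop :=
  ∀ r₀ ∈ Λ.conj, r₀ ≠ Λ.π → ∀ u : ℕ, Λ.phi r₀ = v Λ.π ^ u → (p - 1) * (u - 1) ≤ p * Λ.D

namespace Wild

variable (W : Wild Λ)

/-- The tame index. -/
def e : ℕ := W.G.relIndex (A.inertiaSubgroupIn ℚ)

/-- The wild index. -/
def d : ℕ := Λ.N.relIndex W.G

lemma d_mul_e : W.d * W.e = Λ.D := by
  rw [d, e, Subgroup.relIndex_mul_relIndex _ _ _ W.le_G W.G_le, Λ.D_eq]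

lemma d_pos : 0 < W.d :=
  Nat.pos_of_mul_pos_right (show 0 < W.d * W.e by rw [W.d_mul_e]; exact Λ.D_pos)

lemma e_pos : 0 < W.e :=
  Nat.pos_of_mul_pos_left (show 0 < W.d * W.e by rw [W.d_mul_e]; exact Λ.D_pos)

/-- The section seen in a lower layer. -/
def lower (hB : Below Λ Λ') (h : Λ'.N ≤ W.G) : Wild Λ' where
  G := W.G
  le_G := h
  G_le := W.G_le
  normal := W.normal
  not_dvd := W.not_dvd
  exp σ hσ := hB.le (W.exp σ hσ)
  comm σ hσ τ hτ := hB.le (W.comm σ hσ τ hτ)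

variable [hp : Fact p.Prime]

include hp in
lemma exists_d_eq : ∃ m : ℕ, W.d = p ^ m := by
  have hN : (Λ.N.subgroupOf W.G).Normal := ⟨fun x hx g => Λ.N_conj (W.G_le g.2) hx⟩
  have hfin : Finite (W.G ⧸ Λ.N.subgroupOf W.G) :=
    Nat.finite_of_card_ne_zero (show Λ.N.relIndex W.G ≠ 0 from W.d_pos.ne')
  have hpg : IsPGroup p (W.G ⧸ Λ.N.subgroupOf W.G) := fun q => by
    obtain ⟨σ, rfl⟩ := QuotientGroup.mk'_surjective _ q
    refine ⟨1, ?_⟩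
    rw [pow_one, ← map_pow, QuotientGroup.mk'_apply, QuotientGroup.eq_one_iff]
    exact W.exp σ.1 σ.2
  exact IsPGroup.iff_card.mp hpg

include hp in
lemma p_le_d (hne : ¬ W.G ≤ Λ.N) : p ≤ W.d := by
  obtain ⟨m, hm⟩ := W.exists_d_eq
  rw [hm]
  refine Nat.le_self_pow (fun h0 => hne ?_) p
  exact Subgroup.relIndex_eq_one.mp (show W.d = 1 by rw [hm, h0, pow_zero])

include hp in
lemma G_eq_fil_one : W.G = Λ.fil 1 := by
  have := res_charP hp.out Λ.lies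
  refine le_antisymm (fun σ hσ => (Λ.chi0_eq_one_iff (W.G_le hσ)).mp ?_) fun σ hσ => ?_
  · have h := Λ.chi0_pow (W.G_le hσ) p
    rw [chi0_eq_one_of_mem_N (W.exp σ hσ)] at h
    exact frobenius_inj (Res A) p (by rw [frobenius_def, frobenius_def, ← h, one_pow])
  · obtain ⟨T, hT⟩ := Λ.exists_fil_le
    have hpow : ∀ i, σ ^ p ^ i ∈ Λ.fil (1 + i) := fun i => by
      induction i with
      | zero => simpa using hσ
      | succ i ih => rw [pow_succ, pow_mul]; exact Λ.pow_p_mem_fil (Nat.le_add_right 1 i) ih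
    have h1 : σ ^ p ^ T ∈ W.G := W.le_G (hT (Λ.fil_anti (by omega) (hpow T)))
    have hGn : (W.G.subgroupOf (A.inertiaSubgroupIn ℚ)).Normal :=
      ⟨fun x hx g => W.normal g.1 g.2 x.1 hx⟩
    have h2 : σ ^ W.e ∈ W.G := by
      have := Subgroup.pow_index_mem (W.G.subgroupOf (A.inertiaSubgroupIn ℚ)) ⟨σ, hσ.1⟩
      exact this
    have hco : Nat.Coprime (p ^ T) W.e :=
      (((Nat.Prime.coprime_iff_not_dvd hp.out).mpr W.not_dvd)).pow_left T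
    obtain ⟨a, b, hab⟩ : ∃ a b : ℤ, ((p ^ T : ℕ) : ℤ) * a + (W.e : ℤ) * b = 1 :=
      ⟨_, _, (Nat.gcd_eq_gcd_ab _ _).symm.trans (by rw [hco.gcd_eq_one]; rfl)⟩
    have h3 : σ = (σ ^ p ^ T) ^ a * (σ ^ W.e) ^ b := by
      rw [← zpow_natCast σ (p ^ T), ← zpow_natCast σ W.e, ← zpow_mul, ← zpow_mul, ← zpow_add, hab,
        zpow_one]
    rw [h3]
    exact mul_mem (zpow_mem h1 a) (zpow_mem h2 b)

lemma card_orb_G : {y | ∃ σ ∈ W.G, σ Λ.π = y}.ncard = W.d := by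
  have h1 : {y | ∃ σ ∈ W.G, σ Λ.π = y} = MulAction.orbit W.G Λ.π := Set.ext fun y =>
    ⟨fun ⟨σ, hσ, he⟩ => ⟨⟨σ, hσ⟩, he⟩, fun ⟨σ, he⟩ => ⟨σ.1, σ.2, he⟩⟩
  have h2 : Λ.N.subgroupOf W.G = MulAction.stabilizer W.G Λ.π := Subgroup.ext fun σ =>
    Λ.mem_N_iff (W.G_le σ.2)
  rw [h1, ← MulAction.index_stabilizer, ← h2]
  rfl

include hp in
/-- The first break of `G` in a lower layer is small and carries an equivariant homomorphism. -/
theorem exists_first_break (hbd : Bounded Λ) (hB : Below Λ Λ') (h : Λ'.N ≤ W.G)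
    (hne : ¬ W.G ≤ Λ'.N) :
    ∃ t : ℕ, 1 ≤ t ∧ (p - 1) * t ≤ W.e ∧ W.G ≤ Λ'.fil t ∧
      (∃ g ∈ W.G, v (g Λ'.π - Λ'.π) = v Λ'.π ^ (t + 1)) ∧
      ∃ ξ : GQ → Res A, (∀ σ ∈ W.G, ∀ τ ∈ W.G, ξ (σ * τ) = ξ σ + ξ τ) ∧
        (∀ σ ∈ Λ.N, ξ σ = 0) ∧ (∃ σ ∈ W.G, ξ σ ≠ 0) ∧
        ∀ g ∈ A.inertiaSubgroupIn ℚ, ∀ σ ∈ W.G,
          ξ (g * σ * g⁻¹) = Λ.chi0 g ^ (W.d * t) * ξ σ := by
  classical
  set W' := W.lower hB h
  have hfil : W.G = Λ'.fil 1 := W'.G_eq_fil_one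
  obtain ⟨T, hT⟩ := Λ'.exists_fil_le
  have hex : ∃ t : ℕ, ¬ W.G ≤ Λ'.fil (t + 1) :=
    ⟨T, fun hc => hne (hc.trans ((Λ'.fil_anti (by omega)).trans hT))⟩
  set t := Nat.find hex
  have ht0 : t ≠ 0 := fun h0 => by
    have := Nat.find_spec hex
    rw [show Nat.find hex = t from rfl, h0] at this
    exact this hfil.le
  have ht1 : 1 ≤ t := Nat.one_le_iff_ne_zero.mpr ht0
  have hGt : W.G ≤ Λ'.fil t := by
    have := Nat.find_min hex (show t - 1 < t by omega)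
    rwa [not_not, show t - 1 + 1 = t by omega] at this
  obtain ⟨g, hgG, hgt⟩ : ∃ g ∈ W.G, g ∉ Λ'.fil (t + 1) := by
    exact SetLike.not_le_iff_exists.mp (Nat.find_spec hex)
  have hgI := W.G_le hgG
  have hgN : g ∉ Λ'.N := fun hc => hgt (Λ'.N_le_fil _ hc)
  have hgv : v (g Λ'.π - Λ'.π) = v Λ'.π ^ (t + 1) := by
    obtain ⟨b, hb⟩ := Λ'.exists_break hgI hgN
    have h1 := (hGt hgG).2
    rw [hb, Λ'.pow_le_iff] at h1
    have h2 : ¬ t + 1 + 1 ≤ b + 1 := fun hc => hgt ⟨hgI, by rw [hb, Λ'.pow_le_iff]; exact hc⟩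
    rw [hb, show b = t by omega]
  refine ⟨t, ht1, ?_, hGt, ⟨g, hgG, hgv⟩, fun σ => Λ'.gr t σ ^ W'.d, ?_, ?_, ?_, ?_⟩
  · -- the bound
    obtain ⟨r₀, hr₀, hr₀ne, hle⟩ := phi_le hB hgI (fun hc => hgN ((Λ'.mem_N_iff hgI).mpr hc))
    obtain ⟨u, hu⟩ := Λ.phi_eq_pow hr₀ hr₀ne
    have h3 := hbd r₀ hr₀ hr₀ne u hu
    set Y := Λ'.conj.filter fun y => ∃ σ ∈ W.G, σ Λ'.π = y
    have hY : Y.card = W'.d := by
      rw [← W'.card_orb_G, ← Set.ncard_coe_finset]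
      congr 1
      ext y
      simp only [Y, Finset.coe_filter, Set.mem_setOf_eq]
      exact ⟨fun hy => hy.2, fun ⟨σ, hσ, he⟩ => ⟨Λ'.mem_conj.mpr ⟨σ, W.G_le hσ, he⟩, σ, hσ, he⟩⟩
    have hbound : ∀ y ∈ Λ'.conj, max (v (Λ'.π - y)) (v (Λ'.π - g Λ'.π)) ≤
        v Λ'.π ^ (if y ∈ Y then t + 1 else 1) := by
      intro y hy
      have h4 : v (Λ'.π - g Λ'.π) = v Λ'.π ^ (t + 1) := by rw [A.valuation.map_sub_swap, hgv]
      split_ifs with hyY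
      · obtain ⟨-, σ, hσ, rfl⟩ := Finset.mem_filter.mp hyY
        exact max_le (by rw [A.valuation.map_sub_swap]; exact (hGt hσ).2) h4.le
      · refine max_le ?_ (h4.le.trans (Λ'.pow_le_iff.mpr (by omega)))
        obtain ⟨σ, hσ, rfl⟩ := Λ'.mem_conj.mp hy
        rw [A.valuation.map_sub_swap]
        exact (Λ'.mem_fil_zero hσ).2
    have h5 : Λ.phi r₀ ≤ v Λ'.π ^ (∑ y ∈ Λ'.conj, if y ∈ Y then t + 1 else 1) := by
      rw [← Finset.prod_pow_eq_pow_sum]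
      exact hle.trans (Finset.prod_le_prod (fun _ _ => zero_le) hbound)
    have hsum : (∑ y ∈ Λ'.conj, if y ∈ Y then t + 1 else 1) = Λ'.D + W'.d * t := by
      rw [← hY, ← Λ'.card_conj, Finset.card_eq_sum_ones Λ'.conj, Finset.card_eq_sum_ones Y,
        Finset.sum_mul, one_mul, Finset.sum_filter, ← Finset.sum_add_distrib]
      refine Finset.sum_congr rfl fun y hy => ?_
      by_cases hc : ∃ σ ∈ W.G, σ Λ'.π = y
      · rw [if_pos (show y ∈ Y from Finset.mem_filter.mpr ⟨hy, hc⟩), if_pos hc, add_comm]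
      · rw [if_neg (show y ∉ Y from fun hm => hc (Finset.mem_filter.mp hm).2), if_neg hc, add_zero]
    rw [hsum, hu, val_uniformizer hB, ← pow_mul, Λ.pow_le_iff, mul_add, deg_mul hB] at h5
    have hd : relDeg Λ Λ' * W'.d = W.d :=
      Subgroup.relIndex_mul_relIndex _ _ _ hB.le h
    rw [← mul_assoc, hd] at h5
    have hpd := W.p_le_d (fun hc => hne (hc.trans hB.le))
    have hD := W.d_mul_e
    have h2 := hp.out.two_le
    have hdt : 1 ≤ W.d * t := Nat.mul_pos W.d_pos ht1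
    obtain ⟨q, rfl⟩ : ∃ q, p = q + 1 := ⟨p - 1, by omega⟩
    simp only [Nat.add_sub_cancel] at h3 ⊢
    have h6 : q * (Λ.D + W.d * t - 1) ≤ (q + 1) * Λ.D :=
      le_trans (Nat.mul_le_mul_left q (by omega)) h3
    have h7 : q * (Λ.D + (W.d * t - 1)) ≤ (q + 1) * Λ.D := by
      rwa [show Λ.D + (W.d * t - 1) = Λ.D + W.d * t - 1 by omega]
    rw [mul_add, add_mul, one_mul] at h7
    have h8 : q * (W.d * t) ≤ Λ.D + q := by
      have : q * (W.d * t - 1) + q = q * (W.d * t) := by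
        rw [← Nat.mul_succ, show (W.d * t - 1).succ = W.d * t by omega]
      omega
    rw [← hD, mul_left_comm] at h8
    by_contra hc
    rw [not_le] at hc
    have h9 := Nat.mul_le_mul_left W.d (show W.e + 1 ≤ q * t by omega)
    rw [mul_add, mul_one] at h9
    omega
  · have := res_charP hp.out Λ'.lies
    intro σ hσ τ hτ
    obtain ⟨m, hm⟩ := W'.exists_d_eq
    simp only [Λ'.gr_mul ht1 (hGt hσ) (hGt hτ), hm, add_pow_char_pow]
  · intro σ hσ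
    simp only [gr_eq_zero_of_mem_N t (hB.le hσ), zero_pow W'.d_pos.ne']
  · exact ⟨g, hgG, pow_ne_zero _ fun hc => hgt ((Λ'.gr_eq_zero_iff (hGt hgG)).mp hc)⟩
  · intro x hx σ hσ
    simp only [Λ'.gr_conj_inertia hx (hGt hσ), chi0_below hB hx, mul_pow, ← pow_mul]
    congr 2
    have hd : relDeg Λ Λ' * W'.d = W.d := Subgroup.relIndex_mul_relIndex _ _ _ hB.le h
    rw [← hd]; ring

include hp in
/-- If the first break in every lower layer is `t₀` then `G / N` has the single break `t₀`. -/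
theorem single_break_of_first {t₀ : ℕ}
    (hfirst : ∀ Λ' : Layer A p, Below Λ Λ' → Λ'.N ≤ W.G → ¬ W.G ≤ Λ'.N →
      W.G ≤ Λ'.fil t₀ ∧ ∃ g ∈ W.G, v (g Λ'.π - Λ'.π) = v Λ'.π ^ (t₀ + 1))
    (hne : ¬ W.G ≤ Λ.N) :
    W.G ≤ Λ.fil t₀ ∧ ∀ σ ∈ W.G, σ ∉ Λ.N → σ ∉ Λ.fil (t₀ + 1) := by
  classical
  obtain ⟨hG, -⟩ := hfirst Λ ⟨le_rfl⟩ W.le_G hne
  refine ⟨hG, fun σ hσ hσN hσt => ?_⟩
  set S := W.G ⊓ Λ.fil (t₀ + 1)
  obtain ⟨H, hNH, hHG, hHn, hSH, hGSH⟩ := exists_stable_compl (A.inertiaSubgroupIn ℚ) W.G Λ.N S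
    W.G_le (le_inf W.le_G (Λ.N_le_fil _)) inf_le_left W.normal (fun g hg x hx => Λ.N_conj hg hx)
    (fun g hg x hx => ⟨W.normal g hg x hx.1,
      Λ.conj_mem_fil (inertia_le_decomposition hg) (Λ.inertia_normalizes hg) hx.2⟩)
    W.not_dvd W.exp W.comm
  have hσH : σ ∉ H := fun hc => hσN (hSH σ ⟨hσ, hσt⟩ hc)
  let E : IntermediateField ℚ Qb := IntermediateField.adjoin ℚ {Λ.π}
  have : FiniteDimensional ℚ E :=
    IntermediateField.adjoin.finiteDimensional (Algebra.IsAlgebraic.isAlgebraic Λ.π).isIntegral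
  obtain ⟨Λ', hΛ'⟩ := exists_layer hp.out Λ.lies H (hHG.trans W.G_le)
    (fun x hx τ hτ => by simpa using hHn x⁻¹ (inv_mem hx) τ hτ) E (fun τ hτ => hNH
      ((Λ.mem_N_iff hτ.1).mpr
        (hτ.2 ⟨Λ.π, IntermediateField.subset_adjoin ℚ _ (Set.mem_singleton _)⟩)))
  have hB : Below Λ Λ' := ⟨hΛ' ▸ hNH⟩
  obtain ⟨-, g, hgG, hgv⟩ := hfirst Λ' hB (hΛ' ▸ hHG) (fun hc => hσH (hΛ' ▸ hc hσ))
  obtain ⟨a, ha, b, hb, rfl⟩ := hGSH g hgG
  have haI : a ∈ A.inertiaSubgroupIn ℚ := W.G_le ha.1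
  rw [AlgEquiv.mul_apply, Λ'.fixed b (hΛ'.symm ▸ hb)] at hgv
  have hprod := prod_fibre hB haI
  rw [A.valuation.map_sub_swap Λ'.π, hgv, val_uniformizer hB, ← pow_mul] at hprod
  have hamem : a Λ.π ∈ fibre hB (a Λ'.π) :=
    (mem_fibre hB).mpr ⟨Λ.mem_conj.mpr ⟨a, haI, rfl⟩, key_eval hB haI⟩
  have hle : ∀ r ∈ fibre hB (a Λ'.π), v (Λ.π - r) ≤
      v Λ.π ^ (if r = a Λ.π then t₀ + 2 else t₀ + 1) := by
    intro r hr
    split_ifs with hra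
    · rw [hra, A.valuation.map_sub_swap]; exact ha.2.2
    · obtain ⟨hrc, hrk⟩ := (mem_fibre hB).mp hr
      obtain ⟨f, hf, rfl⟩ := Λ.mem_conj.mp hrc
      rw [key_eval hB hf] at hrk
      have h1 : a⁻¹ * f ∈ W.G := hHG <| hΛ' ▸ (Λ'.mem_N_iff (mul_mem (inv_mem haI) hf)).mpr (by
        rw [AlgEquiv.mul_apply, hrk, AlgEquiv.aut_inv, AlgEquiv.symm_apply_apply])
      rw [A.valuation.map_sub_swap]
      exact (hG (by simpa using mul_mem ha.1 h1)).2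
  have hlt := Finset.prod_le_prod (fun r _ => zero_le) hle
  rw [hprod, Finset.prod_pow_eq_pow_sum, Λ.pow_le_iff, ← Finset.add_sum_erase _ _ hamem, if_pos rfl,
    Finset.sum_congr rfl fun r hr => if_neg (Finset.ne_of_mem_erase hr), Finset.sum_const,
    Finset.card_erase_of_mem hamem, card_fibre hB (Λ'.mem_conj.mpr ⟨a, haI, rfl⟩), smul_eq_mul]
    at hlt
  have hh := relDeg_pos hB
  have : (relDeg Λ Λ' - 1) * (t₀ + 1) + (t₀ + 1) = relDeg Λ Λ' * (t₀ + 1) := by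
    rw [← Nat.succ_mul, show (relDeg Λ Λ' - 1).succ = relDeg Λ Λ' by omega]
  omega

include hp in
/-- **A single break.** If only `t₀` can occur as a break then `G / N` has the single break `t₀`. -/
theorem single_break (hbd : Bounded Λ) {t₀ : ℕ}
    (hallow : ∀ t : ℕ, 1 ≤ t → (p - 1) * t ≤ W.e → ∀ ξ : GQ → Res A,
      (∀ σ ∈ W.G, ∀ τ ∈ W.G, ξ (σ * τ) = ξ σ + ξ τ) → (∀ σ ∈ Λ.N, ξ σ = 0) →
      (∃ σ ∈ W.G, ξ σ ≠ 0) →
      (∀ g ∈ A.inertiaSubgroupIn ℚ, ∀ σ ∈ W.G,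
          ξ (g * σ * g⁻¹) = Λ.chi0 g ^ (W.d * t) * ξ σ) → t = t₀)
    (hne : ¬ W.G ≤ Λ.N) :
    (1 ≤ t₀ ∧ (p - 1) * t₀ ≤ W.e ∧ W.G ≤ Λ.fil t₀) ∧ ∀ σ ∈ W.G, σ ∉ Λ.N → σ ∉ Λ.fil (t₀ + 1) := by
  have hfirst : ∀ {Λ' : Layer A p}, Below Λ Λ' → Λ'.N ≤ W.G → ¬ W.G ≤ Λ'.N →
      1 ≤ t₀ ∧ (p - 1) * t₀ ≤ W.e ∧ W.G ≤ Λ'.fil t₀ ∧
        ∃ g ∈ W.G, v (g Λ'.π - Λ'.π) = v Λ'.π ^ (t₀ + 1) := fun hB h hn => by
    obtain ⟨t, ht, hte, hG, hg, ξ, h1, h2, h3, h4⟩ := W.exists_first_break hbd hB h hn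
    obtain rfl := hallow t ht hte ξ h1 h2 h3 h4
    exact ⟨ht, hte, hG, hg⟩
  obtain ⟨ht, hte, -, -⟩ := hfirst (Λ' := Λ) ⟨le_rfl⟩ W.le_G hne
  obtain ⟨hG, hsharp⟩ := W.single_break_of_first
    (fun Λ' hB h hn => (hfirst hB h hn).2.2) hne
  exact ⟨⟨ht, hte, hG⟩, hsharp⟩

include hp in
/-- The tame character has exact order `e`. -/
theorem e_dvd {n : ℕ} (h : ∀ g ∈ A.inertiaSubgroupIn ℚ, Λ.chi0 g ^ n = 1) : W.e ∣ n := by
  have hGn : (W.G.subgroupOf (A.inertiaSubgroupIn ℚ)).Normal :=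
    ⟨fun x hx g => W.normal g.1 g.2 x.1 hx⟩
  let f : A.inertiaSubgroupIn ℚ →* Res A :=
    { toFun := fun g => Λ.chi0 g
      map_one' := Λ.chi0_one
      map_mul' := fun g g' => Λ.chi0_mul g.2 g'.2 }
  let F : A.inertiaSubgroupIn ℚ ⧸ W.G.subgroupOf (A.inertiaSubgroupIn ℚ) →* Res A :=
    QuotientGroup.lift _ f fun g hg => MonoidHom.mem_ker.mpr
      ((Λ.chi0_eq_one_iff g.2).mpr (W.G_eq_fil_one ▸ hg : g.1 ∈ Λ.fil 1))
  have hF : Function.Injective F := by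
    rw [injective_iff_map_eq_one]
    intro q hq
    obtain ⟨g, rfl⟩ := QuotientGroup.mk'_surjective _ q
    exact (QuotientGroup.eq_one_iff g).mpr
      (show g.1 ∈ W.G from W.G_eq_fil_one ▸ (Λ.chi0_eq_one_iff g.2).mp hq)
  have hfin : Finite (A.inertiaSubgroupIn ℚ ⧸ W.G.subgroupOf (A.inertiaSubgroupIn ℚ)) :=
    Nat.finite_of_card_ne_zero (show W.G.relIndex (A.inertiaSubgroupIn ℚ) ≠ 0 from W.e_pos.ne')
  have hc := isCyclic_of_subgroup_isDomain F hF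
  have he := IsCyclic.exponent_eq_card
    (α := A.inertiaSubgroupIn ℚ ⧸ W.G.subgroupOf (A.inertiaSubgroupIn ℚ))
  rw [e, show W.G.relIndex (A.inertiaSubgroupIn ℚ) =
    Nat.card (A.inertiaSubgroupIn ℚ ⧸ W.G.subgroupOf (A.inertiaSubgroupIn ℚ)) from rfl, ← he]
  refine Monoid.exponent_dvd_of_forall_pow_eq_one fun q => hF ?_
  obtain ⟨g, rfl⟩ := QuotientGroup.mk'_surjective _ q
  rw [map_pow, map_one]
  exact h g.1 g.2

end Wild

end Layer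

end FA.LocalDef
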