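import Fermat.Agent.LocalDef.FlatBasics
import Fermat.Agent.LocalDef.EllipticMult
import Fermat.Agent.LocalDef.Wild

/-!
# The converse: if `E[p]` is finite flat at a multiplicative `p` then `p ∣ v_p(Δ)`

Otherwise the layer of the action has a wild part of degree `p` whose break is `1` by Fontaine's
bound, while the abscissa of a torsion point outside the component of the identity moves by less.
-/

set_option autoImplicit false
set_option linter.unusedSectionVars false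
set_option synthInstance.maxHeartbeats 200000
set_option maxHeartbeats 800000

noncomputable section

open WeierstrassCurve FA.Local FA.Frob FA.EC
open scoped Pointwise WeierstrassCurve.Affine

namespace FA.Local

variable {L Γ : Type*} [Field L] [LinearOrderedCommGroupWithZero Γ] {v : Valuation L Γ}
  {W : Affine L} [DecidableEq L]

/-- A translation by a point near infinity moves a point of the branch region relatively little. -/
theorem Node.addX_sub_le (hN : Node v W) {x₁ y₁ x₂ y₂ : L} (h₁ : W.Nonsingular x₁ y₁)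
    (h₂ : W.Nonsingular x₂ y₂) (hlo : v W.a₄ < v x₁) (hhi : v x₁ < 1) (h₂x : 1 < v x₂) :
    v (W.addX x₁ x₂ (W.slope x₁ x₂ y₁ y₂) - x₁) ≤ v x₁ * v (x₂ / y₂) := by
  have hx₁ : x₁ ≠ 0 := v.pos_iff.mp (lt_of_le_of_lt zero_le hlo)
  have hx₂ : x₂ ≠ 0 := v.pos_iff.mp (zero_lt_one.trans h₂x)
  obtain ⟨t₁, rfl⟩ : ∃ t, y₁ = t * x₁ := ⟨y₁ / x₁, (div_mul_cancel₀ _ hx₁).symm⟩
  obtain ⟨t₂, rfl⟩ : ∃ t, y₂ = t * x₂ := ⟨y₂ / x₂, (div_mul_cancel₀ _ hx₂).symm⟩
  have q₁ := hN.qb_div h₁.1 hx₁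
  have q₂ := hN.qb_div h₂.1 hx₂
  rw [mul_div_cancel_right₀ _ hx₁] at q₁
  rw [mul_div_cancel_right₀ _ hx₂] at q₂
  have hs₁ : v (qb W t₁) < 1 := by
    rw [q₁]
    exact v.map_add_lt hhi (map_div_lt_one hlo)
  have ht₁ := hN.root_le_one hs₁
  have hq₂ : v (x₂ + W.a₄ / x₂) = v x₂ := v.map_add_eq_of_lt_left ((map_div_lt_one
    (hN.hb.trans h₂x)).trans h₂x)
  have ht₂ : 1 < v t₂ := by
    by_contra hc
    rw [not_lt] at hc
    have : v (qb W t₂) ≤ 1 := v.map_sub_le (v.map_add_le (map_pow_le_one hc 2)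
      (map_mul_le_one hN.hI.h₁ hc)) hN.hI.h₂
    rw [q₂, hq₂] at this
    exact absurd this (not_le.mpr h₂x)
  have hsq : v t₂ ^ 2 = v x₂ := by
    rw [← hq₂, ← q₂, qb, show t₂ ^ 2 + W.a₁ * t₂ - W.a₂ = t₂ ^ 2 + (W.a₁ * t₂ - W.a₂) by ring,
      v.map_add_eq_of_lt_left, map_pow]
    have h2 : v t₂ < v (t₂ ^ 2) := by
      rw [map_pow, sq]; exact lt_mul_of_one_lt_left (zero_lt_one.trans ht₂) ht₂
    refine lt_of_le_of_lt (v.map_sub_le ?_ (hN.hI.h₂.trans ht₂.le)) h2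
    rw [map_mul]; exact mul_le_of_le_one_left' hN.hI.h₁
  have hlt : v x₁ < v x₂ := hhi.trans h₂x
  have hxx : x₁ - x₂ ≠ 0 := sub_ne_zero.mpr fun h => hlt.ne (by rw [h])
  rw [Affine.slope_of_X_ne (fun h => hlt.ne (by rw [h]))]
  set b := W.a₄ with hbdef
  simp only [qb] at q₁ q₂
  field_simp at q₁ q₂
  have e : W.addX x₁ x₂ ((t₁ * x₁ - t₂ * x₂) / (x₁ - x₂)) - x₁ = x₁ *
      (b + x₂ * (2 * x₁ - W.a₁ * t₂ + W.a₂ - 2 * (t₁ * t₂) + t₁ ^ 2) - x₁ ^ 2) /
        (x₁ - x₂) ^ 2 := by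
    have hid : W.addX x₁ x₂ ((t₁ * x₁ - t₂ * x₂) / (x₁ - x₂)) =
        x₁ * x₂ * (t₁ - t₂) ^ 2 / (x₁ - x₂) ^ 2 := by
      simp only [Affine.addX]
      field_simp
      linear_combination (x₁ - x₂) * q₁ - (x₁ - x₂) * q₂
    rw [hid, sub_eq_iff_eq_add, div_eq_iff (pow_ne_zero 2 hxx), add_mul,
      div_mul_cancel₀ _ (pow_ne_zero 2 hxx)]
    linear_combination x₁ * q₂
  have h2' : v (2 : L) ≤ 1 := le_two
  have hnum : v (b + x₂ * (2 * x₁ - W.a₁ * t₂ + W.a₂ - 2 * (t₁ * t₂) + t₁ ^ 2) - x₁ ^ 2) ≤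
      v x₂ * v t₂ := by
    have h1 : (1 : Γ) ≤ v x₂ * v t₂ := one_le_mul h₂x.le ht₂.le
    refine v.map_sub_le (v.map_add_le (hN.hb.le.trans h1) ?_)
      ((map_pow_le_one hhi.le 2).trans h1)
    rw [map_mul]
    refine mul_le_mul' le_rfl (v.map_add_le (v.map_sub_le (v.map_add_le (v.map_sub_le
      ((map_mul_le_one h2' hhi.le).trans ht₂.le) ?_) (hN.hI.h₂.trans ht₂.le)) ?_)
      ((map_pow_le_one ht₁ 2).trans ht₂.le))
    · rw [map_mul]; exact mul_le_of_le_one_left' hN.hI.h₁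
    · rw [map_mul, map_mul]
      exact (mul_le_of_le_one_left' h2').trans (mul_le_of_le_one_left' ht₁)
  have hfin : x₂ / (t₂ * x₂) = t₂⁻¹ := by
    field_simp
  rw [e, hfin, map_div₀, map_mul, map_pow, v.map_sub_eq_of_lt_right hlt, map_inv₀, mul_div_assoc]
  refine mul_le_mul' le_rfl ?_
  rw [div_le_iff₀ (pow_pos (zero_lt_one.trans h₂x) 2)]
  refine hnum.trans (le_of_eq ?_)
  have h0 : v t₂ ≠ 0 := (zero_lt_one.trans ht₂).ne'
  rw [← hsq]
  field_simp

end FA.Local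

namespace FA.LocalDef

local notation "Qb" => AlgebraicClosure ℚ
local notation "GQ" => AlgebraicClosure ℚ ≃ₐ[ℚ] AlgebraicClosure ℚ

namespace Layer

variable {A : ValuationSubring Qb} {p : ℕ} [hp : Fact p.Prime] (Λ : Layer A p)

local notation "v" => ValuationSubring.valuation A

/-- An element fixed by `N` whose value is prime to `p` moves exactly by the break. -/
theorem val_smul_sub_eq {g : GQ} (hg : g ∈ A.inertiaSubgroupIn ℚ) {t : ℕ} (ht : 1 ≤ t)
    (hgπ : v (g Λ.π - Λ.π) = v Λ.π ^ (t + 1)) {y : Qb} (hy : ∀ τ ∈ Λ.N, τ y = y) {k : ℕ}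
    (hk : v y = v Λ.π ^ k) (hpk : ¬ p ∣ k) : v (g y - y) = v Λ.π ^ (k + t) := by
  have hπ := Λ.π_ne_zero
  have hπk : (Λ.π : Qb) ^ k ≠ 0 := pow_ne_zero k hπ
  have hgv : v (g Λ.π) = v Λ.π := (inert_of_mem_inertiaSubgroupIn A hg).map_eq _
  set w := y / Λ.π ^ k
  have hw : v w = 1 := by
    rw [map_div₀, map_pow, hk, div_self (pow_ne_zero k Λ.π_pos.ne')]
  have hwfix : ∀ τ ∈ Λ.N, τ w = w := fun τ hτ => by
    simp only [w, map_div₀, map_pow, hy τ hτ, Λ.fixed τ hτ]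
  have h1 : v ((g w - w) * g Λ.π ^ k) ≤ v Λ.π ^ (k + t + 1) := by
    rw [map_mul, map_pow, hgv, show k + t + 1 = t + 1 + k by ring, pow_add]
    exact mul_le_mul' (hgπ ▸ Λ.disp hg hwfix hw.le) le_rfl
  set ρ := g Λ.π / Λ.π
  have hρ : v (ρ - 1) = v Λ.π ^ t := by
    rw [show ρ - 1 = (g Λ.π - Λ.π) / Λ.π by simp only [ρ]; field_simp, map_div₀, hgπ, pow_succ,
      mul_div_cancel_right₀ _ Λ.π_pos.ne']
  have hρ1 : v ρ ≤ 1 := by rw [map_div₀, hgv, div_self Λ.π_pos.ne']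
  have hs : v (∑ j ∈ Finset.range k, ρ ^ j) = 1 := by
    have hk1 : v ((k : ℕ) : Qb) = 1 := by
      rcases Nat.eq_zero_or_pos k with h0 | h0
      · exact absurd (h0 ▸ dvd_zero p) hpk
      · exact natCast_eq_one_of_not_dvd hp.out Λ.vp_lt_one (by exact_mod_cast hpk)
    refine eq_one_of_sub_lt hk1 ?_
    rw [show (∑ j ∈ Finset.range k, ρ ^ j) - (k : Qb) = ∑ j ∈ Finset.range k, (ρ ^ j - 1) by
      rw [Finset.sum_sub_distrib, Finset.sum_const, Finset.card_range, nsmul_one]]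
    refine lt_of_le_of_lt (A.valuation.map_sum_le (g := v (ρ - 1)) fun j _ => ?_)
      (hρ ▸ pow_lt_one₀ zero_le Λ.π_lt_one (by omega))
    rw [← geom_sum_mul ρ j, map_mul]
    refine mul_le_of_le_one_left' (A.valuation.map_sum_le fun i _ => ?_)
    rw [map_pow]
    exact pow_le_one₀ zero_le hρ1
  have h2 : v (w * (g Λ.π ^ k - Λ.π ^ k)) = v Λ.π ^ (k + t) := by
    rw [show g Λ.π ^ k - Λ.π ^ k = Λ.π ^ k * ((∑ j ∈ Finset.range k, ρ ^ j) * (ρ - 1)) by
      rw [geom_sum_mul, mul_sub, mul_one, ← mul_pow]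
      simp only [ρ]
      rw [mul_div_cancel₀ _ hπ], map_mul, map_mul, map_mul, hw, hs, hρ, map_pow, one_mul, one_mul,
      pow_add]
  have e : g y - y = (g w - w) * g Λ.π ^ k + w * (g Λ.π ^ k - Λ.π ^ k) := by
    have e1 : w * Λ.π ^ k = y := div_mul_cancel₀ _ hπk
    conv_lhs => rw [← e1, map_mul, map_pow]
    ring
  rw [e, A.valuation.map_add_eq_of_lt_right ?_, h2]
  exact h1.trans_lt (h2.symm ▸ Λ.pow_lt_iff.mpr (by omega))

end Layer

variable {W : WeierstrassCurve ℤ} {p : ℕ} [hp : Fact p.Prime] {A : ValuationSubring Qb} {r : Qb}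
  [(ratCurve W).IsElliptic]

local notation "EQ" => ((ratCurve W)⁄Qb)
local notation "E'" => (toOrigin ((ratCurve W)⁄Qb) r)

namespace NodeAt

variable (N : NodeAt W p A r)

include N

/-- The square of the value of `a₄` is that of the discriminant. -/
theorem valuation_a₄_sq : A.valuation (E').a₄ ^ 2 = A.valuation (W.Δ : Qb) := by
  have hΔ := congrArg A.valuation (toOrigin_Δ_eq (V := EQ) (two_ne_zero (α := Qb)) N.root)
  rw [map_Δ_ratCurve, map_mul, map_pow] at hΔ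
  have hu : A.valuation (discB EQ r ^ 2 - 64 * (E').a₄) = 1 := by
    refine eq_one_of_sub_lt (a := discB EQ r ^ 2) (by rw [map_pow, N.valuation_disc, one_pow]) ?_
    rw [show discB EQ r ^ 2 - 64 * (E').a₄ - discB EQ r ^ 2 = -(64 * (E').a₄) by ring,
      A.valuation.map_neg]
    exact map_mul_lt_one (natCast_le_one 64) N.node.hb
  rw [hu, mul_one] at hΔ
  exact hΔ.symm

/-- An integer closer to the node than any point of the branch region. -/
theorem exists_int_node : ∃ n : ℤ, A.valuation ((n : Qb) - r) ≤ A.valuation (E').a₄ := by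
  have hp := N.mult.prime
  have hv : A.valuation (W.Δ : Qb) = A.valuation (p : Qb) ^ padicValInt p W.Δ :=
    exists_valuation_eq_pow hp N.mult.lies N.mult.ne_zero
  obtain ⟨n, -, h | h⟩ := N.exists_int_close (padicValInt p W.Δ)
  · exact ⟨n, h⟩
  refine ⟨n, h.trans ?_⟩
  rw [← hv, ← N.valuation_a₄_sq]
  rw [sq]
  exact mul_le_of_le_one_left' N.node.hb.le

end NodeAt

/-- **A finite flat `E[p]` at a multiplicative `p` forces `p ∣ v_p(Δ)`.** -/
theorem dvd_padicValInt_of_hasModel [Fintype (Submodule.torsionBy ℤ ((ratCurve W)⁄Qb).Point p)]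
    (N : NodeAt W p A r)
    (hmod : HasModel A (Submodule.torsionBy ℤ ((ratCurve W)⁄Qb).Point p) fun σ x => σ • x) :
    p ∣ padicValInt p W.Δ := by
  classical
  by_contra hpn
  have hp' := hp.out
  have hA := N.mult.lies
  have hp2 := N.ne_two
  have hp3 : 3 ≤ p := by have := hp'.two_le; omega
  set n := padicValInt p W.Δ
  let T := Submodule.torsionBy ℤ ((ratCurve W)⁄Qb).Point p
  have hsmul_add : ∀ (σ : GQ) (x y : T), σ • (x + y) = σ • x + σ • y := fun σ x y => smul_add σ x y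
  obtain ⟨S, hS⟩ := exists_sys hmod fun σ _ x y => hsmul_add σ x y
  obtain ⟨Λ, hΛN, hbd⟩ := S.exists_kerLayer hA
  have hfix : ∀ σ ∈ A.inertiaSubgroupIn ℚ, (∀ x : T, σ • x = x) → σ ∈ Λ.N := fun σ hσ h => by
    rw [hΛN, Sys.mem_ker]
    exact ⟨hσ, fun x => by rw [hS]; exact h x⟩
  have hNfix : ∀ σ ∈ Λ.N, ∀ x : T, σ • x = x := fun σ hσ x => by
    rw [hΛN, Sys.mem_ker] at hσ
    have := hσ.2 x
    rwa [hS] at this
  -- the line
  set L := e1Torsion W A p
  have hL1 : Module.finrank (ZMod p) L = 1 := finrank_e1Torsion N.mult hp2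
  have hLe0 : ∀ x : T, x ∈ L ↔ x.1 ∈ N.e0Group := fun x =>
    ⟨fun h => N.e1_mem h, fun h => N.e1_of_torsion h (nsmul_torsion x)⟩
  have hsub : ∀ σ ∈ A.inertiaSubgroupIn ℚ, ∀ x : T, σ • x - x ∈ L := fun σ hσ x => by
    rw [hLe0]
    obtain ⟨Q, hQ⟩ := (originEquiv EQ r).surjective ((σ • x - x : T) : (EQ).toAffine.Point)
    rw [← hQ, N.mem_e0Group, ← nsE0_origin_iff two_ne_zero N.int N.node, hQ]
    exact nsE0_smul_sub (ratCurve W) N.root N.int N.node two_ne_zero (intCoeff_ratCurve W A)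
      (inert_of_mem_inertiaSubgroupIn A hσ) x.1
  obtain ⟨Q, hQL⟩ : ∃ Q : T, Q ∉ L := by
    by_contra hall
    push Not at hall
    have htop : L = ⊤ := top_unique fun x _ => hall x
    rw [htop, finrank_top, finrank_torsion (ratCurve W) p] at hL1
    norm_num at hL1
  have hsup : L ⊔ Submodule.span (ZMod p) {Q} = ⊤ := by
    refine Submodule.eq_top_of_finrank_eq ?_
    have h1 := Submodule.finrank_lt_finrank_of_lt (show L < L ⊔ Submodule.span (ZMod p) {Q} from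
      lt_of_le_of_ne le_sup_left fun h => hQL (h ▸ Submodule.mem_sup_right
        (Submodule.mem_span_singleton_self Q)))
    have h2 := Submodule.finrank_le (L ⊔ Submodule.span (ZMod p) {Q})
    rw [finrank_torsion (ratCurve W) p] at h2 ⊢
    omega
  have hzmul : ∀ (σ : GQ) (c : ZMod p) (x : T), σ • c • x = c • σ • x := fun σ c x => by
    rw [← ZMod.natCast_zmod_val c, Nat.cast_smul_eq_nsmul, Nat.cast_smul_eq_nsmul]
    exact map_nsmul (DistribSMul.toAddMonoidHom T σ) _ x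
  have hgen : ∀ σ τ : GQ, (∀ x ∈ L, σ • x = τ • x) → σ • Q = τ • Q → ∀ x : T, σ • x = τ • x := by
    intro σ τ hL hQ x
    obtain ⟨a, ha, b, hb, rfl⟩ := Submodule.mem_sup.mp (hsup ▸ Submodule.mem_top :
      x ∈ L ⊔ Submodule.span (ZMod p) {Q})
    obtain ⟨c, rfl⟩ := Submodule.mem_span_singleton.mp hb
    rw [hsmul_add, hsmul_add, hL a ha, hzmul, hzmul, hQ]
  -- the wild part
  let G : Subgroup GQ :=
    { carrier := {σ | σ ∈ A.inertiaSubgroupIn ℚ ∧ ∀ x ∈ L, σ • x = x}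
      one_mem' := ⟨one_mem _, fun x _ => one_smul _ x⟩
      mul_mem' := fun ⟨h1, h2⟩ ⟨h3, h4⟩ => ⟨mul_mem h1 h3, fun x hx => by
        rw [mul_smul, h4 x hx, h2 x hx]⟩
      inv_mem' := fun {σ} ⟨h1, h2⟩ => ⟨inv_mem h1, fun x hx => by
        conv_lhs => rw [← h2 x hx]
        rw [inv_smul_smul]⟩ }
  have hGmul : ∀ σ ∈ G, ∀ τ ∈ G, (σ * τ) • Q = (σ • Q - Q) + (τ • Q - Q) + Q := by
    intro σ hσ τ hτ
    have h := hσ.2 _ (hsub τ hτ.1 Q)
    rw [mul_smul]
    conv_lhs => rw [← sub_add_cancel (τ • Q) Q, hsmul_add, h]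
    abel
  have hexpQ : ∀ σ ∈ G, ∀ m : ℕ, σ ^ m • Q = m • (σ • Q - Q) + Q := fun σ hσ m => by
    induction m with
    | zero => rw [pow_zero, one_smul, zero_nsmul, zero_add]
    | succ m ih =>
      rw [pow_succ, hGmul _ (pow_mem hσ m) _ hσ, ih, add_sub_cancel_right, succ_nsmul]
  have hIpow : ∀ σ ∈ A.inertiaSubgroupIn ℚ, σ ^ (p - 1) ∈ G := fun σ hσ => by
    refine ⟨pow_mem hσ _, fun x hx => ?_⟩
    obtain ⟨⟨P₀, hP₀⟩, hP₀0, hP₀L⟩ := finrank_eq_one_iff'.mp hL1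
    obtain ⟨c, hc⟩ := hP₀L ⟨σ • P₀, smul_mem_e1Torsion (inertia_le_decomposition hσ) hP₀⟩
    have hc' : σ • P₀ = c • P₀ := (congrArg Subtype.val hc).symm
    have hc0 : c ≠ 0 := fun h => hP₀0 (Subtype.ext (by
      have h' := hc'
      rw [h, zero_smul] at h'
      simpa using congrArg (σ⁻¹ • ·) h'))
    have hpow : ∀ m : ℕ, σ ^ m • P₀ = c ^ m • P₀ := fun m => by
      induction m with
      | zero => simp
      | succ m ih => rw [pow_succ, mul_smul, hc', hzmul, ih, smul_smul, pow_succ']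
    obtain ⟨d, hd⟩ := hP₀L ⟨x, hx⟩
    have hd' : d • P₀ = x := congrArg Subtype.val hd
    rw [← hd', hzmul, hpow, ZMod.pow_card_sub_one_eq_one hc0, one_smul]
  have hNG : Λ.N ≤ G := fun σ hσ => ⟨Λ.le hσ, fun x _ => hNfix σ hσ x⟩
  have hGn : ∀ g ∈ A.inertiaSubgroupIn ℚ, ∀ σ ∈ G, g * σ * g⁻¹ ∈ G := fun g hg σ hσ =>
    ⟨mul_mem (mul_mem hg hσ.1) (inv_mem hg), fun x hx => by
      rw [mul_smul, mul_smul,
        hσ.2 _ (smul_mem_e1Torsion (inertia_le_decomposition (inv_mem hg)) hx), smul_inv_smul]⟩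
  have he_dvd : ¬ p ∣ G.relIndex (A.inertiaSubgroupIn ℚ) := by
    intro hd
    have hnormal : (G.subgroupOf (A.inertiaSubgroupIn ℚ)).Normal :=
      ⟨fun x hx g => hGn g g.2 x hx⟩
    have hne : G.relIndex (A.inertiaSubgroupIn ℚ) ≠ 0 := fun h0 =>
      Λ.D_pos.ne' (Λ.D_eq ▸ Subgroup.relIndex_eq_zero_of_le_left hNG h0)
    have : Finite (A.inertiaSubgroupIn ℚ ⧸ G.subgroupOf (A.inertiaSubgroupIn ℚ)) :=
      Nat.finite_of_card_ne_zero hne
    obtain ⟨g, hg⟩ := exists_prime_orderOf_dvd_card'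
      (G := A.inertiaSubgroupIn ℚ ⧸ G.subgroupOf (A.inertiaSubgroupIn ℚ)) p hd
    obtain ⟨g', rfl⟩ := QuotientGroup.mk'_surjective _ g
    have h1 := orderOf_dvd_of_pow_eq_one (x := QuotientGroup.mk'
      (G.subgroupOf (A.inertiaSubgroupIn ℚ)) g') (n := p - 1) (by
      rw [← map_pow, QuotientGroup.mk'_apply, QuotientGroup.eq_one_iff]
      exact hIpow g'.1 g'.2)
    rw [hg] at h1
    have := Nat.le_of_dvd (by omega) h1
    omega
  let Wd : Layer.Wild Λ :=
    { G := G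
      le_G := hNG
      G_le := fun σ hσ => hσ.1
      normal := hGn
      not_dvd := he_dvd
      exp := fun σ hσ => hfix _ (pow_mem hσ.1 p) fun x => by
        refine (hgen (σ ^ p) 1 (fun y hy => ?_) ?_ x).trans (one_smul _ x)
        · rw [one_smul]; exact (pow_mem hσ p).2 y hy
        · rw [hexpQ σ hσ p, one_smul, ← Nat.cast_smul_eq_nsmul (ZMod p), ZMod.natCast_self,
            zero_smul, zero_add]
      comm := fun σ hσ τ hτ => by
        have hc : σ⁻¹ * τ⁻¹ * σ * τ ∈ G :=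
          mul_mem (mul_mem (mul_mem (inv_mem hσ) (inv_mem hτ)) hσ) hτ
        refine hfix _ hc.1 fun x => ?_
        refine (hgen _ 1 (fun y hy => ?_) ?_ x).trans (one_smul _ x)
        · rw [one_smul]; exact hc.2 y hy
        · rw [show σ⁻¹ * τ⁻¹ * σ * τ = (τ * σ)⁻¹ * (σ * τ) by group, mul_smul, one_smul,
            inv_smul_eq_iff, hGmul σ hσ τ hτ, hGmul τ hτ σ hσ]
          abel }
  have hdp : Wd.d ≤ p := by
    rw [← Wd.card_orb_G, ← Nat.card_coe_set_eq]
    have hLc : Nat.card L = p := by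
      rw [Module.natCard_eq_pow_finrank (K := ZMod p), hL1, pow_one, Nat.card_zmod]
    refine le_of_le_of_eq ?_ hLc
    have : Finite L := Nat.finite_of_card_ne_zero (by rw [hLc]; exact hp'.ne_zero)
    refine Nat.card_le_card_of_injective
      (fun y => (⟨y.2.choose • Q - Q, hsub _ y.2.choose_spec.1.1 Q⟩ : L)) fun y y' h => ?_
    obtain ⟨hσ, hσy⟩ := y.2.choose_spec
    obtain ⟨hτ, hτy⟩ := y'.2.choose_spec
    have hQe : y.2.choose • Q = y'.2.choose • Q := sub_left_injective (congrArg Subtype.val h)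
    have hN : (y'.2.choose)⁻¹ * y.2.choose ∈ Λ.N := hfix _ (mul_mem (inv_mem hτ.1) hσ.1) fun x => by
      rw [mul_smul, inv_smul_eq_iff]
      exact hgen _ _ (fun z hz => by rw [hσ.2 z hz, hτ.2 z hz]) hQe x
    have h2 := Λ.fixed _ hN
    rw [AlgEquiv.mul_apply, AlgEquiv.aut_inv, AlgEquiv.symm_apply_eq, hσy, hτy] at h2
    exact Subtype.ext h2
  have he : Wd.e ∣ p - 1 := Wd.e_dvd fun g hg => by
    rw [← Λ.chi0_pow hg, Λ.chi0_eq_one_iff (pow_mem hg _)]
    exact Wd.G_eq_fil_one ▸ hIpow g hg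
  -- the coordinates of `Q`
  obtain ⟨Q', hQ'⟩ := (originEquiv EQ r).surjective Q.1
  have hQ'p : p • Q' = 0 := (originEquiv EQ r).injective (by
    rw [map_nsmul, hQ', map_zero]; exact nsmul_torsion Q)
  rcases N.node.e0_or_br (hp'.odd_of_ne_two hp2) hQ'p with h0 | ⟨g₀, s, hbr⟩
  · exact hQL ((hLe0 Q).mpr (hQ' ▸ N.mem_e0Group.mpr h0))
  obtain ⟨x, y₀, hxy, rfl⟩ := hbr.exists_eq
  obtain ⟨hXY, hQe⟩ := originEquiv_some hxy
  rw [hQ'] at hQe
  obtain ⟨hlo, hhi⟩ : A.valuation (E').a₄ < A.valuation x ∧ A.valuation x < 1 := by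
    have h := hbr
    rw [br_some] at h
    exact ⟨h.1.symm ▸ h.2.1, h.1.symm ▸ h.2.2.1⟩
  obtain ⟨i, hi⟩ := N.node.pow_eq_of_torsion_even hp' (N.node.br_self hxy hlo hhi) hQ'p
  set a := A.valuation (E').a₄
  have ha0 : 0 < a := A.valuation.pos_iff.mpr N.node.hb₀
  have hai : a ^ p < a ^ (2 * i) ∧ a ^ (2 * i) < 1 := by
    refine ⟨hi ▸ pow_lt_pow_left₀ hlo zero_le hp'.ne_zero, hi ▸ pow_lt_one₀ zero_le hhi hp'.ne_zero⟩
  have hi0 : i ≠ 0 := fun h => by
    rw [h, mul_zero, pow_zero] at hai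
    exact lt_irrefl _ hai.2
  have hip : i < p := by
    by_contra hc
    exact absurd hai.1 (not_lt.mpr (pow_le_pow_right_of_le_one' N.node.hb.le (by omega)))
  obtain ⟨n₀, hn₀⟩ := N.exists_int_node
  set X := x + r
  set z := X - (n₀ : Qb)
  have hvz : A.valuation z = A.valuation x := by
    rw [show z = x - ((n₀ : Qb) - r) by simp only [z, X]; ring,
      A.valuation.map_sub_eq_of_lt_left (hn₀.trans_lt hlo)]
  have hcoord : ∀ (σ : GQ) (x' y' : Qb) (h' : (EQ).toAffine.Nonsingular x' y'),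
      (Affine.Point.some x' y' h' : (EQ).toAffine.Point) = σ • Q.1 → σ X = x' := by
    intro σ x' y' h' h
    obtain ⟨hns, e⟩ := smul_some (σ := σ) (ratCurve W) hXY
    rw [hQe, e, Affine.Point.some.injEq] at h
    exact h.1.symm
  have hzfix : ∀ τ ∈ Λ.N, τ z = z := fun τ hτ => by
    have h := congrArg Subtype.val (hNfix τ hτ Q)
    have h' : (τ • Q).1 = τ • Q.1 := rfl
    rw [h'] at h
    simp only [z, map_sub, map_intCast]
    rw [hcoord τ _ _ hXY (hQe.symm.trans h.symm)]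
  have hz0 : z ≠ 0 := A.valuation.pos_iff.mp (hvz ▸ ha0.trans hlo)
  obtain ⟨k', hk'⟩ := Λ.exists_zpow hzfix hz0
  obtain ⟨k, rfl⟩ := Int.eq_ofNat_of_zero_le (a := k') (by
    have h := hvz ▸ hhi
    rw [hk', ← zpow_zero (A.valuation Λ.π), Λ.zpow_lt_iff] at h
    exact h.le)
  rw [zpow_natCast] at hk'
  have hkp : k * p = Wd.d * (Wd.e * (n * i)) := by
    have h1 : A.valuation Λ.π ^ (k * p) = A.valuation Λ.π ^ (Wd.d * (Wd.e * (n * i))) := by
      rw [pow_mul, ← hk', hvz, hi, pow_mul a 2 i, N.valuation_a₄_sq,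
        exists_valuation_eq_pow hp' hA N.mult.ne_zero, ← Λ.val, ← pow_mul, ← pow_mul, ← Wd.d_mul_e]
      simp only [n, mul_assoc]
    exact le_antisymm (Λ.pow_le_iff.mp h1.ge) (Λ.pow_le_iff.mp h1.le)
  have hndiv : ¬ p ∣ Wd.e * (n * i) := fun h => by
    rcases hp'.dvd_mul.mp h with h | h
    · exact he_dvd h
    rcases hp'.dvd_mul.mp h with h | h
    · exact hpn h
    · exact absurd (Nat.le_of_dvd (Nat.pos_of_ne_zero hi0) h) (not_le.mpr hip)
  have hne : ¬ G ≤ Λ.N := fun h => by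
    have hd1 : Wd.d = 1 := Subgroup.relIndex_eq_one.mpr h
    rw [hd1, one_mul] at hkp
    exact hndiv ⟨k, by rw [← hkp, mul_comm]⟩
  have hdeq : Wd.d = p := le_antisymm hdp (Wd.p_le_d hne)
  have hke : k = Wd.e * (n * i) := by
    rw [hdeq, mul_comm k p] at hkp
    exact Nat.eq_of_mul_eq_mul_left hp'.pos hkp
  obtain ⟨t, ht1, ht2, -, ⟨g, hgG, hgπ⟩, -⟩ :=
    Wd.exists_first_break hbd ⟨le_rfl⟩ hNG hne
  have ht : t = 1 := by
    have h1 := ht2.trans (Nat.le_of_dvd (by omega) he)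
    have h2 : (p - 1) * t ≤ (p - 1) * 1 := by rw [mul_one]; exact h1
    have := Nat.le_of_mul_le_mul_left h2 (by omega)
    omega
  subst ht
  have hgz := Λ.val_smul_sub_eq hgG.1 le_rfl hgπ hzfix hk' (hke ▸ hndiv)
  have hgzX : g z - z = g X - X := by simp only [z, map_sub, map_intCast]; ring
  -- the translation
  set P : T := g • Q - Q
  have hPL : P ∈ L := hsub g hgG.1 Q
  rcases hPe : (P.1 : (EQ).toAffine.Point) with _ | ⟨XP, YP, hP⟩
  · have hPQ : g • Q = Q := sub_eq_zero.mp (Subtype.ext hPe : P = 0)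
    have hgN : g ∈ Λ.N := hfix g hgG.1 fun w =>
      (hgen g 1 (fun w hw => by rw [one_smul]; exact hgG.2 w hw) (by rw [hPQ, one_smul]) w).trans
        (one_smul _ w)
    rw [Λ.fixed g hgN, sub_self, map_zero] at hgπ
    exact (pow_pos Λ.π_pos _).ne hgπ
  have hXP : 1 < A.valuation XP := by
    have h : E1 A.valuation (EQ).toAffine P.1 := hPL
    rw [hPe, e1_some] at h
    exact h
  obtain ⟨Pe, hPeq⟩ := (originEquiv EQ r).surjective P.1
  rw [hPe] at hPeq
  rcases Pe with _ | ⟨xp, yp, hxp⟩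
  · rw [← Affine.Point.zero_def, map_zero] at hPeq
    exact Affine.Point.some_ne_zero _ hPeq.symm
  obtain ⟨hP', ePe⟩ := originEquiv_some hxp
  have hPe2 := ePe.symm.trans hPeq
  rw [Affine.Point.some.injEq] at hPe2
  obtain ⟨hxpX, hypY⟩ := hPe2
  have hr1 := N.int
  have hxp1 : 1 < A.valuation xp := by
    rw [show xp = XP - r by rw [← hxpX]; ring, A.valuation.map_sub_eq_of_lt_left (hr1.trans_lt hXP)]
    exact hXP
  have hxne : x ≠ xp := fun h => lt_irrefl _ (hxp1.trans (h ▸ hhi))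
  -- the bound
  have hgX : g X - X =
      (E').toAffine.addX x xp ((E').toAffine.slope x xp y₀ yp) - x := by
    have hsum : (g • Q).1 = originEquiv EQ r (.some x y₀ hxy + .some xp yp hxp) := by
      rw [map_add, hQ', hPeq, ← hPe, show g • Q = Q + P by simp only [P]; abel]
      rfl
    rw [Affine.Point.add_of_X_ne hxne] at hsum
    obtain ⟨h'', e''⟩ := originEquiv_some (V := EQ) (r := r)
      (Affine.nonsingular_add hxy hxp fun h => hxne h.1)
    rw [e''] at hsum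
    rw [hcoord g _ _ h'' hsum.symm]
    simp only [X]
    ring
  have hbound := N.node.addX_sub_le hxy hxp hlo hhi hxp1
  rw [← hgX, ← hgzX, hgz, ← hvz, hk', pow_succ] at hbound
  -- the quotient of the coordinates at infinity
  set ζ := XP / YP
  have hlarge := large_of_one_lt N.node.hI hxp.1 hxp1
  have hyp2 : 1 < A.valuation yp := hxp1.trans hlarge.1
  have hhalf : A.valuation (halfY EQ r) ≤ 1 := by
    rw [halfY, map_div₀, N.valuation_two, div_one, A.valuation.map_neg]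
    exact A.valuation.map_add_le (map_mul_le_one (intCoeff_ratCurve W A).h₁ hr1)
      (intCoeff_ratCurve W A).h₃
  have hvζ : A.valuation ζ = A.valuation (xp / yp) := by
    rw [map_div₀, map_div₀,
      show A.valuation XP = A.valuation xp by
        rw [← hxpX, A.valuation.map_add_eq_of_lt_left (hr1.trans_lt hxp1)],
      show A.valuation YP = A.valuation yp by
        rw [← hypY, A.valuation.map_add_eq_of_lt_left (hhalf.trans_lt hyp2)]]
  have hζ1 : A.valuation ζ < 1 := by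
    rw [hvζ, map_div₀, div_lt_one₀ (zero_lt_one.trans hyp2)]
    exact hlarge.1
  have hσP : ∀ σ ∈ G, σ ζ = ζ := fun σ hσ => by
    have h := congrArg Subtype.val (hσ.2 P hPL)
    have h' : (σ • P).1 = σ • P.1 := rfl
    rw [h', hPe] at h
    obtain ⟨hns, e⟩ := smul_some (σ := σ) (ratCurve W) hP
    rw [e, Affine.Point.some.injEq] at h
    simp only [ζ, map_div₀, h.1, h.2]
  have hζfix : ∀ τ ∈ Λ.N, τ ζ = ζ := fun τ hτ => hσP τ (hNG hτ)
  have hζ0 : ζ ≠ 0 := A.valuation.pos_iff.mp (by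
    rw [hvζ, map_div₀]
    exact div_pos (zero_lt_one.trans hxp1) (zero_lt_one.trans hyp2))
  obtain ⟨j', hj'⟩ := Λ.exists_zpow hζfix hζ0
  obtain ⟨j, rfl⟩ := Int.eq_ofNat_of_zero_le (a := j') (by
    have h := hζ1
    rw [hj', ← zpow_zero (A.valuation Λ.π), Λ.zpow_lt_iff] at h
    exact h.le)
  rw [zpow_natCast] at hj'
  have hpj : p ∣ j := by
    by_contra hc
    have h := Λ.val_smul_sub_eq hgG.1 le_rfl hgπ hζfix hj' hc
    rw [hσP g hgG, sub_self, map_zero] at h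
    exact (pow_pos Λ.π_pos _).ne h
  rw [← hvζ, hj', mul_le_mul_iff_of_pos_left (pow_pos Λ.π_pos k)] at hbound
  have hj1 : j ≤ 1 := Λ.pow_le_iff.mp (by rw [pow_one]; exact hbound)
  rcases Nat.eq_zero_or_pos j with h0 | h0
  · rw [h0, pow_zero] at hj'
    exact hζ1.ne hj'
  · have := Nat.le_of_dvd h0 hpj
    omega

end FA.LocalDef
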