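import Fermat.Agent.LocalDef.TwoType

/-!
# Breaks of an elementary two-extension of a tame layer of degree three

The first break in a lower layer is `1` or `3`: it is `3` if inertia acts trivially on the
section and `1` if it acts without fixed points.
-/

set_option autoImplicit false
set_option linter.unusedSectionVars false

noncomputable section

open FA.Local
open scoped Pointwise

namespace FA.LocalDef

local notation "Qb" => AlgebraicClosure ℚ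
local notation "GQ" => AlgebraicClosure ℚ ≃ₐ[ℚ] AlgebraicClosure ℚ
local notation "M2" k => Matrix (Fin 2) (Fin 2) k

variable {A : ValuationSubring Qb}

/-- The norm for a cyclic action of order three. -/
def orbitProd (g σ : GQ) : GQ := σ * (g * σ * g⁻¹) * (g * (g * σ * g⁻¹) * g⁻¹)

namespace Layer

variable {p : ℕ} {Λ Λ' : Layer A p}

local notation "v" => ValuationSubring.valuation A

/-- A break is detected by the filtration. -/
lemma exact_of_fil (Λ : Layer A p) {t : ℕ} {σ : GQ} (h : σ ∈ Λ.fil t) (h' : σ ∉ Λ.fil (t + 1)) :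
    v (σ Λ.π - Λ.π) = v Λ.π ^ (t + 1) := by
  obtain ⟨b, hb⟩ := Λ.exists_break h.1 fun hN => h' (Λ.N_le_fil _ hN)
  have h1 := h.2
  rw [hb, Λ.pow_le_iff] at h1
  have h2 : ¬ t + 1 + 1 ≤ b + 1 := fun hc => h' ⟨h.1, by rw [hb, Λ.pow_le_iff]; exact hc⟩
  rw [hb, show b = t by omega]

/-- The layer of a normal subgroup containing `N`. -/
theorem exists_above [Fact p.Prime] (Λ : Layer A p) (N : Subgroup GQ) (hle : Λ.N ≤ N)
    (hI : N ≤ A.inertiaSubgroupIn ℚ)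
    (hn : ∀ x ∈ A.inertiaSubgroupIn ℚ, ∀ τ ∈ N, x * τ * x⁻¹ ∈ N) :
    ∃ Λ' : Layer A p, Λ'.N = N := by
  let E : IntermediateField ℚ Qb := IntermediateField.adjoin ℚ {Λ.π}
  have : FiniteDimensional ℚ E :=
    IntermediateField.adjoin.finiteDimensional (Algebra.IsAlgebraic.isAlgebraic Λ.π).isIntegral
  exact exists_layer Fact.out Λ.lies N hI
    (fun x hx τ hτ => by simpa using hn x⁻¹ (inv_mem hx) τ hτ) E fun τ hτ => hle
      ((Λ.mem_N_iff hτ.1).mpr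
        (hτ.2 ⟨Λ.π, IntermediateField.subset_adjoin ℚ _ (Set.mem_singleton _)⟩))

/-- A break of a lower layer is a break, when the section is that deep. -/
theorem exact_lift (hB : Below Λ Λ') {G : Subgroup GQ} (h : Λ'.N ≤ G) {t : ℕ} (hfil : G ≤ Λ.fil t)
    {a : GQ} (ha : a ∈ G) (hv : v (a Λ'.π - Λ'.π) = v Λ'.π ^ (t + 1)) :
    v (a Λ.π - Λ.π) = v Λ.π ^ (t + 1) := by
  classical
  refine Λ.exact_of_fil (hfil ha) fun hc => ?_
  have haI := (hfil ha).1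
  have hamem : a Λ.π ∈ fibre hB (a Λ'.π) :=
    (mem_fibre hB).mpr ⟨Λ.mem_conj.mpr ⟨a, haI, rfl⟩, key_eval hB haI⟩
  have hle : ∀ r ∈ fibre hB (a Λ'.π), v (Λ.π - r) ≤
      v Λ.π ^ (if r = a Λ.π then t + 2 else t + 1) := by
    intro r hr
    split_ifs with hra
    · rw [hra, A.valuation.map_sub_swap]; exact hc.2
    · obtain ⟨hrc, hrk⟩ := (mem_fibre hB).mp hr
      obtain ⟨f, hf, rfl⟩ := Λ.mem_conj.mp hrc
      rw [key_eval hB hf] at hrk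
      have h1 : a⁻¹ * f ∈ G := h ((Λ'.mem_N_iff (mul_mem (inv_mem haI) hf)).mpr (by
        rw [AlgEquiv.mul_apply, hrk, AlgEquiv.aut_inv, AlgEquiv.symm_apply_apply]))
      rw [A.valuation.map_sub_swap]
      exact (hfil (by simpa using mul_mem ha h1)).2
  have hlt := Finset.prod_le_prod (fun r _ => zero_le) hle
  rw [prod_fibre hB haI, A.valuation.map_sub_swap Λ'.π, hv, val_uniformizer hB, ← pow_mul,
    Finset.prod_pow_eq_pow_sum, Λ.pow_le_iff, ← Finset.add_sum_erase _ _ hamem, if_pos rfl,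
    Finset.sum_congr rfl fun r hr => if_neg (Finset.ne_of_mem_erase hr), Finset.sum_const,
    Finset.card_erase_of_mem hamem, card_fibre hB (Λ'.mem_conj.mpr ⟨a, haI, rfl⟩), smul_eq_mul]
    at hlt
  have hh := relDeg_pos hB
  have : (relDeg Λ Λ' - 1) * (t + 1) + (t + 1) = relDeg Λ Λ' * (t + 1) := by
    rw [← Nat.succ_mul, show (relDeg Λ Λ' - 1).succ = relDeg Λ Λ' by omega]
  omega

end Layer

variable {r0 : GQ →* M2 (ZMod 2)} (TD : TwoData A r0)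

namespace TwoData

open Layer

local notation "v" => ValuationSubring.valuation A

lemma conj_mem {x σ : GQ} (hx : x ∈ A.decompositionSubgroup ℚ) (hσ : σ ∈ TD.Λr.N) :
    x * σ * x⁻¹ ∈ TD.Λr.N := TD.hnorm x hx σ hσ

lemma g_mem : TD.g ∈ A.decompositionSubgroup ℚ := inertia_le_decomposition TD.hg

lemma cube_mem : TD.g ^ 3 ∈ TD.Λr.N :=
  (TD.hN _).mpr ⟨pow_mem TD.hg 3, by rw [map_pow, TD.hgT]; exact tau_facts.2.2.2.1⟩

/-- The section between the layer of the representation and a layer. -/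
def wild {Λ : Layer A 2} (hle : Λ.N ≤ TD.Λr.N) (hexp : ∀ σ ∈ TD.Λr.N, σ * σ ∈ Λ.N)
    (hcomm : ∀ σ ∈ TD.Λr.N, ∀ τ ∈ TD.Λr.N, σ⁻¹ * τ⁻¹ * σ * τ ∈ Λ.N) : Wild Λ where
  G := TD.Λr.N
  le_G := hle
  G_le := TD.Λr.le
  normal g hg σ hσ := TD.Λr.N_conj hg hσ
  not_dvd := by rw [TD.Λr.D_eq, TD.hD]; decide
  exp σ hσ := by rw [pow_two]; exact hexp σ hσ
  comm := hcomm

variable {Λ : Layer A 2} (W : Wild Λ) (hW : W.G = TD.Λr.N)

include hW in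
lemma wild_e : W.e = 3 := by rw [Wild.e, hW, TD.Λr.D_eq, TD.hD]

include hW in
/-- The character of the layer on the generator has order three. -/
lemma chi_facts : Λ.chi0 TD.g ^ 3 = 1 ∧ (∀ n : ℕ, Λ.chi0 TD.g ^ n = 1 → 3 ∣ n) ∧
    1 + Λ.chi0 TD.g + Λ.chi0 TD.g ^ 2 = 0 := by
  have : Fact (Nat.Prime 2) := ⟨Nat.prime_two⟩
  have hB : Below Λ TD.Λr := ⟨hW ▸ W.le_G⟩
  have h3 : Λ.chi0 TD.g ^ 3 = 1 := by
    rw [← Λ.chi0_pow TD.hg, Λ.chi0_eq_one_iff (pow_mem TD.hg 3), ← W.G_eq_fil_one, hW]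
    exact TD.cube_mem
  have hord : ∀ n : ℕ, Λ.chi0 TD.g ^ n = 1 → 3 ∣ n := fun n hn => TD.hord n (by
    rw [chi0_below hB TD.hg, ← pow_mul, mul_comm, pow_mul, hn, one_pow])
  refine ⟨h3, hord, ?_⟩
  have hne : Λ.chi0 TD.g - 1 ≠ 0 := sub_ne_zero.mpr fun h => by
    have := hord 1 (by rw [pow_one, h])
    omega
  refine (mul_eq_zero.mp (?_ : (Λ.chi0 TD.g - 1) *
    (1 + Λ.chi0 TD.g + Λ.chi0 TD.g ^ 2) = 0)).resolve_left hne
  linear_combination h3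

include hW in
/-- The first break in a lower layer. -/
theorem first_break (hbd : Λ.Bounded) {Λ' : Layer A 2} (hB : Below Λ Λ') (h : Λ'.N ≤ W.G)
    (hne : ¬ W.G ≤ Λ'.N) :
    ∃ t : ℕ, W.G ≤ Λ'.fil t ∧ (∃ σ ∈ W.G, v (σ Λ'.π - Λ'.π) = v Λ'.π ^ (t + 1)) ∧
      ((∀ σ ∈ W.G, TD.g * σ * TD.g⁻¹ * σ⁻¹ ∈ Λ'.N) → t = 3) ∧
      ((∀ σ ∈ W.G, orbitProd TD.g σ ∈ Λ'.N) → t = 1) := by
  have : Fact (Nat.Prime 2) := ⟨Nat.prime_two⟩
  have := res_charP Nat.prime_two Λ.lies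
  obtain ⟨t, ht1, hte, hG, ⟨σ, hσ, hv⟩, -⟩ := W.exists_first_break hbd hB h hne
  refine ⟨t, hG, ⟨σ, hσ, hv⟩, ?_⟩
  rw [TD.wild_e W hW] at hte
  set W' := W.lower hB h
  have hW' : W'.G = TD.Λr.N := hW
  obtain ⟨hc3, hord, hsum⟩ := TD.chi_facts W' hW'
  set χ := Λ'.chi0 TD.g
  have hσ2 : σ * σ ∈ Λ'.N := by rw [← pow_two]; exact W'.exp σ hσ
  have hσn : σ ∉ Λ'.N := fun hc => by
    rw [Λ'.fixed σ hc, sub_self, map_zero] at hv
    exact pow_ne_zero _ Λ'.π_pos.ne' hv.symm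
  have hodd : Odd t := Λ'.odd_break (W.G_le hσ) hσn hσ2 hv (by
    have hd := W'.p_le_d hne
    have := W'.d_mul_e
    rw [TD.wild_e W' hW'] at this
    omega)
  have hy : Λ'.gr t σ ≠ 0 := fun h0 => by
    have h1 := ((Λ'.gr_eq_zero_iff (hG hσ)).mp h0).2
    rw [hv, Λ'.pow_le_iff] at h1
    omega
  have hconj : ∀ x ∈ W.G, TD.g * x * TD.g⁻¹ ∈ W.G := fun x hx => W.normal _ TD.hg x hx
  have hgr : ∀ x ∈ W.G, Λ'.gr t (TD.g * x * TD.g⁻¹) = χ ^ t * Λ'.gr t x := fun x hx =>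
    Λ'.gr_conj_inertia TD.hg (hG hx)
  refine ⟨fun hs => ?_, fun hs => ?_⟩
  · have h1 := congrArg (Λ'.gr t) (show TD.g * σ * TD.g⁻¹ * σ⁻¹ * σ = TD.g * σ * TD.g⁻¹ by group)
    rw [Λ'.gr_mul ht1 (hG (mul_mem (hconj σ hσ) (inv_mem hσ))) (hG hσ),
      gr_eq_zero_of_mem_N t (hs σ hσ), zero_add, hgr σ hσ] at h1
    have h3 := hord t ((mul_eq_right₀ hy).mp h1.symm)
    omega
  · have h1 : Λ'.gr t (orbitProd TD.g σ) = 0 := gr_eq_zero_of_mem_N t (hs σ hσ)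
    rw [orbitProd, Λ'.gr_mul ht1 (hG (mul_mem hσ (hconj σ hσ))) (hG (hconj _ (hconj σ hσ))),
      Λ'.gr_mul ht1 (hG hσ) (hG (hconj σ hσ)), hgr _ (hconj σ hσ), hgr σ hσ] at h1
    rcases (show t = 1 ∨ t = 2 ∨ t = 3 by omega) with rfl | rfl | rfl
    · rfl
    · exact absurd hodd (by decide)
    · rw [hc3, one_mul, one_mul] at h1
      refine absurd ?_ hy
      linear_combination h1 - (CharP.cast_eq_zero (Res A) 2) * Λ'.gr 3 σ

include hW in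
/-- The single break `3` when inertia acts trivially. -/
theorem break_three (hbd : Λ.Bounded) {Λ' : Layer A 2} (hB : Below Λ Λ') (h : Λ'.N ≤ W.G)
    (hne : ¬ W.G ≤ Λ'.N) (hs : ∀ σ ∈ W.G, TD.g * σ * TD.g⁻¹ * σ⁻¹ ∈ Λ'.N) :
    W.G ≤ Λ'.fil 3 ∧ ∀ σ ∈ W.G, σ ∉ Λ'.N → σ ∉ Λ'.fil (3 + 1) := by
  have : Fact (Nat.Prime 2) := ⟨Nat.prime_two⟩
  refine (W.lower hB h).single_break_of_first (fun Λ'' hB'' h'' hn'' => ?_) hne
  obtain ⟨t, h1, h2, h3, -⟩ := TD.first_break W hW hbd (⟨hB.le.trans hB''.le⟩ : Below Λ Λ'') h'' hn''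
  obtain rfl := h3 fun σ hσ => hB''.le (hs σ hσ)
  exact ⟨h1, h2⟩

include hW in
/-- The single break `1` when inertia acts without fixed points. -/
theorem break_one (hbd : Λ.Bounded) {Λ' : Layer A 2} (hB : Below Λ Λ') (h : Λ'.N ≤ W.G)
    (hne : ¬ W.G ≤ Λ'.N) (hs : ∀ σ ∈ W.G, orbitProd TD.g σ ∈ Λ'.N) :
    W.G ≤ Λ'.fil 1 ∧ ∀ σ ∈ W.G, σ ∉ Λ'.N → σ ∉ Λ'.fil (1 + 1) := by
  have : Fact (Nat.Prime 2) := ⟨Nat.prime_two⟩
  refine (W.lower hB h).single_break_of_first (fun Λ'' hB'' h'' hn'' => ?_) hne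
  obtain ⟨t, h1, h2, -, h4⟩ := TD.first_break W hW hbd (⟨hB.le.trans hB''.le⟩ : Below Λ Λ'') h'' hn''
  obtain rfl := h4 fun σ hσ => hB''.le (hs σ hσ)
  exact ⟨h1, h2⟩

include hW in
/-- With trivial action of inertia and of Frobenius the section has at most two elements. -/
theorem scalar_index (hbd : Λ.Bounded) {Λ' : Layer A 2} (hB : Below Λ Λ') (h : Λ'.N ≤ W.G)
    (hne : ¬ W.G ≤ Λ'.N) (hn : Λ'.Normalizes TD.F)
    (hs : ∀ σ ∈ W.G, TD.g * σ * TD.g⁻¹ * σ⁻¹ ∈ Λ'.N)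
    (hf : ∀ σ ∈ W.G, TD.F * σ * TD.F⁻¹ * σ⁻¹ ∈ Λ'.N) : Λ'.N.relIndex W.G ≤ 2 := by
  classical
  have : Fact (Nat.Prime 2) := ⟨Nat.prime_two⟩
  have := res_charP Nat.prime_two Λ.lies
  obtain ⟨hG, hsharp⟩ := TD.break_three W hW hbd hB h hne hs
  obtain ⟨a, ha, haN⟩ := SetLike.not_le_iff_exists.mp hne
  have hFd := TD.hF.mem_decompositionSubgroup
  set c := Λ'.chi0 TD.F ^ 3
  have hc : ∀ σ ∈ W.G, Λ'.gr 3 σ = c * Λ'.gr 3 σ ^ 2 := fun σ hσ => by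
    have hm : TD.F * σ * TD.F⁻¹ ∈ W.G := hW ▸ TD.hnorm _ hFd σ (hW ▸ hσ)
    have h1 := congrArg (Λ'.gr 3) (show TD.F * σ * TD.F⁻¹ * σ⁻¹ * σ = TD.F * σ * TD.F⁻¹ by group)
    rw [Λ'.gr_mul (by norm_num) (hG (mul_mem hm (inv_mem hσ))) (hG hσ),
      gr_eq_zero_of_mem_N 3 (hf σ hσ), zero_add, Λ'.gr_conj hFd hn (hG hσ),
      TD.hF.smul_residue_eq] at h1
    exact h1
  have h0 : ∀ σ ∈ W.G, σ ∉ Λ'.N → c * Λ'.gr 3 σ = 1 := fun σ hσ hσN => by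
    have hy : Λ'.gr 3 σ ≠ 0 := fun hh => hsharp σ hσ hσN ((Λ'.gr_eq_zero_iff (hG hσ)).mp hh)
    refine mul_right_cancel₀ hy ?_
    rw [one_mul, mul_assoc, ← pow_two]
    exact (hc σ hσ).symm
  have hsub : {y | ∃ σ ∈ W.G, σ Λ'.π = y} ⊆ ({Λ'.π, a Λ'.π} : Set Qb) := by
    rintro _ ⟨σ, hσ, rfl⟩
    by_cases hσN : σ ∈ Λ'.N
    · exact Or.inl (Λ'.fixed σ hσN)
    refine Or.inr ?_
    have hd : a⁻¹ * σ ∈ Λ'.N := by
      by_contra hcon
      have hg : Λ'.gr 3 σ = Λ'.gr 3 a + Λ'.gr 3 (a⁻¹ * σ) := by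
        rw [← Λ'.gr_mul (by norm_num) (hG ha) (hG (mul_mem (inv_mem ha) hσ)), mul_inv_cancel_left]
      have e1 := h0 σ hσ hσN
      have e2 := h0 a ha haN
      have e3 := h0 _ (mul_mem (inv_mem ha) hσ) hcon
      rw [hg, mul_add, e2, e3] at e1
      exact one_ne_zero (add_eq_left.mp e1)
    show σ Λ'.π = a Λ'.π
    conv_lhs => rw [show σ = a * (a⁻¹ * σ) by group, AlgEquiv.mul_apply, Λ'.fixed _ hd]
  have := Set.ncard_le_ncard hsub (Set.toFinite _)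
  rw [show {y | ∃ σ ∈ W.G, σ Λ'.π = y}.ncard = _ from (W.lower hB h).card_orb_G] at this
  refine (show Λ'.N.relIndex W.G ≤ _ from this).trans ((Set.ncard_insert_le _ _).trans ?_)
  rw [Set.ncard_singleton]

end TwoData

end FA.LocalDef
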