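import Fermat.Agent.LocalDef.Wild
import Fermat.Agent.LocalDef.Connected
import Mathlib.LinearAlgebra.Dual.Lemmas

/-!
# Residue characteristic two

An involution of a layer has an odd break below the degree, and over a tame layer of degree three
the points of a group of order four are as far from the origin as the uniformizer. The latter
bounds the breaks of a wild extension with such a kernel much better than Fontaine's bound.
-/

set_option autoImplicit false
set_option linter.unusedSectionVars false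

noncomputable section

open Polynomial FA.Local
open scoped Pointwise

namespace FA.LocalDef

local notation "Qb" => AlgebraicClosure ℚ
local notation "GQ" => AlgebraicClosure ℚ ≃ₐ[ℚ] AlgebraicClosure ℚ

variable {A : ValuationSubring Qb}

namespace Layer

variable {p : ℕ}

local notation "v" => ValuationSubring.valuation A

/-- Only the elements of `N` fix an element of the value of the uniformizer. -/
lemma stab_eq_of_val (Λ : Layer A p) {β : Qb} (hfix : ∀ τ ∈ Λ.N, τ β = β) (hv : v β = v Λ.π) :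
    stab A β = Λ.N := by
  classical
  refine Λ.eq_of_relIndex (fun τ hτ => ⟨Λ.le hτ, hfix τ hτ⟩) (fun _ h => h.1) ?_
  set R : Qb[X] := ∏ r ∈ (orb_finite (A := A) β).toFinset, (X - C r) with hR
  have hcoeff : ∀ i, R.coeff i ∈ kur A := fun i => mem_kur.mpr fun σ hσ => by
    have e : R.map (σ : Qb →+* Qb) = R := by
      rw [hR, Polynomial.map_prod]
      simp only [Polynomial.map_sub, map_X, map_C]
      refine Finset.prod_bij (fun r _ => σ r) (fun r hr => ?_) (fun a _ b _ h => σ.injective h)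
        (fun r hr => ?_) (fun r _ => rfl)
      · rw [Set.Finite.mem_toFinset] at hr ⊢; exact orb_map hσ hr
      · rw [Set.Finite.mem_toFinset] at hr
        refine ⟨σ⁻¹ r, ?_, by simp [AlgEquiv.aut_inv]⟩
        rw [Set.Finite.mem_toFinset]; exact orb_map (inv_mem hσ) hr
    conv_rhs => rw [← e, coeff_map]
    rfl
  have hdeg : R.natDegree = (orb (A := A) β).ncard := by
    rw [hR, natDegree_prod_of_monic _ _ fun r _ => monic_X_sub_C r]
    simp [Set.ncard_eq_toFinset_card _ (orb_finite (A := A) β)]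
  have hroot : R.IsRoot β := by
    rw [IsRoot.def, hR, eval_prod]
    exact Finset.prod_eq_zero ((Set.Finite.mem_toFinset _).mpr ⟨1, one_mem _, rfl⟩) (by simp)
  rw [← ncard_orb, ← hdeg]
  exact Λ.le_natDegree hv hcoeff (monic_prod_of_monic _ _ fun r _ => monic_X_sub_C r).ne_zero hroot

/-- An involution has an odd break below the degree. -/
theorem odd_break (Λ : Layer A 2) {σ : GQ} (hσ : σ ∈ A.inertiaSubgroupIn ℚ) (hN : σ ∉ Λ.N)
    (hsq : σ * σ ∈ Λ.N) {t : ℕ} (ht : v (σ Λ.π - Λ.π) = v Λ.π ^ (t + 1)) (htD : t < Λ.D) :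
    Odd t := by
  rw [← Nat.not_even_iff_odd]
  rintro ⟨m, rfl⟩
  have hvσ : v (σ Λ.π) = v Λ.π := (inert_of_mem_inertiaSubgroupIn A hσ).map_eq _
  have hσσ : σ (σ Λ.π) = Λ.π := by rw [← AlgEquiv.mul_apply]; exact Λ.fixed _ hsq
  have h2 : v (2 * Λ.π) = v Λ.π ^ (Λ.D + 1) := by
    rw [map_mul, pow_succ, Λ.val]; norm_num
  have hw : v (σ Λ.π + Λ.π) = v Λ.π ^ (m + m + 1) := by
    rw [show σ Λ.π + Λ.π = (σ Λ.π - Λ.π) + 2 * Λ.π by ring,
      A.valuation.map_add_eq_of_lt_left (by rw [ht, h2, Λ.pow_lt_iff]; omega), ht]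
  set β := (σ Λ.π + Λ.π) / (Λ.π * σ Λ.π) ^ m
  have hv : v β = v Λ.π := by
    rw [map_div₀, map_pow, map_mul, hw, hvσ, div_eq_iff (pow_ne_zero _
      (mul_pos Λ.π_pos Λ.π_pos).ne'), mul_pow, ← pow_add, ← pow_succ']
  have hfixσ : σ β = β := by
    rw [map_div₀, map_pow, map_mul, map_add, hσσ, add_comm, mul_comm]
  have hfix : ∀ τ ∈ Λ.N, τ β = β := fun τ hτ => by
    rw [map_div₀, map_pow, map_mul, map_add, Λ.fixed τ hτ, Λ.fixed_apply hσ Λ.fixed τ hτ]
  exact hN (Λ.stab_eq_of_val hfix hv ▸ (⟨hσ, hfixσ⟩ : σ ∈ stab A β))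

end Layer

namespace Sys

variable {V : Type} [AddCommGroup V] [Fintype V] (S : Sys A V)

local notation "v" => ValuationSubring.valuation A

lemma lt_add {C : A.ValueGroup} (hC : C ≠ 0) {x y : V}
    (h : ∀ i, v (S.M.a i x - S.M.a i y) < C) (z : V) :
    ∀ i, v (S.M.a i (x + z) - S.M.a i (y + z)) < C := fun i => by
  obtain ⟨c, hc, he⟩ := S.M.comul i
  rw [he, he, ← Finset.sum_sub_distrib]
  refine A.valuation.map_sum_lt hC fun j _ => ?_
  rw [← Finset.sum_sub_distrib]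
  refine A.valuation.map_sum_lt hC fun k _ => ?_
  rw [← sub_mul, ← mul_sub, map_mul, map_mul]
  exact lt_of_le_of_lt (le_trans (mul_le_of_le_one_right' (S.M.int k z))
    (mul_le_of_le_one_left' (hc j k))) (h j)

lemma exists_far_sub {C : A.ValueGroup} (hC : C ≠ 0) {x x' : V}
    (h : ∃ i, C ≤ v (S.M.a i (x' - x) - S.M.a i 0)) :
    ∃ i, C ≤ v (S.M.a i x' - S.M.a i x) := by
  by_contra hc
  push Not at hc
  obtain ⟨i, hi⟩ := h
  have := S.lt_add hC hc (-x) i
  rw [← sub_eq_add_neg, add_neg_cancel] at this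
  exact absurd hi (not_le.mpr this)

variable [Module (ZMod 2) V]

/-- A point with a free orbit of three points summing to `0`, over a tame layer of degree three, is
as far from `0` as the uniformizer. -/
theorem exists_far (hA : A.LiesOverPrime 2) {Λ : Layer A 2} (hD : Λ.D = 3) {g : GQ}
    (hg : g ∈ A.inertiaSubgroupIn ℚ) (hgen : ∀ σ ∈ A.inertiaSubgroupIn ℚ, ∃ j : ℕ, (g ^ j)⁻¹ * σ ∈ Λ.N)
    {y : V} (hfix : ∀ τ ∈ Λ.N, S.act τ y = y) (hy : y ≠ 0) (hne : S.act g y ≠ y)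
    (hsum : y + S.act g y + S.act g (S.act g y) = 0) :
    ∃ i, v Λ.π ≤ v (S.M.a i y - S.M.a i 0) := by
  classical
  have hgd := inertia_le_decomposition hg
  have hfixδ : ∀ i, ∀ τ ∈ Λ.N, τ (S.M.a i y - S.M.a i 0) = S.M.a i y - S.M.a i 0 := fun i τ hτ => by
    have hτd := inertia_le_decomposition (Λ.le hτ)
    rw [map_sub, S.equiv τ hτd, S.apply_zero_fixed hτd, hfix τ hτ]
  by_contra hfar
  push Not at hfar
  -- so all the coordinates are small
  have hsmall : ∀ i, v (S.M.a i y - S.M.a i 0) ≤ v Λ.π ^ 2 := fun i => by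
    by_cases h0 : S.M.a i y - S.M.a i 0 = 0
    · rw [h0, map_zero]; exact zero_le
    obtain ⟨n, hn⟩ := Λ.exists_pow (hfixδ i) h0
      (A.valuation.map_sub_le (S.M.int _ _) (S.M.int _ _))
    have h := hfar i
    rw [hn] at h ⊢
    rw [← pow_one (v Λ.π), ← pow_mul, one_mul, Λ.pow_lt_iff] at h
    exact Λ.pow_le_iff.mpr h
  have hg3 : g ^ 3 ∈ Λ.N := by
    have hn : (Λ.N.subgroupOf (A.inertiaSubgroupIn ℚ)).Normal :=
      ⟨fun x hx a => Λ.N_conj a.2 hx⟩
    have := Subgroup.pow_index_mem (Λ.N.subgroupOf (A.inertiaSubgroupIn ℚ)) ⟨g, hg⟩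
    rw [show (Λ.N.subgroupOf (A.inertiaSubgroupIn ℚ)).index = 3 from Λ.D_eq.trans hD] at this
    exact this
  -- the trace
  have hg3z : ∀ z : Qb, (∀ τ ∈ Λ.N, τ z = z) → g (g (g z)) = z := fun z hz => by
    have := hz _ hg3
    rwa [pow_succ, pow_succ, pow_one, AlgEquiv.mul_apply, AlgEquiv.mul_apply] at this
  have htr : ∀ z : Qb, (∀ τ ∈ Λ.N, τ z = z) → v z ≤ (v Λ.π ^ 2)⁻¹ →
      v (z + g z + g (g z)) ≤ 1 := by
    intro z hz hle
    by_cases h0 : z + g z + g (g z) = 0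
    · rw [h0, map_zero]; exact zero_le
    have hI := inert_of_mem_inertiaSubgroupIn A hg
    have hv : v (z + g z + g (g z)) ≤ (v Λ.π ^ 2)⁻¹ :=
      A.valuation.map_add_le (A.valuation.map_add_le hle (by rw [hI.map_eq]; exact hle))
        (by rw [hI.map_eq, hI.map_eq]; exact hle)
    have hgfix : g (z + g z + g (g z)) = z + g z + g (g z) := by
      rw [map_add, map_add, hg3z z hz]; ring
    have hkur : z + g z + g (g z) ∈ kur A := mem_kur.mpr fun σ hσ => by
      obtain ⟨j, hj⟩ := hgen σ hσ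
      have hn : ((g ^ j)⁻¹ * σ) (z + g z + g (g z)) = z + g z + g (g z) := by
        rw [map_add, map_add, hz _ hj, Λ.fixed_apply hg hz _ hj,
          Λ.fixed_apply hg (Λ.fixed_apply hg hz) _ hj]
      rw [show σ = g ^ j * ((g ^ j)⁻¹ * σ) by rw [mul_inv_cancel_left], AlgEquiv.mul_apply, hn]
      clear hj hn
      induction j with
      | zero => simp
      | succ j ih => rw [pow_succ, AlgEquiv.mul_apply, hgfix, ih]
    obtain ⟨n, hn⟩ := exists_zpow_of_mem_kur Λ.prime hA hkur h0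
    rw [hn, ← Λ.val, hD, ← zpow_natCast, ← zpow_natCast (v Λ.π) 2, ← zpow_neg, ← zpow_mul,
      Λ.zpow_le_iff] at hv
    rw [hn, ← Λ.val, hD, ← zpow_natCast, ← zpow_mul, ← zpow_zero (v Λ.π), Λ.zpow_le_iff]
    push_cast at hv ⊢
    omega
  -- a functional on the model
  obtain ⟨ζ, hζ⟩ := exists_zeta Nat.prime_two
  have hζ1 : ζ = -1 := hζ.eq_neg_one_of_two_right
  obtain ⟨φ, hφne, hφ⟩ := Submodule.exists_dual_map_eq_bot_of_notMem
    (p := Submodule.span (ZMod 2) {y}) (x := S.act g y) (fun hmem => by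
      obtain ⟨c, hc⟩ := Submodule.mem_span_singleton.mp hmem
      have h2 : c = 0 ∨ c = 1 := (by decide : ∀ d : ZMod 2, d = 0 ∨ d = 1) c
      rcases h2 with rfl | rfl
      · rw [zero_smul] at hc
        exact hy (by rw [← hc, S.act_zero hgd, add_zero, add_zero] at hsum; exact hsum)
      · rw [one_smul] at hc
        exact hne hc.symm) inferInstance
  have hφy : φ y = 0 := by
    have : φ y ∈ Submodule.map φ (Submodule.span (ZMod 2) {y}) :=
      ⟨y, Submodule.mem_span_singleton_self y, rfl⟩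
    rwa [hφ, Submodule.mem_bot] at this
  have hone : ∀ c : ZMod 2, c ≠ 0 → c = 1 := by decide
  have hφ1 : φ (S.act g y) = 1 := hone _ hφne
  have hφ2 : φ (S.act g (S.act g y)) = 1 := by
    have h := congrArg φ hsum
    rw [map_add, map_add, hφy, hφ1, map_zero, zero_add] at h
    exact hone _ fun h0 => by simp [h0] at h
  set b : Qb := (2 * Λ.π)⁻¹ with hb
  set U : Module.Dual (ZMod 2) V → Qb :=
    b • ((fun φ => chi ζ φ y) - fun φ => chi ζ φ 0) +
      g b • ((fun φ => chi ζ φ (S.act g y)) - fun φ => chi ζ φ 0) +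
      g (g b) • ((fun φ => chi ζ φ (S.act g (S.act g y))) - fun φ => chi ζ φ 0) with hU
  have hvb : ∀ d : Qb, v d ≤ v Λ.π ^ 2 → v (b * d) ≤ (v Λ.π ^ 2)⁻¹ := fun d hd => by
    rw [map_mul, hb, map_inv₀, map_mul, show v (2 : Qb) = v Λ.π ^ 3 by
      rw [← hD, Λ.val]; norm_num, ← pow_succ]
    calc (v Λ.π ^ (3 + 1))⁻¹ * v d ≤ (v Λ.π ^ (3 + 1))⁻¹ * v Λ.π ^ 2 := mul_le_mul' le_rfl hd
      _ = _ := by field_simp [Λ.π_pos.ne']
  have hbfix : ∀ τ ∈ Λ.N, τ b = b := fun τ hτ => by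
    rw [hb, map_inv₀, map_mul, map_ofNat, Λ.fixed τ hτ]
  have hBd : S.M.Bd ζ 1 U := fun i => by
    simp only [hU, evF_add_left, evF_smul_left, evF_sub_left, evF_point _ hζ]
    have e : ∀ z, g (S.M.a i z - S.M.a i 0) = S.M.a i (S.act g z) - S.M.a i 0 := fun z => by
      rw [map_sub, S.equiv g hgd, S.apply_zero_fixed hgd]
    rw [← e (S.act g y), ← e y, ← map_mul, ← map_mul, ← map_mul]
    exact htr _ (fun τ hτ => by rw [map_mul, hbfix τ hτ, hfixδ i τ hτ]) (hvb _ (hsmall i))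
  have hUφ := hBd.map_apply_le hζ φ
  have hchi : ∀ x, φ x = 1 → chi ζ φ x = -1 := fun x hx => by
    rw [chi, hx, hζ1, ZMod.val_one, pow_one]
  have hπ0 := Λ.π_ne_zero
  have e : U φ = Λ.π⁻¹ - (Λ.π⁻¹ + g Λ.π⁻¹ + g (g Λ.π⁻¹)) := by
    simp only [hU, Pi.add_apply, Pi.smul_apply, Pi.sub_apply, smul_eq_mul, hchi _ hφ1, hchi _ hφ2]
    rw [show chi ζ φ y = 1 by rw [chi, hφy, ZMod.val_zero, pow_zero],
      show chi ζ φ 0 = 1 by rw [chi, map_zero, ZMod.val_zero, pow_zero]]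
    have h2 : Λ.π⁻¹ = 2 * b := by rw [hb, mul_inv, ← mul_assoc, mul_inv_cancel₀ two_ne_zero, one_mul]
    rw [h2, map_mul, map_ofNat, map_mul, map_ofNat]
    ring
  have hinv : v (Λ.π⁻¹) ≤ (v Λ.π ^ 2)⁻¹ := by
    rw [map_inv₀, inv_le_inv₀ Λ.π_pos (pow_pos Λ.π_pos _)]
    exact pow_le_of_le_one zero_le Λ.π_lt_one.le two_ne_zero
  have hgt : 1 < v Λ.π⁻¹ := by rw [map_inv₀]; exact (one_lt_inv₀ Λ.π_pos).mpr Λ.π_lt_one
  have htr1 := htr Λ.π⁻¹ (fun τ hτ => by rw [map_inv₀, Λ.fixed τ hτ]) hinv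
  rw [e, A.valuation.map_sub_eq_of_lt_left (lt_of_le_of_lt htr1 hgt)] at hUφ
  exact absurd hUφ (not_le.mpr hgt)

end Sys

end FA.LocalDef
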