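import Fermat.Agent.LocalDef.FlatBasics
import Fermat.Agent.LocalDef.TwoWild

/-!
# A level two representation in residue characteristic two

The image of inertia is cyclic of order three, generated by `!![0, 1; 1, 1]`, and some Frobenius
element goes to `!![0, 1; 1, 0]`.
-/

set_option autoImplicit false
set_option linter.unusedSectionVars false

noncomputable section

open Matrix FA.Local
open scoped Pointwise

namespace FA.LocalDef

local notation "Qb" => AlgebraicClosure ℚ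
local notation "GQ" => AlgebraicClosure ℚ ≃ₐ[ℚ] AlgebraicClosure ℚ
local notation "M2" k => Matrix (Fin 2) (Fin 2) k

variable {A : ValuationSubring Qb} {k : Type} [Field k] [CharP k 2]

/-- A representation over `F₂` with coefficients extended to `k`. -/
def repTwo (k : Type) [Field k] [CharP k 2] (r0 : GQ →* M2 (ZMod 2)) : GQ →* M2 k :=
  (ZMod.castHom (dvd_refl 2) k).mapMatrix.toMonoidHom.comp r0

lemma repTwo_apply (r0 : GQ →* M2 (ZMod 2)) (σ : GQ) :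
    repTwo k r0 σ = (r0 σ).map (ZMod.castHom (dvd_refl 2) k) := rfl

lemma repTwo_eq_iff (r0 : GQ →* M2 (ZMod 2)) (σ τ : GQ) :
    repTwo k r0 σ = repTwo k r0 τ ↔ r0 σ = r0 τ :=
  (Matrix.map_injective (ZMod.castHom (dvd_refl 2) k).injective).eq_iff

lemma repTwo_eq_one_iff (r0 : GQ →* M2 (ZMod 2)) (σ : GQ) : repTwo k r0 σ = 1 ↔ r0 σ = 1 := by
  rw [← map_one (repTwo k r0), repTwo_eq_iff, map_one]

section Finite

lemma two_cases_one : ∀ a b c d : ZMod 2, a * d - b * c ≠ 0 →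
    (!![a, b; c, d] = 1 ∨ !![a, b; c, d] * !![a, b; c, d] * !![a, b; c, d] = 1 ∨
      (!![a, b; c, d] * (!![0, 1; 1, 1] * !![a, b; c, d] * !![1, 1; 1, 0]) ≠ 1 ∧
        !![a, b; c, d] * (!![0, 1; 1, 1] * !![a, b; c, d] * !![1, 1; 1, 0]) *
          (!![a, b; c, d] * (!![0, 1; 1, 1] * !![a, b; c, d] * !![1, 1; 1, 0])) *
          (!![a, b; c, d] * (!![0, 1; 1, 1] * !![a, b; c, d] * !![1, 1; 1, 0])) = 1)) := by
  decide

lemma two_cases_trace : ∀ a b c d : ZMod 2, a * d - b * c ≠ 0 → a + d = 1 →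
    !![a, b; c, d] = !![0, 1; 1, 1] ∨ !![a, b; c, d] = !![1, 1; 1, 0] := by decide

lemma two_cases_comm : ∀ a b c d : ZMod 2, a * d - b * c ≠ 0 →
    !![a, b; c, d] * !![0, 1; 1, 1] = !![0, 1; 1, 1] * !![a, b; c, d] →
    !![a, b; c, d] = 1 ∨ !![a, b; c, d] = !![0, 1; 1, 1] ∨ !![a, b; c, d] = !![1, 1; 1, 0] := by
  decide

lemma two_cases_semi : ∀ a b c d : ZMod 2, a * d - b * c ≠ 0 →
    !![a, b; c, d] * !![0, 1; 1, 1] = !![1, 1; 1, 0] * !![a, b; c, d] →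
    !![a, b; c, d] = !![0, 1; 1, 0] ∨ !![a, b; c, d] * !![0, 1; 1, 1] = !![0, 1; 1, 0] ∨
      !![a, b; c, d] * (!![0, 1; 1, 1] * !![0, 1; 1, 1]) = !![0, 1; 1, 0] := by decide

lemma two_cases {x : M2 (ZMod 2)} (hx : x.det ≠ 0) :
    (x = 1 ∨ x * x * x = 1 ∨
      (x * (!![0, 1; 1, 1] * x * !![1, 1; 1, 0]) ≠ 1 ∧
        x * (!![0, 1; 1, 1] * x * !![1, 1; 1, 0]) * (x * (!![0, 1; 1, 1] * x * !![1, 1; 1, 0])) *
          (x * (!![0, 1; 1, 1] * x * !![1, 1; 1, 0])) = 1)) ∧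
    (x.trace = 1 → x = !![0, 1; 1, 1] ∨ x = !![1, 1; 1, 0]) ∧
    (x * !![0, 1; 1, 1] = !![0, 1; 1, 1] * x → x = 1 ∨ x = !![0, 1; 1, 1] ∨ x = !![1, 1; 1, 0]) ∧
    (x * !![0, 1; 1, 1] = !![1, 1; 1, 0] * x → x = !![0, 1; 1, 0] ∨
      x * !![0, 1; 1, 1] = !![0, 1; 1, 0] ∨
        x * (!![0, 1; 1, 1] * !![0, 1; 1, 1]) = !![0, 1; 1, 0]) := by
  rw [det_fin_two] at hx
  rw [trace_fin_two]
  have e := Matrix.eta_fin_two x
  refine ⟨?_, fun h => ?_, fun h => ?_, fun h => ?_⟩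
  · have := two_cases_one _ _ _ _ hx
    rwa [← e] at this
  · have := two_cases_trace _ _ _ _ hx h
    rwa [← e] at this
  · have := two_cases_comm (x 0 0) (x 0 1) (x 1 0) (x 1 1) hx
    rw [← e] at this
    exact this h
  · have := two_cases_semi (x 0 0) (x 0 1) (x 1 0) (x 1 1) hx
    rw [← e] at this
    exact this h

lemma tau_facts : (!![0, 1; 1, 1] : M2 (ZMod 2)) * !![1, 1; 1, 0] = 1 ∧
    (!![1, 1; 1, 0] : M2 (ZMod 2)) * !![1, 1; 1, 0] = !![0, 1; 1, 1] ∧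
    (!![0, 1; 1, 1] : M2 (ZMod 2)) ^ 2 = !![1, 1; 1, 0] ∧
    (!![0, 1; 1, 1] : M2 (ZMod 2)) ^ 3 = 1 ∧ (!![0, 1; 1, 1] : M2 (ZMod 2)) ≠ 1 := by decide

end Finite

lemma isFrobeniusAt_mul_inertia {F g : GQ} (hF : A.IsFrobeniusAt F 2)
    (hg : g ∈ A.inertiaSubgroupIn ℚ) : A.IsFrobeniusAt (F * g) 2 :=
  ⟨mul_mem hF.mem_decompositionSubgroup (inertia_le_decomposition hg), fun x => by
    rw [show (⟨F * g, mul_mem hF.mem_decompositionSubgroup (inertia_le_decomposition hg)⟩ :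
        A.decompositionSubgroup ℚ) = ⟨F, hF.mem_decompositionSubgroup⟩ *
          ⟨g, inertia_le_decomposition hg⟩ from rfl, mul_smul, smul_inertia_res hg]
    exact hF.smul_residue_eq x⟩

/-- The data of the level two type at `2`. -/
structure TwoData (A : ValuationSubring Qb) (r0 : GQ →* M2 (ZMod 2)) where
  /-- the layer of the kernel -/
  Λr : Layer A 2
  hN : ∀ τ, τ ∈ Λr.N ↔ τ ∈ A.inertiaSubgroupIn ℚ ∧ r0 τ = 1
  hD : Λr.D = 3
  hfil : Λr.fil 1 ≤ Λr.N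
  hnorm : ∀ g ∈ A.decompositionSubgroup ℚ, Λr.Normalizes g
  /-- a generator of inertia -/
  g : GQ
  hg : g ∈ A.inertiaSubgroupIn ℚ
  hgT : r0 g = !![0, 1; 1, 1]
  hgen : ∀ σ ∈ A.inertiaSubgroupIn ℚ, ∃ j : ℕ, (g ^ j)⁻¹ * σ ∈ Λr.N
  hord : ∀ n : ℕ, Λr.chi0 g ^ n = 1 → 3 ∣ n
  /-- a Frobenius element -/
  F : GQ
  hF : A.IsFrobeniusAt F 2
  hFJ : r0 F = !![0, 1; 1, 0]

variable [Fintype k]

/-- Level two flat representations have the type above. -/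
theorem exists_twoData (hA : A.LiesOverPrime 2) {r0 : GQ →* M2 (ZMod 2)}
    (hss : ∃ g ∈ A.inertiaSubgroupIn ℚ, (r0 g).trace = 1) (hflat : IsFlatRes A (repTwo k r0)) :
    Nonempty (TwoData A r0) := by
  classical
  have : Fact (Nat.Prime 2) := ⟨Nat.prime_two⟩
  let _ : Algebra (ZMod 2) k := ZMod.algebra k 2
  obtain ⟨S, hS⟩ := exists_sys hflat fun σ _ x y => mulVec_add _ x y
  obtain ⟨Λr, hΛ, -⟩ := S.exists_kerLayer hA
  have hN : ∀ τ, τ ∈ Λr.N ↔ τ ∈ A.inertiaSubgroupIn ℚ ∧ r0 τ = 1 := fun τ => by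
    rw [hΛ, S.mem_ker, ← repTwo_eq_one_iff (k := k), hS]
    refine and_congr_right fun _ => ⟨fun h => Matrix.ext_of_mulVec_single fun j => ?_, fun h x => ?_⟩
    · rw [one_mulVec]; exact h _
    · show repTwo k r0 τ *ᵥ x = x
      rw [h, one_mulVec]
  have hnorm : ∀ g ∈ A.decompositionSubgroup ℚ, Λr.Normalizes g := fun g hg =>
    S.normalizes_ker hA Λr hΛ hg
  have hdet : ∀ σ, (r0 σ).det ≠ 0 := fun σ h0 => by
    have h1 : (r0 σ * r0 σ⁻¹).det = 1 := by rw [← map_mul, mul_inv_cancel, map_one, det_one]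
    rw [det_mul, h0, zero_mul] at h1
    exact zero_ne_one h1
  -- a generator with the chosen image
  obtain ⟨g₁, hg₁, htr⟩ := hss
  obtain ⟨g, hg, hgT⟩ : ∃ g ∈ A.inertiaSubgroupIn ℚ, r0 g = !![0, 1; 1, 1] := by
    rcases (two_cases (hdet g₁)).2.1 htr with h | h
    · exact ⟨g₁, hg₁, h⟩
    · exact ⟨g₁ * g₁, mul_mem hg₁ hg₁, by rw [map_mul, h, tau_facts.2.1]⟩
  have hginv : r0 g⁻¹ = !![1, 1; 1, 0] := by
    have h1 : r0 g⁻¹ * r0 g = 1 := by rw [← map_mul, inv_mul_cancel, map_one]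
    calc r0 g⁻¹ = r0 g⁻¹ * (!![0, 1; 1, 1] * !![1, 1; 1, 0]) := by
          rw [tau_facts.1, mul_one]
      _ = _ := by rw [← mul_assoc, ← hgT, h1, one_mul]
  -- wild inertia acts trivially
  have hpow : ∀ σ ∈ Λr.fil 1, r0 σ * r0 σ * r0 σ = 1 → r0 σ = 1 := fun σ hσ h3 => by
    obtain ⟨T, hT⟩ := Λr.exists_pow_mem hσ
    have h2 : r0 σ ^ 2 ^ T = 1 := by rw [← map_pow]; exact ((hN _).mp hT).2
    have h3' : r0 σ ^ 3 = 1 := by rw [pow_succ, pow_two, h3]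
    have := (pow_gcd_eq_one (a := r0 σ) (m := 2 ^ T) (n := 3)).mpr ⟨h2, h3'⟩
    rwa [Nat.Coprime.gcd_eq_one (Nat.Coprime.pow_left T (by decide)), pow_one] at this
  have hfil : Λr.fil 1 ≤ Λr.N := fun σ hσ => by
    refine (hN σ).mpr ⟨hσ.1, ?_⟩
    rcases (two_cases (hdet σ)).1 with h | h | ⟨h, h'⟩
    · exact h
    · exact hpow σ hσ h
    · have hm : σ * (g * σ * g⁻¹) ∈ Λr.fil 1 :=
        mul_mem hσ (Λr.conj_mem_fil (inertia_le_decomposition hg) (Λr.inertia_normalizes hg) hσ)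
      have e : r0 (σ * (g * σ * g⁻¹)) = r0 σ * (!![0, 1; 1, 1] * r0 σ * !![1, 1; 1, 0]) := by
        rw [map_mul, map_mul, map_mul, hgT, hginv]
      exact absurd (e ▸ hpow _ hm (by rw [e]; exact h')) h
  have hchi : ∀ σ ∈ A.inertiaSubgroupIn ℚ, r0 σ = 1 ↔ Λr.chi0 σ = 1 := fun σ hσ =>
    ⟨fun h => Layer.chi0_eq_one_of_mem_N ((hN σ).mpr ⟨hσ, h⟩),
      fun h => ((hN σ).mp (hfil ((Λr.chi0_eq_one_iff hσ).mp h))).2⟩
  have himg : ∀ σ ∈ A.inertiaSubgroupIn ℚ, ∃ j : ℕ, r0 σ = r0 g ^ j := fun σ hσ => by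
    have hcomm : r0 σ * r0 g = r0 g * r0 σ := by
      have h1 : r0 ((g * σ)⁻¹ * (σ * g)) = 1 :=
        (hchi _ (mul_mem (inv_mem (mul_mem hg hσ)) (mul_mem hσ hg))).mpr (by
          rw [Λr.chi0_mul (inv_mem (mul_mem hg hσ)) (mul_mem hσ hg), Λr.chi0_mul hσ hg,
            mul_comm (Λr.chi0 σ), ← Λr.chi0_mul hg hσ,
            ← Λr.chi0_mul (inv_mem (mul_mem hg hσ)) (mul_mem hg hσ), inv_mul_cancel, Layer.chi0_one])
      calc r0 σ * r0 g = r0 (g * σ) * r0 ((g * σ)⁻¹ * (σ * g)) := by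
            rw [← map_mul, ← map_mul, mul_inv_cancel_left]
        _ = _ := by rw [h1, mul_one, map_mul]
    rw [hgT] at hcomm ⊢
    rcases (two_cases (hdet σ)).2.2.1 hcomm with h | h | h
    · exact ⟨0, by rw [h, pow_zero]⟩
    · exact ⟨1, by rw [h, pow_one]⟩
    · exact ⟨2, by rw [h, tau_facts.2.2.1]⟩
  have hgen : ∀ σ ∈ A.inertiaSubgroupIn ℚ, ∃ j : ℕ, (g ^ j)⁻¹ * σ ∈ Λr.N := fun σ hσ => by
    obtain ⟨j, hj⟩ := himg σ hσ
    refine ⟨j, (hN _).mpr ⟨mul_mem (inv_mem (pow_mem hg j)) hσ, ?_⟩⟩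
    rw [map_mul, hj, ← map_pow, ← map_mul, inv_mul_cancel, map_one]
  have hg3 : r0 g ^ 3 = 1 := by rw [hgT]; exact tau_facts.2.2.2.1
  have hg1 : r0 g ≠ 1 := by rw [hgT]; exact tau_facts.2.2.2.2
  have hord : ∀ n : ℕ, Λr.chi0 g ^ n = 1 → 3 ∣ n := fun n hn => by
    rw [← Λr.chi0_pow hg, ← hchi _ (pow_mem hg n), map_pow, ← orderOf_dvd_iff_pow_eq_one,
      orderOf_eq_prime hg3 hg1] at hn
    exact hn
  have hD : Λr.D = 3 := by
    let f : A.inertiaSubgroupIn ℚ →* (M2 (ZMod 2))ˣ :=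
      (MonoidHom.toHomUnits r0).comp (A.inertiaSubgroupIn ℚ).subtype
    have hker : Λr.N.subgroupOf (A.inertiaSubgroupIn ℚ) = f.ker := by
      ext σ
      rw [Subgroup.mem_subgroupOf, hN, MonoidHom.mem_ker, Units.ext_iff]
      exact ⟨fun h => h.2, fun h => ⟨σ.2, h⟩⟩
    have hrange : f.range = Subgroup.zpowers (f ⟨g, hg⟩) := by
      refine le_antisymm ?_ ((Subgroup.zpowers_le).mpr ⟨_, rfl⟩)
      rintro _ ⟨σ, rfl⟩
      obtain ⟨j, hj⟩ := himg σ σ.2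
      refine ⟨(j : ℤ), ?_⟩
      show f ⟨g, hg⟩ ^ (j : ℤ) = f σ
      rw [zpow_natCast]
      exact Units.ext (by rw [Units.val_pow_eq_pow_val]; exact hj.symm)
    have hord3 : orderOf (f ⟨g, hg⟩) = 3 := orderOf_eq_prime
      (Units.ext (by rw [Units.val_pow_eq_pow_val]; exact hg3)) fun h => hg1 (congrArg Units.val h)
    rw [← Λr.D_eq, Subgroup.relIndex, hker, Subgroup.index_ker, hrange, Nat.card_zpowers, hord3]
  -- Frobenius
  obtain ⟨F₀, hF₀⟩ := FA.Deform.exists_isFrobeniusAt Nat.prime_two hA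
  have hF₀d := hF₀.mem_decompositionSubgroup
  have hconj : r0 F₀ * !![0, 1; 1, 1] = !![1, 1; 1, 0] * r0 F₀ := by
    have h := ((hN _).mp (hfil (Λr.conj_frob_mem hF₀ (hnorm F₀ hF₀d) hg))).2
    have h1 : r0 (F₀ * g * F₀⁻¹) = r0 (g ^ 2) := by
      rw [← mul_one (r0 (g ^ 2)), ← h, ← map_mul, mul_inv_cancel_left]
    have h2 : r0 (F₀ * g) = r0 (g ^ 2) * r0 F₀ := by
      rw [← h1, ← map_mul, inv_mul_cancel_right]
    rwa [map_mul, map_pow, hgT,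
      tau_facts.2.2.1] at h2
  obtain ⟨F, hF, hFJ⟩ : ∃ F, A.IsFrobeniusAt F 2 ∧ r0 F = !![0, 1; 1, 0] := by
    rcases (two_cases (hdet F₀)).2.2.2 hconj with h | h | h
    · exact ⟨F₀, hF₀, h⟩
    · exact ⟨F₀ * g, isFrobeniusAt_mul_inertia hF₀ hg, by rw [map_mul, hgT, h]⟩
    · exact ⟨F₀ * (g * g), isFrobeniusAt_mul_inertia hF₀ (mul_mem hg hg), by
        rw [map_mul, map_mul, hgT, h]⟩
  exact ⟨⟨Λr, hN, hD, hfil, hnorm, g, hg, hgT, hgen, hord, F, hF, hFJ⟩⟩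

end FA.LocalDef
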